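import Mathlib
import Fermat.Agent.Q.Val
import Fermat.Agent.Q.NormFormula

/-!
# Products of twists and divisibility by `p`
-/

set_option autoImplicit false

noncomputable section

namespace Fermat.Agent.P

open ModularCurve HahnSeries Fermat.Agent.Igusa Fermat.Agent.Q

section Orbit

variable {p : ℕ} [hp : Fact p.Prime] {R : Type*} [CommRing R]

/-- translation of subsets of `ZMod p` -/
def tr (c : ZMod p) (S : Finset (ZMod p)) : Finset (ZMod p) := S.map (addRightEmbedding c)

theorem mem_tr {c : ZMod p} {S : Finset (ZMod p)} {x : ZMod p} : x ∈ tr c S ↔ x - c ∈ S := by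
  rw [tr, Finset.mem_map]
  constructor
  · rintro ⟨a, ha, rfl⟩
    simpa using ha
  · intro h
    exact ⟨x - c, h, by simp⟩

theorem tr_tr (c d : ZMod p) (S : Finset (ZMod p)) : tr c (tr d S) = tr (d + c) S := by
  ext x
  rw [mem_tr, mem_tr, mem_tr]
  congr! 1
  ring

theorem tr_zero (S : Finset (ZMod p)) : tr 0 S = S := by
  ext x
  rw [mem_tr, sub_zero]

theorem card_tr (c : ZMod p) (S : Finset (ZMod p)) : (tr c S).card = S.card := Finset.card_map _

theorem sum_tr (c : ZMod p) (S : Finset (ZMod p)) :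
    ∑ b ∈ tr c S, b = ∑ b ∈ S, b + S.card * c := by
  rw [tr, Finset.sum_map]
  simp [Finset.sum_add_distrib]

theorem prod_tr {M : Type*} [CommMonoid M] (c : ZMod p) (S : Finset (ZMod p)) (f : ZMod p → M) :
    ∏ b ∈ tr c S, f b = ∏ b ∈ S, f (b + c) := by
  rw [tr, Finset.prod_map]
  rfl

/-- subsets of cardinality prime to `p` -/
def good (p : ℕ) [Fact p.Prime] : Finset (Finset (ZMod p)) :=
  Finset.univ.filter fun S => (S.card : ZMod p) ≠ 0

/-- normalised subsets -/
def good0 (p : ℕ) [Fact p.Prime] : Finset (Finset (ZMod p)) :=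
  (good p).filter fun S => ∑ b ∈ S, b = 0

theorem mem_good {S : Finset (ZMod p)} : S ∈ good p ↔ (S.card : ZMod p) ≠ 0 := by
  simp [good]

theorem mem_good0 {S : Finset (ZMod p)} :
    S ∈ good0 p ↔ (S.card : ZMod p) ≠ 0 ∧ ∑ b ∈ S, b = 0 := by
  simp [good0, mem_good]

theorem sum_good (g : Finset (ZMod p) → R) :
    ∑ S ∈ good p, g S = ∑ S ∈ good0 p, ∑ c : ZMod p, g (tr c S) := by
  rw [← Finset.sum_product']
  symm
  refine Finset.sum_bij' (fun x _ => tr x.2 x.1)
    (fun S _ => (tr (-((∑ b ∈ S, b) * (S.card : ZMod p)⁻¹)) S,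
      (∑ b ∈ S, b) * (S.card : ZMod p)⁻¹)) ?_ ?_ ?_ ?_ ?_
  · rintro ⟨S, c⟩ h
    rw [Finset.mem_product, mem_good0] at h
    rw [mem_good, card_tr]
    exact h.1.1
  · intro S h
    rw [mem_good] at h
    rw [Finset.mem_product, mem_good0, card_tr, sum_tr]
    refine ⟨⟨h, ?_⟩, Finset.mem_univ _⟩
    field_simp
    ring
  · rintro ⟨S, c⟩ h
    rw [Finset.mem_product, mem_good0] at h
    obtain ⟨⟨h1, h2⟩, -⟩ := h
    simp only [sum_tr, card_tr, h2, zero_add]
    have h3 : (S.card : ZMod p) * c * (S.card : ZMod p)⁻¹ = c := by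
      field_simp
    rw [h3, tr_tr, add_neg_cancel, tr_zero]
  · intro S h
    simp only [tr_tr, neg_add_cancel, tr_zero]
  · intro x _
    rfl

theorem not_mem_good {S : Finset (ZMod p)} (h : S ∉ good p) : S = ∅ ∨ S = Finset.univ := by
  rw [mem_good, not_not, ZMod.natCast_eq_zero_iff] at h
  have h1 : S.card ≤ p := by
    have := Finset.card_le_univ S
    rwa [ZMod.card] at this
  rcases Nat.eq_zero_or_pos S.card with h2 | h2
  · left
    exact Finset.card_eq_zero.mp h2
  · right
    have h3 := Nat.le_of_dvd h2 h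
    apply (Finset.card_eq_iff_eq_univ S).mp
    rw [ZMod.card]
    omega

theorem prod_one_add_eq (a : ZMod p → R) :
    ∏ b : ZMod p, (1 + a b) = 1 + ∏ b : ZMod p, a b +
      ∑ S ∈ good0 p, ∑ c : ZMod p, ∏ b ∈ S, a (b + c) := by
  classical
  have h1 : ∏ b : ZMod p, (1 + a b) = ∑ S ∈ (Finset.univ : Finset (ZMod p)).powerset,
      ∏ b ∈ S, a b := Finset.prod_one_add _
  have h2 : (Finset.univ : Finset (ZMod p)).powerset = Finset.univ := by
    ext S; simp
  rw [h1, h2]
  have h3 : (Finset.univ : Finset (Finset (ZMod p))) = good p ∪ {∅, Finset.univ} := by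
    ext S
    simp only [Finset.mem_univ, Finset.mem_union, Finset.mem_insert, Finset.mem_singleton,
      true_iff]
    by_cases h : S ∈ good p
    · exact Or.inl h
    · exact Or.inr (not_mem_good h)
  have h4 : Disjoint (good p) {∅, Finset.univ} := by
    rw [Finset.disjoint_left]
    intro S hS h
    rw [mem_good] at hS
    apply hS
    rw [Finset.mem_insert, Finset.mem_singleton] at h
    rcases h with rfl | rfl
    · simp
    · rw [Finset.card_univ, ZMod.card]
      simp
  have h5 : (∅ : Finset (ZMod p)) ≠ Finset.univ := by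
    intro h
    have := Finset.mem_univ (0 : ZMod p)
    rw [← h] at this
    simp at this
  rw [h3, Finset.sum_union h4, Finset.sum_pair h5, sum_good]
  simp only [Finset.prod_empty, prod_tr]
  ring

end Orbit

end Fermat.Agent.P
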