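import Mathlib
import Fermat.Agent.H01.P.Orbit

/-!
# The `U` operator and the derivation `q d/dq` on Laurent series
-/

set_option autoImplicit false

noncomputable section

namespace Fermat.Agent.P

open ModularCurve Fermat.Agent.Igusa Fermat.Agent.Q

section UOp

variable {R : Type*} [CommRing R] (p : ℕ) [NeZero p]

/-- the operator `∑ a_n q^n ↦ ∑ a_{pn} q^n` -/
def uOp (x : LaurentSeries R) : LaurentSeries R :=
  HahnSeries.ofSuppBddBelow (fun n => x.coeff (p * n)) (by
    have hp : (0 : ℤ) < p := by exact_mod_cast Nat.pos_of_ne_zero (NeZero.ne p)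
    refine ⟨x.order ⊓ 0, fun n hn => ?_⟩
    by_contra hlt
    rw [not_le] at hlt
    apply hn
    change x.coeff (p * n) = 0
    apply HahnSeries.coeff_eq_zero_of_lt_order
    have h1 : n < x.order := lt_of_lt_of_le hlt inf_le_left
    have h2 : n < 0 := lt_of_lt_of_le hlt inf_le_right
    nlinarith)

@[simp] theorem uOp_coeff (x : LaurentSeries R) (n : ℤ) :
    (uOp p x).coeff n = x.coeff (p * n) := rfl

theorem uOp_add (x y : LaurentSeries R) : uOp p (x + y) = uOp p x + uOp p y := by
  ext n; simp

theorem uOp_sub (x y : LaurentSeries R) : uOp p (x - y) = uOp p x - uOp p y := by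
  ext n; simp

@[simp] theorem uOp_zero : uOp p (0 : LaurentSeries R) = 0 := by
  ext n; simp

theorem uOp_qExpand (x : LaurentSeries R) : uOp p (qExpand R p x) = x := by
  ext n
  rw [uOp_coeff, qExpand_coeff_mul]

theorem uOp_C_mul (c : R) (x : LaurentSeries R) :
    uOp p (HahnSeries.C c * x) = HahnSeries.C c * uOp p x := by
  ext n
  rw [uOp_coeff, HahnSeries.C_mul_eq_smul, HahnSeries.C_mul_eq_smul, HahnSeries.coeff_smul,
    HahnSeries.coeff_smul, uOp_coeff]

theorem uOp_sum {ι : Type*} (s : Finset ι) (f : ι → LaurentSeries R) :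
    uOp p (∑ i ∈ s, f i) = ∑ i ∈ s, uOp p (f i) := by
  classical
  induction s using Finset.induction_on with
  | empty => simp
  | insert a s ha ih => rw [Finset.sum_insert ha, Finset.sum_insert ha, uOp_add, ih]

end UOp

section Twist

theorem twist_mul_units {R : Type*} [CommRing R] (a b : Rˣ) (x : LaurentSeries R) :
    twist a (twist b x) = twist (a * b) x := by
  ext n
  rw [twist_coeff, twist_coeff, twist_coeff, mul_zpow, Units.val_mul]
  ring

theorem twist_C {R : Type*} [CommRing R] (a : Rˣ) (c : R) :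
    twist a (HahnSeries.C c : LaurentSeries R) = HahnSeries.C c := by
  rw [HahnSeries.C_apply, twist_single]
  simp

variable {K : Type*} [Field K] {p : ℕ} [hp : Fact p.Prime]

theorem zpow_val_add {ζ : Kˣ} (hζ : ζ ^ p = 1) (a b : ZMod p) :
    ζ ^ (a + b).val = ζ ^ a.val * ζ ^ b.val := by
  rw [← pow_add, ZMod.val_add, pow_mod_eq_of_pow_eq_one hζ]
where
  pow_mod_eq_of_pow_eq_one {n : ℕ} (h : ζ ^ p = 1) : ζ ^ (n % p) = ζ ^ n := by
    conv_rhs => rw [← Nat.mod_add_div n p]
    rw [pow_add, pow_mul, h, one_pow, mul_one]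

theorem twist_add {ζ : Kˣ} (hζ : ζ ^ p = 1) (a b : ZMod p) (x : LaurentSeries K) :
    twist (ζ ^ a.val) (twist (ζ ^ b.val) x) = twist (ζ ^ (a + b).val) x := by
  rw [twist_mul_units, zpow_val_add hζ]

/-- the sum of all twists -/
theorem sum_twist {ζ : Kˣ} (hζ : IsPrimitiveRoot ζ p) (x : LaurentSeries K) :
    ∑ c : ZMod p, twist (ζ ^ c.val) x = HahnSeries.C (p : K) * qExpand K p (uOp p x) := by
  have hζK : IsPrimitiveRoot (ζ : K) p := IsPrimitiveRoot.coe_units_iff.mpr hζ
  ext n
  rw [HahnSeries.coeff_sum, HahnSeries.C_mul_eq_smul, HahnSeries.coeff_smul, smul_eq_mul]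
  simp only [twist_coeff]
  rw [← Finset.mul_sum]
  have hsum : ∑ c : ZMod p, (((ζ ^ c.val) ^ n : Kˣ) : K) = if (p : ℤ) ∣ n then (p : K) else 0 := by
    have h1 : ∀ c : ZMod p, (((ζ ^ c.val) ^ n : Kˣ) : K) = (((ζ : K) ^ n)) ^ c.val := by
      intro c
      rw [← Units.val_zpow_eq_zpow_val, ← Units.val_pow_eq_pow_val]
      congr 1
      rw [← zpow_natCast, ← zpow_mul, ← zpow_natCast, ← zpow_mul, mul_comm]
    rw [Finset.sum_congr rfl fun c _ => h1 c]
    have h2 : ∑ c : ZMod p, ((ζ : K) ^ n) ^ c.val = ∑ i ∈ Finset.range p, ((ζ : K) ^ n) ^ i := by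
      refine Finset.sum_bij' (fun c _ => c.val) (fun i _ => (i : ZMod p)) ?_ ?_ ?_ ?_ ?_
      · intro c _
        exact Finset.mem_range.mpr (ZMod.val_lt c)
      · intro i _
        exact Finset.mem_univ _
      · intro c _
        exact ZMod.natCast_rightInverse c
      · intro i hi
        exact ZMod.val_cast_of_lt (Finset.mem_range.mp hi)
      · intro c _
        rfl
    rw [h2]
    split_ifs with hn
    · rw [(hζK.zpow_eq_one_iff_dvd n).mpr hn]
      simp
    · have h3 : (ζ : K) ^ n ≠ 1 := fun h => hn ((hζK.zpow_eq_one_iff_dvd n).mp h)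
      have h4 := geom_sum_mul ((ζ : K) ^ n) p
      have h5 : ((ζ : K) ^ n) ^ p = 1 := by
        rw [← zpow_natCast, ← zpow_mul, mul_comm, zpow_mul, zpow_natCast, hζK.pow_eq_one, one_zpow]
      rw [h5, sub_self] at h4
      exact (mul_eq_zero.mp h4).resolve_right (sub_ne_zero.mpr h3)
  rw [hsum]
  split_ifs with hn
  · obtain ⟨k, rfl⟩ := hn
    rw [qExpand_coeff_mul, uOp_coeff, mul_comm]
  · rw [qExpand_coeff_of_not_dvd p _ hn, mul_zero, mul_zero]

end Twist

section Theta

variable {R : Type*} [CommRing R]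

/-- the derivation `q d/dq` -/
def thetaFun (x : LaurentSeries R) : LaurentSeries R where
  coeff := fun n => (n : R) * x.coeff n
  isPWO_support' := x.isPWO_support.mono fun n hn h => by
    apply hn
    change (n : R) * x.coeff n = 0
    rw [show x.coeff n = 0 from h, mul_zero]

@[simp] theorem thetaFun_coeff (x : LaurentSeries R) (n : ℤ) :
    (thetaFun x).coeff n = (n : R) * x.coeff n := rfl

theorem thetaFun_mul (x y : LaurentSeries R) :
    thetaFun (x * y) = x * thetaFun y + y * thetaFun x := by
  classical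
  ext n
  have hx : (thetaFun x).support ⊆ x.support := by
    intro m hm h
    apply hm
    rw [thetaFun_coeff, h, mul_zero]
  have hy : (thetaFun y).support ⊆ y.support := by
    intro m hm h
    apply hm
    rw [thetaFun_coeff, h, mul_zero]
  rw [mul_comm y (thetaFun x), thetaFun_coeff, HahnSeries.coeff_add, HahnSeries.coeff_mul,
    HahnSeries.coeff_mul_right' y.isPWO_support hy, HahnSeries.coeff_mul_left' x.isPWO_support hx,
    ← Finset.sum_add_distrib, Finset.mul_sum]
  refine Finset.sum_congr rfl fun ij hij => ?_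
  rw [Finset.mem_antidiagonal] at hij
  rw [thetaFun_coeff, thetaFun_coeff, ← hij.2.2]
  push_cast
  ring

/-- `q d/dq` as an additive map -/
def theta (R : Type*) [CommRing R] : LaurentSeries R →+ LaurentSeries R where
  toFun := thetaFun
  map_zero' := by
    ext n
    rw [thetaFun_coeff, HahnSeries.coeff_zero, mul_zero]
  map_add' := fun x y => by
    ext n
    rw [HahnSeries.coeff_add, thetaFun_coeff, thetaFun_coeff, thetaFun_coeff,
      HahnSeries.coeff_add, mul_add]

@[simp] theorem theta_coeff (x : LaurentSeries R) (n : ℤ) :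
    (theta R x).coeff n = (n : R) * x.coeff n := rfl

theorem theta_mul (x y : LaurentSeries R) :
    theta R (x * y) = x * theta R y + y * theta R x := thetaFun_mul x y

theorem theta_C (c : R) : theta R (HahnSeries.C c : LaurentSeries R) = 0 := by
  ext n
  rw [theta_coeff, HahnSeries.C_apply, HahnSeries.coeff_single]
  by_cases h : n = 0
  · simp [h]
  · simp [h]

theorem theta_C_mul (c : R) (x : LaurentSeries R) :
    theta R (HahnSeries.C c * x) = HahnSeries.C c * theta R x := by
  rw [theta_mul, theta_C, mul_zero, add_zero]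

theorem theta_pow (x : LaurentSeries R) (n : ℕ) :
    theta R (x ^ n) = (n : LaurentSeries R) * x ^ (n - 1) * theta R x := by
  induction n with
  | zero =>
    rw [pow_zero, Nat.cast_zero, zero_mul, zero_mul, ← map_one (HahnSeries.C : R →+* _), theta_C]
  | succ n ih =>
    rw [pow_succ, theta_mul, ih, Nat.add_sub_cancel]
    rcases Nat.eq_zero_or_pos n with rfl | hn
    · simp
    · obtain ⟨k, rfl⟩ : ∃ k, n = k + 1 := ⟨n - 1, by omega⟩
      rw [Nat.add_sub_cancel]
      push_cast
      ring

variable (p : ℕ) [NeZero p]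

theorem theta_qExpand (x : LaurentSeries R) :
    theta R (qExpand R p x) = HahnSeries.C (p : R) * qExpand R p (theta R x) := by
  ext n
  rw [theta_coeff, HahnSeries.C_mul_eq_smul, HahnSeries.coeff_smul, smul_eq_mul]
  by_cases hn : (p : ℤ) ∣ n
  · obtain ⟨k, rfl⟩ := hn
    rw [qExpand_coeff_mul, qExpand_coeff_mul, theta_coeff]
    push_cast
    ring
  · rw [qExpand_coeff_of_not_dvd p _ hn, qExpand_coeff_of_not_dvd p _ hn]
    ring

theorem uOp_theta (x : LaurentSeries R) :
    uOp p (theta R x) = HahnSeries.C (p : R) * theta R (uOp p x) := by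
  ext n
  rw [uOp_coeff, theta_coeff, HahnSeries.C_mul_eq_smul, HahnSeries.coeff_smul, smul_eq_mul,
    theta_coeff, uOp_coeff]
  push_cast
  ring

theorem twist_theta (a : Rˣ) (x : LaurentSeries R) :
    twist a (theta R x) = theta R (twist a x) := by
  ext n
  rw [twist_coeff, theta_coeff, theta_coeff, twist_coeff]
  ring

theorem coeffMap_theta {S : Type*} [CommRing S] (f : R →+* S) (x : LaurentSeries R) :
    coeffMap f (theta R x) = theta S (coeffMap f x) := by
  ext n
  rw [coeffMap_coeff, theta_coeff, theta_coeff, coeffMap_coeff, map_mul, map_intCast]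

end Theta

end Fermat.Agent.P
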