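import Mathlib
import Fermat.Agent.H01.P.UOp
import Fermat.Agent.Q.KInf

/-!
# The operators `U`, `q d/dq` and the products of twists on the Gauss valuation ring
-/

set_option autoImplicit false
set_option linter.unusedSectionVars false

noncomputable section

namespace Fermat.Agent.P

open ModularCurve Fermat.Agent.Igusa Fermat.Agent.Q

local notation "kk" => IsLocalRing.ResidueField

section General

variable {R : Type*} [CommRing R] (p : ℕ) [NeZero p]

theorem uOp_qExpand_mul (y z : LaurentSeries R) :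
    uOp p (qExpand R p y * z) = y * uOp p z := by
  have hp : (p : ℤ) ≠ 0 := by exact_mod_cast NeZero.ne p
  ext n
  rw [uOp_coeff, HahnSeries.coeff_mul, HahnSeries.coeff_mul]
  symm
  refine Finset.sum_bij' (fun ij _ => ((p : ℤ) * ij.1, (p : ℤ) * ij.2))
    (fun ij _ => (ij.1 / p, ij.2 / p)) ?_ ?_ ?_ ?_ ?_
  · rintro ⟨i, j⟩ h
    rw [Finset.mem_antidiagonal] at h ⊢
    obtain ⟨h1, h2, h3⟩ := h
    refine ⟨?_, ?_, ?_⟩
    · rw [HahnSeries.mem_support] at h1 ⊢
      rwa [qExpand_coeff_mul]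
    · exact h2
    · change (p : ℤ) * i + p * j = p * n
      rw [← mul_add]
      congr 1
  · rintro ⟨i, j⟩ h
    rw [Finset.mem_antidiagonal] at h ⊢
    obtain ⟨h1, h2, h3⟩ := h
    change i + j = p * n at h3
    have hi : (p : ℤ) ∣ i := by
      by_contra hcon
      rw [HahnSeries.mem_support] at h1
      exact h1 (qExpand_coeff_of_not_dvd p _ hcon)
    obtain ⟨i', rfl⟩ := hi
    have hj : (p : ℤ) ∣ j := ⟨n - i', by linear_combination h3⟩
    obtain ⟨j', rfl⟩ := hj
    simp only [Int.mul_ediv_cancel_left _ hp]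
    refine ⟨?_, ?_, ?_⟩
    · rw [HahnSeries.mem_support] at h1 ⊢
      change (qExpand R p y).coeff (p * i') ≠ 0 at h1
      rwa [qExpand_coeff_mul] at h1
    · exact h2
    · apply mul_left_cancel₀ hp
      change (p : ℤ) * (i' + j') = p * n
      linear_combination h3
  · rintro ⟨i, j⟩ _
    simp only [Int.mul_ediv_cancel_left _ hp]
  · rintro ⟨i, j⟩ h
    rw [Finset.mem_antidiagonal] at h
    obtain ⟨h1, h2, h3⟩ := h
    change i + j = p * n at h3
    have hi : (p : ℤ) ∣ i := by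
      by_contra hcon
      rw [HahnSeries.mem_support] at h1
      exact h1 (qExpand_coeff_of_not_dvd p _ hcon)
    obtain ⟨i', rfl⟩ := hi
    have hj : (p : ℤ) ∣ j := ⟨n - i', by linear_combination h3⟩
    obtain ⟨j', rfl⟩ := hj
    simp only [Int.mul_ediv_cancel_left _ hp]
  · rintro ⟨i, j⟩ _
    simp only [qExpand_coeff_mul, uOp_coeff]

theorem uOp_one : uOp p (1 : LaurentSeries R) = 1 := by
  have := uOp_qExpand p (1 : LaurentSeries R)
  rwa [map_one] at this

theorem uOp_pow_char [CharP R p] [hp : Fact p.Prime] [IsDomain R] {k : Type*} [Field k] [CharP k p]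
    (x : LaurentSeries k) : uOp p (x ^ p) = coeffMap (frobenius k p) x := by
  rw [pow_char p x, uOp_qExpand]

end General

variable {K : Type*} [Field K] {A : ValuationSubring K}

/-- roots of unity are units -/
theorem zpow_mem_of_pow_eq_one {p : ℕ} (hp : p ≠ 0) {a : Kˣ} (ha : a ^ p = 1) (n : ℤ) :
    ((a ^ n : Kˣ) : K) ∈ A := by
  apply H05.mem_of_isIntegral A
  refine ⟨Polynomial.X ^ p - 1, Polynomial.monic_X_pow_sub_C 1 hp, ?_⟩
  rw [Polynomial.eval₂_sub, Polynomial.eval₂_pow, Polynomial.eval₂_X, Polynomial.eval₂_one,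
    ← Units.val_pow_eq_pow_val, ← zpow_natCast, ← zpow_mul, mul_comm, zpow_mul, zpow_natCast, ha,
    one_zpow, Units.val_one, sub_self]

theorem twist_mem_intL {p : ℕ} (hp : p ≠ 0) {a : Kˣ} (ha : a ^ p = 1) {x : LaurentSeries K}
    (hx : x ∈ intL A) : twist a x ∈ intL A := by
  rw [mem_intL] at hx ⊢
  intro n
  rw [twist_coeff]
  exact mul_mem (hx n) (zpow_mem_of_pow_eq_one hp ha n)

theorem uOp_mem_intL (p : ℕ) [NeZero p] {x : LaurentSeries K} (hx : x ∈ intL A) :
    uOp p x ∈ intL A := by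
  rw [mem_intL] at hx ⊢
  exact fun n => hx _

theorem theta_mem_intL {x : LaurentSeries K} (hx : x ∈ intL A) :
    theta K x ∈ intL A := by
  rw [mem_intL] at hx ⊢
  intro n
  rw [theta_coeff]
  exact mul_mem (intCast_mem A n) (hx n)

theorem redL_uOp (p : ℕ) [NeZero p] (x : intL A) :
    redL A ⟨uOp p x, uOp_mem_intL p x.2⟩ = uOp p (redL A x) := by
  ext n
  rw [uOp_coeff, redL_coeff x (p * n)]
  exact redL_coeff_eq (x := ⟨uOp p x, uOp_mem_intL p x.2⟩) (a := ⟨_, mem_intL.mp x.2 (p * n)⟩) rfl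

theorem redL_theta (x : intL A) :
    redL A ⟨theta K x, theta_mem_intL x.2⟩ = theta (kk A) (redL A x) := by
  ext n
  rw [theta_coeff, redL_coeff x n, ← map_intCast (IsLocalRing.residue A), ← map_mul]
  exact redL_coeff_eq (x := ⟨theta K x, theta_mem_intL x.2⟩)
    (a := (n : A) * ⟨_, mem_intL.mp x.2 n⟩) rfl

theorem red_theta {z : LaurentSeries K} {u : LaurentSeries (kk A)} (hu : Red A z u) :
    Red A (theta K z) (theta (kk A) u) := by
  obtain ⟨P, Q, hQ, h1, h2⟩ := hu
  have hP := theta_mem_intL P.2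
  have hQ' := theta_mem_intL Q.2
  refine ⟨Q * ⟨_, hP⟩ - P * ⟨_, hQ'⟩, Q * Q, ?_, ?_, ?_⟩
  · rw [map_mul]
    exact mul_ne_zero hQ hQ
  · have h3 := theta_mul z (Q : LaurentSeries K)
    rw [h1] at h3
    change theta K z * ((Q : LaurentSeries K) * Q) = (Q : LaurentSeries K) * theta K P - P * theta K Q
    rw [h3, ← h1]
    ring
  · have h3 := theta_mul u (redL A Q)
    rw [h2] at h3
    rw [map_sub, map_mul, map_mul, map_mul, redL_theta, redL_theta, h3, ← h2]
    ring

section Prime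

variable {p : ℕ} [hp : Fact p.Prime] {ζ : Kˣ}

theorem pow_val_pow (hζ : ζ ^ p = 1) (n : ℕ) : (ζ ^ n) ^ p = 1 := by
  rw [← pow_mul, mul_comm, pow_mul, hζ, one_pow]

theorem residue_root_of_unity (hA : A.LiesOverPrime p) {a : Kˣ} (ha : a ^ p = 1) :
    ∃ h : (a : K) ∈ A, IsLocalRing.residue A ⟨a, h⟩ = 1 := by
  have := H05.charP_residueField hp.out hA
  have hmem : (a : K) ∈ A := by
    have := zpow_mem_of_pow_eq_one (A := A) hp.out.ne_zero ha 1
    rwa [zpow_one] at this
  refine ⟨hmem, ?_⟩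
  have h1 : (IsLocalRing.residue A ⟨a, hmem⟩) ^ p = 1 := by
    rw [← map_pow]
    have : (⟨(a : K), hmem⟩ : A) ^ p = 1 := Subtype.ext (by
      rw [SubmonoidClass.coe_pow]
      change (a : K) ^ p = 1
      rw [← Units.val_pow_eq_pow_val, ha, Units.val_one])
    rw [this, map_one]
  have h2 : (IsLocalRing.residue A ⟨a, hmem⟩ - 1) ^ p = 0 := by
    rw [sub_pow_expChar, h1, one_pow, sub_self]
  exact sub_eq_zero.mp (pow_eq_zero_iff hp.out.ne_zero |>.mp h2)

theorem red_twist_root (hA : A.LiesOverPrime p) {a : Kˣ} (ha : a ^ p = 1) {z : LaurentSeries K}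
    {u : LaurentSeries (kk A)} (hu : Red A z u) : Red A (twist a z) u := by
  obtain ⟨h1, h2⟩ := residue_root_of_unity hA ha
  obtain ⟨h3, _⟩ := residue_root_of_unity (a := a⁻¹) hA (by rw [inv_pow, ha, inv_one])
  exact hu.twist h1 h3 h2

/-- the product of all twists -/
def nT (ζ : Kˣ) (p : ℕ) [Fact p.Prime] (x : LaurentSeries K) : LaurentSeries K :=
  ∏ b : ZMod p, twist (ζ ^ b.val) x

theorem nT_mul (x y : LaurentSeries K) : nT ζ p (x * y) = nT ζ p x * nT ζ p y := by
  simp only [nT, map_mul, Finset.prod_mul_distrib]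

theorem nT_one : nT ζ p (1 : LaurentSeries K) = 1 := by
  simp [nT]

theorem nT_pow (x : LaurentSeries K) (n : ℕ) : nT ζ p (x ^ n) = nT ζ p x ^ n := by
  simp only [nT, map_pow, Finset.prod_pow]

theorem nT_C (c : K) : nT ζ p (HahnSeries.C c) = HahnSeries.C (c ^ p) := by
  simp only [nT, twist_C, Finset.prod_const, Finset.card_univ, ZMod.card, map_pow]

theorem twist_nT (hζ : ζ ^ p = 1) (c : ZMod p) (x : LaurentSeries K) :
    twist (ζ ^ c.val) (nT ζ p x) = nT ζ p x := by
  rw [nT, map_prod]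
  simp only [twist_add hζ]
  exact Fintype.prod_equiv (Equiv.addLeft c) _ _ fun b => rfl

theorem red_nT (hA : A.LiesOverPrime p) (hζ : ζ ^ p = 1) {z : LaurentSeries K}
    {u : LaurentSeries (kk A)} (hu : Red A z u) : Red A (nT ζ p z) (u ^ p) := by
  have h := Red.prod (A := A) Finset.univ (fun b (_ : b ∈ (Finset.univ : Finset (ZMod p))) =>
    red_twist_root hA (pow_val_pow hζ b.val) hu)
  rwa [Finset.prod_const, Finset.card_univ, ZMod.card] at h

variable [CharZero K]

theorem nT_eq_qExpand (hζ : IsPrimitiveRoot ζ p) (x : LaurentSeries K) :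
    nT ζ p x = qExpand K p (uOp p (nT ζ p x)) := by
  have h1 := sum_twist hζ (nT ζ p x)
  simp only [twist_nT hζ.pow_eq_one] at h1
  rw [Finset.sum_const, Finset.card_univ, ZMod.card, nsmul_eq_mul] at h1
  have hp0 : ((p : ℕ) : LaurentSeries K) = HahnSeries.C (p : K) := by
    rw [map_natCast]
  rw [hp0] at h1
  have hne : (HahnSeries.C (p : K) : LaurentSeries K) ≠ 0 := by
    rw [map_ne_zero]
    exact_mod_cast hp.out.ne_zero
  exact mul_left_cancel₀ hne h1

/-- `U` is compatible with reduction -/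
theorem red_uOp (hA : A.LiesOverPrime p) (hζ : IsPrimitiveRoot ζ p) {z : LaurentSeries K}
    {u : LaurentSeries (kk A)} (hu : Red A z u) : Red A (uOp p z) (uOp p u) := by
  have := H05.charP_residueField hp.out hA
  obtain ⟨P, Q, hQ, h1, h2⟩ := hu
  -- the cofactor
  have hQ0 : (Q : LaurentSeries K) ≠ 0 := coe_ne_zero_of_redL hQ
  have hNQ := red_nT hA hζ.pow_eq_one (Red.of_intL Q)
  have hNmem : nT ζ p (Q : LaurentSeries K) ∈ intL A :=
    prod_mem fun b _ => twist_mem_intL hp.out.ne_zero (pow_val_pow hζ.pow_eq_one _) Q.2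
  set S : LaurentSeries K := ∏ b ∈ (Finset.univ : Finset (ZMod p)).erase 0,
    twist (ζ ^ b.val) (Q : LaurentSeries K) with hS
  have hSmem : S ∈ intL A :=
    prod_mem fun b _ => twist_mem_intL hp.out.ne_zero (pow_val_pow hζ.pow_eq_one _) Q.2
  have hQS : (Q : LaurentSeries K) * S = nT ζ p (Q : LaurentSeries K) := by
    rw [nT, ← Finset.mul_prod_erase Finset.univ _ (Finset.mem_univ (0 : ZMod p)), hS]
    congr 1
    rw [ZMod.val_zero, pow_zero]
    ext n
    rw [twist_coeff]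
    simp
  set n : LaurentSeries K := uOp p (nT ζ p (Q : LaurentSeries K)) with hn
  have hnmem : n ∈ intL A := uOp_mem_intL p hNmem
  have hVn : qExpand K p n = nT ζ p (Q : LaurentSeries K) := (nT_eq_qExpand hζ _).symm
  have hred : redL A ⟨_, hNmem⟩ = redL A Q ^ p := (Red.of_intL ⟨_, hNmem⟩).unique hNQ
  have hredn : qExpand (kk A) p (redL A ⟨n, hnmem⟩) = redL A Q ^ p := by
    rw [← hred, ← redL_qExpand]
    congr 1
    exact Subtype.ext hVn
  refine ⟨⟨_, uOp_mem_intL p (mul_mem P.2 hSmem)⟩, ⟨n, hnmem⟩, ?_, ?_, ?_⟩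
  · intro h0
    rw [h0, map_zero] at hredn
    exact pow_ne_zero p hQ hredn.symm
  · change uOp p z * n = uOp p ((P : LaurentSeries K) * S)
    rw [← h1, mul_assoc, hQS, ← hVn, mul_comm z, uOp_qExpand_mul, mul_comm]
  · have h3 : redL A ⟨_, uOp_mem_intL p (mul_mem P.2 hSmem)⟩ =
        uOp p (redL A (P * ⟨S, hSmem⟩)) :=
      redL_uOp p (P * ⟨S, hSmem⟩)
    have h4 : redL A Q * redL A ⟨S, hSmem⟩ = qExpand (kk A) p (redL A ⟨n, hnmem⟩) := by
      rw [hredn, ← hred, ← map_mul]
      congr 1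
      exact Subtype.ext hQS
    rw [h3, map_mul, ← h2, mul_assoc, h4, mul_comm u, uOp_qExpand_mul, mul_comm]

/-- **The estimate for the product of twists.** -/
theorem nT_one_add (hA : A.LiesOverPrime p) (hζ : IsPrimitiveRoot ζ p) {ε : K} (hε : ε ∈ A)
    {h : LaurentSeries K} (hh : h ∈ VL A) :
    ∃ h' ∈ VL A, nT ζ p (1 + HahnSeries.C ε * h) =
      1 + HahnSeries.C (ε ^ p) * nT ζ p h + HahnSeries.C (p * ε) * h' := by
  obtain ⟨u, hu⟩ := hh
  have hmem : ∀ S : Finset (ZMod p), HahnSeries.C (ε ^ (S.card - 1)) *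
      qExpand K p (uOp p (∏ b ∈ S, twist (ζ ^ b.val) h)) ∈ VL A := by
    intro S
    refine mul_mem ⟨_, Red.C (pow_mem hε _)⟩ ?_
    have h1 := Red.prod (A := A) S (fun b _ =>
      red_twist_root hA (pow_val_pow hζ.pow_eq_one b.val) hu)
    exact ⟨_, (red_uOp hA hζ h1).qExpand p⟩
  refine ⟨∑ S ∈ good0 p, HahnSeries.C (ε ^ (S.card - 1)) *
      qExpand K p (uOp p (∏ b ∈ S, twist (ζ ^ b.val) h)), sum_mem fun S _ => hmem S, ?_⟩
  have h2 : nT ζ p (1 + HahnSeries.C ε * h) =
      ∏ b : ZMod p, (1 + HahnSeries.C ε * twist (ζ ^ b.val) h) := by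
    simp only [nT, map_add, map_mul, map_one, twist_C]
  rw [h2, prod_one_add_eq]
  have h3 : ∏ b : ZMod p, (HahnSeries.C ε * twist (ζ ^ b.val) h) =
      HahnSeries.C (ε ^ p) * nT ζ p h := by
    rw [Finset.prod_mul_distrib, Finset.prod_const, Finset.card_univ, ZMod.card, map_pow, nT]
  rw [h3, Finset.mul_sum]
  congr 1
  refine Finset.sum_congr rfl fun S hS => ?_
  have h4 : ∀ c : ZMod p, ∏ b ∈ S, (HahnSeries.C ε * twist (ζ ^ (b + c).val) h) =
      HahnSeries.C (ε ^ S.card) * twist (ζ ^ c.val) (∏ b ∈ S, twist (ζ ^ b.val) h) := by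
    intro c
    rw [Finset.prod_mul_distrib, Finset.prod_const, map_pow, map_prod]
    congr 1
    refine Finset.prod_congr rfl fun b _ => ?_
    rw [twist_add hζ.pow_eq_one, add_comm]
  rw [Finset.sum_congr rfl fun c _ => h4 c, ← Finset.mul_sum, sum_twist hζ]
  have h5 : 1 ≤ S.card := by
    rw [mem_good0] at hS
    rcases Nat.eq_zero_or_pos S.card with h | h
    · rw [h] at hS
      simp at hS
    · exact h
  have h6 : ε ^ S.card = ε * ε ^ (S.card - 1) := by
    rw [← pow_succ']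
    congr 1
    omega
  rw [h6]
  simp only [map_mul]
  ring

end Prime

end Fermat.Agent.P
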