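import Mathlib
import Fermat.Agent.H01.P.VLOps
import Fermat.Agent.Q.Attain

/-!
# Levels: congruences for the Gauss valuation, over a discretely valued field
-/

set_option autoImplicit false
set_option linter.unusedSectionVars false

noncomputable section

namespace Fermat.Agent.P

open ModularCurve Fermat.Agent.Igusa Fermat.Agent.Q

local notation "kk" => IsLocalRing.ResidueField

section Cg

variable {K : Type*} [Field K] (A : ValuationSubring K)

/-- `ε * VL` -/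
def cg (ε : K) : AddSubgroup (LaurentSeries K) where
  carrier := {z | ∃ h ∈ VL A, z = HahnSeries.C ε * h}
  zero_mem' := ⟨0, zero_mem _, by rw [mul_zero]⟩
  add_mem' := by
    rintro _ _ ⟨h, hh, rfl⟩ ⟨h', hh', rfl⟩
    exact ⟨h + h', add_mem hh hh', by ring⟩
  neg_mem' := by
    rintro _ ⟨h, hh, rfl⟩
    exact ⟨-h, neg_mem hh, by ring⟩

variable {A} {ε δ : K}

theorem mem_cg {z : LaurentSeries K} : z ∈ cg A ε ↔ ∃ h ∈ VL A, z = HahnSeries.C ε * h := Iff.rfl

theorem C_mem_VL {c : K} (hc : c ∈ A) : (HahnSeries.C c : LaurentSeries K) ∈ VL A :=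
  ⟨_, Red.C hc⟩

theorem natCast_mem_VL (n : ℕ) : (n : LaurentSeries K) ∈ VL A := natCast_mem _ n

theorem C_mul_mem_cg {h : LaurentSeries K} (hh : h ∈ VL A) : HahnSeries.C ε * h ∈ cg A ε :=
  ⟨h, hh, rfl⟩

theorem cg_mul_mem {z w : LaurentSeries K} (hz : z ∈ cg A ε) (hw : w ∈ VL A) :
    z * w ∈ cg A ε := by
  obtain ⟨h, hh, rfl⟩ := hz
  exact ⟨h * w, mul_mem hh hw, by ring⟩

theorem mul_cg_mem {z w : LaurentSeries K} (hz : z ∈ VL A) (hw : w ∈ cg A ε) :
    z * w ∈ cg A ε := by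
  rw [mul_comm]; exact cg_mul_mem hw hz

theorem cg_mul_cg {z w : LaurentSeries K} (hz : z ∈ cg A ε) (hw : w ∈ cg A δ) :
    z * w ∈ cg A (ε * δ) := by
  obtain ⟨h, hh, rfl⟩ := hz
  obtain ⟨h', hh', rfl⟩ := hw
  exact ⟨h * h', mul_mem hh hh', by rw [map_mul]; ring⟩

theorem cg_mono (h : ∃ a ∈ A, δ = ε * a) : cg A δ ≤ cg A ε := by
  obtain ⟨a, ha, rfl⟩ := h
  rintro _ ⟨h, hh, rfl⟩
  exact ⟨HahnSeries.C a * h, mul_mem (C_mem_VL ha) hh, by rw [map_mul]; ring⟩

theorem cg_pow_mono {π : K} (hπ : π ∈ A) {i j : ℕ} (h : i ≤ j) : cg A (π ^ j) ≤ cg A (π ^ i) :=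
  cg_mono ⟨π ^ (j - i), pow_mem hπ _, by rw [← pow_add]; congr 1; omega⟩

theorem cg_le_VL (hε : ε ∈ A) {z : LaurentSeries K} (hz : z ∈ cg A ε) : z ∈ VL A := by
  obtain ⟨h, hh, rfl⟩ := hz
  exact mul_mem (C_mem_VL hε) hh

theorem mem_cg_one {z : LaurentSeries K} : z ∈ cg A (1 : K) ↔ z ∈ VL A := by
  constructor
  · exact cg_le_VL (one_mem A)
  · intro h; exact ⟨z, h, by rw [map_one, one_mul]⟩

theorem red_zero_of_mem_cg (hε : ε ∈ A) (h0 : IsLocalRing.residue A ⟨ε, hε⟩ = 0)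
    {z : LaurentSeries K} (hz : z ∈ cg A ε) : Red A z 0 := by
  obtain ⟨h, ⟨u, hu⟩, rfl⟩ := hz
  have := (Red.C hε).mul hu
  rwa [h0, map_zero, zero_mul] at this

theorem cg_cancel (hε : ε ≠ 0) {z : LaurentSeries K} (h : HahnSeries.C ε * z ∈ cg A (ε * δ)) :
    z ∈ cg A δ := by
  obtain ⟨h, hh, he⟩ := h
  refine ⟨h, hh, ?_⟩
  have h1 : (HahnSeries.C ε : LaurentSeries K) ≠ 0 := (map_ne_zero _).mpr hε
  rw [map_mul, mul_assoc] at he
  exact mul_left_cancel₀ h1 he

/-- inverses of elements congruent to one -/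
theorem inv_sub_one_mem (hε : ε ∈ A) (h0 : IsLocalRing.residue A ⟨ε, hε⟩ = 0)
    {z : LaurentSeries K} (hz : z - 1 ∈ cg A ε) : z⁻¹ - 1 ∈ cg A ε ∧ z ≠ 0 ∧ z⁻¹ ∈ VL A := by
  have h1 : Red A z 1 := by
    have := (red_zero_of_mem_cg hε h0 hz).add Red.one
    rwa [sub_add_cancel, zero_add] at this
  have hz0 : z ≠ 0 := h1.ne_zero one_ne_zero
  have hinv : z⁻¹ ∈ VL A := ⟨_, h1.inv one_ne_zero⟩
  refine ⟨?_, hz0, hinv⟩
  have h2 : z⁻¹ - 1 = -(z⁻¹ * (z - 1)) := by field_simp; ring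
  rw [h2]
  exact neg_mem (mul_cg_mem hinv hz)

theorem mul_sub_one_mem (hε : ε ∈ A) {z w : LaurentSeries K}
    (hz : z - 1 ∈ cg A ε) (hw : w - 1 ∈ cg A ε) : z * w - 1 ∈ cg A ε := by
  have h1 : z * w - 1 = (z - 1) * (w - 1) + (z - 1) + (w - 1) := by ring
  rw [h1]
  exact add_mem (add_mem (cg_mul_mem hz (cg_le_VL hε hw)) hz) hw

theorem pow_sub_one_mem (hε : ε ∈ A) {z : LaurentSeries K}
    (hz : z - 1 ∈ cg A ε) (n : ℕ) : z ^ n - 1 ∈ cg A ε := by
  induction n with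
  | zero => rw [pow_zero, sub_self]; exact zero_mem _
  | succ n ih => rw [pow_succ]; exact mul_sub_one_mem hε ih hz

theorem C_mem_cg_iff (hε : ε ≠ 0) {c : K} :
    (HahnSeries.C c : LaurentSeries K) ∈ cg A ε ↔ c / ε ∈ A := by
  constructor
  · rintro ⟨h, ⟨u, hu⟩, he⟩
    have h1 : (HahnSeries.C ε : LaurentSeries K) ≠ 0 := (map_ne_zero _).mpr hε
    have h2 : HahnSeries.C (c / ε) * (1 : LaurentSeries K) = h := by
      rw [map_div₀, he, mul_one, mul_comm, mul_div_assoc, div_self h1, mul_one]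
    rw [← h2] at hu
    exact (hu.scale Red.one one_ne_zero).1
  · intro h
    exact ⟨HahnSeries.C (c / ε), C_mem_VL h, by rw [← map_mul, mul_div_cancel₀ _ hε]⟩

end Cg

section Unif

variable {K : Type*} [Field K]

/-- a uniformiser of a discrete valuation subring -/
structure Unif (A : ValuationSubring K) (π : K) : Prop where
  ne : π ≠ 0
  mem : π ∈ A
  res : IsLocalRing.residue A ⟨π, mem⟩ = 0
  gen : ∀ x : K, x ≠ 0 → ∃ n : ℤ, ∃ u : K, u ∈ A ∧ u⁻¹ ∈ A ∧ x = u * π ^ n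

variable {A : ValuationSubring K} {π : K}

theorem residue_ne_zero_of_unit {u : K} (hu : u ∈ A) (hu' : u⁻¹ ∈ A) (hu0 : u ≠ 0) :
    IsLocalRing.residue A ⟨u, hu⟩ ≠ 0 := by
  intro h
  have h1 : (⟨u, hu⟩ : A) * ⟨u⁻¹, hu'⟩ = 1 := Subtype.ext (mul_inv_cancel₀ hu0)
  have h2 := congrArg (IsLocalRing.residue A) h1
  rw [map_mul, h, zero_mul, map_one] at h2
  exact zero_ne_one h2

theorem inv_mem_of_residue_ne_zero {u : K} (hu : u ∈ A)
    (h : IsLocalRing.residue A ⟨u, hu⟩ ≠ 0) : u⁻¹ ∈ A ∧ u ≠ 0 := by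
  have h1 : IsUnit (⟨u, hu⟩ : A) := by
    by_contra hcon
    exact h ((IsLocalRing.residue_eq_zero_iff _).mpr ((IsLocalRing.mem_maximalIdeal _).mpr hcon))
  obtain ⟨v, hv⟩ := h1.exists_right_inv
  have h2 : u * (v : K) = 1 := congrArg Subtype.val hv
  have hu0 : u ≠ 0 := by
    rintro rfl
    rw [zero_mul] at h2
    exact zero_ne_one h2
  refine ⟨?_, hu0⟩
  have h3 : u⁻¹ = v := by
    rw [inv_eq_of_mul_eq_one_right h2]
  rw [h3]
  exact v.2

variable [CharZero K] [Algebra ℚ K] [Algebra.IsAlgebraic ℚ K] {p : ℕ}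

/-- In the field of bounded series, zero reduction means divisible by the uniformiser. -/
theorem Unif.mem_cg (hπ : Unif A π) (hp : p.Prime) (hA : A.LiesOverPrime p) {z : LaurentSeries K}
    (hz : z ∈ FL A) (h : Red A z 0) : z ∈ cg A π := by
  rcases eq_or_ne z 0 with rfl | h0
  · exact zero_mem _
  obtain ⟨c, hc, u, hu0, hu⟩ := exists_red hp hA hz h0
  obtain ⟨n, v, hv, hv', rfl⟩ := hπ.gen c hc
  have hv0 : v ≠ 0 := left_ne_zero_of_mul hc
  have hπn : π ^ n ≠ 0 := right_ne_zero_of_mul hc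
  -- `n < 0`
  have hn : n < 0 := by
    by_contra hn
    rw [not_lt] at hn
    obtain ⟨m, rfl⟩ := Int.eq_ofNat_of_zero_le hn
    have h1 : v * π ^ (m : ℤ) ∈ A := by
      rw [zpow_natCast]
      exact mul_mem hv (pow_mem hπ.mem m)
    have h2 := (Red.C h1).mul h
    rw [mul_zero] at h2
    exact hu0 (hu.unique h2)
  obtain ⟨m, rfl⟩ : ∃ m : ℕ, n = -((m : ℤ) + 1) := ⟨(-n - 1).toNat, by omega⟩
  have h3 : z = HahnSeries.C (π ^ (m + 1) * v⁻¹) * (HahnSeries.C (v * π ^ (-((m : ℤ) + 1))) * z) := by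
    rw [← mul_assoc, ← map_mul]
    have h4 : π ^ (m + 1) * v⁻¹ * (v * π ^ (-((m : ℤ) + 1))) = 1 := by
      have h5 : π ^ (-((m : ℤ) + 1)) = (π ^ (m + 1))⁻¹ := by
        rw [zpow_neg]
        congr 1
        exact_mod_cast zpow_natCast π (m + 1)
      rw [h5]
      have := hπ.ne
      field_simp
    rw [h4, map_one, one_mul]
  rw [h3]
  have h6 : cg A (π ^ (m + 1) * v⁻¹) ≤ cg A π :=
    cg_mono ⟨π ^ m * v⁻¹, mul_mem (pow_mem hπ.mem m) hv', by rw [pow_succ]; ring⟩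
  exact h6 (C_mul_mem_cg ⟨u, hu⟩)

theorem Unif.mem_cg_succ (hπ : Unif A π) (hp : p.Prime) (hA : A.LiesOverPrime p) {i : ℕ}
    {z h : LaurentSeries K} (hz : z ∈ FL A) (hzh : z = HahnSeries.C (π ^ i) * h) (h0 : Red A h 0) :
    z ∈ cg A (π ^ (i + 1)) := by
  have hne : (HahnSeries.C (π ^ i) : LaurentSeries K) ≠ 0 :=
    (map_ne_zero _).mpr (pow_ne_zero _ hπ.ne)
  have hh : h ∈ FL A := by
    have : h = HahnSeries.C (π ^ i)⁻¹ * z := by
      rw [hzh, map_inv₀]; field_simp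
    rw [this]
    exact mul_mem (C_mem_FL _) hz
  obtain ⟨h', hh', rfl⟩ := hπ.mem_cg hp hA hh h0
  exact ⟨h', hh', by rw [hzh, pow_succ, map_mul]; ring⟩

omit [CharZero K] [Algebra ℚ K] [Algebra.IsAlgebraic ℚ K] in
/-- the leading term is determined by the level -/
theorem Unif.red_zero_of_mem (hπ : Unif A π) {i : ℕ} {h : LaurentSeries K}
    (hz : HahnSeries.C (π ^ i) * h ∈ cg A (π ^ (i + 1))) : Red A h 0 := by
  rw [pow_succ] at hz
  exact red_zero_of_mem_cg hπ.mem hπ.res (cg_cancel (pow_ne_zero _ hπ.ne) hz)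

end Unif

/-! ### Powers -/

section Powers

variable {K : Type*} [Field K] {A : ValuationSubring K} {π : K} {p : ℕ} [hp : Fact p.Prime]

/-- the ramification index is `(p-1) e'` -/
def Ram (A : ValuationSubring K) (π : K) (p e' : ℕ) : Prop :=
  ∃ u : K, u ∈ A ∧ u⁻¹ ∈ A ∧ (p : K) = u * π ^ ((p - 1) * e')

theorem exists_add_pow_VL {a b : LaurentSeries K} (ha : a ∈ VL A) (hb : b ∈ VL A) :
    ∃ r ∈ VL A, (a + b) ^ p = a ^ p + b ^ p + HahnSeries.C (p : K) * a * b * r := by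
  obtain ⟨r, hr⟩ := exists_add_pow_prime_eq hp.out (⟨a, ha⟩ : VL A) ⟨b, hb⟩
  refine ⟨r, r.2, ?_⟩
  have := congrArg (fun z : VL A => (z : LaurentSeries K)) hr
  rw [map_natCast]
  exact this

theorem natCast_pow_mem_cg {e' : ℕ} (hr : Ram A π p e') {a : LaurentSeries K} (ha : a ∈ VL A) :
    HahnSeries.C (p : K) * a ∈ cg A (π ^ ((p - 1) * e')) := by
  obtain ⟨u, hu, -, he⟩ := hr
  refine ⟨HahnSeries.C u * a, mul_mem (C_mem_VL hu) ha, ?_⟩
  rw [he, map_mul]
  ring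

theorem natCast_pow_mul_mem_cg (hπ : π ∈ A) {e' : ℕ} (hr : Ram A π p e') {J i : ℕ}
    (h : i ≤ (p - 1) * e' + J) {a : LaurentSeries K} (ha : a ∈ VL A) :
    HahnSeries.C (p : K) * (HahnSeries.C (π ^ J) * a) ∈ cg A (π ^ i) := by
  apply cg_pow_mono hπ h
  rw [pow_add]
  have h1 := natCast_pow_mem_cg hr (one_mem (VL A))
  rw [mul_one] at h1
  exact cg_mul_cg h1 (C_mul_mem_cg ha)

theorem pw1 (hπ : π ∈ A) {e' : ℕ} (hr : Ram A π p e') {J : ℕ}
    {w : LaurentSeries K} (hw : w ∈ VL A) (k : ℕ) (hk : p ^ k * J < p * e') :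
    ∃ s ∈ VL A, (1 + HahnSeries.C (π ^ J) * w) ^ p ^ k =
      1 + HahnSeries.C (π ^ (p ^ k * J)) * (w ^ p ^ k + HahnSeries.C π * s) := by
  have hp2 := hp.out.two_le
  induction k with
  | zero =>
    exact ⟨0, zero_mem _, by simp⟩
  | succ k ih =>
    have hlt : p ^ k * J < e' := by
      have : p * (p ^ k * J) < p * e' := by
        rw [← mul_assoc, ← pow_succ']; exact hk
      exact lt_of_mul_lt_mul_left this (Nat.zero_le p)
    obtain ⟨s, hs, he⟩ := ih (lt_of_lt_of_le hlt (Nat.le_mul_of_pos_left _ hp.out.pos))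
    rw [pow_succ, pow_mul, he]
    set J' := p ^ k * J with hJ'
    set w' := w ^ p ^ k + HahnSeries.C π * s with hw'
    have hw'mem : w' ∈ VL A := add_mem (pow_mem hw _) (mul_mem (C_mem_VL hπ) hs)
    obtain ⟨r, hr1, hr2⟩ := exists_add_pow_VL (p := p) (one_mem (VL A))
      (mul_mem (C_mem_VL (pow_mem hπ J')) hw'mem)
    obtain ⟨r', hr1', hr2'⟩ := exists_add_pow_VL (p := p) (pow_mem hw (p ^ k))
      (mul_mem (C_mem_VL hπ) hs)
    -- the cross term
    have h1 : (p - 1) * e' + J' = (p ^ (k + 1) * J + 1) + ((p - 1) * (e' - J') - 1) := by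
      obtain ⟨p', rfl⟩ : ∃ p', p = p' + 1 := ⟨p - 1, by omega⟩
      obtain ⟨d, hd⟩ : ∃ d, e' = J' + 1 + d := ⟨e' - J' - 1, by omega⟩
      have h2 : (p' + 1) ^ (k + 1) * J = (p' + 1) * J' := by rw [hJ', pow_succ']; ring
      rw [h2, hd]
      have h3 : p' + 1 - 1 = p' := by omega
      have h4 : J' + 1 + d - J' = 1 + d := by omega
      rw [h3, h4]
      have h5 : 1 ≤ p' * (1 + d) := Nat.one_le_iff_ne_zero.mpr (by
        have : p' ≠ 0 := by omega
        positivity)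
      zify [h5]
      ring
    obtain ⟨x, hx, hxe⟩ : HahnSeries.C (p : K) * 1 * (HahnSeries.C (π ^ J') * w') * r ∈
        cg A (π ^ (p ^ (k + 1) * J + 1)) := by
      rw [mul_one, mul_assoc, mul_assoc]
      exact natCast_pow_mul_mem_cg hπ hr (by omega) (mul_mem hw'mem hr1)
    obtain ⟨y, hy, hye⟩ : HahnSeries.C (p : K) * w ^ p ^ k * (HahnSeries.C π * s) * r' ∈
        cg A π := by
      have : HahnSeries.C (p : K) * w ^ p ^ k * (HahnSeries.C π * s) * r' =
          HahnSeries.C π * (HahnSeries.C (p : K) * w ^ p ^ k * s * r') := by ring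
      rw [this]
      exact C_mul_mem_cg (mul_mem (mul_mem (mul_mem (C_mem_VL (natCast_mem A p))
        (pow_mem hw _)) hs) hr1')
    refine ⟨HahnSeries.C (π ^ (p - 1)) * s ^ p + y + x, add_mem (add_mem (mul_mem
      (C_mem_VL (pow_mem hπ _)) (pow_mem hs _)) hy) hx, ?_⟩
    rw [hr2, hxe, one_pow, mul_pow, hw', hr2', hye, mul_pow]
    have h6 : (HahnSeries.C (π ^ J') : LaurentSeries K) ^ p =
        HahnSeries.C (π ^ (p ^ (k + 1) * J)) := by
      rw [← map_pow, ← pow_mul]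
      congr 2
      rw [hJ', pow_succ]
      ring
    have h7 : (HahnSeries.C π : LaurentSeries K) ^ p =
        HahnSeries.C π * HahnSeries.C (π ^ (p - 1)) := by
      rw [← map_pow, ← map_mul, ← pow_succ']
      congr 2
      omega
    rw [h6, h7, ← pow_mul, ← pow_succ, pow_succ π (p ^ (k + 1) * J), map_mul]
    ring

theorem pw2 (hπ : π ∈ A) {e' : ℕ} (hr : Ram A π p e') {J : ℕ}
    {z : LaurentSeries K} (hz : z - 1 ∈ cg A (π ^ J)) (k : ℕ) :
    z ^ p ^ k - 1 ∈ cg A (π ^ (min (p ^ k * J) (p * e'))) := by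
  have hp2 := hp.out.two_le
  induction k with
  | zero =>
    rw [pow_zero, pow_one, one_mul]
    exact cg_pow_mono hπ (min_le_left _ _) hz
  | succ k ih =>
    rw [pow_succ, pow_mul]
    set L := min (p ^ k * J) (p * e') with hL
    obtain ⟨w, hw, he⟩ := ih
    obtain ⟨r, hr1, hr2⟩ := exists_add_pow_VL (p := p) (one_mem (VL A))
      (mul_mem (C_mem_VL (pow_mem hπ L)) hw)
    have h1 : z ^ p ^ k = 1 + HahnSeries.C (π ^ L) * w := by rw [← he]; ring
    have h2 : (z ^ p ^ k) ^ p - 1 = HahnSeries.C (π ^ (p * L)) * w ^ p +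
        HahnSeries.C (p : K) * (HahnSeries.C (π ^ L) * (w * r)) := by
      rw [h1, hr2, one_pow, mul_pow, ← map_pow, ← pow_mul, mul_comm L p]
      ring
    rw [h2]
    have h3 : p ^ k * p * J = p * (p ^ k * J) := by ring
    obtain ⟨p', rfl⟩ : ∃ p', p = p' + 1 := ⟨p - 1, by omega⟩
    have hsub : p' + 1 - 1 = p' := by omega
    refine add_mem (cg_pow_mono hπ ?_ (C_mul_mem_cg (pow_mem hw _)))
      (natCast_pow_mul_mem_cg hπ hr ?_ (mul_mem hw hr1))
    · rw [h3, hL]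
      rcases le_total ((p' + 1) ^ k * J) ((p' + 1) * e') with h | h
      · rw [min_eq_left h]
        exact min_le_left _ _
      · rw [min_eq_right h]
        refine (min_le_right _ _).trans ?_
        exact Nat.le_mul_of_pos_left _ (by omega)
    · rw [h3, hsub]
      rcases le_total e' L with h | h
      · refine (min_le_right _ _).trans ?_
        rw [add_mul, one_mul]
        exact Nat.add_le_add_left h _
      · rcases le_total ((p' + 1) ^ k * J) ((p' + 1) * e') with h' | h'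
        · rw [min_eq_left h'] at hL
          refine (min_le_left _ _).trans ?_
          rw [← hL, add_mul, one_mul]
          exact Nat.add_le_add_right (Nat.mul_le_mul_left _ h) _
        · rw [min_eq_right h'] at hL
          have h5 : (p' + 1) * e' ≤ e' := by rw [← hL]; exact h
          have h6 : e' = 0 := by
            rcases Nat.eq_zero_or_pos e' with h7 | h7
            · exact h7
            · exfalso
              have : 0 < p' * e' := Nat.mul_pos (by omega) h7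
              nlinarith
          rw [h6, mul_zero, min_zero]
          exact Nat.zero_le _

end Powers

end Fermat.Agent.P
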