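import Mathlib

/-!
# The polynomial `((1 + ϖ s)^p - 1) / ϖ^p` where `p = u ϖ^{p-1}`
-/

set_option autoImplicit false
set_option linter.unusedSectionVars false

noncomputable section

namespace Fermat.Agent.P

open Polynomial

variable {R S : Type*} [CommRing R] [CommRing S] (p : ℕ)

/-- `((1 + ϖ s)^p - 1) / ϖ^p` where `p = u ϖ^{p-1}` -/
def tt (u w s : R) : R :=
  s ^ p + ∑ i ∈ Finset.Ico 1 p, ((p.choose i / p : ℕ) : R) * u * w ^ (i - 1) * s ^ i

theorem map_tt (f : R →+* S) (u w s : R) : f (tt p u w s) = tt p (f u) (f w) (f s) := by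
  simp [tt, map_sum]

variable {p} [hp : Fact p.Prime]

theorem one_add_pow_eq_tt {u w : R} (h : (p : R) = u * w ^ (p - 1)) (s : R) :
    (1 + w * s) ^ p = 1 + w ^ p * tt p u w s := by
  have hp2 := hp.out.two_le
  rw [add_comm 1 (w * s), add_pow, Finset.sum_range_succ, ← Finset.sum_range_add_sum_Ico _ hp.out.one_le]
  rw [Finset.sum_range_one]
  simp only [one_pow, mul_one, pow_zero, Nat.choose_zero_right, Nat.choose_self, Nat.cast_one]
  rw [tt, mul_add, Finset.mul_sum, mul_pow]
  have h1 : ∀ i ∈ Finset.Ico 1 p, (w * s) ^ i * (p.choose i : R) =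
      w ^ p * (((p.choose i / p : ℕ) : R) * u * w ^ (i - 1) * s ^ i) := by
    intro i hi
    rw [Finset.mem_Ico] at hi
    have h2 : p ∣ p.choose i := hp.out.dvd_choose_self (by omega) hi.2
    obtain ⟨d, hd⟩ := h2
    rw [hd, Nat.mul_div_cancel_left _ hp.out.pos, Nat.cast_mul, h, mul_pow]
    have h3 : w ^ i = w * w ^ (i - 1) := by
      rw [← pow_succ']
      congr 1
      omega
    have h4 : w ^ p = w * w ^ (p - 1) := by
      rw [← pow_succ']
      congr 1
      omega
    rw [h3, h4]
    ring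
  rw [Finset.sum_congr rfl h1]
  ring

theorem tt_zero_right (u s : R) : tt p u 0 s = s ^ p + u * s := by
  have hp2 := hp.out.two_le
  rw [tt, Finset.sum_eq_single 1]
  · rw [Nat.choose_one_right, Nat.div_self hp.out.pos]
    simp
  · intro b hb hb1
    rw [Finset.mem_Ico] at hb
    rw [zero_pow (by omega)]
    simp
  · intro h
    exact absurd (Finset.mem_Ico.mpr ⟨le_rfl, hp2⟩) h

variable (p) in
/-- the polynomial -/
def ttP (u w : R) : R[X] :=
  X ^ p + ∑ i ∈ Finset.Ico 1 p, C (((p.choose i / p : ℕ) : R) * u * w ^ (i - 1)) * X ^ i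

theorem eval_ttP (u w s : R) : (ttP p u w).eval s = tt p u w s := by
  rw [ttP, tt, eval_add, eval_pow, eval_X, eval_finsetSum]
  simp

theorem eval₂_ttP (f : R →+* S) (u w : R) (s : S) :
    (ttP p u w).eval₂ f s = tt p (f u) (f w) s := by
  rw [ttP, tt, eval₂_add, eval₂_pow, eval₂_X, eval₂_finsetSum]
  congr 1
  refine Finset.sum_congr rfl fun i _ => ?_
  rw [eval₂_mul, eval₂_C, eval₂_pow, eval₂_X, map_mul, map_mul, map_pow, map_natCast]

theorem ttP_map (f : R →+* S) (u w : R) : (ttP p u w).map f = ttP p (f u) (f w) := by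
  rw [ttP, ttP, Polynomial.map_add, Polynomial.map_pow, Polynomial.map_X, Polynomial.map_sum]
  congr 1
  refine Finset.sum_congr rfl fun i _ => ?_
  rw [Polynomial.map_mul, Polynomial.map_C, Polynomial.map_pow, Polynomial.map_X]
  congr 2
  rw [map_mul, map_mul, map_natCast, map_pow]

theorem natDegree_ttP [Nontrivial R] (u w : R) : (ttP p u w).natDegree = p := by
  rw [ttP]
  apply natDegree_eq_of_degree_eq_some
  rw [degree_add_eq_left_of_degree_lt, degree_X_pow]
  rw [degree_X_pow]
  refine lt_of_le_of_lt (degree_sum_le _ _) ?_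
  rw [Finset.sup_lt_iff (by exact_mod_cast WithBot.bot_lt_coe p)]
  intro i hi
  rw [Finset.mem_Ico] at hi
  refine lt_of_le_of_lt (degree_C_mul_X_pow_le _ _) ?_
  exact_mod_cast hi.2

theorem tt_X (u w : R) : tt p (C u) (C w) (X : R[X]) = ttP p u w := by
  rw [ttP, tt]
  congr 1
  refine Finset.sum_congr rfl fun i _ => ?_
  rw [map_mul, map_mul, map_pow, map_natCast]

theorem monic_ttP (u w : R) : (ttP p u w).Monic := by
  rw [ttP]
  apply monic_X_pow_add
  refine lt_of_le_of_lt (degree_sum_le _ _) ?_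
  rw [Finset.sup_lt_iff (by exact_mod_cast WithBot.bot_lt_coe p)]
  intro i hi
  rw [Finset.mem_Ico] at hi
  refine lt_of_le_of_lt (degree_C_mul_X_pow_le _ _) ?_
  exact_mod_cast hi.2

/-- derivative, multiplied by `ϖ^p`. -/
theorem derivative_ttP [IsDomain R] {u w : R} (hw : w ≠ 0) (h : (p : R) = u * w ^ (p - 1)) (s : R) :
    (derivative (ttP p u w)).eval s = u * (1 + w * s) ^ (p - 1) := by
  have hp2 := hp.out.two_le
  have h1 : (1 + C w * X : R[X]) ^ p = 1 + C (w ^ p) * ttP p u w := by
    have h2 := one_add_pow_eq_tt (R := R[X]) (u := C u) (w := C w)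
      (by rw [← map_natCast C, h, map_mul, map_pow]) X
    rw [h2, map_pow, tt_X]
  have h2 := congrArg (fun Q : R[X] => (derivative Q).eval s) h1
  simp only [derivative_pow, derivative_add, derivative_one, derivative_mul, derivative_C,
    derivative_X, zero_mul, zero_add, mul_one, eval_mul, eval_pow, eval_add, eval_one, eval_C,
    eval_X] at h2
  rw [h] at h2
  have h3 : w ^ p = w ^ (p - 1) * w := by
    rw [← pow_succ]
    congr 1
    omega
  rw [h3] at h2
  have h4 : w ^ (p - 1) * w ≠ 0 := mul_ne_zero (pow_ne_zero _ hw) hw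
  apply mul_left_cancel₀ h4
  rw [← h2]
  ring

end Fermat.Agent.P
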