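import Mathlib
import Fermat.Agent.H01.P.Level
import Fermat.Agent.H01.P.Tt
import Fermat.Agent.H11Q.Connected2

/-!
# The uniformiser `ζ_p - 1`
-/

set_option autoImplicit false
set_option linter.unusedSectionVars false

noncomputable section

namespace Fermat.Agent.P

open ModularCurve IsLocalRing Fermat.Agent.H11Q

variable {K : Type*} [Field K]

/-- `ϖ = ζ - 1`, `p = u ϖ^{p-1}` -/
structure Varpi (A : ValuationSubring K) (p : ℕ) (ζ u w : K) : Prop where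
  prim : IsPrimitiveRoot ζ p
  eq : w = ζ - 1
  ne : w ≠ 0
  mem : w ∈ A
  res : resid A w = 0
  u_mem : u ∈ A
  u_inv : u⁻¹ ∈ A
  u_ne : u ≠ 0
  p_eq : (p : K) = u * w ^ (p - 1)

variable {A : ValuationSubring K} {p : ℕ} [hp : Fact p.Prime]

theorem div_mem_of_primitive {μ ν : K} (hμ : IsPrimitiveRoot μ p) (hν : IsPrimitiveRoot ν p) :
    (1 - μ) / (1 - ν) ∈ A := by
  have : NeZero p := ⟨hp.out.ne_zero⟩
  obtain ⟨i, -, rfl⟩ := hν.eq_pow_of_pow_eq_one hμ.pow_eq_one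
  have hν1 : (1 : K) - ν ≠ 0 := sub_ne_zero.mpr (hν.ne_one hp.out.one_lt).symm
  have h1 : (1 - ν ^ i) / (1 - ν) = ∑ j ∈ Finset.range i, ν ^ j := by
    rw [div_eq_iff hν1, ← geom_sum_mul_neg]
  rw [h1]
  have hνA : ν ∈ A := mem_of_pow_eq_one hp.out.ne_zero hν.pow_eq_one
  exact sum_mem fun j _ => A.toSubring.pow_mem hνA j

theorem exists_varpi [CharZero K] (hA : A.LiesOverPrime p) {ζ : K} (hζ : IsPrimitiveRoot ζ p) :
    ∃ u, Varpi A p ζ u (ζ - 1) := by
  classical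
  have hp2 := hp.out.two_le
  have hζ1 : ζ - 1 ≠ 0 := sub_ne_zero.mpr (hζ.ne_one hp.out.one_lt)
  have hζA : ζ ∈ A := mem_of_pow_eq_one hp.out.ne_zero hζ.pow_eq_one
  have h1 : (p : K) = ∏ μ ∈ primitiveRoots p K, (1 - μ) := by
    have h2 := congrArg (Polynomial.eval 1) (Polynomial.cyclotomic_eq_prod_X_sub_primitiveRoots hζ)
    rw [Polynomial.eval_one_cyclotomic_prime, Polynomial.eval_prod] at h2
    simpa using h2
  have h2 : ∏ μ ∈ primitiveRoots p K, (1 - μ) =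
      (∏ μ ∈ primitiveRoots p K, ((1 - μ) / (ζ - 1))) * (ζ - 1) ^ (p - 1) := by
    rw [← Nat.totient_prime hp.out, ← hζ.card_primitiveRoots, ← Finset.prod_const,
      ← Finset.prod_mul_distrib]
    refine Finset.prod_congr rfl fun μ _ => ?_
    rw [div_mul_cancel₀ _ hζ1]
  have hprim : ∀ μ ∈ primitiveRoots p K, IsPrimitiveRoot μ p := fun μ hμ =>
    (mem_primitiveRoots hp.out.pos).mp hμ
  have h3 : ∀ μ ∈ primitiveRoots p K, (1 - μ) / (ζ - 1) ∈ A ∧ ((1 - μ) / (ζ - 1))⁻¹ ∈ A := by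
    intro μ hμ
    have h4 : (1 - μ) / (ζ - 1) = -((1 - μ) / (1 - ζ)) := by
      rw [← neg_sub 1 ζ, div_neg]
    rw [h4, inv_neg, inv_div]
    exact ⟨A.neg_mem _ (div_mem_of_primitive (hprim μ hμ) hζ),
      A.neg_mem _ (div_mem_of_primitive hζ (hprim μ hμ))⟩
  refine ⟨∏ μ ∈ primitiveRoots p K, ((1 - μ) / (ζ - 1)), hζ, rfl, hζ1, A.toSubring.sub_mem hζA
    A.one_mem, ?_, prod_mem fun μ hμ => (h3 μ hμ).1, ?_, ?_, ?_⟩
  · have h5 : (⟨ζ, hζA⟩ : A) ^ p = 1 := Subtype.ext hζ.pow_eq_one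
    have h6 : IsLocalRing.residue A ⟨ζ, hζA⟩ = 1 := by
      have := H05.charP_residueField hp.out hA
      have h7 := congrArg (IsLocalRing.residue A) h5
      rw [map_pow, map_one] at h7
      exact frobenius_inj (ResidueField A) p (by simpa [frobenius_def] using h7)
    rw [resid_sub A hζA A.one_mem, resid_of_mem A hζA, h6, resid_one, sub_self]
  · rw [← Finset.prod_inv_distrib]
    exact prod_mem fun μ hμ => (h3 μ hμ).2
  · rw [Finset.prod_ne_zero_iff]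
    intro μ hμ
    exact div_ne_zero (sub_ne_zero.mpr ((hprim μ hμ).ne_one hp.out.one_lt).symm) hζ1
  · rw [h1, h2]

end Fermat.Agent.P
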