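import Fermat.Agent.H01.P.Ascent
import Fermat.Agent.H01.P.Varpi
import Fermat.Agent.H01.P.ResTors
import Fermat.Agent.H05.GalHecke

/-!
# Descent of modular functions to number fields
-/

set_option autoImplicit false
set_option linter.unusedSectionVars false
set_option linter.style.haveILetI false

noncomputable section

namespace Fermat.Agent.P

open ModularCurve Fermat.Agent.Igusa Fermat.Agent.Q

local notation "kk" => IsLocalRing.ResidueField
local notation "Qb" => AlgebraicClosure ℚ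

section CoeffMap

variable {k k' : Type*} [Field k] [Field k']

theorem coeffMap_C_eq {R S : Type*} [CommRing R] [CommRing S] (f : R →+* S) (a : R) :
    coeffMap f (HahnSeries.C a) = HahnSeries.C (f a) := by
  rw [HahnSeries.C_apply, HahnSeries.C_apply, coeffMap_single]

theorem coeffMap_mem_full' (σ : k →+* k') (M : ℕ) {x : LaurentSeries k}
    (hx : x ∈ modularFunctionFieldFullC k M) :
    coeffMap σ x ∈ modularFunctionFieldFullC k' M := by
  change x ∈ Subfield.closure (Set.range (algebraMap k (LaurentSeries k)) ∪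
    divisorExpansionsC k M) at hx
  induction hx using Subfield.closure_induction with
  | mem y hy =>
    rcases hy with ⟨a, rfl⟩ | ⟨d, hd, hdvd, rfl⟩
    · rw [algebraMap_eq_C, coeffMap_C_eq, ← algebraMap_eq_C]
      exact (modularFunctionFieldFullC k' M).algebraMap_mem _
    · rw [show qExpand k d (jqModC k) = jd k d from rfl, coeffMap_jd]
      exact jd_mem_full hdvd
  | one => rw [map_one]; exact one_mem _
  | add y z _ _ h1 h2 => rw [map_add]; exact add_mem h1 h2
  | neg y _ h1 => rw [map_neg]; exact neg_mem h1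
  | inv y _ h1 => rw [map_inv₀]; exact inv_mem h1
  | mul y z _ _ h1 h2 => rw [map_mul]; exact mul_mem h1 h2

theorem coeffMap_twist' {R S : Type*} [CommRing R] [CommRing S] (f : R →+* S) (a : Rˣ)
    (x : LaurentSeries R) : coeffMap f (twist a x) = twist (Units.map f.toMonoidHom a) (coeffMap f x) := by
  ext n
  rw [coeffMap_coeff, twist_coeff, twist_coeff, coeffMap_coeff, map_mul, ← map_zpow]
  rfl

theorem coeffMap_uOp {R S : Type*} [CommRing R] [CommRing S] (f : R →+* S) (p : ℕ) [NeZero p]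
    (x : LaurentSeries R) : coeffMap f (uOp p x) = uOp p (coeffMap f x) := by
  ext n
  rw [coeffMap_coeff, uOp_coeff, uOp_coeff, coeffMap_coeff]

variable {p : ℕ} [hp : Fact p.Prime]

theorem coeffMap_nT (f : k →+* k') (ζ : kˣ) (x : LaurentSeries k) :
    coeffMap f (nT ζ p x) = nT (Units.map f.toMonoidHom ζ) p (coeffMap f x) := by
  rw [nT, map_prod, nT]
  refine Finset.prod_congr rfl fun b _ => ?_
  rw [coeffMap_twist', map_pow]

theorem coeffMap_tP (f : k →+* k') (ζ : kˣ) (x : LaurentSeries k) :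
    coeffMap f (tP ζ p x) = tP (Units.map f.toMonoidHom ζ) p (coeffMap f x) := by
  rw [tP, map_mul, coeffMap_uOp, coeffMap_nT, H05.coeffMap_qExpand_comm, tP]

end CoeffMap

section Descent

variable {K : Type*} [Field K] [CharZero K] [Algebra ℚ K]

/-- functions of level `M` defined over the subfield `E`. -/
def NFm (E : IntermediateField ℚ K) (M : ℕ) : Subfield (LaurentSeries K) :=
  (modularFunctionFieldFullC E M).toSubfield.map (coeffMap (algebraMap E K))

theorem mem_NFm {E : IntermediateField ℚ K} {M : ℕ} {x : LaurentSeries K} :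
    x ∈ NFm E M ↔ ∃ y ∈ modularFunctionFieldFullC E M, coeffMap (algebraMap E K) y = x := Iff.rfl

/-- inclusion of intermediate fields as a ring homomorphism -/
def incE {E E' : IntermediateField ℚ K} (h : E ≤ E') : E →+* E' where
  toFun x := ⟨x, h x.2⟩
  map_one' := rfl
  map_zero' := rfl
  map_add' _ _ := rfl
  map_mul' _ _ := rfl

theorem NFm_mono {E E' : IntermediateField ℚ K} (h : E ≤ E') (M : ℕ) : NFm E M ≤ NFm E' M := by
  rintro x ⟨y, hy, rfl⟩
  refine ⟨coeffMap (incE h) y, coeffMap_mem_full' _ M hy, ?_⟩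
  rw [coeffMap_coeffMap]
  rfl

variable [Algebra.IsAlgebraic ℚ K]

theorem exists_NFm (M : ℕ) {x : LaurentSeries K} (hx : x ∈ modularFunctionFieldFullC K M) :
    ∃ E : IntermediateField ℚ K, FiniteDimensional ℚ E ∧ x ∈ NFm E M := by
  change x ∈ Subfield.closure (Set.range (algebraMap K (LaurentSeries K)) ∪
    divisorExpansionsC K M) at hx
  induction hx using Subfield.closure_induction with
  | mem y hy =>
    rcases hy with ⟨a, rfl⟩ | ⟨d, hd, hdvd, rfl⟩
    · refine ⟨IntermediateField.adjoin ℚ {a}, IntermediateField.adjoin.finiteDimensional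
        (Algebra.IsAlgebraic.isAlgebraic (R := ℚ) a).isIntegral, ?_⟩
      refine ⟨HahnSeries.C ⟨a, IntermediateField.mem_adjoin_simple_self ℚ a⟩, ?_, ?_⟩
      · rw [← algebraMap_eq_C]
        exact (modularFunctionFieldFullC _ M).algebraMap_mem _
      · rw [coeffMap_C_eq, algebraMap_eq_C]
        rfl
    · refine ⟨⊥, inferInstance, jd _ d, jd_mem_full hdvd, ?_⟩
      rw [coeffMap_jd]
      rfl
  | one => exact ⟨⊥, inferInstance, one_mem _⟩
  | add y z _ _ h1 h2 =>
    obtain ⟨E, hE, h1⟩ := h1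
    obtain ⟨E', hE', h2⟩ := h2
    exact ⟨E ⊔ E', inferInstance, add_mem (NFm_mono le_sup_left M h1) (NFm_mono le_sup_right M h2)⟩
  | neg y _ h1 =>
    obtain ⟨E, hE, h1⟩ := h1
    exact ⟨E, hE, neg_mem h1⟩
  | inv y _ h1 =>
    obtain ⟨E, hE, h1⟩ := h1
    exact ⟨E, hE, inv_mem h1⟩
  | mul y z _ _ h1 h2 =>
    obtain ⟨E, hE, h1⟩ := h1
    obtain ⟨E', hE', h2⟩ := h2
    exact ⟨E ⊔ E', inferInstance, mul_mem (NFm_mono le_sup_left M h1) (NFm_mono le_sup_right M h2)⟩

/-- **Descent of finitely many functions.** -/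
theorem exists_NFm_forall (M : ℕ) {ι : Type*} [Finite ι] (x : ι → LaurentSeries K)
    (hx : ∀ i, x i ∈ modularFunctionFieldFullC K M) :
    ∃ E : IntermediateField ℚ K, FiniteDimensional ℚ E ∧ ∀ i, x i ∈ NFm E M := by
  choose E hE h using fun i => exists_NFm M (hx i)
  exact ⟨⨆ i, E i, IntermediateField.finiteDimensional_iSup_of_finite,
    fun i => NFm_mono (le_iSup E i) M (h i)⟩

theorem mem_of_C_mem_NFm {E : IntermediateField ℚ K} {M : ℕ} {c : K}
    (h : (HahnSeries.C c : LaurentSeries K) ∈ NFm E M) : c ∈ E := by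
  obtain ⟨y, -, hy⟩ := h
  have h1 := congrArg (fun z : LaurentSeries K => z.coeff 0) hy
  simp only [coeffMap_coeff, HahnSeries.C_apply, HahnSeries.coeff_single, if_true] at h1
  rw [← h1]
  exact (y.coeff 0).2

end Descent

/-! ### The valuation ring of a number field -/

section Val

variable {K : Type*} [Field K] [CharZero K] [Algebra ℚ K] (A : ValuationSubring K)
  (E : IntermediateField ℚ K)

/-- the trace of the valuation ring on a subfield -/
def AE : ValuationSubring E := A.comap (algebraMap E K)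

variable {A E}

theorem mem_AE {x : E} : x ∈ AE A E ↔ (x : K) ∈ A := Iff.rfl

theorem lies_AE {p : ℕ} (hp : p.Prime) (hA : A.LiesOverPrime p) : (AE A E).LiesOverPrime p := by
  change (p : E) ∈ (AE A E).nonunits
  have h1 : (p : K) ∈ A.nonunits := hA
  by_contra hcon
  have hmem : (p : E) ∈ (AE A E) := natCast_mem (AE A E) p
  rw [H05.not_mem_nonunits_iff (AE A E) hmem] at hcon
  have h2 : ((p : E)⁻¹ : E) ∈ (AE A E) := hcon.1
  have h3 : (((p : E)⁻¹ : E) : K) ∈ A := h2
  have h4 : (p : K)⁻¹ ∈ A := by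
    convert h3 using 1
    push_cast
    rfl
  have h5 : (p : K) ≠ 0 := by exact_mod_cast hp.ne_zero
  exact ((H05.not_mem_nonunits_iff A (natCast_mem A p)).mpr ⟨h4, h5⟩) h1

variable (A E) in
/-- the inclusion of valuation rings -/
def incA : AE A E →+* A where
  toFun x := ⟨((x : E) : K), x.2⟩
  map_one' := rfl
  map_zero' := rfl
  map_add' _ _ := rfl
  map_mul' _ _ := rfl

instance isLocalHom_incA : IsLocalHom (incA A E) := by
  refine ⟨fun x hx => ?_⟩
  obtain ⟨y, hy⟩ := hx.exists_right_inv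
  have h1 : ((x : E) : K) * (y : K) = 1 := congrArg Subtype.val hy
  have hx0 : ((x : E) : K) ≠ 0 := left_ne_zero_of_mul_eq_one h1
  have h2 : (((x : E)⁻¹ : E) : K) ∈ A := by
    have h3 : (((x : E)⁻¹ : E) : K) = y := by
      push_cast
      exact inv_eq_of_mul_eq_one_right h1
    rw [h3]
    exact y.2
  refine IsUnit.of_mul_eq_one (⟨(x : E)⁻¹, h2⟩ : AE A E) (Subtype.ext ?_)
  change (x : E) * (x : E)⁻¹ = 1
  refine mul_inv_cancel₀ ?_
  intro h
  exact hx0 (by rw [h]; rfl)

variable (A E) in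
/-- the inclusion of residue fields -/
def resE : kk (AE A E) →+* kk A := IsLocalRing.ResidueField.map (incA A E)

theorem resE_residue {x : E} (hx : x ∈ AE A E) :
    resE A E (IsLocalRing.residue _ ⟨x, hx⟩) = IsLocalRing.residue A ⟨(x : K), hx⟩ :=
  IsLocalRing.ResidueField.map_residue _ _

theorem red_up {z : LaurentSeries E} {u : LaurentSeries (kk (AE A E))} (h : Red (AE A E) z u) :
    Red A (coeffMap (algebraMap E K) z) (coeffMap (resE A E) u) := by
  refine h.map (coeffMap (algebraMap E K)) (coeffMap (resE A E)) fun x => ?_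
  have hx : coeffMap (algebraMap E K) (x : LaurentSeries E) ∈ intL A := by
    rw [mem_intL]
    intro n
    rw [coeffMap_coeff]
    exact mem_intL.mp x.2 n
  refine ⟨hx, ?_⟩
  ext n
  rw [coeffMap_coeff, redL_coeff x n, resE_residue]
  exact redL_coeff_eq (x := ⟨_, hx⟩) (a := ⟨_, mem_intL.mp x.2 n⟩) rfl

theorem VL_up {z : LaurentSeries E} (h : z ∈ VL (AE A E)) :
    coeffMap (algebraMap E K) z ∈ VL A := by
  obtain ⟨u, hu⟩ := h
  exact ⟨_, red_up hu⟩

theorem cg_up {z : LaurentSeries E} {ε : E} (h : z ∈ cg (AE A E) ε) :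
    coeffMap (algebraMap E K) z ∈ cg A (ε : K) := by
  obtain ⟨y, hy, rfl⟩ := h
  refine ⟨_, VL_up hy, ?_⟩
  rw [map_mul, coeffMap_C_eq]
  rfl

variable [Algebra.IsAlgebraic ℚ K]

instance isAlgebraic_E : Algebra.IsAlgebraic ℚ E := by
  exact Algebra.IsAlgebraic.of_injective (RingHom.toRatAlgHom (algebraMap E K))
    (algebraMap E K).injective

theorem red_down_one {p : ℕ} (hp : p.Prime) (hA : A.LiesOverPrime p) {z : LaurentSeries E}
    (hz : z ∈ FL (AE A E)) (h : Red A (coeffMap (algebraMap E K) z) 1) : Red (AE A E) z 1 := by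
  have hz0 : z ≠ 0 := by
    rintro rfl
    rw [map_zero] at h
    exact one_ne_zero (h.unique Red.zero)
  obtain ⟨c, hc, u, hu0, hu⟩ := exists_red hp (lies_AE hp hA) hz hz0
  have h1 := red_up hu
  rw [map_mul, coeffMap_C_eq] at h1
  have hu0' : coeffMap (resE A E) u ≠ 0 := by
    intro h2
    exact hu0 (coeffMap_injective _ (resE A E).injective (by rw [h2, map_zero]))
  have hcK : (algebraMap E K c) ≠ 0 := (map_ne_zero _).mpr hc
  have h2 : coeffMap (algebraMap E K) z = HahnSeries.C (algebraMap E K c)⁻¹ *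
      (HahnSeries.C (algebraMap E K c) * coeffMap (algebraMap E K) z) := by
    rw [← mul_assoc, ← map_mul, inv_mul_cancel₀ hcK, map_one, one_mul]
  rw [h2] at h
  obtain ⟨hmem, hres⟩ := h.scale h1 hu0'
  have hmem' : c⁻¹ ∈ AE A E := by
    change ((c⁻¹ : E) : K) ∈ A
    convert hmem using 1
    push_cast
    rfl
  have h3 := (Red.C hmem').mul hu
  rw [← mul_assoc, ← map_mul, inv_mul_cancel₀ hc, map_one, one_mul] at h3
  have h4 : HahnSeries.C (IsLocalRing.residue (AE A E) ⟨c⁻¹, hmem'⟩) * u = 1 := by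
    apply coeffMap_injective _ (resE A E).injective
    rw [map_mul, coeffMap_C_eq, resE_residue, map_one, hres]
    congr 3
  rwa [h4] at h3

end Val

/-! ### Uniformisers, ramification, residue fields -/

section Unif

theorem exists_unif_of_noetherian {L : Type*} [Field L] (A : ValuationSubring L)
    [IsNoetherianRing A] {x : L} (hx : x ∈ A) (hx0 : x ≠ 0)
    (hres : IsLocalRing.residue A ⟨x, hx⟩ = 0) : ∃ π, Unif A π := by
  haveI : IsBezout A := inferInstance
  haveI : IsPrincipalIdealRing A :=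
    ⟨fun S => IsBezout.isPrincipal_of_FG S (IsNoetherian.noetherian S)⟩
  have hne : IsLocalRing.maximalIdeal A ≠ ⊥ := by
    intro h
    have h1 : (⟨x, hx⟩ : A) ∈ IsLocalRing.maximalIdeal A :=
      (IsLocalRing.residue_eq_zero_iff _).mp hres
    rw [h, Ideal.mem_bot] at h1
    exact hx0 (congrArg Subtype.val h1)
  haveI : IsDiscreteValuationRing A := { not_a_field' := hne }
  obtain ⟨ϖ, hϖ⟩ := IsDiscreteValuationRing.exists_irreducible A
  have hϖ0 : (ϖ : L) ≠ 0 := fun h => hϖ.ne_zero (Subtype.ext h)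
  refine ⟨ϖ, hϖ0, ϖ.2, ?_, ?_⟩
  · rw [IsLocalRing.residue_eq_zero_iff]
    exact (IsLocalRing.mem_maximalIdeal _).mpr hϖ.not_isUnit
  · have key : ∀ y : L, y ∈ A → y ≠ 0 → ∃ n : ℕ, ∃ u : L, u ∈ A ∧ u⁻¹ ∈ A ∧ y = u * (ϖ : L) ^ n := by
      intro y hy hy0
      obtain ⟨n, u, hu⟩ := IsDiscreteValuationRing.eq_unit_mul_pow_irreducible
        (x := (⟨y, hy⟩ : A)) (fun h => hy0 (congrArg Subtype.val h)) hϖ
      refine ⟨n, ((u : A) : L), (u : A).2, ?_, congrArg Subtype.val hu⟩
      have h1 : (((u : A) : L))⁻¹ = (((u⁻¹ : Aˣ) : A) : L) := by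
        apply inv_eq_of_mul_eq_one_right
        have := congrArg Subtype.val (u.mul_inv)
        exact this
      rw [h1]
      exact ((u⁻¹ : Aˣ) : A).2
    intro y hy0
    rcases A.mem_or_inv_mem y with hy | hy
    · obtain ⟨n, u, hu, hu', he⟩ := key y hy hy0
      exact ⟨n, u, hu, hu', by rw [zpow_natCast]; exact he⟩
    · obtain ⟨n, u, hu, hu', he⟩ := key y⁻¹ hy (inv_ne_zero hy0)
      refine ⟨-n, u⁻¹, hu', by rwa [inv_inv], ?_⟩
      rw [zpow_neg, zpow_natCast, ← mul_inv, ← he, inv_inv]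

variable {K : Type*} [Field K] [CharZero K] [Algebra ℚ K] [Algebra.IsAlgebraic ℚ K]
  {A : ValuationSubring K} {E : IntermediateField ℚ K} {p : ℕ} [hp : Fact p.Prime]

theorem exists_unif_AE [FiniteDimensional ℚ E] (hA : A.LiesOverPrime p) :
    ∃ π, Unif (AE A E) π := by
  haveI : NumberField E := by
    refine @NumberField.mk _ _ inferInstance ?_
    convert (inferInstance : FiniteDimensional ℚ E)
    exact Subsingleton.elim _ _
  have hA' := lies_AE (E := E) hp.out hA
  haveI := isNoetherianRing_of_numberField (AE A E) hp.out hA'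
  have hchar := H05.charP_residueField hp.out hA'
  refine exists_unif_of_noetherian (AE A E) (x := (p : E)) (natCast_mem _ p)
    (by exact_mod_cast hp.out.ne_zero) ?_
  have h1 : (⟨(p : E), natCast_mem _ p⟩ : AE A E) = (p : AE A E) := rfl
  rw [h1, map_natCast]
  exact CharP.cast_eq_zero _ p

theorem ram_of_varpi {L : Type*} [Field L] {A : ValuationSubring L} {π ζ u w : L}
    (hπ : Unif A π) (hw : Varpi A p ζ u w) :
    ∃ e', 1 ≤ e' ∧ Ram A π p e' ∧ ∃ v, v ∈ A ∧ v⁻¹ ∈ A ∧ w = v * π ^ e' := by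
  obtain ⟨n, v, hv, hv', he⟩ := hπ.gen w hw.ne
  have hv0 : v ≠ 0 := by
    rintro rfl
    rw [zero_mul] at he
    exact hw.ne he
  have hn : 1 ≤ n := by
    by_contra hn
    obtain ⟨m, hm⟩ : ∃ m : ℕ, n = -(m : ℤ) := ⟨(-n).toNat, by omega⟩
    have h1 : w⁻¹ ∈ A := by
      rw [he, mul_inv, hm, zpow_neg, inv_inv, zpow_natCast]
      exact mul_mem hv' (pow_mem hπ.mem m)
    have h2 := residue_ne_zero_of_unit hw.mem h1 hw.ne
    apply h2
    have h3 := hw.res
    rwa [H11Q.resid_of_mem A hw.mem] at h3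
  obtain ⟨m, rfl⟩ : ∃ m : ℕ, n = (m : ℤ) := ⟨n.toNat, by omega⟩
  rw [zpow_natCast] at he
  refine ⟨m, by omega, ⟨u * v ^ (p - 1), mul_mem hw.u_mem (pow_mem hv _), ?_, ?_⟩, v, hv, hv', he⟩
  · rw [mul_inv, ← inv_pow]
    exact mul_mem hw.u_inv (pow_mem hv' _)
  · rw [hw.p_eq, he, mul_pow, ← pow_mul, mul_comm m (p - 1)]
    ring

omit [Algebra.IsAlgebraic ℚ K] in
theorem perfectRing_of_torsion {k : Type*} [Field k] [CharP k p]
    (h : ∀ x : k, x ≠ 0 → ∃ m : ℕ, ¬ p ∣ m ∧ x ^ m = 1) : PerfectRing k p := by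
  refine PerfectRing.ofSurjective k p fun x => ?_
  rcases eq_or_ne x 0 with rfl | hx
  · exact ⟨0, map_zero _⟩
  obtain ⟨m, hm, hxm⟩ := h x hx
  have hcop : Nat.Coprime p (orderOf x) := by
    rw [Nat.Prime.coprime_iff_not_dvd hp.out]
    exact fun h1 => hm (h1.trans (orderOf_dvd_of_pow_eq_one hxm))
  obtain ⟨s, hs⟩ := exists_pow_eq_self_of_coprime hcop
  exact ⟨x ^ s, by rw [frobenius_def, ← pow_mul, mul_comm, pow_mul]; exact hs⟩

end Unif

section Perfect

variable {A : ValuationSubring Qb} {E : IntermediateField ℚ Qb} {p : ℕ} [hp : Fact p.Prime]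

theorem perfectRing_AE (hA : A.LiesOverPrime p) [CharP (kk (AE A E)) p] :
    PerfectRing (kk (AE A E)) p := by
  refine perfectRing_of_torsion fun x hx => ?_
  obtain ⟨m, hm, hxm⟩ := exists_pow_eq_one_residue hp.out (H05.charP_residueField hp.out hA)
    (x := resE A E x) ((map_ne_zero _).mpr hx)
  exact ⟨m, hm, (resE A E).injective (by rw [map_pow, map_one, hxm])⟩

end Perfect

end Fermat.Agent.P
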