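import Fermat.Agent.H01.P.PullInj
import Fermat.Agent.H01.P.NF
import Fermat.Agent.H11Q.Packs

/-!
# Raising levels with the norm formula on the `p`-new part of `J₀(Mp)`
-/

set_option autoImplicit false
set_option linter.unusedSectionVars false
set_option linter.style.haveILetI false
set_option maxSynthPendingDepth 3

noncomputable section

namespace Fermat.Agent.P

open ModularCurve AlgebraicCurve Fermat.Agent.Igusa Fermat.Agent.Q

local notation "kk" => IsLocalRing.ResidueField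
local notation "Qb" => AlgebraicClosure ℚ

section Levels

variable {K : Type*} [Field K] [CharZero K] [Algebra ℚ K] [Algebra.IsAlgebraic ℚ K]
  {A : ValuationSubring K} {p : ℕ} [hp : Fact p.Prime]

/-- a function reducing to `1` has positive level -/
theorem exists_cg_of_red_one (hA : A.LiesOverPrime p) {f : LaurentSeries K} (hf : f ∈ FL A)
    (h : Red A f 1) : ∃ ε : K, ∃ hε : ε ∈ A, ε ≠ 0 ∧ IsLocalRing.residue A ⟨ε, hε⟩ = 0 ∧
      f - 1 ∈ cg A ε := by
  have h0 : Red A (f - 1) 0 := by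
    have := h.sub Red.one
    rwa [sub_self] at this
  by_cases hf1 : f - 1 = 0
  · have hchar := H05.charP_residueField hp.out hA
    refine ⟨(p : K), natCast_mem A p, by exact_mod_cast hp.out.ne_zero, ?_, ?_⟩
    · have h1 : (⟨(p : K), natCast_mem A p⟩ : A) = (p : A) := rfl
      rw [h1, map_natCast]
      exact CharP.cast_eq_zero _ p
    · rw [hf1]; exact zero_mem _
  obtain ⟨c, hc, u, hu0, hu⟩ := exists_red hp.out hA (sub_mem hf (one_mem _)) hf1
  have h1 : f - 1 = HahnSeries.C c⁻¹ * (HahnSeries.C c * (f - 1)) := by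
    rw [← mul_assoc, ← map_mul, inv_mul_cancel₀ hc, map_one, one_mul]
  rw [h1] at h0
  obtain ⟨hmem, hres⟩ := h0.scale hu hu0
  refine ⟨c⁻¹, hmem, inv_ne_zero hc, ?_, ⟨_, ⟨u, hu⟩, h1⟩⟩
  by_contra hne
  exact mul_ne_zero ((map_ne_zero _).mpr hne) hu0 hres.symm

/-- the valuation ring is archimedean -/
theorem exists_pow_div_mem (hA : A.LiesOverPrime p) {ε c : K} (hε : ε ∈ A) (hε0 : ε ≠ 0)
    (hres : IsLocalRing.residue A ⟨ε, hε⟩ = 0) (hc : c ≠ 0) : ∃ n : ℕ, ε ^ n / c ∈ A := by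
  set E : IntermediateField ℚ K := IntermediateField.adjoin ℚ {ε, c} with hE
  haveI : FiniteDimensional ℚ E := IntermediateField.finiteDimensional_adjoin
    fun x _ => (Algebra.IsAlgebraic.isAlgebraic (R := ℚ) x).isIntegral
  have hεE : ε ∈ E := IntermediateField.subset_adjoin ℚ _ (by simp)
  have hcE : c ∈ E := IntermediateField.subset_adjoin ℚ _ (by simp)
  obtain ⟨π, hπ⟩ := exists_unif_AE (E := E) hA
  obtain ⟨a, u, hu, hu', he⟩ := hπ.gen ⟨ε, hεE⟩ (fun h => hε0 (congrArg Subtype.val h))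
  obtain ⟨b, v, hv, hv', hc'⟩ := hπ.gen ⟨c, hcE⟩ (fun h => hc (congrArg Subtype.val h))
  have hu0 : u ≠ 0 := by
    rintro rfl
    rw [zero_mul] at he
    exact hε0 (congrArg Subtype.val he)
  have ha : 1 ≤ a := by
    by_contra hlt
    obtain ⟨m, hm⟩ : ∃ m : ℕ, a = -(m : ℤ) := ⟨(-a).toNat, by omega⟩
    have h1 : (⟨ε, hεE⟩ : E)⁻¹ ∈ AE A E := by
      rw [he, mul_inv, hm, zpow_neg, inv_inv, zpow_natCast]
      exact mul_mem hu' (pow_mem hπ.mem m)
    have h2 : ε⁻¹ ∈ A := h1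
    exact residue_ne_zero_of_unit hε h2 hε0 hres
  refine ⟨b.toNat, ?_⟩
  have h1 : (⟨ε, hεE⟩ : E) ^ b.toNat / ⟨c, hcE⟩ ∈ AE A E := by
    rw [he, hc', div_eq_mul_inv, mul_inv, mul_pow]
    have h2 : u ^ b.toNat * (π ^ a) ^ b.toNat * (v⁻¹ * (π ^ b)⁻¹) =
        u ^ b.toNat * v⁻¹ * π ^ ((a * b.toNat - b).toNat) := by
      have h3 : ((π ^ a) ^ b.toNat * (π ^ b)⁻¹) = π ^ ((a * b.toNat - b).toNat) := by
        rw [← zpow_natCast, ← zpow_mul, ← zpow_neg, ← zpow_add₀ hπ.ne, ← zpow_natCast]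
        congr 1
        have h4 : 0 ≤ a * (b.toNat : ℤ) - b := by
          have h5 : b ≤ (b.toNat : ℤ) := Int.self_le_toNat b
          have h6 : (0 : ℤ) ≤ b.toNat := by positivity
          nlinarith
        omega
      rw [← h3]; ring
    rw [h2]
    exact mul_mem (mul_mem (pow_mem hu _) hv') (pow_mem hπ.mem _)
  exact h1

variable {ζ : Kˣ} {u w : K}

/-- the operator `𝒰 f = ∏ f (ζ^b q^{1/p})` -/
def uU (ζ : Kˣ) (p : ℕ) [Fact p.Prime] (f : LaurentSeries K) : LaurentSeries K :=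
  uOp p (nT ζ p f)

/-- `𝒰` raises small levels `ε` to `ε^p`. -/
theorem uU_small (hA : A.LiesOverPrime p) (hζ : IsPrimitiveRoot ζ p) (hw : Varpi A p ζ u w)
    {ε : K} (hε : ε ∈ A) (hε0 : ε ≠ 0) (h : w / ε ∈ A) {f : LaurentSeries K}
    (hf : f - 1 ∈ cg A ε) : uU ζ p f - 1 ∈ cg A (ε ^ p) := by
  obtain ⟨y, hy, hfy⟩ := hf
  have hf1 : f = 1 + HahnSeries.C ε * y := by rw [← hfy]; ring
  obtain ⟨h', hh', he⟩ := uOp_nT_one_add hA hζ hε hy
  rw [uU, hf1, he]
  have hpp := hp.out.pos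
  have h1 : (p : K) * ε = ε ^ p * (u * (w / ε) ^ (p - 1)) := by
    rw [hw.p_eq, div_pow]
    have h2 : ε ^ p = ε ^ (p - 1) * ε := by rw [← pow_succ]; congr 1; omega
    rw [h2]
    have h3 := pow_ne_zero (p - 1) hε0
    field_simp
  have h2 : 1 + HahnSeries.C (ε ^ p) * uOp p (nT ζ p y) + HahnSeries.C ((p : K) * ε) * h' - 1 =
      HahnSeries.C (ε ^ p) * (uOp p (nT ζ p y) + HahnSeries.C (u * (w / ε) ^ (p - 1)) * h') := by
    rw [h1, map_mul]; ring
  rw [h2]
  exact C_mul_mem_cg (add_mem (uOp_nT_mem_VL hA hζ hy)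
    (mul_mem (C_mem_VL (mul_mem hw.u_mem (pow_mem h _))) hh'))

theorem cg_w_pow (hw : Varpi A p ζ u w) {z : LaurentSeries K} (h : z ∈ cg A (w ^ p)) :
    z ∈ cg A w := by
  refine cg_mono ⟨w ^ (p - 1), pow_mem hw.mem _, ?_⟩ h
  rw [← pow_succ']
  congr 1
  have := hp.out.pos
  omega

theorem uU_w (hA : A.LiesOverPrime p) (hζ : IsPrimitiveRoot ζ p) (hw : Varpi A p ζ u w)
    {f : LaurentSeries K} (hf : f - 1 ∈ cg A w) : uU ζ p f - 1 ∈ cg A (w ^ p) :=
  uU_small hA hζ hw hw.mem hw.ne (by rw [div_self hw.ne]; exact one_mem _) hf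

/-- **Level raising.** -/
theorem exists_iterate_uU (hA : A.LiesOverPrime p) (hζ : IsPrimitiveRoot ζ p)
    (hw : Varpi A p ζ u w) {f : LaurentSeries K} (hf : f ∈ FL A) (h : Red A f 1) :
    ∃ n, ∀ m, n ≤ m → (uU ζ p)^[m] f - 1 ∈ cg A (w ^ p) := by
  obtain ⟨ε, hε, hε0, hres, hfε⟩ := exists_cg_of_red_one hA hf h
  have key : ∃ n, (uU ζ p)^[n] f - 1 ∈ cg A w := by
    by_contra hcon
    push Not at hcon
    have h1 : ∀ n, (uU ζ p)^[n] f - 1 ∈ cg A (ε ^ p ^ n) := by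
      intro n
      induction n with
      | zero => simpa using hfε
      | succ n ih =>
        rw [Function.iterate_succ_apply', pow_succ, pow_mul]
        refine uU_small hA hζ hw (pow_mem hε _) (pow_ne_zero _ hε0) ?_ ih
        rcases A.mem_or_inv_mem (w / ε ^ p ^ n) with h2 | h2
        · exact h2
        · exfalso
          rw [inv_div] at h2
          refine hcon n (cg_mono ⟨ε ^ p ^ n / w, h2, ?_⟩ ih)
          rw [mul_div_cancel₀ _ hw.ne]
    obtain ⟨N, hN⟩ := exists_pow_div_mem hA hε hε0 hres hw.ne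
    refine hcon N (cg_mono ⟨ε ^ p ^ N / w, ?_, ?_⟩ (h1 N))
    · obtain ⟨d, hd⟩ : ∃ d, p ^ N = N + d :=
        ⟨p ^ N - N, by have := (Nat.lt_pow_self hp.out.one_lt (n := N)).le; omega⟩
      rw [hd, pow_add, mul_comm, mul_div_assoc]
      exact mul_mem (pow_mem hε _) hN
    · rw [mul_div_cancel₀ _ hw.ne]
  obtain ⟨n, hn⟩ := key
  refine ⟨n + 1, fun m hm => ?_⟩
  induction m, hm using Nat.le_induction with
  | base =>
    rw [Function.iterate_succ_apply']
    exact uU_w hA hζ hw hn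
  | succ m hm ih =>
    rw [Function.iterate_succ_apply']
    exact uU_w hA hζ hw (cg_w_pow hw ih)

end Levels

section JZ

variable {A : ValuationSubring Qb} {M p : ℕ} [NeZero M] [hp : Fact p.Prime] {ζ u w : Qb}
  (hpM : Nat.Coprime p M)

/-- `𝒰 f` is a Kummer function of `- w x` if `a_* (w x) = 0`. -/
theorem kum_uU {ζ : Qbˣ} (hζ : IsPrimitiveRoot ζ p) {m : ℕ} (hm : m ≠ 0) {x : JZero (M * p)}
    {f : modularFunctionFieldBar (M * p)} (hf : H05.Kum m x f)
    (hx : aStar M p (wS M p hpM • x) = 0) :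
    ∃ f' : modularFunctionFieldBar (M * p), H05.Kum m (-(wS M p hpM • x)) f' ∧
      (f' : LaurentSeries Qb) = uU ζ p f := by
  have h1 := hf.smul (wS M p hpM)
  have h2 := kum_aStar h1
  rw [hx] at h2
  obtain ⟨k, hk, hkh⟩ := exists_kum_zero_pow hm h2
  have hinc : M ∣ M * p := dvd_mul_right M p
  set K' := incN (N := M) (N' := M * p) hinc k with hK'
  have hK0 : K' ≠ 0 := (map_ne_zero _).mpr hk
  refine ⟨K' ^ m * (wS M p hpM • f)⁻¹, ?_, ?_⟩
  · have h3 := (H05.kum_zero_pow m hK0).mul h1.inv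
    rwa [zero_add] at h3
  · have h4 : ((K' ^ m * (wS M p hpM • f)⁻¹ : modularFunctionFieldBar (M * p)) :
        LaurentSeries Qb) = (k : LaurentSeries Qb) ^ m *
          ((wS M p hpM • f : modularFunctionFieldBar (M * p)) : LaurentSeries Qb)⁻¹ := by
      change (K' : LaurentSeries Qb) ^ m * _ = _
      rw [hK', coe_incN]
      rfl
    rw [h4]
    have h5 := coe_normAlong_alpha (M := M) (r := p) (wS M p hpM • f)
    rw [hkh] at h5
    have h6 := norm_formula Qb M hpM hζ ⟨(wS M p hpM • f : modularFunctionFieldBar (M * p)),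
      mem_full_of_bar (wS M p hpM • f : modularFunctionFieldBar (M * p)).2⟩
    rw [← h5, ← coe_wBar, ← wS_smul_fun] at h6
    have h7 : wS M p hpM • wS M p hpM • f = f := by rw [← mul_smul, wS_mul_self, one_smul]
    rw [h7] at h6
    apply qExpand_injective p
    rw [uU, ← nT_eq_qExpand hζ, map_mul, map_inv₀]
    have hwf0 : (wS M p hpM • f : modularFunctionFieldBar (M * p)) ≠ 0 := h1.ne_zero
    have h8 : qExpand Qb p ((wS M p hpM • f : modularFunctionFieldBar (M * p)) :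
        LaurentSeries Qb) ≠ 0 := by
      rw [Ne, map_eq_zero_iff _ (qExpand_injective p)]
      exact fun h => hwf0 (Subtype.ext h)
    have h9 : ((k ^ m : modularFunctionFieldBar M) : LaurentSeries Qb) =
      (k : LaurentSeries Qb) ^ m := rfl
    rw [← h9, h6, nT]
    field_simp

/-- the classes of the new part, alternating -/
theorem kum_iterate_uU {ζ : Qbˣ} (hζ : IsPrimitiveRoot ζ p) {m : ℕ} (hm : m ≠ 0)
    {x : JZero (M * p)} {f : modularFunctionFieldBar (M * p)} (hf : H05.Kum m x f)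
    (hx : aStar M p x = 0) (hwx : aStar M p (wS M p hpM • x) = 0) (n : ℕ) :
    (∃ f' : modularFunctionFieldBar (M * p), H05.Kum m x f' ∧
      (f' : LaurentSeries Qb) = (uU ζ p)^[2 * n] f) ∧
    (∃ f' : modularFunctionFieldBar (M * p), H05.Kum m (-(wS M p hpM • x)) f' ∧
      (f' : LaurentSeries Qb) = (uU ζ p)^[2 * n + 1] f) := by
  have step : ∀ k, (∃ f' : modularFunctionFieldBar (M * p), H05.Kum m x f' ∧
      (f' : LaurentSeries Qb) = (uU ζ p)^[k] f) → (∃ f' : modularFunctionFieldBar (M * p),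
        H05.Kum m (-(wS M p hpM • x)) f' ∧ (f' : LaurentSeries Qb) = (uU ζ p)^[k + 1] f) := by
    rintro k ⟨f', hf', he⟩
    obtain ⟨f'', hf'', he'⟩ := kum_uU hpM hζ hm hf' hwx
    exact ⟨f'', hf'', by rw [he', he, Function.iterate_succ_apply']⟩
  have step' : ∀ k, (∃ f' : modularFunctionFieldBar (M * p), H05.Kum m (-(wS M p hpM • x)) f' ∧
      (f' : LaurentSeries Qb) = (uU ζ p)^[k] f) → (∃ f' : modularFunctionFieldBar (M * p),
        H05.Kum m x f' ∧ (f' : LaurentSeries Qb) = (uU ζ p)^[k + 1] f) := by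
    rintro k ⟨f', hf', he⟩
    have h1 : wS M p hpM • (-(wS M p hpM • x)) = -x := by rw [smul_neg, wS_wS]
    obtain ⟨f'', hf'', he'⟩ := kum_uU hpM hζ hm hf' (by rw [h1, map_neg, hx, neg_zero])
    rw [h1, neg_neg] at hf''
    exact ⟨f'', hf'', by rw [he', he, Function.iterate_succ_apply']⟩
  have key : ∃ f' : modularFunctionFieldBar (M * p), H05.Kum m x f' ∧
      (f' : LaurentSeries Qb) = (uU ζ p)^[2 * n] f := by
    induction n with
    | zero => exact ⟨f, hf, rfl⟩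
    | succ n ih => exact step' _ (step _ ih)
  exact ⟨key, step _ key⟩

/-- representatives with reduction one -/
theorem exists_kum_red_one (hA : A.LiesOverPrime p) {m : ℕ} {x : JZero (M * p)}
    (hx : x ∈ KInf A M p m) : ∃ f : modularFunctionFieldBar (M * p), H05.Kum m x f ∧
      Red A (f : LaurentSeries Qb) 1 := by
  obtain ⟨f, hf, c, hc, v, hv, hv0, hred⟩ := hx
  obtain ⟨z, hz, hzv⟩ := exists_lift (K := Qb) M hv
  have hz0 : z ≠ 0 := hzv.ne_zero hv0
  have hle : modularFunctionFieldFullC Qb M ≤ modularFunctionFieldFullC Qb (M * p) :=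
    full_degeneracyC_le Qb (dvd_mul_right M p)
  set Z : modularFunctionFieldBar (M * p) := ⟨z, mem_bar_of_full (hle hz)⟩ with hZ
  have hZ0 : Z ≠ 0 := fun h => hz0 (congrArg Subtype.val h)
  refine ⟨algebraMap Qb (modularFunctionFieldBar (M * p)) c * f * (Z⁻¹) ^ m, ?_, ?_⟩
  · have h1 := ((H05.kum_zero_algebraMap (F := modularFunctionFieldBar (M * p)) m hc).mul hf).mul
      (H05.kum_zero_pow m (inv_ne_zero hZ0))
    rwa [zero_add, add_zero] at h1
  · have h2 : ((algebraMap Qb (modularFunctionFieldBar (M * p)) c * f * (Z⁻¹) ^ m :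
        modularFunctionFieldBar (M * p)) : LaurentSeries Qb) =
        HahnSeries.C c * (f : LaurentSeries Qb) * (z⁻¹) ^ m := by
      change algebraMap Qb (LaurentSeries Qb) c * (f : LaurentSeries Qb) * (z⁻¹) ^ m = _
      rw [algebraMap_eq_C]
    rw [h2]
    have h3 := hred.mul ((hzv.inv hv0).pow m)
    rwa [← mul_pow, mul_inv_cancel₀ hv0, one_pow] at h3

theorem neg_mem_lvl {N m : ℕ} [NeZero N] {ε : Qb} (hε : ε ∈ A)
    (h0 : IsLocalRing.residue A ⟨ε, hε⟩ = 0) {x : JZero N} (hx : x ∈ lvl A N m ε) :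
    -x ∈ lvl A N m ε := by
  obtain ⟨f, hf, hf1⟩ := hx
  refine ⟨f⁻¹, hf.inv, ?_⟩
  exact (inv_sub_one_mem hε h0 hf1).1

theorem Varpi.pow_res {K : Type*} [Field K] {A : ValuationSubring K} {ζ u w : K}
    (hw : Varpi A p ζ u w) : ∃ h : w ^ p ∈ A, IsLocalRing.residue A ⟨w ^ p, h⟩ = 0 := by
  refine ⟨pow_mem hw.mem p, ?_⟩
  have h1 : (⟨w ^ p, pow_mem hw.mem p⟩ : A) = ⟨w, hw.mem⟩ ^ p := Subtype.ext rfl
  have h2 := hw.res
  rw [H11Q.resid_of_mem A hw.mem] at h2
  rw [h1, map_pow, h2, zero_pow hp.out.ne_zero]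

/-- **Classes of the new part in `K_∞` have level `≥ p/(p-1)` at both cusps.** -/
theorem mem_lvl_of_new (hA : A.LiesOverPrime p) (hw : Varpi A p ζ u w) {m : ℕ} (hm : m ≠ 0)
    {x : JZero (M * p)} (hx : x ∈ KInf A M p m) (hx0 : aStar M p x = 0)
    (hx1 : aStar M p (wS M p hpM • x) = 0) :
    x ∈ lvl A (M * p) m (w ^ p) ∧ wS M p hpM • x ∈ lvl A (M * p) m (w ^ p) := by
  have hζ0 : ζ ≠ 0 := hw.prim.ne_zero hp.out.ne_zero
  have hζ : IsPrimitiveRoot (Units.mk0 ζ hζ0) p := by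
    rw [← IsPrimitiveRoot.coe_units_iff]
    exact hw.prim
  obtain ⟨f, hf, hfr⟩ := exists_kum_red_one hA hx
  obtain ⟨n, hn⟩ := exists_iterate_uU (ζ := Units.mk0 ζ hζ0) hA hζ (u := u) (w := w) hw
    (full_le_FL (M * p) (mem_full_of_bar f.2)) hfr
  obtain ⟨⟨f₁, hf₁, he₁⟩, ⟨f₂, hf₂, he₂⟩⟩ := kum_iterate_uU hpM hζ hm hf hx0 hx1 n
  obtain ⟨h1, h2⟩ := hw.pow_res
  refine ⟨⟨f₁, hf₁, by rw [he₁]; exact hn _ (by omega)⟩, ?_⟩
  have h3 := neg_mem_lvl (N := M * p) h1 h2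
    (⟨f₂, hf₂, by rw [he₂]; exact hn _ (by omega)⟩ : -(wS M p hpM • x) ∈ lvl A (M * p) m (w ^ p))
  rwa [neg_neg] at h3

/-- **Inertia acts through the cyclotomic character on the `p`-new part of `K_∞[p]`.** -/
theorem inertia_new (hA : A.LiesOverPrime p) {ζ : Qb} (hζ : IsPrimitiveRoot ζ p)
    {x : JZero (M * p)} (hx : x ∈ KInf A M p p) (hx0 : aStar M p x = 0)
    (hx1 : aStar M p (wS M p hpM • x) = 0) {σ : Qb ≃ₐ[ℚ] Qb}
    (hσ : σ ∈ A.inertiaSubgroupIn ℚ) {a : ℕ} (ha : σ ζ = ζ ^ a) : σ • x = a • x := by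
  obtain ⟨u, hw⟩ := exists_varpi hA hζ
  obtain ⟨h1, h2⟩ := mem_lvl_of_new hpM hA hw hp.out.ne_zero hx hx0 hx1
  exact inertia_lvl hpM hA (H11Q.hasPacks hp.out hA) hw h1 h2 hσ ha

end JZ

end Fermat.Agent.P
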