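import Mathlib
import Fermat.Agent.H01.P.Level

/-!
# Leading terms of `p^k`-th powers
-/

set_option autoImplicit false
set_option linter.unusedSectionVars false

noncomputable section

namespace Fermat.Agent.P

open ModularCurve Fermat.Agent.Igusa Fermat.Agent.Q

local notation "kk" => IsLocalRing.ResidueField

section CharP

variable {k : Type*} [Field k] {p : ℕ} [hp : Fact p.Prime] [CharP k p]

theorem exists_C_of_pow_char_eq {n : ℕ} {x : LaurentSeries k} {e : k}
    (h : x ^ p ^ n = HahnSeries.C e) : ∃ d : k, x = HahnSeries.C d := by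
  have h1 : ∀ (n : ℕ) (x : LaurentSeries k) (m : ℤ), (x ^ p ^ n).coeff (p ^ n * m) =
      (x.coeff m) ^ p ^ n := by
    intro n
    induction n with
    | zero => intro x m; simp
    | succ n ih =>
      intro x m
      rw [pow_succ p n, pow_mul, pow_char p (x ^ p ^ n)]
      have h2 : ((p : ℤ) ^ n * p * m) = (p : ℤ) * (p ^ n * m) := by ring
      rw [pow_succ (p : ℤ) n, h2, qExpand_coeff_mul, coeffMap_coeff, ih, frobenius_def, ← pow_mul]
  refine ⟨x.coeff 0, ?_⟩
  ext m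
  have h2 := h1 n x m
  rw [h, HahnSeries.C_apply, HahnSeries.coeff_single] at h2
  rw [HahnSeries.C_apply, HahnSeries.coeff_single]
  split_ifs with hm
  · rw [hm]
  · have hpn : ((p : ℤ) ^ n) ≠ 0 := by
      have := hp.out.ne_zero
      positivity
    rw [if_neg (mul_ne_zero hpn hm)] at h2
    exact (pow_eq_zero_iff (pow_ne_zero _ hp.out.ne_zero)).mp h2.symm

end CharP

variable {K : Type*} [Field K] {A : ValuationSubring K} {π : K} {p : ℕ} [hp : Fact p.Prime]
  [CharZero K] [Algebra ℚ K] [Algebra.IsAlgebraic ℚ K]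

omit [CharZero K] [Algebra ℚ K] [Algebra.IsAlgebraic ℚ K] in
theorem exists_lift_residue (c : kk A) : ∃ a : K, ∃ ha : a ∈ A, IsLocalRing.residue A ⟨a, ha⟩ = c := by
  obtain ⟨a, rfl⟩ := IsLocalRing.residue_surjective c
  exact ⟨a, a.2, rfl⟩

/-- subtracting a constant from a series with constant reduction -/
theorem Unif.sub_C_mem (hπ : Unif A π) (hA : A.LiesOverPrime p) {y : LaurentSeries K}
    (hy : y ∈ FL A) {d : kk A} (hyd : Red A y (HahnSeries.C d)) :
    ∃ a ∈ A, y - HahnSeries.C a ∈ cg A π := by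
  obtain ⟨a, ha, had⟩ := exists_lift_residue (A := A) d
  refine ⟨a, ha, ?_⟩
  apply hπ.mem_cg hp.out hA (sub_mem hy (C_mem_FL a))
  have := hyd.sub (Red.C ha)
  rwa [had, sub_self] at this

/-- **Leading terms of powers.** If `p^k ∤ i`, an element `c u^(p^k)` congruent to `1` modulo
`π^i` has constant leading term. -/
theorem leading_pow (hπ : Unif A π) (hA : A.LiesOverPrime p) {e' : ℕ} (hr : Ram A π p e')
    {u : LaurentSeries K} (hu : u ∈ FL A) (hu0 : u ≠ 0) {c : K} (hc : c ≠ 0) (k : ℕ) {i : ℕ}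
    (hi : 1 ≤ i) (hi' : i < p * e') (hki : ¬ p ^ k ∣ i)
    (h : HahnSeries.C c * u ^ p ^ k - 1 ∈ cg A (π ^ i)) :
    ∃ a ∈ A, HahnSeries.C c * u ^ p ^ k - 1 - HahnSeries.C (π ^ i * a) ∈ cg A (π ^ (i + 1)) := by
  have hchar := H05.charP_residueField hp.out hA
  have hpk : p ^ k ≠ 0 := pow_ne_zero _ hp.out.ne_zero
  -- normalise
  obtain ⟨c', hc', v, hv0, hv⟩ := exists_red hp.out hA hu hu0
  have hred1 : Red A (HahnSeries.C c * u ^ p ^ k) 1 := by
    have hπi : π ^ i ∈ A := pow_mem hπ.mem i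
    have h0 : Red A (HahnSeries.C c * u ^ p ^ k - 1) 0 := by
      have h1 := cg_pow_mono hπ.mem hi h
      rw [pow_one] at h1
      exact red_zero_of_mem_cg hπ.mem hπ.res h1
    have := h0.add Red.one
    rwa [sub_add_cancel, zero_add] at this
  have hvpow := hv.pow (p ^ k)
  have hrw : HahnSeries.C c * u ^ p ^ k =
      HahnSeries.C (c * (c' ^ p ^ k)⁻¹) * (HahnSeries.C c' * u) ^ p ^ k := by
    rw [mul_pow, ← map_pow, ← mul_assoc, ← map_mul,
      inv_mul_cancel_right₀ (pow_ne_zero _ hc')]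
  have hred1' := hred1
  rw [hrw] at hred1'
  obtain ⟨hmem, hres⟩ := hred1'.scale hvpow (pow_ne_zero _ hv0)
  set ε := IsLocalRing.residue A ⟨c * (c' ^ p ^ k)⁻¹, hmem⟩ with hε
  have hε0 : ε ≠ 0 := by
    intro h0
    rw [h0, map_zero, zero_mul] at hres
    exact one_ne_zero hres
  have hvC : v ^ p ^ k = HahnSeries.C ε⁻¹ := by
    have hne : (HahnSeries.C ε : LaurentSeries (kk A)) ≠ 0 := (map_ne_zero _).mpr hε0
    rw [map_inv₀]
    apply eq_inv_of_mul_eq_one_left
    rw [mul_comm]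
    exact hres.symm
  obtain ⟨d, rfl⟩ := exists_C_of_pow_char_eq hvC
  have hd0 : d ≠ 0 := by
    rintro rfl
    exact hv0 (map_zero _)
  -- the first approximation
  have key : ∀ J : ℕ, 1 ≤ J → p ^ k * (J - 1) < i → ∃ a : K, a ≠ 0 ∧ ∃ y ∈ VL A,
      u = HahnSeries.C a * (1 + HahnSeries.C (π ^ J) * y) := by
    intro J hJ
    induction J, hJ using Nat.le_induction with
    | base =>
      intro _
      obtain ⟨a, ha, had⟩ := exists_lift_residue (A := A) d
      obtain ⟨hainv, ha0⟩ := inv_mem_of_residue_ne_zero ha (by rw [had]; exact hd0)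
      have h1 : HahnSeries.C c' * u - HahnSeries.C a ∈ cg A π := by
        apply hπ.mem_cg hp.out hA (sub_mem (mul_mem (C_mem_FL _) hu) (C_mem_FL a))
        have := hv.sub (Red.C ha)
        rwa [had, sub_self] at this
      obtain ⟨y, hy, hye⟩ := h1
      refine ⟨a / c', div_ne_zero ha0 hc', HahnSeries.C a⁻¹ * y, mul_mem (C_mem_VL hainv) hy, ?_⟩
      have hc'C : (HahnSeries.C c' : LaurentSeries K) ≠ 0 := (map_ne_zero _).mpr hc'
      have haC : (HahnSeries.C a : LaurentSeries K) ≠ 0 := (map_ne_zero _).mpr ha0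
      have h2 : u = (HahnSeries.C c')⁻¹ * (HahnSeries.C a + HahnSeries.C π * y) := by
        rw [← hye]; field_simp; ring
      rw [h2, map_div₀, map_inv₀, pow_one]
      field_simp
    | succ J hJ ih =>
      intro hlt
      rw [Nat.add_sub_cancel] at hlt
      obtain ⟨a, ha0, y, hy, hue⟩ := ih (lt_of_le_of_lt (Nat.mul_le_mul_left _ (Nat.sub_le _ _)) hlt)
      obtain ⟨s, hs, hse⟩ := pw1 hπ.mem hr (J := J) hy k (hlt.trans hi')
      -- the constant
      have h1 : HahnSeries.C c * u ^ p ^ k = HahnSeries.C (c * a ^ p ^ k) *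
          (1 + HahnSeries.C (π ^ (p ^ k * J)) * (y ^ p ^ k + HahnSeries.C π * s)) := by
        rw [hue, mul_pow, hse, ← map_pow, ← mul_assoc, ← map_mul]
      set T := p ^ k * J with hT
      have hT1 : 1 ≤ T := Nat.one_le_iff_ne_zero.mpr (mul_ne_zero hpk (by omega))
      have hw : (1 + HahnSeries.C (π ^ T) * (y ^ p ^ k + HahnSeries.C π * s)) - 1 ∈ cg A (π ^ T) := by
        rw [add_sub_cancel_left]
        exact C_mul_mem_cg (add_mem (pow_mem hy _) (mul_mem (C_mem_VL hπ.mem) hs))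
      have hTπ : π ^ T ∈ A := pow_mem hπ.mem T
      have hTres : IsLocalRing.residue A ⟨π ^ T, hTπ⟩ = 0 := by
        have : (⟨π ^ T, hTπ⟩ : A) = ⟨π, hπ.mem⟩ ^ T := Subtype.ext rfl
        rw [this, map_pow, hπ.res, zero_pow (by omega)]
      obtain ⟨hinv1, hinv0, hinvV⟩ := inv_sub_one_mem hTπ hTres hw
      have h2 : HahnSeries.C (c * a ^ p ^ k) - 1 ∈ cg A (π ^ T) := by
        have h3 : HahnSeries.C (c * a ^ p ^ k) = (HahnSeries.C c * u ^ p ^ k) *
            (1 + HahnSeries.C (π ^ T) * (y ^ p ^ k + HahnSeries.C π * s))⁻¹ := by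
          rw [h1, mul_assoc, mul_inv_cancel₀ hinv0, mul_one]
        rw [h3]
        exact mul_sub_one_mem hTπ (cg_pow_mono hπ.mem hlt.le h) hinv1
      have h3 : (c * a ^ p ^ k - 1) / π ^ T ∈ A := by
        rw [← C_mem_cg_iff (pow_ne_zero _ hπ.ne), map_sub, map_one]
        exact h2
      set b := (c * a ^ p ^ k - 1) / π ^ T with hb
      have hb' : c * a ^ p ^ k = 1 + π ^ T * b := by
        rw [hb, mul_div_cancel₀ _ (pow_ne_zero _ hπ.ne)]; ring
      rw [h1, hb'] at h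
      have h4 : HahnSeries.C (π ^ T) * (HahnSeries.C b + y ^ p ^ k) ∈ cg A (π ^ (T + 1)) := by
        have h5 := cg_pow_mono hπ.mem (show T + 1 ≤ i from hlt) h
        have h6 : HahnSeries.C (π ^ T) * (HahnSeries.C b + y ^ p ^ k) =
            (HahnSeries.C (1 + π ^ T * b) *
              (1 + HahnSeries.C (π ^ T) * (y ^ p ^ k + HahnSeries.C π * s)) - 1) -
            HahnSeries.C (π ^ (T + 1)) * s -
            HahnSeries.C (π ^ (T + T)) * (HahnSeries.C b * (y ^ p ^ k + HahnSeries.C π * s)) := by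
          rw [pow_succ, pow_add π T T]
          simp only [map_add, map_mul, map_one]
          ring
        rw [h6]
        refine sub_mem (sub_mem h5 (C_mul_mem_cg hs)) ?_
        exact cg_pow_mono hπ.mem (by omega) (C_mul_mem_cg (mul_mem (C_mem_VL h3)
          (add_mem (pow_mem hy _) (mul_mem (C_mem_VL hπ.mem) hs))))
      have h5 := hπ.red_zero_of_mem h4
      obtain ⟨ybar, hybar⟩ := hy
      have h6 := ((Red.C h3).add (hybar.pow (p ^ k))).unique h5
      have h7 : ybar ^ p ^ k = HahnSeries.C (-IsLocalRing.residue A ⟨b, h3⟩) := by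
        rw [map_neg]
        linear_combination h6
      obtain ⟨d', hd'⟩ := exists_C_of_pow_char_eq h7
      have hyFL : y ∈ FL A := by
        have haC : (HahnSeries.C a : LaurentSeries K) ≠ 0 := (map_ne_zero _).mpr ha0
        have hπC : (HahnSeries.C (π ^ J) : LaurentSeries K) ≠ 0 :=
          (map_ne_zero _).mpr (pow_ne_zero _ hπ.ne)
        have h8 : y = HahnSeries.C (π ^ J)⁻¹ * (HahnSeries.C a⁻¹ * u - 1) := by
          rw [hue, map_inv₀, map_inv₀]
          field_simp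
          ring
        rw [h8]
        exact mul_mem (C_mem_FL _) (sub_mem (mul_mem (C_mem_FL _) hu) (one_mem _))
      obtain ⟨a', ha', y', hy', hye'⟩ := hπ.sub_C_mem hA hyFL (hd' ▸ hybar)
      -- `u = a (1 + π^J a') (1 + π^(J+1) y'')`
      have hJπ : π ^ J ∈ A := pow_mem hπ.mem J
      have hJres : IsLocalRing.residue A ⟨π ^ J, hJπ⟩ = 0 := by
        have : (⟨π ^ J, hJπ⟩ : A) = ⟨π, hπ.mem⟩ ^ J := Subtype.ext rfl
        rw [this, map_pow, hπ.res, zero_pow (by omega)]
      have hmem1 : 1 + π ^ J * a' ∈ A := add_mem (one_mem A) (mul_mem hJπ ha')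
      have hres1 : IsLocalRing.residue A ⟨1 + π ^ J * a', hmem1⟩ = 1 := by
        have : (⟨1 + π ^ J * a', hmem1⟩ : A) = 1 + ⟨π ^ J, hJπ⟩ * ⟨a', ha'⟩ := Subtype.ext rfl
        rw [this, map_add, map_one, map_mul, hJres, zero_mul, add_zero]
      obtain ⟨hinvm, hne1⟩ := inv_mem_of_residue_ne_zero hmem1 (by rw [hres1]; exact one_ne_zero)
      refine ⟨a * (1 + π ^ J * a'), mul_ne_zero ha0 hne1,
        HahnSeries.C (1 + π ^ J * a')⁻¹ * y', mul_mem (C_mem_VL hinvm) hy', ?_⟩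
      have hne1C : (HahnSeries.C (1 + π ^ J * a') : LaurentSeries K) ≠ 0 :=
        (map_ne_zero _).mpr hne1
      have h9 : HahnSeries.C (1 + π ^ J * a') * (1 + HahnSeries.C (π ^ (J + 1)) *
          (HahnSeries.C (1 + π ^ J * a')⁻¹ * y')) =
          1 + HahnSeries.C (π ^ J) * y := by
        have h10 : y = HahnSeries.C a' + HahnSeries.C π * y' := by rw [← hye']; ring
        rw [map_inv₀, mul_add, mul_one]
        have h11 : HahnSeries.C (1 + π ^ J * a') * (HahnSeries.C (π ^ (J + 1)) *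
            ((HahnSeries.C (1 + π ^ J * a'))⁻¹ * y')) = HahnSeries.C (π ^ (J + 1)) * y' := by
          field_simp
        rw [h11, h10, pow_succ]
        simp only [map_add, map_mul, map_one]
        ring
      rw [map_mul, mul_assoc, h9]
      exact hue
  -- the final level
  obtain ⟨J, hJ1, hJ2, hJ3⟩ : ∃ J : ℕ, 1 ≤ J ∧ p ^ k * (J - 1) < i ∧ i < p ^ k * J := by
    refine ⟨i / p ^ k + 1, Nat.le_add_left 1 _, ?_, ?_⟩
    · rw [Nat.add_sub_cancel]
      have h1 := Nat.mul_div_le i (p ^ k)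
      rcases h1.lt_or_eq with h2 | h2
      · exact h2
      · exact absurd ⟨_, h2.symm⟩ hki
    · exact Nat.lt_mul_div_succ i (Nat.pos_of_ne_zero hpk)
  obtain ⟨a, ha0, y, hy, hue⟩ := key J hJ1 hJ2
  have h1 : (1 + HahnSeries.C (π ^ J) * y) ^ p ^ k - 1 ∈ cg A (π ^ (i + 1)) := by
    have h2 := pw2 hπ.mem hr (J := J) (z := 1 + HahnSeries.C (π ^ J) * y) (by
      rw [add_sub_cancel_left]; exact C_mul_mem_cg hy) k
    exact cg_pow_mono hπ.mem (le_min hJ3 hi') h2
  have h2 : HahnSeries.C c * u ^ p ^ k = HahnSeries.C (c * a ^ p ^ k) *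
      (1 + HahnSeries.C (π ^ J) * y) ^ p ^ k := by
    rw [hue, mul_pow, ← map_pow, ← mul_assoc, ← map_mul]
  have hiπ : π ^ i ∈ A := pow_mem hπ.mem i
  have hires : IsLocalRing.residue A ⟨π ^ i, hiπ⟩ = 0 := by
    have : (⟨π ^ i, hiπ⟩ : A) = ⟨π, hπ.mem⟩ ^ i := Subtype.ext rfl
    rw [this, map_pow, hπ.res, zero_pow (by omega)]
  obtain ⟨hinv1, hinv0, hinvV⟩ := inv_sub_one_mem hiπ hires
    (cg_pow_mono hπ.mem (Nat.le_succ i) h1)
  have h3 : HahnSeries.C (c * a ^ p ^ k) - 1 ∈ cg A (π ^ i) := by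
    have h4 : HahnSeries.C (c * a ^ p ^ k) = (HahnSeries.C c * u ^ p ^ k) *
        ((1 + HahnSeries.C (π ^ J) * y) ^ p ^ k)⁻¹ := by
      rw [h2, mul_assoc, mul_inv_cancel₀ hinv0, mul_one]
    rw [h4]
    exact mul_sub_one_mem hiπ h hinv1
  have h4 : (c * a ^ p ^ k - 1) / π ^ i ∈ A := by
    rw [← C_mem_cg_iff (pow_ne_zero _ hπ.ne), map_sub, map_one]
    exact h3
  refine ⟨_, h4, ?_⟩
  rw [mul_div_cancel₀ _ (pow_ne_zero _ hπ.ne), h2, map_sub, map_one]
  have h5 : HahnSeries.C (c * a ^ p ^ k) * (1 + HahnSeries.C (π ^ J) * y) ^ p ^ k - 1 -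
      (HahnSeries.C (c * a ^ p ^ k) - 1) =
      HahnSeries.C (c * a ^ p ^ k) * ((1 + HahnSeries.C (π ^ J) * y) ^ p ^ k - 1) := by ring
  rw [h5]
  refine mul_cg_mem ?_ h1
  have h6 : (HahnSeries.C (c * a ^ p ^ k) : LaurentSeries K) =
      (HahnSeries.C (c * a ^ p ^ k) - 1) + 1 := by ring
  rw [h6]
  exact add_mem (cg_le_VL hiπ h3) (one_mem _)

end Fermat.Agent.P
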