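import Mathlib
import Fermat.Agent.H01.P.Leading
import Fermat.Agent.Q.Galois

/-!
# The multiplicative Hecke operator at the residue characteristic, on functions of level `M`
-/

set_option autoImplicit false
set_option linter.unusedSectionVars false

noncomputable section

namespace Fermat.Agent.P

open ModularCurve Fermat.Agent.Igusa Fermat.Agent.Q

local notation "kk" => IsLocalRing.ResidueField

variable {K : Type*} [Field K] [CharZero K] {p : ℕ} [hp : Fact p.Prime] {ζ : Kˣ}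

/-- The multiplicative operator `T_p`. -/
def tP (ζ : Kˣ) (p : ℕ) [Fact p.Prime] (f : LaurentSeries K) : LaurentSeries K :=
  qExpand K p f * uOp p (nT ζ p f)

theorem qExpand_tP (hζ : IsPrimitiveRoot ζ p) (f : LaurentSeries K) :
    qExpand K p (tP ζ p f) = qExpand K p (qExpand K p f) * nT ζ p f := by
  rw [tP, map_mul, ← nT_eq_qExpand hζ]

theorem uOp_nT_mul (hζ : IsPrimitiveRoot ζ p) (f g : LaurentSeries K) :
    uOp p (nT ζ p (f * g)) = uOp p (nT ζ p f) * uOp p (nT ζ p g) := by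
  rw [nT_mul, nT_eq_qExpand hζ f, uOp_qExpand_mul, uOp_qExpand]

theorem tP_mul (hζ : IsPrimitiveRoot ζ p) (f g : LaurentSeries K) :
    tP ζ p (f * g) = tP ζ p f * tP ζ p g := by
  rw [tP, uOp_nT_mul hζ, map_mul, tP, tP]; ring

theorem tP_C (hζ : IsPrimitiveRoot ζ p) (c : K) :
    tP ζ p (HahnSeries.C c) = HahnSeries.C (c ^ (p + 1)) := by
  rw [tP, nT_C, qExpand_C]
  have h1 := uOp_qExpand p (HahnSeries.C (c ^ p) : LaurentSeries K)
  rw [qExpand_C] at h1
  rw [h1, ← map_mul, pow_succ']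

theorem tP_one (hζ : IsPrimitiveRoot ζ p) : tP ζ p (1 : LaurentSeries K) = 1 := by
  have := tP_C hζ (1 : K)
  rwa [map_one, one_pow, map_one] at this

theorem tP_pow (hζ : IsPrimitiveRoot ζ p) (f : LaurentSeries K) (n : ℕ) :
    tP ζ p (f ^ n) = tP ζ p f ^ n := by
  induction n with
  | zero => rw [pow_zero, pow_zero, tP_one hζ]
  | succ n ih => rw [pow_succ, pow_succ, tP_mul hζ, ih]

theorem tP_ne_zero (hζ : IsPrimitiveRoot ζ p) {f : LaurentSeries K} (hf : f ≠ 0) :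
    tP ζ p f ≠ 0 := by
  intro h
  have h1 := tP_mul hζ f f⁻¹
  rw [mul_inv_cancel₀ hf, h, zero_mul, tP_one hζ] at h1
  exact one_ne_zero h1

section Mem

variable [Algebra ℚ K] [Algebra.IsAlgebraic ℚ K] {M : ℕ} [NeZero M] (hpM : Nat.Coprime p M)

include hpM in
theorem tP_eq_norm (hζ : IsPrimitiveRoot ζ p) {f : LaurentSeries K}
    (hf : f ∈ modularFunctionFieldFullC K M) :
    tP ζ p f = (H05.normAlong (incl K M p) ⟨qExpand K p f, qExpand_mem K f hf⟩ :
      modularFunctionFieldFullC K M) := by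
  apply qExpand_injective p
  rw [norm_formula K M hpM hζ, coe_wQ_qExpand, qExpand_tP hζ]
  · rfl
  · exact hf

include hpM in
theorem tP_mem (hζ : IsPrimitiveRoot ζ p) {f : LaurentSeries K}
    (hf : f ∈ modularFunctionFieldFullC K M) : tP ζ p f ∈ modularFunctionFieldFullC K M := by
  rw [tP_eq_norm hpM hζ hf]
  exact SetLike.coe_mem _

end Mem

section Level

variable {A : ValuationSubring K}

/-- Estimate for `T_p (1 + ε h)`. -/
theorem uOp_nT_one_add (hA : A.LiesOverPrime p) (hζ : IsPrimitiveRoot ζ p) {ε : K} (hε : ε ∈ A)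
    {h : LaurentSeries K} (hh : h ∈ VL A) :
    ∃ h' ∈ VL A, uOp p (nT ζ p (1 + HahnSeries.C ε * h)) =
      1 + HahnSeries.C (ε ^ p) * uOp p (nT ζ p h) + HahnSeries.C (p * ε) * h' := by
  obtain ⟨h', ⟨u, hu⟩, he⟩ := nT_one_add hA hζ hε hh
  refine ⟨uOp p h', ⟨_, red_uOp hA hζ hu⟩, ?_⟩
  rw [he, uOp_add, uOp_add, uOp_C_mul, uOp_C_mul, uOp_one]

theorem uOp_nT_mem_VL (hA : A.LiesOverPrime p) (hζ : IsPrimitiveRoot ζ p)
    {h : LaurentSeries K} (hh : h ∈ VL A) : uOp p (nT ζ p h) ∈ VL A := by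
  obtain ⟨u, hu⟩ := hh
  exact ⟨_, red_uOp hA hζ (red_nT hA hζ.pow_eq_one hu)⟩

theorem qExpand_mem_VL (n : ℕ) [NeZero n] {h : LaurentSeries K} (hh : h ∈ VL A) :
    qExpand K n h ∈ VL A := by
  obtain ⟨u, hu⟩ := hh
  exact ⟨_, hu.qExpand n⟩

theorem tP_level {π : K} (hπ : π ∈ A) {e' : ℕ} (he' : 1 ≤ e') (hr : Ram A π p e')
    (hA : A.LiesOverPrime p) (hζ : IsPrimitiveRoot ζ p) {i : ℕ} (hi : 1 ≤ i)
    {g h : LaurentSeries K} (hh : h ∈ VL A) (hg : g - 1 = HahnSeries.C (π ^ i) * h) :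
    tP ζ p g - 1 - HahnSeries.C (π ^ i) * qExpand K p h ∈ cg A (π ^ (i + 1)) := by
  have hp2 := hp.out.two_le
  have hg' : g = 1 + HahnSeries.C (π ^ i) * h := by rw [← hg]; ring
  obtain ⟨h', hh', he⟩ := uOp_nT_one_add hA hζ (pow_mem hπ i) hh
  have hN := uOp_nT_mem_VL hA hζ hh
  have h1 : uOp p (nT ζ p (1 + HahnSeries.C (π ^ i) * h)) - 1 ∈ cg A (π ^ (i + 1)) := by
    rw [he]
    have h2 : 1 + HahnSeries.C ((π ^ i) ^ p) * uOp p (nT ζ p h) +
        HahnSeries.C ((p : K) * π ^ i) * h' - 1 =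
        HahnSeries.C (π ^ (i * p)) * uOp p (nT ζ p h) +
        HahnSeries.C (p : K) * (HahnSeries.C (π ^ i) * h') := by
      rw [← pow_mul, map_mul]; ring
    rw [h2]
    refine add_mem (cg_pow_mono hπ ?_ (C_mul_mem_cg hN)) (natCast_pow_mul_mem_cg hπ hr ?_ hh')
    · nlinarith
    · have : 1 ≤ (p - 1) * e' := Nat.one_le_iff_ne_zero.mpr (mul_ne_zero (by omega) (by omega))
      omega
  have h3 : tP ζ p g - 1 - HahnSeries.C (π ^ i) * qExpand K p h =
      qExpand K p g * (uOp p (nT ζ p (1 + HahnSeries.C (π ^ i) * h)) - 1) := by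
    rw [tP, hg', map_add, map_one, map_mul, qExpand_C]
    ring
  rw [h3]
  refine mul_cg_mem ?_ h1
  rw [hg']
  exact qExpand_mem_VL p (add_mem (one_mem _) (mul_mem (C_mem_VL (pow_mem hπ i)) hh))

end Level

/-! ### Equivalence of functions modulo constants and `m`-th powers -/

section Eqv

/-- equality modulo constants and `m`-th powers of functions of level `M` -/
def Eqv (K : Type*) [Field K] (M m : ℕ) (f g : LaurentSeries K) : Prop :=
  ∃ c : K, c ≠ 0 ∧ ∃ u ∈ modularFunctionFieldFullC K M, u ≠ 0 ∧ f = HahnSeries.C c * u ^ m * g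

variable {M m : ℕ} {f g h f' g' : LaurentSeries K}

theorem Eqv.refl (f : LaurentSeries K) : Eqv K M m f f :=
  ⟨1, one_ne_zero, 1, one_mem _, one_ne_zero, by rw [map_one, one_pow, one_mul, one_mul]⟩

theorem Eqv.symm (h : Eqv K M m f g) : Eqv K M m g f := by
  obtain ⟨c, hc, u, hu, hu0, rfl⟩ := h
  have hcC : (HahnSeries.C c : LaurentSeries K) ≠ 0 := (map_ne_zero _).mpr hc
  have hum : u ^ m ≠ 0 := pow_ne_zero m hu0
  refine ⟨c⁻¹, inv_ne_zero hc, u⁻¹, inv_mem hu, inv_ne_zero hu0, ?_⟩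
  rw [map_inv₀, inv_pow]
  field_simp

theorem Eqv.trans (h : Eqv K M m f g) (h' : Eqv K M m g g') : Eqv K M m f g' := by
  obtain ⟨c, hc, u, hu, hu0, rfl⟩ := h
  obtain ⟨c', hc', u', hu', hu0', rfl⟩ := h'
  exact ⟨c * c', mul_ne_zero hc hc', u * u', mul_mem hu hu', mul_ne_zero hu0 hu0', by
    rw [map_mul, mul_pow]; ring⟩

theorem Eqv.mul (h : Eqv K M m f g) (h' : Eqv K M m f' g') : Eqv K M m (f * f') (g * g') := by
  obtain ⟨c, hc, u, hu, hu0, rfl⟩ := h
  obtain ⟨c', hc', u', hu', hu0', rfl⟩ := h'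
  exact ⟨c * c', mul_ne_zero hc hc', u * u', mul_mem hu hu', mul_ne_zero hu0 hu0', by
    rw [map_mul, mul_pow]; ring⟩

theorem Eqv.C_mul {c : K} (hc : c ≠ 0) : Eqv K M m (HahnSeries.C c * f) f :=
  ⟨c, hc, 1, one_mem _, one_ne_zero, by rw [one_pow, mul_one]⟩

theorem Eqv.mul_pow {u : LaurentSeries K} (hu : u ∈ modularFunctionFieldFullC K M) (hu0 : u ≠ 0) :
    Eqv K M m (f * u ^ m) f :=
  ⟨1, one_ne_zero, u, hu, hu0, by rw [map_one]; ring⟩

theorem Eqv.tP [Algebra ℚ K] [Algebra.IsAlgebraic ℚ K] [NeZero M] (hpM : Nat.Coprime p M) (hζ : IsPrimitiveRoot ζ p)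
    (h : Eqv K M m f g) : Eqv K M m (tP ζ p f) (tP ζ p g) := by
  obtain ⟨c, hc, u, hu, hu0, rfl⟩ := h
  refine ⟨c ^ (p + 1), pow_ne_zero _ hc, P.tP ζ p u, tP_mem hpM hζ hu, tP_ne_zero hζ hu0, ?_⟩
  rw [tP_mul hζ, tP_mul hζ, tP_C hζ, tP_pow hζ]

/-- `f` has, modulo constants and `m`-th powers, level at least `i`. -/
def HasLv {K : Type*} [Field K] (A : ValuationSubring K) (π : K) (M m i : ℕ)
    (f : LaurentSeries K) : Prop :=
  ∃ g ∈ modularFunctionFieldFullC K M, Eqv K M m f g ∧ g - 1 ∈ cg A (π ^ i)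

theorem HasLv.congr {A : ValuationSubring K} {π : K} {i : ℕ} (h : HasLv A π M m i f)
    (h' : Eqv K M m g f) : HasLv A π M m i g := by
  obtain ⟨G, hG, h1, h2⟩ := h
  exact ⟨G, hG, h'.trans h1, h2⟩

end Eqv

end Fermat.Agent.P
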