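import Mathlib
import Fermat.Agent.H01.P.TOp

/-!
# The ascent of levels
-/

set_option autoImplicit false
set_option linter.unusedSectionVars false

noncomputable section

namespace Fermat.Agent.P

open ModularCurve Fermat.Agent.Igusa Fermat.Agent.Q

local notation "kk" => IsLocalRing.ResidueField

/-- iterated `V` -/
def qIter {R : Type*} [CommRing R] (p : ℕ) [NeZero p] (n : ℕ) (x : LaurentSeries R) :
    LaurentSeries R := (qExpand R p)^[n] x

section Perfect

variable {k : Type*} [Field k] {p : ℕ} [hp : Fact p.Prime] [CharP k p] [PerfectRing k p]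

/-- inverse Frobenius on coefficients -/
def fInv (k : Type*) [Field k] (p : ℕ) [Fact p.Prime] [CharP k p] [PerfectRing k p] : k →+* k :=
  ((frobeniusEquiv k p).symm : k →+* k)

theorem coeffMap_fInv_pow (x : LaurentSeries k) : (coeffMap (fInv k p) x) ^ p = qExpand k p x := by
  rw [pow_char p]
  congr 1
  ext n
  rw [coeffMap_coeff, coeffMap_coeff]
  exact frobenius_apply_frobeniusEquiv_symm k p _

theorem exists_qIter_eq (M : ℕ) (n : ℕ) {x : LaurentSeries k}
    (hx : x ∈ modularFunctionFieldFullC k M) :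
    ∃ y ∈ modularFunctionFieldFullC k M, y ^ p ^ n = qIter p n x := by
  induction n generalizing x with
  | zero => exact ⟨x, hx, by simp [qIter]⟩
  | succ n ih =>
    obtain ⟨y, hy, hyx⟩ := ih (coeffMap_mem_full (fInv k p) M hx)
    refine ⟨y, hy, ?_⟩
    rw [pow_succ, pow_mul, hyx]
    change (qIter p n (coeffMap (fInv k p) x)) ^ p = qIter p (n + 1) x
    rw [qIter, qIter, Function.iterate_succ_apply, ← coeffMap_fInv_pow x]
    clear hyx ih
    induction n with
    | zero => rfl
    | succ n ih' =>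
      rw [Function.iterate_succ_apply', Function.iterate_succ_apply', ← ih', map_pow]

end Perfect

variable {K : Type*} [Field K] [CharZero K] [Algebra ℚ K] [Algebra.IsAlgebraic ℚ K]
  {A : ValuationSubring K} {π : K} {p : ℕ} [hp : Fact p.Prime] {ζ : Kˣ} {M : ℕ} [NeZero M]

/-- **Ascent of levels.** -/
theorem ascent [PerfectRing (kk A) p] (hπ : Unif A π) {e' : ℕ} (he' : 1 ≤ e')
    (hr : Ram A π p e') (hA : A.LiesOverPrime p)
    (hζ : IsPrimitiveRoot ζ p) (hpM : Nat.Coprime p M) (k : ℕ) {X : Type*} (y : X → X)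
    (f : X → LaurentSeries K)
    (hT : ∀ x, Eqv K M (p ^ k) (tP ζ p (f (y x))) (f x)) (h1 : ∀ x, HasLv A π M (p ^ k) 1 (f x))
    {i : ℕ} (hi : 1 ≤ i) (hi' : i ≤ p * e') : ∀ x, HasLv A π M (p ^ k) i (f x) := by
  have hchar := H05.charP_residueField hp.out hA
  have hMk := natCast_residue_ne_zero hp.out hA hpM
  have hpk : p ^ k ≠ 0 := pow_ne_zero _ hp.out.ne_zero
  have hFL : ∀ z : LaurentSeries K, z ∈ modularFunctionFieldFullC K M → z ∈ FL A := fun z hz =>
    full_le_FL M hz
  have hCm : ∀ c : K, (HahnSeries.C c : LaurentSeries K) ∈ modularFunctionFieldFullC K M := by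
    intro c
    rw [← algebraMap_eq_C]
    exact (modularFunctionFieldFullC K M).algebraMap_mem c
  have hres : ∀ j, 1 ≤ j → ∃ h : π ^ j ∈ A, IsLocalRing.residue A ⟨π ^ j, h⟩ = 0 := by
    intro j hj
    refine ⟨pow_mem hπ.mem j, ?_⟩
    have : (⟨π ^ j, pow_mem hπ.mem j⟩ : A) = ⟨π, hπ.mem⟩ ^ j := Subtype.ext rfl
    rw [this, map_pow, hπ.res, zero_pow (by omega)]
  induction i, hi using Nat.le_induction with
  | base => exact h1
  | succ i hi ih =>
    have ih := ih (by omega)
    have hlt : i < p * e' := by omega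
    choose g hg hfg hgi using ih
    choose h hh hgh using hgi
    obtain ⟨hπi, hπi0⟩ := hres i hi
    -- reductions
    have hhmem : ∀ x, h x ∈ modularFunctionFieldFullC K M := by
      intro x
      have h2 : h x = HahnSeries.C (π ^ i)⁻¹ * (g x - 1) := by
        rw [hgh, ← mul_assoc, ← map_mul, inv_mul_cancel₀ (pow_ne_zero _ hπ.ne), map_one, one_mul]
      rw [h2]
      exact mul_mem (hCm _) (sub_mem (hg x) (one_mem _))
    choose hb hhb using hh
    have hbmem : ∀ x, hb x ∈ modularFunctionFieldFullC (kk A) M := fun x =>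
      red_mem_full hp.out hA hMk (hhmem x) (hhb x)
    have hTlev : ∀ x, tP ζ p (g x) - 1 - HahnSeries.C (π ^ i) * qExpand K p (h x) ∈
        cg A (π ^ (i + 1)) := fun x =>
      tP_level hπ.mem he' hr hA hζ hi ⟨_, hhb x⟩ (hgh x)
    have hTg : ∀ x, Eqv K M (p ^ k) (tP ζ p (g (y x))) (g x) := fun x =>
      ((hfg (y x)).symm.tP hpM hζ).trans ((hT x).trans (hfg x))
    by_cases hki : p ^ k ∣ i
    · -- the case `p^k ∣ i`
      have claim : ∀ n x, ∃ G ∈ modularFunctionFieldFullC K M, Eqv K M (p ^ k) (f x) G ∧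
          ∃ w, G - 1 = HahnSeries.C (π ^ i) * w ∧
            ∃ v ∈ modularFunctionFieldFullC (kk A) M, Red A w (qIter p n v) := by
        intro n
        induction n with
        | zero =>
          intro x
          exact ⟨g x, hg x, hfg x, h x, hgh x, hb x, hbmem x, hhb x⟩
        | succ n ihn =>
          intro x
          obtain ⟨G, hG, hfG, w, hw, v, hv, hwv⟩ := ihn (y x)
          have h3 := tP_level hπ.mem he' hr hA hζ hi ⟨_, hwv⟩ hw
          obtain ⟨s, hs, hse⟩ := h3
          refine ⟨tP ζ p G, tP_mem hpM hζ hG, (hT x).symm.trans (hfG.tP hpM hζ),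
            qExpand K p w + HahnSeries.C π * s, ?_, v, hv, ?_⟩
          · rw [mul_add, ← mul_assoc, ← map_mul, ← pow_succ, ← hse]; ring
          · have h4 := (hwv.qExpand p).add (red_zero_of_mem_cg hπ.mem hπ.res (C_mul_mem_cg hs))
            rw [add_zero] at h4
            rw [qIter, Function.iterate_succ_apply']
            exact h4
      intro x
      obtain ⟨G, hG, hfG, w, hw, v, hv, hwv⟩ := claim k x
      obtain ⟨v', hv', hvv'⟩ := exists_qIter_eq (p := p) M k hv
      obtain ⟨c, hc, hcr⟩ := exists_lift (K := K) M hv'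
      obtain ⟨j, rfl⟩ := hki
      obtain ⟨s, hs, hse⟩ := pw1 hπ.mem hr (J := j) (w := c) ⟨_, hcr⟩ k hlt
      set D := (1 + HahnSeries.C (π ^ j) * c) with hD
      have hDm : D ∈ modularFunctionFieldFullC K M :=
        add_mem (one_mem _) (mul_mem (hCm _) hc)
      have hDpow : D ^ p ^ k - 1 ∈ cg A (π ^ (p ^ k * j)) := by
        rw [hse, add_sub_cancel_left]
        exact C_mul_mem_cg (add_mem (pow_mem (show c ∈ VL A from ⟨_, hcr⟩) _) (mul_mem (C_mem_VL hπ.mem) hs))
      obtain ⟨hi1, hi2, hi3⟩ := inv_sub_one_mem hπi hπi0 hDpow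
      have hD0 : D ≠ 0 := by
        intro h0
        rw [h0, zero_pow hpk] at hi2
        exact hi2 rfl
      refine ⟨G * (D⁻¹) ^ p ^ k, mul_mem hG (pow_mem (inv_mem hDm) _),
        hfG.trans (Eqv.mul_pow (inv_mem hDm) (inv_ne_zero hD0)).symm, ?_⟩
      have h5 : G * (D⁻¹) ^ p ^ k - 1 = (D ^ p ^ k)⁻¹ * (G - D ^ p ^ k) := by
        rw [inv_pow, mul_sub, inv_mul_cancel₀ hi2]; ring
      rw [h5]
      refine mul_cg_mem hi3 ?_
      have h6 : G - D ^ p ^ k = HahnSeries.C (π ^ (p ^ k * j)) * (w - c ^ p ^ k - HahnSeries.C π * s) := by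
        rw [hse]; linear_combination hw
      have hredw : Red A (w - c ^ p ^ k - HahnSeries.C π * s) 0 := by
        have h7 := (hwv.sub (hcr.pow (p ^ k))).sub
          (red_zero_of_mem_cg hπ.mem hπ.res (C_mul_mem_cg hs))
        rwa [hvv', sub_self, sub_self] at h7
      exact hπ.mem_cg_succ hp.out hA (sub_mem (hFL _ hG) (hFL _ (pow_mem hDm _))) h6 hredw
    · -- the case `p^k ∤ i`
      have step : ∀ x, ∃ a : kk A, hb x = HahnSeries.C a + qExpand (kk A) p (hb (y x)) := by
        intro x
        obtain ⟨c, hc, u, hu, hu0, hcu⟩ := (hTg x).symm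
        have hTlev' : tP ζ p (g (y x)) - 1 ∈ cg A (π ^ i) := by
          have h3 : tP ζ p (g (y x)) - 1 = (tP ζ p (g (y x)) - 1 -
            HahnSeries.C (π ^ i) * qExpand K p (h (y x))) +
              HahnSeries.C (π ^ i) * qExpand K p (h (y x)) := by ring
          rw [h3]
          exact add_mem (cg_pow_mono hπ.mem (Nat.le_succ i) (hTlev (y x)))
            (C_mul_mem_cg (qExpand_mem_VL p ⟨_, hhb _⟩))
        obtain ⟨hi1, hi2, hi3⟩ := inv_sub_one_mem hπi hπi0 hTlev'
        have hgx : g x - 1 ∈ cg A (π ^ i) := by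
          rw [hgh]
          exact C_mul_mem_cg ⟨_, hhb _⟩
        have h4 : HahnSeries.C c * u ^ p ^ k = g x * (tP ζ p (g (y x)))⁻¹ := by
          rw [hcu, mul_assoc, mul_inv_cancel₀ hi2, mul_one]
        have h5 : HahnSeries.C c * u ^ p ^ k - 1 ∈ cg A (π ^ i) := by
          rw [h4]
          exact mul_sub_one_mem hπi hgx hi1
        obtain ⟨a, ha, h6⟩ := leading_pow hπ hA hr (hFL _ hu) hu0 hc k hi hlt hki h5
        obtain ⟨s, hs, hse⟩ := h6
        obtain ⟨s', hs', hse'⟩ := hTlev (y x)
        refine ⟨IsLocalRing.residue A ⟨a, ha⟩, ?_⟩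
        -- `g x = C c u^m * tP`
        have h7 : HahnSeries.C (π ^ i) * (h x - HahnSeries.C a - qExpand K p (h (y x))) ∈
            cg A (π ^ (i + 1)) := by
          have h8 : HahnSeries.C (π ^ i) * (h x - HahnSeries.C a - qExpand K p (h (y x))) =
              HahnSeries.C (π ^ (i + 1)) * s * tP ζ p (g (y x)) +
              HahnSeries.C (π ^ (i + 1)) * s' +
              HahnSeries.C (π ^ i * a) * (tP ζ p (g (y x)) - 1) := by
            have e1 : HahnSeries.C c * u ^ p ^ k = 1 + HahnSeries.C (π ^ i * a) +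
                HahnSeries.C (π ^ (i + 1)) * s := by rw [← hse]; ring
            have e2 : g x = 1 + HahnSeries.C (π ^ i) * h x := by rw [← hgh]; ring
            rw [e1, e2] at hcu
            have e3 : (HahnSeries.C (π ^ i * a) : LaurentSeries K) =
                HahnSeries.C (π ^ i) * HahnSeries.C a := map_mul _ _ _
            rw [e3] at hcu ⊢
            linear_combination hcu + hse'
          rw [h8]
          refine add_mem (add_mem ?_ (C_mul_mem_cg hs')) ?_
          · rw [mul_assoc]
            refine C_mul_mem_cg (mul_mem hs ?_)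
            have h9 : tP ζ p (g (y x)) = (tP ζ p (g (y x)) - 1) + 1 := by ring
            rw [h9]
            exact add_mem (cg_le_VL hπi hTlev') (one_mem _)
          · have h10 : HahnSeries.C (π ^ i * a) * (tP ζ p (g (y x)) - 1) ∈
                cg A (π ^ i * π ^ i) := by
              have h11 : (HahnSeries.C (π ^ i * a) : LaurentSeries K) ∈ cg A (π ^ i) := by
                rw [map_mul]; exact C_mul_mem_cg (C_mem_VL ha)
              exact cg_mul_cg h11 hTlev'
            rw [← pow_add] at h10
            exact cg_pow_mono hπ.mem (by omega) h10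
        have h8 := hπ.red_zero_of_mem h7
        have h9 := (((hhb x).sub (Red.C ha)).sub ((hhb (y x)).qExpand p)).unique h8
        linear_combination h9
      have hcoef : ∀ n x (m : ℤ), m ≠ 0 → ¬ (p : ℤ) ^ n ∣ m → (hb x).coeff m = 0 := by
        intro n
        induction n with
        | zero =>
          intro x m _ h
          exact absurd (by simp) h
        | succ n ihn =>
          intro x m hm h
          obtain ⟨a, ha⟩ := step x
          rw [ha, HahnSeries.coeff_add, HahnSeries.C_apply, HahnSeries.coeff_single_of_ne hm,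
            zero_add]
          by_cases hpm : (p : ℤ) ∣ m
          · obtain ⟨m', rfl⟩ := hpm
            rw [qExpand_coeff_mul]
            refine ihn (y x) m' (fun h0 => hm (by rw [h0, mul_zero])) fun hd => h ?_
            rw [pow_succ']
            exact mul_dvd_mul_left _ hd
          · exact qExpand_coeff_of_not_dvd p _ hpm
      intro x
      have hconst : hb x = HahnSeries.C ((hb x).coeff 0) := by
        ext m
        rw [HahnSeries.C_apply, HahnSeries.coeff_single]
        split_ifs with hm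
        · rw [hm]
        · obtain ⟨n, hn⟩ : ∃ n : ℕ, ¬ (p : ℤ) ^ n ∣ m := by
            refine ⟨m.natAbs, fun hd => ?_⟩
            have h3 := Int.natAbs_dvd_natAbs.mpr hd
            rw [Int.natAbs_pow, Int.natAbs_natCast] at h3
            have h4 := Nat.le_of_dvd (Int.natAbs_pos.mpr hm) h3
            exact absurd h4 (not_le.mpr (Nat.lt_pow_self hp.out.one_lt))
          exact hcoef n x m hm hn
      have hhx := hhb x
      rw [hconst] at hhx
      obtain ⟨a, ha, hay⟩ := hπ.sub_C_mem hA (hFL _ (hhmem x)) hhx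
      have hmem1 : 1 + π ^ i * a ∈ A := add_mem (one_mem A) (mul_mem hπi ha)
      have hlev1 : (HahnSeries.C (1 + π ^ i * a) : LaurentSeries K) - 1 ∈ cg A (π ^ i) := by
        rw [map_add, map_one, add_sub_cancel_left, map_mul]
        exact C_mul_mem_cg (C_mem_VL ha)
      obtain ⟨hi1, hi2, hi3⟩ := inv_sub_one_mem hπi hπi0 hlev1
      have hne1 : (1 + π ^ i * a) ≠ 0 := fun h0 => hi2 (by rw [h0, map_zero])
      refine ⟨HahnSeries.C (1 + π ^ i * a)⁻¹ * g x, mul_mem (hCm _) (hg x),
        (hfg x).trans (Eqv.C_mul (inv_ne_zero hne1)).symm, ?_⟩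
      have h5 : HahnSeries.C (1 + π ^ i * a)⁻¹ * g x - 1 =
          (HahnSeries.C (1 + π ^ i * a))⁻¹ * (HahnSeries.C (π ^ i) * (h x - HahnSeries.C a)) := by
        have h6 : HahnSeries.C (π ^ i) * (h x - HahnSeries.C a) = g x -
            HahnSeries.C (1 + π ^ i * a) := by
          rw [map_add, map_one, map_mul]
          linear_combination (-1 : LaurentSeries K) * hgh x
        rw [h6, mul_sub, inv_mul_cancel₀ hi2, map_inv₀]
      rw [h5]
      refine mul_cg_mem hi3 ?_
      obtain ⟨s, hs, hse⟩ := hay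
      rw [hse, ← mul_assoc, ← map_mul, ← pow_succ]
      exact C_mul_mem_cg hs

end Fermat.Agent.P
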