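import Fermat.Agent.H01.P.WildE
import Fermat.Agent.Q.ToricAll

/-!
# Inertia acts through the cyclotomic character on classes of level `≥ p/(p-1)` of `J₀(M p)`
-/

set_option autoImplicit false
set_option linter.style.haveILetI false
set_option linter.unusedSectionVars false
set_option maxSynthPendingDepth 3

noncomputable section

attribute [-instance] HahnSeries.instModule HahnSeries.instSMul HahnSeries.instDistribMulAction
  HahnSeries.instSMulZeroClass

namespace Fermat.Agent.P

open ModularCurve IsLocalRing AlgebraicCurve Module Fermat.Agent.H11Q Fermat.Agent.Q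

local notation "Qb" => AlgebraicClosure ℚ

theorem isAlgebraic_int (K : Type*) [Field K] [CharZero K] [Algebra ℚ K]
    [Algebra.IsAlgebraic ℚ K] : Algebra.IsAlgebraic ℤ K := by
  rw [IsFractionRing.comap_isAlgebraic_iff (A := ℤ) (K := ℚ) (C := K)]
  infer_instance

section Abs

variable {K : Type*} [Field K] [CharZero K] [IsAlgClosed K] [Algebra ℚ K]
  [Algebra.IsAlgebraic ℚ K] {p : ℕ} [hp : Fact p.Prime] {D : ALData K p}
  {A : ValuationSubring K} {Eb : IntermediateField (ResidueField A) (LaurentSeries (ResidueField A))}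
  {ζ u w : K}

theorem gal_smul_eq (R : D.RedHyp A Eb) (lp : LevelPack A D.S₀ Eb p) (G : D.Gal)
    (hw : Varpi A p ζ u w) [HasPrincipalDivisors K D.S] (hv : ∃ v : Place K D.S, v.deg = 1)
    (hσA : ∀ a ∈ A, G.σ a ∈ A) (hσr : ∀ a ∈ A, resid A (G.σ a) = resid A a)
    {x : Pic0 K D.S} {f f' : D.S} (hf : H05.Kum p x f)
    (hf1 : (f : LaurentSeries K) - 1 ∈ cg A (w ^ p)) (hf' : H05.Kum p (D.W • x) f')
    (hf'1 : (f' : LaurentSeries K) - 1 ∈ cg A (w ^ p)) {a : ℕ} (ha : G.σ ζ = ζ ^ a) :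
    G.g • x = a • x := by
  have hp0 := hp.out.ne_zero
  have hA := R.lies
  haveI : FF.FunField K D.S := R.fun₁
  haveI := isAlgebraic_int K
  obtain ⟨v, hv⟩ := hv
  have h2 := hf'.smul D.W
  rw [← mul_smul, D.W_mul_self, one_smul] at h2
  obtain ⟨g, hg0, hg⟩ := H05.Kum.exists_of_eq hv hp0 h2 hf
  set T : TwoComp K A D.S := R.twoComp lp with hT
  have hqA := natCast_nonunits (p := p) hA
  obtain ⟨ν, -⟩ := (R.raw lp).exists_nodeData hp.out hqA
  obtain ⟨z, hz0, h, hh⟩ := wild_main (T := T) ν hA hw (f := f) hf.ne_zero hf.dvd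
    (g := ![1, g]) (by
      intro j
      rcases fin2_cases j with rfl | rfl
      · change (((1 : D.S) ^ p * f : D.S) : LaurentSeries K) - 1 ∈ _
        rw [one_pow, one_mul]
        exact hf1
      · change D.e 1 (g ^ p * f) - 1 ∈ _
        rw [mul_comm, ← hg]
        have h3 : D.e 1 (D.W • f') = (f' : LaurentSeries K) := D.e_one_w f'
        rw [h3]
        exact hf'1)
    (σ := G.σ) (S := (SemilinearAut.toRingAut G.g).toRingHom) hσA hσr
    (fun c z => by
      apply Subtype.ext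
      have h3 := G.g_coe (c • z)
      have h4 := G.g_coe z
      change ((G.g • (c • z) : D.S) : LaurentSeries K) =
        ((G.σ c • (G.g • z) : D.S) : LaurentSeries K)
      rw [h3, Algebra.smul_def, Algebra.smul_def]
      push_cast
      rw [map_mul, ← h4]
      congr 1
      change coeffMap G.σ (algebraMap K (LaurentSeries K) c) =
        algebraMap K (LaurentSeries K) (G.σ c)
      exact coeffMap_algebraMap _ _)
    (fun z hz => G.rg_smul (z := z) hz) (fun j z => G.e_smul j z)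
    (fun v => ALData.smul_dvd G.g p f hf.dvd v) (a := a) ha
  have hz' : H05.Kum p x (z ^ p * f) := by
    rw [mul_comm]
    exact hf.mul_pow' hz0
  have h3 := (hz'.smul G.g).mul (kum_nsmul hz' (a * (p - 1)))
  have h4 : (G.g • (z ^ p * f)) * (z ^ p * f) ^ (a * (p - 1)) = h ^ p := hh.symm
  rw [h4] at h3
  have hh0 : h ≠ 0 := by
    rintro rfl
    rw [zero_pow hp0] at h3
    exact h3.ne_zero rfl
  have h5 := h3.unique_left hp0 (H05.kum_zero_pow p hh0)
  have hpx : p • x = 0 := hf.nsmul_eq_zero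
  have h6 : (a * (p - 1)) • x + a • x = 0 := by
    have h7 : a * (p - 1) + a = a * p := by
      obtain ⟨m, hm⟩ : ∃ m, p = m + 1 := ⟨p - 1, by have := hp.out.pos; omega⟩
      rw [hm, Nat.add_sub_cancel]
      ring
    rw [← add_nsmul, h7, mul_comm, mul_nsmul, hpx, smul_zero]
  have h7 := eq_neg_of_add_eq_zero_left h5
  have h8 := eq_neg_of_add_eq_zero_right h6
  rw [h7, h8]

end Abs

/-- classes of level `≥ v(ε)` -/
def lvl (A : ValuationSubring Qb) (N m : ℕ) [NeZero N] (ε : Qb) : Set (JZero N) :=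
  {x | ∃ f : modularFunctionFieldBar N, H05.Kum m x f ∧ (f : LaurentSeries Qb) - 1 ∈ cg A ε}

variable {A : ValuationSubring Qb} {M p : ℕ} [NeZero M] [hp : Fact p.Prime] {ζ u w : Qb}

theorem inertia_lvl_pack (hrM : Nat.Coprime p M) (hA : A.LiesOverPrime p)
    (lp : LevelPack A (modularFunctionFieldBar M) (modularFunctionFieldFullC (ResidueField A) M) p)
    (hw : Varpi A p ζ u w) {x : JZero (M * p)} (h0 : x ∈ lvl A (M * p) p (w ^ p))
    (h1 : wS M p hrM • x ∈ lvl A (M * p) p (w ^ p)) {σ : Qb ≃ₐ[ℚ] Qb}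
    (hσ : σ ∈ A.inertiaSubgroupIn ℚ) {a : ℕ} (ha : σ ζ = ζ ^ a) : σ • x = a • x := by
  obtain ⟨f, hf, hf1⟩ := h0
  obtain ⟨f', hf', hf'1⟩ := h1
  haveI : HasPrincipalDivisors Qb (alData M p hrM).S := H05.hasPrincipalDivisors_bc Qb (M * p)
  have h := gal_smul_eq (redHyp hrM hA) lp (galB hrM σ) hw
    ⟨M5.cInf Qb (M * p), H05.deg_eq_one_bc Qb (M * p) _⟩
    (fun a ha => (inertia_resid hσ a ha).1) (fun a ha => (inertia_resid hσ a ha).2) hf hf1 hf' hf'1
    (a := a) ha
  rw [galois_smul_pic0_def]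
  exact h

end Fermat.Agent.P
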