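import Fermat.Agent.Q.ToricAll
import Fermat.Agent.H01.P.UOp
import Fermat.Agent.H01.P.WildF

/-!
# The pull-back of classes along a degeneracy map is injective on torsion
-/

set_option autoImplicit false
set_option linter.style.haveILetI false
set_option linter.unusedSectionVars false
set_option maxSynthPendingDepth 3

noncomputable section

namespace Fermat.Agent.P

open ModularCurve AlgebraicCurve Fermat.Agent.Igusa Fermat.Agent.Q

local notation "Qb" => AlgebraicClosure ℚ

section Generic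

variable {E F Ω : Type*} [Field E] [Field F] [Field Ω]

theorem algebraMap_trace_eq_sum [Algebra E F] [FiniteDimensional E F] [Algebra.IsSeparable E F]
    {ι : Type*} [Fintype ι] (i₀ : ι) (τ : ι → (F →+* Ω)) (hτ : Function.Injective τ)
    (hcomp : ∀ i, (τ i).comp (algebraMap E F) = (τ i₀).comp (algebraMap E F))
    (hcard : Fintype.card ι = Module.finrank E F) (z : F) :
    τ i₀ (algebraMap E F (Algebra.trace E F z)) = ∑ i, τ i z := by
  classical
  letI : Algebra E Ω := ((τ i₀).comp (algebraMap E F)).toAlgebra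
  have halg : ∀ e, algebraMap E Ω e = τ i₀ (algebraMap E F e) := fun e => rfl
  let Ω' := AlgebraicClosure Ω
  haveI : IsScalarTower E Ω Ω' := inferInstance
  let T : ι → (F →ₐ[E] Ω') := fun i =>
    { (algebraMap Ω Ω').comp (τ i) with
      commutes' := fun e => by
        change algebraMap Ω Ω' (τ i (algebraMap E F e)) = algebraMap E Ω' e
        rw [IsScalarTower.algebraMap_apply E Ω Ω', halg]
        exact congrArg _ (congrArg (fun f : E →+* Ω => f e) (hcomp i)) }
  have hT : ∀ i x, T i x = algebraMap Ω Ω' (τ i x) := fun i x => rfl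
  have hTinj : Function.Injective T := by
    intro i j hij
    apply hτ
    ext x
    apply (algebraMap Ω Ω').injective
    rw [← hT, ← hT, hij]
  have hbij : Function.Bijective T := by
    rw [Fintype.bijective_iff_injective_and_card]
    refine ⟨hTinj, ?_⟩
    rw [hcard, AlgHom.card]
  apply (algebraMap Ω Ω').injective
  rw [map_sum]
  have h1 := trace_eq_sum_embeddings (K := E) (L := F) Ω' (x := z)
  rw [IsScalarTower.algebraMap_apply E Ω Ω', halg] at h1
  rw [h1]
  exact (Fintype.sum_bijective T hbij _ _ (fun i => (hT i z).symm)).symm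

theorem exists_trace_inclusion {K L : Type*} [Field K] [Field L] [Algebra K L] [CharZero K]
    (A B : IntermediateField K L) (h : A ≤ B) {Ω : Type*} [Field Ω]
    {ι : Type*} [Fintype ι] (i₀ : ι) (τ : ι → (B →+* Ω)) (hτ : Function.Injective τ)
    (hcomp : ∀ i (x : A), τ i (IntermediateField.inclusion h x) =
      τ i₀ (IntermediateField.inclusion h x))
    (hcard : A.relrank B = (Fintype.card ι : Cardinal)) (z : B) :
    ∃ y : A, τ i₀ (IntermediateField.inclusion h y) = ∑ i, τ i z := by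
  letI := algebraAlong (IntermediateField.inclusion h)
  have hfin : Module.finrank A B = Fintype.card ι := by
    apply Module.finrank_eq_of_rank_eq
    rw [rank_along_inclusion A B h, hcard]
  haveI : Nonempty ι := ⟨i₀⟩
  haveI : FiniteDimensional A B :=
    FiniteDimensional.of_finrank_pos (by rw [hfin]; exact Fintype.card_pos)
  haveI : CharZero A := charZero_of_injective_algebraMap (algebraMap K A).injective
  exact ⟨_, algebraMap_trace_eq_sum (E := A) i₀ τ hτ
    (fun i => RingHom.ext fun x => hcomp i x) hfin.symm z⟩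

end Generic

theorem twist_one_eq {R : Type*} [CommRing R] (x : LaurentSeries R) :
    twist (1 : Rˣ) x = x := by
  ext n
  rw [twist_coeff]
  simp

section Level

variable (K : Type*) [Field K] (M : ℕ) {r : ℕ} [NeZero M] [hr : Fact r.Prime]
  [CharZero K] [Algebra ℚ K] [Algebra.IsAlgebraic ℚ K]

theorem trace_formula (hQM : Nat.Coprime r M) {ζ : Kˣ} (hζ : IsPrimitiveRoot ζ r)
    (z : modularFunctionFieldFullC K (M * r)) :
    ∃ y ∈ modularFunctionFieldFullC K M, qExpand K r y =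
      qExpand K r z + ∑ b : ZMod r, twist (ζ ^ b.val) (wQ K hQM z : LaurentSeries K) := by
  have hrM : ¬ r ∣ M := by
    rw [← hr.out.coprime_iff_not_dvd]; exact hQM
  obtain ⟨y, h⟩ := exists_trace_inclusion (modularFunctionFieldFullC K M)
    (modularFunctionFieldFullC K (M * r)) (full_degeneracyC_le K (dvd_mul_right M r))
    (none : Option (ZMod r)) (tau K M hQM ζ) (tau_injective K M hQM hζ) (fun i x => by
      rw [← incl, tau_incl K M hQM hζ.pow_eq_one, tau_incl K M hQM hζ.pow_eq_one])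
    (by rw [relrank_incl K M r hrM, Fintype.card_option, ZMod.card]) z
  rw [Fintype.sum_option, ← incl, tau_incl K M hQM hζ.pow_eq_one, tau_none] at h
  exact ⟨y, y.2, h⟩

/-- an `m`-th root at level `M r` of a function of level `M` has level `M` -/
theorem mem_full_of_pow_mem [IsAlgClosed K] (hQM : Nat.Coprime r M) {m : ℕ} (hm : m ≠ 0)
    {z : LaurentSeries K} (hz : z ∈ modularFunctionFieldFullC K (M * r))
    (hzm : z ^ m ∈ modularFunctionFieldFullC K M) : z ∈ modularFunctionFieldFullC K M := by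
  haveI : NeZero (r : K) := ⟨by exact_mod_cast hr.out.ne_zero⟩
  obtain ⟨ζ', hζ'⟩ := HasEnoughRootsOfUnity.exists_primitiveRoot K r
  have hζ0 : ζ' ≠ 0 := hζ'.ne_zero hr.out.ne_zero
  set ζ : Kˣ := Units.mk0 ζ' hζ0 with hζd
  have hζ : IsPrimitiveRoot ζ r := by
    rw [← IsPrimitiveRoot.coe_units_iff]
    exact hζ'
  by_cases hz0 : z = 0
  · rw [hz0]; exact zero_mem _
  set Z : modularFunctionFieldFullC K (M * r) := ⟨z, hz⟩ with hZ
  have hQz0 : qExpand K r z ≠ 0 := by
    rw [Ne, map_eq_zero_iff _ (qExpand_injective _)]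
    exact hz0
  -- the twists
  have hpow : ∀ b : ZMod r, (twist (ζ ^ b.val) (wQ K hQM Z : LaurentSeries K)) ^ m =
      (qExpand K r z) ^ m := by
    intro b
    have h1 := tau_incl K M hQM hζ.pow_eq_one (some b) ⟨z ^ m, hzm⟩
    have h2 : incl K M r ⟨z ^ m, hzm⟩ = Z ^ m := Subtype.ext (coe_incl K M r _)
    rw [h2, map_pow, tau_some] at h1
    rw [h1]
    exact map_pow _ _ _
  have hrat : ∀ b : ZMod r, ∃ c : K, c ^ m = 1 ∧
      twist (ζ ^ b.val) (wQ K hQM Z : LaurentSeries K) = HahnSeries.C c * qExpand K r z := by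
    intro b
    set Y := twist (ζ ^ b.val) (wQ K hQM Z : LaurentSeries K) with hY
    have h1 : (Y / qExpand K r z) ^ m = 1 := by
      rw [div_pow, hpow, div_self (pow_ne_zero _ hQz0)]
    haveI : NeZero (m : K) := ⟨by exact_mod_cast hm⟩
    haveI : NeZero m := ⟨hm⟩
    obtain ⟨ξ, hξ⟩ := HasEnoughRootsOfUnity.exists_primitiveRoot K m
    have hξ' : IsPrimitiveRoot (HahnSeries.C ξ : LaurentSeries K) m :=
      hξ.map_of_injective HahnSeries.C_injective
    obtain ⟨i, -, hi⟩ := hξ'.eq_pow_of_pow_eq_one h1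
    refine ⟨ξ ^ i, by rw [← pow_mul, mul_comm, pow_mul, hξ.pow_eq_one, one_pow], ?_⟩
    rw [map_pow, hi, div_mul_cancel₀ _ hQz0]
  choose c hc1 hc using hrat
  have hcc : ∀ b, c b = c 0 := by
    intro b
    have h1 := hc b
    have h0 := hc 0
    rw [ZMod.val_zero, pow_zero, twist_one_eq] at h0
    have h2 : twist (ζ ^ b.val) (HahnSeries.C (c 0) * qExpand K r z) =
        HahnSeries.C (c b) * qExpand K r z := by
      rw [← h0, h1]
    have h3 : twist (ζ ^ b.val) (qExpand K r z) = qExpand K r z :=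
      twist_qExpand _ _ (by rw [← pow_mul, mul_comm, pow_mul, hζ.pow_eq_one, one_pow]) _
    rw [map_mul, h3, twist_C] at h2
    exact (HahnSeries.C_injective (mul_right_cancel₀ hQz0 h2)).symm
  obtain ⟨y, hy, hyz⟩ := trace_formula K M hQM hζ Z
  have h1 : qExpand K r y = qExpand K r (HahnSeries.C (1 + r * c 0) * z) := by
    rw [hyz, Finset.sum_congr rfl (fun b _ => (hc b).trans (by rw [hcc b])), Finset.sum_const,
      Finset.card_univ, ZMod.card, map_mul, qExpand_C, map_add, map_one, map_mul, map_natCast,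
      nsmul_eq_mul]
    ring
  have h2 := qExpand_injective _ h1
  have h3 : (1 + (r : K) * c 0) ≠ 0 := by
    intro h
    have h4 : ((r : K) * c 0) ^ m = (-1) ^ m := by
      rw [← eq_neg_of_add_eq_zero_right h]
    rw [mul_pow, hc1, mul_one] at h4
    have h5 : ((r : K) ^ m) ^ 2 = 1 := by rw [h4, ← pow_mul, mul_comm, pow_mul]; norm_num
    have h6 : ((r ^ m) ^ 2 : ℕ) = 1 := by exact_mod_cast h5
    have h7 : 1 < (r ^ m) ^ 2 := Nat.one_lt_pow two_ne_zero (Nat.one_lt_pow hm hr.out.one_lt)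
    omega
  have h4 : z = HahnSeries.C (1 + (r : K) * c 0)⁻¹ * y := by
    rw [h2, ← mul_assoc, ← map_mul, inv_mul_cancel₀ h3, map_one, one_mul]
  rw [h4, ← algebraMap_eq_C]
  exact mul_mem ((modularFunctionFieldFullC K M).algebraMap_mem _) hy

end Level

section Pull

variable {N N' : ℕ} [NeZero N] [NeZero N']

/-- the pull-back `J₀(N) → J₀(N ℓ)` is injective on torsion -/
theorem eq_zero_of_pullN {ℓ : ℕ} [Fact ℓ.Prime] (hN' : N' = N * ℓ) (hℓ : ¬ ℓ ∣ N) (h : N ∣ N')
    {m : ℕ} (hm : m ≠ 0) {x : JZero N} (hx : m • x = 0)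
    (h0 : pullN hN' h x = 0) : x = 0 := by
  obtain ⟨v, -⟩ := H05.exists_place_infinity_bc Qb N'
  obtain ⟨f, hf⟩ := H05.exists_kum hx
  have h1 := kum_pullN hN' h hf
  rw [h0] at h1
  obtain ⟨g, hg, hfg⟩ := h1.exists_pow_of_zero (H05.deg_eq_one_bc Qb N' v) hm
  have hcop : Nat.Coprime ℓ N := (Fact.out : ℓ.Prime).coprime_iff_not_dvd.mpr hℓ
  have h2 : (f : LaurentSeries Qb) = (g : LaurentSeries Qb) ^ m := by
    rw [← coe_incN h f, hfg]
    rfl
  have h3 : (g : LaurentSeries Qb) ∈ modularFunctionFieldFullC Qb N := by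
    subst hN'
    refine mem_full_of_pow_mem Qb N hcop hm (mem_full_of_bar g.2) ?_
    rw [← h2]
    exact mem_full_of_bar f.2
  set g₀ : modularFunctionFieldBar N := ⟨g, mem_bar_of_full h3⟩ with hg₀
  have h4 : f = g₀ ^ m := Subtype.ext h2
  have hg0 : g₀ ≠ 0 := by
    intro h5
    apply hf.ne_zero
    rw [h4, h5, zero_pow hm]
  rw [h4] at hf
  exact hf.unique_left hm (H05.kum_zero_pow m hg0)

theorem eq_of_pullN {ℓ : ℕ} [Fact ℓ.Prime] (hN' : N' = N * ℓ) (hℓ : ¬ ℓ ∣ N) (h : N ∣ N')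
    {m : ℕ} (hm : m ≠ 0) {x y : JZero N} (hx : m • x = 0)
    (hy : m • y = 0) (h0 : pullN hN' h x = pullN hN' h y) : x = y := by
  have h1 : m • (x - y) = 0 := by rw [smul_sub, hx, hy, sub_zero]
  have := eq_zero_of_pullN hN' hℓ h hm h1 (by rw [map_sub, h0, sub_self])
  exact sub_eq_zero.mp this

variable {M M' r : ℕ} [NeZero M] [NeZero M'] [hr : Fact r.Prime] {ℓ : ℕ} [hℓ : Fact ℓ.Prime]
  (hM' : M' = M * ℓ)

theorem eq_of_pullT (hℓM : ¬ ℓ ∣ M * r) {m : ℕ} (hm : m ≠ 0)
    {x y : JZero (M * r)} (hx : m • x = 0)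
    (hy : m • y = 0) (h0 : pullT (r := r) hM' x = pullT (r := r) hM' y) : x = y :=
  eq_of_pullN (mul_eq_mul hM') hℓM (mul_dvd_mul' hM') hm hx hy h0

theorem pullT_mem_lvl {A : ValuationSubring Qb} {m : ℕ} {ε : Qb} {x : JZero (M * r)}
    (hx : x ∈ lvl A (M * r) m ε) : pullT (r := r) hM' x ∈ lvl A (M' * r) m ε := by
  obtain ⟨f, hf, h⟩ := hx
  refine ⟨incN (mul_dvd_mul' (r := r) hM') f,
    kum_pullN (mul_eq_mul hM') (mul_dvd_mul' hM') hf, ?_⟩
  rw [coe_incN]
  exact h

theorem nsmul_eq_zero_of_lvl {A : ValuationSubring Qb} {N m : ℕ} [NeZero N] {ε : Qb} {x : JZero N}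
    (hx : x ∈ lvl A N m ε) : m • x = 0 := by
  obtain ⟨f, hf, -⟩ := hx
  exact hf.nsmul_eq_zero

end Pull

section Inertia

variable {A : ValuationSubring Qb} {M p : ℕ} [NeZero M] [hp : Fact p.Prime] {ζ u w : Qb}

/-- **(L5')** inertia acts through the cyclotomic character on the classes of level
`≥ p / (p - 1)` at both cusps. -/
theorem inertia_lvl (hrM : Nat.Coprime p M) (hA : A.LiesOverPrime p) (hP : HasPacks A p)
    (hw : Varpi A p ζ u w) {x : JZero (M * p)} (h0 : x ∈ lvl A (M * p) p (w ^ p))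
    (h1 : wS M p hrM • x ∈ lvl A (M * p) p (w ^ p)) {σ : Qb ≃ₐ[ℚ] Qb}
    (hσ : σ ∈ A.inertiaSubgroupIn ℚ) {a : ℕ} (ha : σ ζ = ζ ^ a) : σ • x = a • x := by
  have hp0 := hp.out.ne_zero
  by_cases h : 2 ∣ M ∨ 3 ∣ M
  · obtain ⟨lp⟩ := hP M hrM h
    exact inertia_lvl_pack hrM hA lp hw h0 h1 hσ ha
  · obtain ⟨ℓ, hℓ, hℓM, h2, h3, -⟩ := exists_aux_prime hp.out hrM h
    haveI : Fact ℓ.Prime := ⟨hℓ⟩
    haveI : NeZero (M * ℓ) := ⟨mul_ne_zero (NeZero.ne M) hℓ.ne_zero⟩
    obtain ⟨lp⟩ := hP (M * ℓ) h3 h2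
    have hx := nsmul_eq_zero_of_lvl h0
    apply eq_of_pullT (M' := M * ℓ) rfl hℓM hp0 (nsmul_galois σ hx)
      (by rw [smul_comm, hx, smul_zero])
    rw [pullT_galois rfl hp0 σ hx, map_nsmul]
    refine inertia_lvl_pack h3 hA lp hw (pullT_mem_lvl rfl h0) ?_ hσ ha
    rw [← pullT_wS rfl hrM h3 hp0 hx]
    exact pullT_mem_lvl rfl h1

end Inertia

end Fermat.Agent.P
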