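import Fermat.Agent.H01.P.Varpi
import Fermat.Agent.Q.Conc3

/-!
# Bridges between the two languages for Gauss norms
-/

set_option autoImplicit false
set_option linter.unusedSectionVars false

noncomputable section

attribute [-instance] HahnSeries.instModule HahnSeries.instSMul HahnSeries.instDistribMulAction
  HahnSeries.instSMulZeroClass

namespace Fermat.Agent.P

open ModularCurve IsLocalRing Fermat.Agent.H11Q Fermat.Agent.Q

variable {K : Type*} [Field K] {A : ValuationSubring K}

theorem smul_eq_C_mul (c : K) (x : LaurentSeries K) : c • x = HahnSeries.C c * x := by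
  rw [Algebra.smul_def, algebraMap_eq_C]

theorem mem_bddL_of_bdd {x : LaurentSeries K} (h : Bdd A x) : x ∈ bddL A := by
  obtain ⟨c, hc, h⟩ := h
  rw [smul_eq_C_mul] at h
  exact mem_bddL_of_C_mul hc (isInt_iff_mem.mp h)

theorem mem_finL_of_numF [CharZero K] [Algebra ℚ K] [Algebra.IsAlgebraic ℚ K]
    {x : LaurentSeries K} (h : NumF x) : x ∈ finL K := by
  obtain ⟨S, hS⟩ := h
  refine ⟨IntermediateField.adjoin ℚ (S : Set K), IntermediateField.finiteDimensional_adjoin
    fun x _ => (Algebra.IsAlgebraic.isAlgebraic (R := ℚ) x).isIntegral, fun n => ?_⟩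
  have h1 : Subfield.closure (S : Set K) ≤
      (IntermediateField.adjoin ℚ (S : Set K)).toSubfield := by
    rw [Subfield.closure_le]
    exact IntermediateField.subset_adjoin ℚ (S : Set K)
  exact h1 (hS n)

theorem mem_DD_iff [CharZero K] [Algebra ℚ K] [Algebra.IsAlgebraic ℚ K] {x : LaurentSeries K} :
    x ∈ DD A ↔ NumF x ∧ Bdd A x :=
  ⟨fun h => ⟨numF_of_mem h.2, bdd_of_mem h.1⟩, fun h => ⟨mem_bddL_of_bdd h.2,
    mem_finL_of_numF h.1⟩⟩

variable [CharZero K] [Algebra ℚ K] [Algebra.IsAlgebraic ℚ K] {p : ℕ} [hp : Fact p.Prime]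

theorem isInt_of_red (hA : A.LiesOverPrime p) {x : LaurentSeries K} (hx : x ∈ DD A)
    {u : LaurentSeries (ResidueField A)} (h : Red A x u) : IsInt A x ∧ rd A x = u := by
  obtain ⟨h1, h2⟩ := mem_intL_of_red hp.out hA hx h
  exact ⟨isInt_iff_mem.mpr h1, by rw [rd_eq_redL h1, h2]⟩

theorem resid_pow' {a : K} (ha : a ∈ A) (n : ℕ) : resid A (a ^ n) = resid A a ^ n := by
  induction n with
  | zero => rw [pow_zero, pow_zero, resid_one]
  | succ n ih => rw [pow_succ, pow_succ, resid_mul A (A.toSubring.pow_mem ha n) ha, ih]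

theorem red_C {a : K} (ha : a ∈ A) :
    Red A (HahnSeries.C a : LaurentSeries K) (HahnSeries.C (resid A a)) := by
  rw [resid_of_mem A ha]
  exact Red.C ha

/-- a nonzero constant with nonzero residue is a unit of `A` -/
theorem inv_mem_of_resid_ne {a : K} (ha : a ∈ A) (h : resid A a ≠ 0) : a⁻¹ ∈ A :=
  ((resid_ne_zero_iff A ha).1 h).1

theorem resid_eq_zero_of_inv_notMem {a : K} (ha : a ∈ A) (h : a⁻¹ ∉ A) : resid A a = 0 := by
  by_contra h0
  exact h (inv_mem_of_resid_ne ha h0)

/-- transport of `tt` under reduction -/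
theorem red_tt {u w : K} (hu : u ∈ A) (hw : w ∈ A) (hw0 : resid A w = 0) {s : LaurentSeries K}
    {v : LaurentSeries (ResidueField A)} (hs : Red A s v) :
    Red A (tt p (HahnSeries.C u) (HahnSeries.C w) s)
      (v ^ p + HahnSeries.C (resid A u) * v) := by
  let U : VL A := ⟨HahnSeries.C u, ⟨_, red_C hu⟩⟩
  let W : VL A := ⟨HahnSeries.C w, ⟨_, red_C hw⟩⟩
  let X : VL A := ⟨s, ⟨_, hs⟩⟩
  have h1 := red_rho (tt p U W X)
  rw [map_tt, rho_eq (z := U) (red_C hu), rho_eq (z := W) (red_C hw), hw0, map_zero,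
    rho_eq (z := X) hs, tt_zero_right] at h1
  have h2 : ((tt p U W X : VL A) : LaurentSeries K) =
      tt p (HahnSeries.C u) (HahnSeries.C w) s := map_tt p (VL A).subtype U W X
  rwa [h2] at h1

end Fermat.Agent.P
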