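import Mathlib
import Fermat.Agent.H01.P.Level
import Fermat.Agent.H01.P.Ascent

/-!
# Logarithmic derivatives and leading terms
-/

set_option autoImplicit false
set_option linter.unusedSectionVars false

noncomputable section

namespace Fermat.Agent.P

open ModularCurve Fermat.Agent.Igusa Fermat.Agent.Q

local notation "kk" => IsLocalRing.ResidueField

variable {K : Type*} [Field K] {A : ValuationSubring K}

/-- `z = ε y` with `y` reducing to `b`. -/
def Lead (A : ValuationSubring K) (ε : K) (z : LaurentSeries K) (b : LaurentSeries (kk A)) : Prop :=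
  ∃ y, z = HahnSeries.C ε * y ∧ Red A y b

variable {ε δ : K} {z z' : LaurentSeries K} {b b' : LaurentSeries (kk A)}

theorem Lead.add (h : Lead A ε z b) (h' : Lead A ε z' b') : Lead A ε (z + z') (b + b') := by
  obtain ⟨y, rfl, hy⟩ := h
  obtain ⟨y', rfl, hy'⟩ := h'
  exact ⟨y + y', by ring, hy.add hy'⟩

theorem Lead.neg (h : Lead A ε z b) : Lead A ε (-z) (-b) := by
  obtain ⟨y, rfl, hy⟩ := h
  exact ⟨-y, by ring, hy.neg⟩

theorem Lead.sub (h : Lead A ε z b) (h' : Lead A ε z' b') : Lead A ε (z - z') (b - b') := by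
  rw [sub_eq_add_neg, sub_eq_add_neg]
  exact h.add h'.neg

theorem Lead.unique (hε : ε ≠ 0) (h : Lead A ε z b) (h' : Lead A ε z b') : b = b' := by
  obtain ⟨y, hy1, hy⟩ := h
  obtain ⟨y', hy1', hy'⟩ := h'
  have h1 : (HahnSeries.C ε : LaurentSeries K) ≠ 0 := (map_ne_zero _).mpr hε
  rw [hy1] at hy1'
  rw [mul_left_cancel₀ h1 hy1'] at hy
  exact hy.unique hy'

theorem Lead.mem_cg (h : Lead A ε z b) : z ∈ cg A ε := by
  obtain ⟨y, rfl, hy⟩ := h
  exact ⟨y, ⟨_, hy⟩, rfl⟩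

theorem Lead.C_mul (c : K) (h : Lead A ε z b) : Lead A (c * ε) (HahnSeries.C c * z) b := by
  obtain ⟨y, rfl, hy⟩ := h
  exact ⟨y, by rw [map_mul]; ring, hy⟩

/-- a unit multiple -/
theorem Lead.unit {c : K} (hc : c ∈ A) (h : Lead A (ε * c) z b) :
    Lead A ε z (HahnSeries.C (IsLocalRing.residue A ⟨c, hc⟩) * b) := by
  obtain ⟨y, rfl, hy⟩ := h
  exact ⟨HahnSeries.C c * y, by rw [map_mul]; ring, (Red.C hc).mul hy⟩

theorem lead_zero_of_mem_cg (hδ : ∃ (c : K) (hc : c ∈ A), IsLocalRing.residue A ⟨c, hc⟩ = 0 ∧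
    δ = ε * c) (hz : z ∈ cg A δ) : Lead A ε z 0 := by
  obtain ⟨c, hc, hc0, rfl⟩ := hδ
  obtain ⟨y, ⟨b, hy⟩, rfl⟩ := hz
  have := Lead.unit hc (⟨y, rfl, hy⟩ : Lead A (ε * c) (HahnSeries.C (ε * c) * y) b)
  rwa [hc0, map_zero, zero_mul] at this

theorem Lead.qExpand (n : ℕ) [NeZero n] (h : Lead A ε z b) :
    Lead A ε (qExpand K n z) (ModularCurve.qExpand (kk A) n b) := by
  obtain ⟨y, rfl, hy⟩ := h
  exact ⟨ModularCurve.qExpand K n y, by rw [map_mul, qExpand_C], hy.qExpand n⟩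

/-- logarithmic derivative -/
def dl (f : LaurentSeries K) : LaurentSeries K := theta K f * f⁻¹

theorem dl_mul {f g : LaurentSeries K} (hf : f ≠ 0) (hg : g ≠ 0) : dl (f * g) = dl f + dl g := by
  rw [dl, theta_mul, dl, dl]
  field_simp
  ring

theorem dl_C (c : K) : dl (HahnSeries.C c : LaurentSeries K) = 0 := by
  rw [dl, theta_C, zero_mul]

theorem dl_one : dl (1 : LaurentSeries K) = 0 := by
  have := dl_C (1 : K)
  rwa [map_one] at this

theorem dl_C_mul {c : K} (hc : c ≠ 0) {f : LaurentSeries K} (hf : f ≠ 0) :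
    dl (HahnSeries.C c * f) = dl f := by
  rw [dl_mul ((map_ne_zero _).mpr hc) hf, dl_C, zero_add]

theorem dl_pow {f : LaurentSeries K} (hf : f ≠ 0) (n : ℕ) :
    dl (f ^ n) = HahnSeries.C (n : K) * dl f := by
  induction n with
  | zero => rw [pow_zero, dl_one, Nat.cast_zero, map_zero, zero_mul]
  | succ n ih =>
    rw [pow_succ, dl_mul (pow_ne_zero n hf) hf, ih, Nat.cast_succ, map_add, map_one]
    ring

theorem dl_inv {f : LaurentSeries K} (hf : f ≠ 0) : dl (f⁻¹) = - dl f := by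
  have h := dl_mul hf (inv_ne_zero hf)
  rw [mul_inv_cancel₀ hf, dl_one] at h
  exact eq_neg_of_add_eq_zero_right h.symm

theorem dl_qExpand (p : ℕ) [NeZero p] (f : LaurentSeries K) :
    dl (qExpand K p f) = HahnSeries.C (p : K) * qExpand K p (dl f) := by
  rw [dl, theta_qExpand, dl, map_mul, map_inv₀]
  ring

/-- the logarithmic derivative of `1 + ε h` -/
theorem lead_dl (hε : ε ∈ A) (h0 : IsLocalRing.residue A ⟨ε, hε⟩ = 0) {f : LaurentSeries K}
    (h : Lead A ε (f - 1) b) : Lead A ε (dl f) (theta (kk A) b) := by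
  obtain ⟨y, hy, hyb⟩ := h
  have h1 : Red A f 1 := by
    have h2 := (Red.C hε).mul hyb
    rw [h0, map_zero, zero_mul, ← hy] at h2
    have := h2.add Red.one
    rwa [sub_add_cancel, zero_add] at this
  have hf : f = 1 + HahnSeries.C ε * y := by rw [← hy]; ring
  refine ⟨theta K y * f⁻¹, ?_, ?_⟩
  · have h2 : theta K f = HahnSeries.C ε * theta K y := by
      rw [hf, map_add, theta_C_mul, ← map_one (HahnSeries.C : K →+* LaurentSeries K), theta_C,
        zero_add]
    rw [dl, h2, mul_assoc]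
  · have := (red_theta hyb).mul (h1.inv one_ne_zero)
    rwa [inv_one, mul_one] at this

theorem dl_mem_VL [CharZero K] [Algebra ℚ K] [Algebra.IsAlgebraic ℚ K] {p : ℕ} (hp : p.Prime)
    (hA : A.LiesOverPrime p) {u : LaurentSeries K} (hu : u ∈ FL A) (hu0 : u ≠ 0) : dl u ∈ VL A := by
  obtain ⟨c, hc, v, hv0, hv⟩ := exists_red hp hA hu hu0
  have h1 : HahnSeries.C c * u ≠ 0 := mul_ne_zero ((map_ne_zero _).mpr hc) hu0
  rw [← dl_C_mul hc hu0, dl]
  exact ⟨_, (red_theta hv).mul (hv.inv hv0)⟩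

/-- leading terms of powers of the uniformiser -/
theorem Unif.lead_eq {π : K} (hπ : Unif A π) {i j : ℕ} (h : Lead A (π ^ i) z b)
    (h' : Lead A (π ^ j) z b') (hb : b ≠ 0) (hb' : b' ≠ 0) : i = j := by
  have key : ∀ {i j : ℕ} {b : LaurentSeries (kk A)}, Lead A (π ^ i) z b → z ∈ cg A (π ^ j) →
      b ≠ 0 → j ≤ i := by
    intro i j b h h' hb
    by_contra hlt
    apply hb
    apply h.unique (pow_ne_zero _ hπ.ne)
    apply lead_zero_of_mem_cg ?_ (cg_pow_mono hπ.mem (show i + 1 ≤ j by omega) h')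
    exact ⟨π, hπ.mem, hπ.res, by rw [pow_succ]⟩
  exact le_antisymm (key h' h.mem_cg hb') (key h h'.mem_cg hb)

section Approx

variable [CharZero K] [Algebra ℚ K] [Algebra.IsAlgebraic ℚ K] {π : K} {p : ℕ}
  [hp : Fact p.Prime]

/-- **Approximate roots.** If `c u^p ≡ 1` modulo `π^(p j)` then `u = a (1 + π^j y)`. -/
theorem approx_root (hπ : Unif A π) (hA : A.LiesOverPrime p) {e' : ℕ} (hr : Ram A π p e')
    {u : LaurentSeries K} (hu : u ∈ FL A) (hu0 : u ≠ 0) {c : K} (hc : c ≠ 0) {i : ℕ}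
    (hi : 1 ≤ i) (hi' : i < p * e')
    (h : HahnSeries.C c * u ^ p - 1 ∈ cg A (π ^ i)) (J : ℕ) (hJ : 1 ≤ J)
    (hJi : p * (J - 1) < i) : ∃ a : K, a ≠ 0 ∧ ∃ y ∈ VL A,
      u = HahnSeries.C a * (1 + HahnSeries.C (π ^ J) * y) := by
  have hchar := H05.charP_residueField hp.out hA
  have hpk : p ≠ 0 := hp.out.ne_zero
  -- normalise
  obtain ⟨c', hc', v, hv0, hv⟩ := exists_red hp.out hA hu hu0
  have hred1 : Red A (HahnSeries.C c * u ^ p) 1 := by
    have h0 : Red A (HahnSeries.C c * u ^ p - 1) 0 := by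
      have h1 := cg_pow_mono hπ.mem hi h
      rw [pow_one] at h1
      exact red_zero_of_mem_cg hπ.mem hπ.res h1
    have := h0.add Red.one
    rwa [sub_add_cancel, zero_add] at this
  have hvpow := hv.pow p
  have hrw : HahnSeries.C c * u ^ p =
      HahnSeries.C (c * (c' ^ p)⁻¹) * (HahnSeries.C c' * u) ^ p := by
    rw [mul_pow, ← map_pow, ← mul_assoc, ← map_mul,
      inv_mul_cancel_right₀ (pow_ne_zero _ hc')]
  have hred1' := hred1
  rw [hrw] at hred1'
  obtain ⟨hmem, hres⟩ := hred1'.scale hvpow (pow_ne_zero _ hv0)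
  set ε := IsLocalRing.residue A ⟨c * (c' ^ p)⁻¹, hmem⟩ with hε
  have hε0 : ε ≠ 0 := by
    intro h0
    rw [h0, map_zero, zero_mul] at hres
    exact one_ne_zero hres
  have hvC : v ^ p ^ 1 = HahnSeries.C ε⁻¹ := by
    have hne : (HahnSeries.C ε : LaurentSeries (kk A)) ≠ 0 := (map_ne_zero _).mpr hε0
    rw [map_inv₀, pow_one]
    apply eq_inv_of_mul_eq_one_left
    rw [mul_comm]
    exact hres.symm
  obtain ⟨d, rfl⟩ := exists_C_of_pow_char_eq hvC
  have hd0 : d ≠ 0 := by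
    rintro rfl
    exact hv0 (map_zero _)
  induction J, hJ using Nat.le_induction with
  | base =>
    obtain ⟨a, ha, had⟩ := exists_lift_residue (A := A) d
    obtain ⟨hainv, ha0⟩ := inv_mem_of_residue_ne_zero ha (by rw [had]; exact hd0)
    have h1 : HahnSeries.C c' * u - HahnSeries.C a ∈ cg A π := by
      apply hπ.mem_cg hp.out hA (sub_mem (mul_mem (C_mem_FL _) hu) (C_mem_FL a))
      have := hv.sub (Red.C ha)
      rwa [had, sub_self] at this
    obtain ⟨y, hy, hye⟩ := h1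
    refine ⟨a / c', div_ne_zero ha0 hc', HahnSeries.C a⁻¹ * y, mul_mem (C_mem_VL hainv) hy, ?_⟩
    have hc'C : (HahnSeries.C c' : LaurentSeries K) ≠ 0 := (map_ne_zero _).mpr hc'
    have haC : (HahnSeries.C a : LaurentSeries K) ≠ 0 := (map_ne_zero _).mpr ha0
    have h2 : u = (HahnSeries.C c')⁻¹ * (HahnSeries.C a + HahnSeries.C π * y) := by
      rw [← hye]; field_simp; ring
    rw [h2, map_div₀, map_inv₀, pow_one]
    field_simp
  | succ J hJ ih =>
    rw [Nat.add_sub_cancel] at hJi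
    have hlt := hJi
    obtain ⟨a, ha0, y, hy, hue⟩ := ih (lt_of_le_of_lt (Nat.mul_le_mul_left _ (Nat.sub_le _ _)) hlt)
    obtain ⟨s, hs, hse⟩ := pw1 hπ.mem hr (J := J) hy 1 (by rw [pow_one]; exact hlt.trans hi')
    rw [pow_one] at hse
    -- the constant
    have h1 : HahnSeries.C c * u ^ p = HahnSeries.C (c * a ^ p) *
        (1 + HahnSeries.C (π ^ (p * J)) * (y ^ p + HahnSeries.C π * s)) := by
      rw [hue, mul_pow, hse, ← map_pow, ← mul_assoc, ← map_mul]
    set T := p * J with hT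
    have hT1 : 1 ≤ T := Nat.one_le_iff_ne_zero.mpr (mul_ne_zero hpk (by omega))
    have hw : (1 + HahnSeries.C (π ^ T) * (y ^ p + HahnSeries.C π * s)) - 1 ∈ cg A (π ^ T) := by
      rw [add_sub_cancel_left]
      exact C_mul_mem_cg (add_mem (pow_mem hy _) (mul_mem (C_mem_VL hπ.mem) hs))
    have hTπ : π ^ T ∈ A := pow_mem hπ.mem T
    have hTres : IsLocalRing.residue A ⟨π ^ T, hTπ⟩ = 0 := by
      have : (⟨π ^ T, hTπ⟩ : A) = ⟨π, hπ.mem⟩ ^ T := Subtype.ext rfl
      rw [this, map_pow, hπ.res, zero_pow (by omega)]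
    obtain ⟨hinv1, hinv0, hinvV⟩ := inv_sub_one_mem hTπ hTres hw
    have h2 : HahnSeries.C (c * a ^ p) - 1 ∈ cg A (π ^ T) := by
      have h3 : HahnSeries.C (c * a ^ p) = (HahnSeries.C c * u ^ p) *
          (1 + HahnSeries.C (π ^ T) * (y ^ p + HahnSeries.C π * s))⁻¹ := by
        rw [h1, mul_assoc, mul_inv_cancel₀ hinv0, mul_one]
      rw [h3]
      exact mul_sub_one_mem hTπ (cg_pow_mono hπ.mem hlt.le h) hinv1
    have h3 : (c * a ^ p - 1) / π ^ T ∈ A := by
      rw [← C_mem_cg_iff (pow_ne_zero _ hπ.ne), map_sub, map_one]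
      exact h2
    set b := (c * a ^ p - 1) / π ^ T with hb
    have hb' : c * a ^ p = 1 + π ^ T * b := by
      rw [hb, mul_div_cancel₀ _ (pow_ne_zero _ hπ.ne)]; ring
    rw [h1, hb'] at h
    have h4 : HahnSeries.C (π ^ T) * (HahnSeries.C b + y ^ p) ∈ cg A (π ^ (T + 1)) := by
      have h5 := cg_pow_mono hπ.mem (show T + 1 ≤ i from hlt) h
      have h6 : HahnSeries.C (π ^ T) * (HahnSeries.C b + y ^ p) =
          (HahnSeries.C (1 + π ^ T * b) *
            (1 + HahnSeries.C (π ^ T) * (y ^ p + HahnSeries.C π * s)) - 1) -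
          HahnSeries.C (π ^ (T + 1)) * s -
          HahnSeries.C (π ^ (T + T)) * (HahnSeries.C b * (y ^ p + HahnSeries.C π * s)) := by
        rw [pow_succ, pow_add π T T]
        simp only [map_add, map_mul, map_one]
        ring
      rw [h6]
      refine sub_mem (sub_mem h5 (C_mul_mem_cg hs)) ?_
      exact cg_pow_mono hπ.mem (by omega) (C_mul_mem_cg (mul_mem (C_mem_VL h3)
        (add_mem (pow_mem hy _) (mul_mem (C_mem_VL hπ.mem) hs))))
    have h5 := hπ.red_zero_of_mem h4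
    obtain ⟨ybar, hybar⟩ := hy
    have h6 := ((Red.C h3).add (hybar.pow p)).unique h5
    have h7 : ybar ^ p ^ 1 = HahnSeries.C (-IsLocalRing.residue A ⟨b, h3⟩) := by
      rw [map_neg, pow_one]
      linear_combination h6
    obtain ⟨d', hd'⟩ := exists_C_of_pow_char_eq h7
    have hyFL : y ∈ FL A := by
      have haC : (HahnSeries.C a : LaurentSeries K) ≠ 0 := (map_ne_zero _).mpr ha0
      have hπC : (HahnSeries.C (π ^ J) : LaurentSeries K) ≠ 0 :=
        (map_ne_zero _).mpr (pow_ne_zero _ hπ.ne)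
      have h8 : y = HahnSeries.C (π ^ J)⁻¹ * (HahnSeries.C a⁻¹ * u - 1) := by
        rw [hue, map_inv₀, map_inv₀]
        field_simp
        ring
      rw [h8]
      exact mul_mem (C_mem_FL _) (sub_mem (mul_mem (C_mem_FL _) hu) (one_mem _))
    obtain ⟨a', ha', y', hy', hye'⟩ := hπ.sub_C_mem hA hyFL (hd' ▸ hybar)
    -- `u = a (1 + π^J a') (1 + π^(J+1) y'')`
    have hJπ : π ^ J ∈ A := pow_mem hπ.mem J
    have hJres : IsLocalRing.residue A ⟨π ^ J, hJπ⟩ = 0 := by
      have : (⟨π ^ J, hJπ⟩ : A) = ⟨π, hπ.mem⟩ ^ J := Subtype.ext rfl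
      rw [this, map_pow, hπ.res, zero_pow (by omega)]
    have hmem1 : 1 + π ^ J * a' ∈ A := add_mem (one_mem A) (mul_mem hJπ ha')
    have hres1 : IsLocalRing.residue A ⟨1 + π ^ J * a', hmem1⟩ = 1 := by
      have : (⟨1 + π ^ J * a', hmem1⟩ : A) = 1 + ⟨π ^ J, hJπ⟩ * ⟨a', ha'⟩ := Subtype.ext rfl
      rw [this, map_add, map_one, map_mul, hJres, zero_mul, add_zero]
    obtain ⟨hinvm, hne1⟩ := inv_mem_of_residue_ne_zero hmem1 (by rw [hres1]; exact one_ne_zero)
    refine ⟨a * (1 + π ^ J * a'), mul_ne_zero ha0 hne1,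
      HahnSeries.C (1 + π ^ J * a')⁻¹ * y', mul_mem (C_mem_VL hinvm) hy', ?_⟩
    have hne1C : (HahnSeries.C (1 + π ^ J * a') : LaurentSeries K) ≠ 0 :=
      (map_ne_zero _).mpr hne1
    have h9 : HahnSeries.C (1 + π ^ J * a') * (1 + HahnSeries.C (π ^ (J + 1)) *
        (HahnSeries.C (1 + π ^ J * a')⁻¹ * y')) =
        1 + HahnSeries.C (π ^ J) * y := by
      have h10 : y = HahnSeries.C a' + HahnSeries.C π * y' := by rw [← hye']; ring
      rw [map_inv₀, mul_add, mul_one]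
      have h11 : HahnSeries.C (1 + π ^ J * a') * (HahnSeries.C (π ^ (J + 1)) *
          ((HahnSeries.C (1 + π ^ J * a'))⁻¹ * y')) = HahnSeries.C (π ^ (J + 1)) * y' := by
        field_simp
      rw [h11, h10, pow_succ]
      simp only [map_add, map_mul, map_one]
      ring
    rw [map_mul, mul_assoc, h9]
    exact hue

end Approx

end Fermat.Agent.P
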