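import Mathlib.Algebra.Group.Subgroup.Basic
import Mathlib.Algebra.Module.Basic
import Mathlib.Data.Set.Finite.Basic
import Mathlib.Data.Fintype.EquivFin
import Mathlib.RingTheory.Coprime.Basic
import Mathlib.Tactic

/-!
# The formal part of the geometric theorem at `p`
-/

set_option autoImplicit false

namespace Fermat.Agent.P

section A

variable {G : Type*} [AddCommGroup G]

/-- decreasing chains of finite subgroups stabilise -/
theorem exists_iterate_stable (T : G →+ G) (Y : AddSubgroup G)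
    [Finite Y] (hT : ∀ y ∈ Y, T y ∈ Y) :
    ∃ k, ∀ y ∈ Y, ∃ y' ∈ Y, T^[k] y = T^[k + 1] y' := by
  by_contra hcon
  push Not at hcon
  choose y hy hy' using hcon
  have hpow : ∀ k, ∀ y ∈ Y, T^[k] y ∈ Y := by
    intro k
    induction k with
    | zero => intro y hy; simpa using hy
    | succ k ih =>
      intro y hy
      rw [Function.iterate_succ_apply]
      exact ih _ (hT y hy)
  have hinj : Function.Injective fun k : ℕ => (⟨T^[k] (y k), hpow k _ (hy k)⟩ : Y) := by
    intro i j hij
    have h1 : T^[i] (y i) = T^[j] (y j) := congrArg Subtype.val hij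
    rcases lt_trichotomy i j with h | h | h
    · exfalso
      obtain ⟨d, rfl⟩ : ∃ d, j = i + 1 + d := ⟨j - (i + 1), by omega⟩
      apply hy' i _ (hpow d _ (hy (i + 1 + d)))
      rw [h1, Function.iterate_add_apply T (i + 1) d]
    · exact h
    · exfalso
      obtain ⟨d, rfl⟩ : ∃ d, i = j + 1 + d := ⟨i - (j + 1), by omega⟩
      apply hy' j _ (hpow d _ (hy (j + 1 + d)))
      rw [← h1, Function.iterate_add_apply T (j + 1) d]
  exact not_injective_infinite_finite _ hinj

theorem geoM_abs (T D : G →+ G) (Y : AddSubgroup G) [Finite Y] (hT : ∀ y ∈ Y, T y ∈ Y)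
    (hD : ∀ y ∈ Y, D y ∈ Y) (hTD : ∀ y ∈ Y, T (D y) = D (T y))
    (hbij : ∀ Z : Set G, Z.Finite → (∀ z ∈ Z, z ∈ Y) → (∀ z ∈ Z, ∃ z' ∈ Z, T z' = z) →
      ∀ z ∈ Z, D z = 0)
    (hker : ∀ y ∈ Y, T y = 0 → D y = 0) : ∃ n : ℕ, ∀ y ∈ Y, D^[n] y = 0 := by
  have hTk : ∀ k, ∀ y ∈ Y, T^[k] y ∈ Y := by
    intro k
    induction k with
    | zero => intro y hy; simpa using hy
    | succ k ih =>
      intro y hy
      rw [Function.iterate_succ_apply]
      exact ih _ (hT y hy)
  have hTkD : ∀ k, ∀ y ∈ Y, T^[k] (D y) = D (T^[k] y) := by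
    intro k
    induction k with
    | zero => intro y hy; rfl
    | succ k ih =>
      intro y hy
      rw [Function.iterate_succ_apply, Function.iterate_succ_apply, hTD y hy,
        ih _ (hT y hy)]
  obtain ⟨k, hk⟩ := exists_iterate_stable T Y hT
  let Z : Set G := {z | ∃ y ∈ Y, T^[k] y = z}
  have hZY : ∀ z ∈ Z, z ∈ Y := by
    rintro z ⟨y, hy, rfl⟩
    exact hTk k y hy
  have hZfin : Z.Finite := Set.Finite.subset (Set.toFinite (Y : Set G)) hZY
  have hZ0 := hbij Z hZfin hZY (by
    rintro z ⟨y, hy, rfl⟩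
    obtain ⟨y', hy', he⟩ := hk y hy
    refine ⟨T^[k] y', ⟨y', hy', rfl⟩, ?_⟩
    rw [he, Function.iterate_succ_apply'])
  have hnil : ∀ j, ∀ y ∈ Y, T^[j] y = 0 → D^[j] y = 0 := by
    intro j
    induction j with
    | zero => intro y _ h; exact h
    | succ j ih =>
      intro y hy h
      rw [Function.iterate_succ_apply'] at h
      have h5 : D (T^[j] y) = 0 := hker _ (hTk j y hy) h
      rw [← hTkD j y hy] at h5
      rw [Function.iterate_succ_apply]
      exact ih _ (hD y hy) h5
  refine ⟨k + 1, fun y hy => ?_⟩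
  rw [Function.iterate_succ_apply]
  apply hnil k _ (hD y hy)
  rw [hTkD k y hy]
  exact hZ0 _ ⟨y, hy, rfl⟩

theorem geo_abs {G' : Type*} [AddCommGroup G'] (D : G →+ G) (D' : G' →+ G') (α : G →+ G')
    (w : G → G) (X : AddSubgroup G) (hD : ∀ x ∈ X, D x ∈ X) (hw : ∀ x ∈ X, w x ∈ X)
    (hαD : ∀ x, α (D x) = D' (α x)) (hwD : ∀ x, w (D x) = D (w x)) {n : ℕ}
    (hn : ∀ x ∈ X, D'^[n] (α x) = 0)
    (hnew : ∀ x ∈ X, α x = 0 → α (w x) = 0 → D x = 0) {c p : ℤ}
    (hDD : ∀ x ∈ X, D (D x) = c • D x) (hp : ∀ x ∈ X, p • x = 0) (hcop : IsCoprime c p) :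
    ∀ x ∈ X, D x = 0 := by
  have hDn : ∀ j, ∀ x ∈ X, D^[j] x ∈ X := by
    intro j
    induction j with
    | zero => intro x hx; simpa using hx
    | succ j ih => intro x hx; rw [Function.iterate_succ_apply]; exact ih _ (hD x hx)
  have haD : ∀ j x, α (D^[j] x) = D'^[j] (α x) := by
    intro j
    induction j with
    | zero => intro x; rfl
    | succ j ih =>
      intro x
      rw [Function.iterate_succ_apply, Function.iterate_succ_apply, ih, hαD]
  have hwDn : ∀ j x, w (D^[j] x) = D^[j] (w x) := by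
    intro j
    induction j with
    | zero => intro x; rfl
    | succ j ih =>
      intro x
      rw [Function.iterate_succ_apply, Function.iterate_succ_apply, ih, hwD]
  have hnil : ∀ x ∈ X, D^[n + 1] x = 0 := by
    intro x hx
    rw [Function.iterate_succ_apply']
    refine hnew _ (hDn n x hx) ?_ ?_
    · rw [haD]
      exact hn x hx
    · rw [hwDn, haD]
      exact hn _ (hw x hx)
  intro x hx
  have key : ∀ j, (c ^ j) • D x = D^[j] (D x) := by
    intro j
    induction j with
    | zero => simp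
    | succ j ih =>
      rw [Function.iterate_succ_apply', ← ih, map_zsmul, hDD x hx, pow_succ, mul_smul]
  have h4 : (c ^ (n + 1)) • D x = 0 := by
    rw [key (n + 1), ← Function.iterate_succ_apply, Function.iterate_succ_apply', hnil x hx,
      map_zero]
  have h5 : p • D x = 0 := hp _ (hD x hx)
  obtain ⟨r, s, hrs⟩ := (IsCoprime.pow_left (m := n + 1) hcop)
  calc D x = (1 : ℤ) • D x := (one_smul _ _).symm
    _ = (r * c ^ (n + 1) + s * p) • D x := by rw [hrs]
    _ = 0 := by rw [add_smul, mul_smul, mul_smul, h4, h5, smul_zero, smul_zero, add_zero]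

end A

end Fermat.Agent.P
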