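import Fermat.Agent.H01.P.GeoTheta
import Fermat.Agent.H01.P.GeoAbs

/-!
# The geometric theorem at `p`
-/

set_option autoImplicit false
set_option linter.unusedSectionVars false
set_option linter.style.haveILetI false
set_option maxSynthPendingDepth 3

noncomputable section

namespace Fermat.Agent.P

open ModularCurve AlgebraicCurve Fermat.Agent.Igusa Fermat.Agent.Q

local notation "kk" => IsLocalRing.ResidueField
local notation "Qb" => AlgebraicClosure ℚ

variable {A : ValuationSubring Qb} {M p : ℕ} [NeZero M] [hp : Fact p.Prime] {ζ u w : Qb}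

/-- `x ↦ σ x - a x` -/
def del {N : ℕ} (σ : Qb ≃ₐ[ℚ] Qb) (a : ℕ) : JZero N →+ JZero N :=
  DistribSMul.toAddMonoidHom (JZero N) σ - (a : ℕ) • AddMonoidHom.id (JZero N)

theorem del_apply {N : ℕ} (σ : Qb ≃ₐ[ℚ] Qb) (a : ℕ) (x : JZero N) :
    del σ a x = σ • x - a • x := by
  rw [del, AddMonoidHom.sub_apply, DistribSMul.toAddMonoidHom_apply, AddMonoidHom.nsmul_apply,
    AddMonoidHom.id_apply]

theorem del_eq_zero {N : ℕ} {σ : Qb ≃ₐ[ℚ] Qb} {a : ℕ} {x : JZero N} :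
    del σ a x = 0 ↔ σ • x = a • x := by
  rw [del_apply, sub_eq_zero]

variable (hpM : Nat.Coprime p M)

theorem aStar_del {σ : Qb ≃ₐ[ℚ] Qb} {a : ℕ} (x : JZero (M * p)) :
    aStar M p (del σ a x) = del σ a (aStar M p x) := by
  rw [del_apply, del_apply, map_sub, map_nsmul, H05.aStar_eq_degPush, H05.degPush_galois,
    ← H05.aStar_eq_degPush]

theorem wS_del {σ : Qb ≃ₐ[ℚ] Qb} {a : ℕ} (x : JZero (M * p)) :
    wS M p hpM • del σ a x = del σ a (wS M p hpM • x) := by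
  rw [del_apply, del_apply, smul_sub, galois_wS, nsmul_wS]

theorem tM_del {σ : Qb ≃ₐ[ℚ] Qb} {a m : ℕ} (hm : m ≠ 0) {x : JZero M} (hx : m • x = 0) :
    tM hpM (del σ a x) = del σ a (tM hpM x) := by
  have h1 : aUp M p (σ • x) = σ • aUp M p x := pullN_galois rfl _ hm σ hx
  rw [del_apply, del_apply, map_sub, map_nsmul, tM_apply, h1, ← galois_wS,
    H05.aStar_eq_degPush, H05.degPush_galois, ← H05.aStar_eq_degPush, ← tM_apply]

include hpM in
/-- Inertia acts through the cyclotomic character on the classes of `J₀(M)` of level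
`≥ p/(p-1)`. -/
theorem inertia_lvl_M (hA : A.LiesOverPrime p) (hw : Varpi A p ζ u w) {x : JZero M}
    (hx : x ∈ lvl A M p (w ^ p)) {σ : Qb ≃ₐ[ℚ] Qb}
    (hσ : σ ∈ A.inertiaSubgroupIn ℚ) {a : ℕ} (ha : σ ζ = ζ ^ a) : σ • x = a • x := by
  have hpx := nsmul_eq_zero_of_lvl hx
  obtain ⟨f, hf, hf1⟩ := hx
  have h0 : aUp M p x ∈ lvl A (M * p) p (w ^ p) := by
    refine ⟨incN (dvd_mul_right M p) f, kum_aUp hf, ?_⟩
    rw [coe_incN]
    exact hf1
  have h1 : wS M p hpM • aUp M p x ∈ lvl A (M * p) p (w ^ p) := by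
    refine ⟨wS M p hpM • incN (dvd_mul_right M p) f, (kum_aUp hf).smul (wS M p hpM), ?_⟩
    rw [coe_wS_incN]
    obtain ⟨z, hz, hfz⟩ := hf1
    refine ⟨qExpand Qb p z, qExpand_mem_VL p hz, ?_⟩
    rw [← map_one (qExpand Qb p), ← map_sub, hfz, map_mul, qExpand_C]
  have h2 := inertia_lvl hpM hA (H11Q.hasPacks hp.out hA) hw h0 h1 hσ ha
  have hpM' : ¬ p ∣ M := (Nat.Prime.coprime_iff_not_dvd hp.out).mp hpM
  have h3 : aUp M p (σ • x) = σ • aUp M p x := pullN_galois rfl _ hp.out.ne_zero σ hpx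
  refine eq_of_pullN (N := M) (N' := M * p) rfl hpM' (dvd_mul_right M p) hp.out.ne_zero
    (nsmul_galois σ hpx) (by rw [smul_comm, hpx, smul_zero]) ?_
  change aUp M p (σ • x) = aUp M p (a • x)
  rw [h3, h2, map_nsmul]

/-- The push-forward of a class in `K_∞ ∩ w K_∞` has positive level. -/
theorem red1_aStar (hA : A.LiesOverPrime p) {ζ : Qb} (hζ' : IsPrimitiveRoot ζ p)
    {x : JZero (M * p)} (hx : x ∈ KInf A M p p)
    (hwx : wS M p hpM • x ∈ KInf A M p p) : aStar M p x ∈ Red1 A M p := by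
  have hchar := H05.charP_residueField hp.out hA
  have hζ0 : ζ ≠ 0 := hζ'.ne_zero hp.out.ne_zero
  have hζ : IsPrimitiveRoot (Units.mk0 ζ hζ0) p := by
    rw [← IsPrimitiveRoot.coe_units_iff]
    exact hζ'
  obtain ⟨f, hf, hfr⟩ := exists_kum_red_one hA hx
  have hg := hf.smul (wS M p hpM)
  rw [mem_KInf_iff hA hpM hp.out.ne_zero hg] at hwx
  obtain ⟨c, hc, v, hv, hv0, hred⟩ := hwx
  set g : modularFunctionFieldBar (M * p) := wS M p hpM • f with hgd
  have hh := kum_aStar hf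
  set h := H05.normAlong (heckeAlphaBar Qb M p) f with hhd
  have h1 : (h : LaurentSeries Qb) = f * uOp p (nT (Units.mk0 ζ hζ0) p (g : LaurentSeries Qb)) := by
    apply qExpand_injective p
    rw [map_mul, ← nT_eq_qExpand hζ, hhd, coe_normAlong_alpha, norm_formula Qb M hpM hζ,
      ← coe_wBar, ← wS_smul_fun]
    rfl
  have hv' : coeffMap (frobenius (kk A) p) v ∈ modularFunctionFieldFullC (kk A) M :=
    coeffMap_mem_full' _ M hv
  have hv'0 : coeffMap (frobenius (kk A) p) v ≠ 0 := fun h0 =>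
    hv0 (coeffMap_injective _ (frobenius_inj (kk A) p) (by rw [h0, map_zero]))
  have h2 : Red A (HahnSeries.C (c ^ p) * (h : LaurentSeries Qb))
      (coeffMap (frobenius (kk A) p) v ^ p) := by
    have h3 := red_uOp hA hζ (red_nT hA hζ.pow_eq_one hred)
    have h4 : uOp p ((v ^ p) ^ p) = coeffMap (frobenius (kk A) p) v ^ p := by
      rw [pow_char p (v ^ p), uOp_qExpand, map_pow]
    rw [h4, uOp_nT_mul hζ, nT_C] at h3
    have h5 : uOp p (HahnSeries.C (c ^ p) : LaurentSeries Qb) = HahnSeries.C (c ^ p) := by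
      have := uOp_qExpand p (HahnSeries.C (c ^ p) : LaurentSeries Qb)
      rwa [qExpand_C] at this
    rw [h5] at h3
    have h6 := hfr.mul h3
    rw [one_mul] at h6
    have h7 : (f : LaurentSeries Qb) * (HahnSeries.C (c ^ p) *
        uOp p (nT (Units.mk0 ζ hζ0) p (g : LaurentSeries Qb))) =
        HahnSeries.C (c ^ p) * (h : LaurentSeries Qb) := by
      rw [h1]; ring
    rwa [h7] at h6
  obtain ⟨z, hz, hzv⟩ := exists_lift (K := Qb) M hv'
  have hz0 : z ≠ 0 := hzv.ne_zero hv'0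
  set Z : modularFunctionFieldBar M := ⟨z, mem_bar_of_full hz⟩ with hZ
  have hZ0 : Z ≠ 0 := fun h => hz0 (congrArg Subtype.val h)
  have hcp : c ^ p ≠ 0 := pow_ne_zero _ hc
  refine ⟨algebraMap Qb (modularFunctionFieldBar M) (c ^ p) * h * (Z⁻¹) ^ p, ?_, ?_⟩
  · have h1 := ((H05.kum_zero_algebraMap (F := modularFunctionFieldBar M) p hcp).mul hh).mul
      (H05.kum_zero_pow p (inv_ne_zero hZ0))
    rwa [zero_add, add_zero] at h1
  · have h8 : ((algebraMap Qb (modularFunctionFieldBar M) (c ^ p) * h * (Z⁻¹) ^ p :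
        modularFunctionFieldBar M) : LaurentSeries Qb) =
        HahnSeries.C (c ^ p) * (h : LaurentSeries Qb) * (z⁻¹) ^ p := by
      change algebraMap Qb (LaurentSeries Qb) (c ^ p) * (h : LaurentSeries Qb) * (z⁻¹) ^ p = _
      rw [algebraMap_eq_C]
    rw [h8]
    have h3 := h2.mul ((hzv.inv hv'0).pow p)
    rwa [← mul_pow, mul_inv_cancel₀ hv'0, one_pow] at h3

variable {σ : Qb ≃ₐ[ℚ] Qb} {a : ℕ} {τ₀ : Qb}

/-- the kernel of `T_p` -/
theorem del_eq_zero_of_ker (hA : A.LiesOverPrime p) (h3 : 3 ≤ p) (ht : TameAt A p ζ τ₀ σ a)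
    {x : JZero M} (hx : tM hpM x = 0) (h1 : x ∈ Red1 A M p)
    (hrel : σ • σ • x - (a + 1) • σ • x + a • x = 0) : del σ a x = 0 := by
  obtain ⟨u, hw⟩ := exists_varpi hA ht.prim
  have hτ0 : τ₀ ^ p ≠ 0 := pow_ne_zero _ ht.τ₀_ne
  rcases ss_lvl hpM hA hw (τ := τ₀ ^ p) (by
    rw [← pow_mul, mul_comm, pow_mul, ht.pow]) hx h1 with h | ⟨f, hf, b, hlead, hb⟩
  · rw [del_eq_zero]
    exact inertia_lvl_M hpM hA hw h ht.ine ht.cyc
  · exfalso
    obtain ⟨c, hc, hc0, hpc⟩ := ht.p_eq hA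
    obtain ⟨hs, hs1, hsa⟩ := ht.s_ne hA h3
    have hτA : τ₀ ^ p ∈ A ∧ ∃ h : τ₀ ^ p ∈ A, IsLocalRing.residue A ⟨τ₀ ^ p, h⟩ = 0 := by
      have hchar := H05.charP_residueField hp.out hA
      have h4 := sq_sub_one_pos hp.out.two_le
      have hτA : τ₀ ∈ A := by
        apply H11Q.mem_of_pow_mem (n := p ^ 2 - 1) (by omega)
        rw [ht.pow]
        exact natCast_mem A p
      have hτr : IsLocalRing.residue A ⟨τ₀, hτA⟩ = 0 := by
        have h5 : (⟨τ₀, hτA⟩ : A) ^ (p ^ 2 - 1) = (p : A) := Subtype.ext (by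
          push_cast
          exact ht.pow)
        have h6 := congrArg (IsLocalRing.residue A) h5
        rw [map_pow, map_natCast, CharP.cast_eq_zero] at h6
        exact (pow_eq_zero_iff (by omega)).mp h6
      exact ⟨pow_mem hτA p, pow_mem hτA p, by
        rw [residue_pow hτA, hτr, zero_pow hp.out.ne_zero]⟩
    obtain ⟨hτmem, hτmem', hτres⟩ := hτA
    set s := IsLocalRing.residue A ⟨σ (τ₀ ^ p) / τ₀ ^ p, hs⟩ with hsd
    set B := theta (kk A) b with hB
    have hTh : Th A p (τ₀ ^ p) x B := ⟨f, hf, lead_dl hτmem hτres hlead⟩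
    have h4 := (hTh.galois ht.ine hτ0 hs).sub hTh
    have h5 := h4.galois ht.ine hτ0 hs
    have h6 := h4.nsmul a
    have h7 : σ • (σ • x - x) = a • (σ • x - x) := by
      rw [smul_sub]
      have h8 : σ • σ • x - σ • x - a • (σ • x - x) =
          σ • σ • x - (a + 1) • σ • x + a • x := by
        rw [smul_sub, add_smul, one_smul]; abel
      exact sub_eq_zero.mp (h8.trans hrel)
    rw [h7] at h5
    have h8 := Th.unique hA hτ0 ⟨c, hc, hc0, hpc⟩ h5 h6
    rw [← hsd] at h8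
    have h9 : (HahnSeries.C (s - (a : kk A)) * HahnSeries.C (s - 1)) * B = 0 := by
      rw [nsmul_eq_mul] at h8
      simp only [map_sub, map_one, map_natCast]
      linear_combination h8
    rcases mul_eq_zero.mp h9 with h10 | h10
    · rw [← map_mul, map_eq_zero] at h10
      rcases mul_eq_zero.mp h10 with h11 | h11
      · exact hsa (sub_eq_zero.mp h11)
      · exact hs1 (sub_eq_zero.mp h11)
    · exact hb h10

theorem del_mem {N : ℕ} {σ : Qb ≃ₐ[ℚ] Qb} {a : ℕ} {Y : AddSubgroup (JZero N)}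
    (hσ : ∀ y ∈ Y, σ • y ∈ Y) {y : JZero N} (hy : y ∈ Y) : del σ a y ∈ Y := by
  rw [del_apply]
  exact sub_mem (hσ y hy) (nsmul_mem hy a)

/-- **The geometric theorem on `J₀(M)`.** -/
theorem geoM (hA : A.LiesOverPrime p) (h3 : 3 ≤ p) (ht : TameAt A p ζ τ₀ σ a)
    (Y : AddSubgroup (JZero M)) [Finite Y] (h1 : ∀ y ∈ Y, y ∈ Red1 A M p)
    (hT : ∀ y ∈ Y, tM hpM y ∈ Y) (hσ : ∀ y ∈ Y, σ • y ∈ Y)
    (hrel : ∀ y ∈ Y, σ • σ • y - (a + 1) • σ • y + a • y = 0) :
    ∃ n : ℕ, ∀ y ∈ Y, (del σ a)^[n] y = 0 := by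
  have hp0 := hp.out.ne_zero
  have hpY : ∀ y ∈ Y, p • y = 0 := by
    intro y hy
    obtain ⟨f, hf, -⟩ := h1 y hy
    exact hf.nsmul_eq_zero
  obtain ⟨u, hw⟩ := exists_varpi hA ht.prim
  refine geoM_abs (tM hpM) (del σ a) Y hT (fun y hy => del_mem hσ hy)
    (fun y hy => tM_del hpM hp0 (hpY y hy)) ?_ ?_
  · intro Z hZ hZY hsurj z hz
    haveI : Finite Z := hZ.to_subtype
    have hs : ∀ z : Z, ∃ z' : Z, tM hpM z' = z := by
      rintro ⟨z, hz⟩
      obtain ⟨z', hz', he⟩ := hsurj z hz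
      exact ⟨⟨z', hz'⟩, he⟩
    choose nx hnx using hs
    have h4 := asc_lvl hpM hA hw 1 (fun z : Z => (z : JZero M)) nx hnx (fun z => by
      rw [pow_one]; exact h1 _ (hZY _ z.2)) ⟨z, hz⟩
    rw [pow_one] at h4
    exact del_eq_zero.mpr (inertia_lvl_M hpM hA hw h4 ht.ine ht.cyc)
  · intro y hy h
    exact del_eq_zero_of_ker hpM hA h3 ht h (h1 _ hy) (hrel _ hy)

/-- **The geometric theorem.** -/
theorem geo (hA : A.LiesOverPrime p) (h3 : 3 ≤ p) (ht : TameAt A p ζ τ₀ σ a)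
    (X : AddSubgroup (JZero (M * p))) [Finite X] (hK : ∀ x ∈ X, x ∈ KInf A M p p)
    (hσ : ∀ x ∈ X, σ • x ∈ X) (hw : ∀ x ∈ X, wS M p hpM • x ∈ X)
    (hP : ∀ x ∈ X, aUp M p (aStar M p x) ∈ X)
    (hrel : ∀ x ∈ X, σ • σ • x - (a + 1) • σ • x + a • x = 0) :
    ∀ x ∈ X, σ • x = a • x := by
  have hp0 := hp.out.ne_zero
  have hpX : ∀ x ∈ X, p • x = 0 := fun x hx => nsmul_eq_zero_of_mem_KInf (hK x hx)
  haveI : Finite (X.map (aStar M p)) :=
    (Set.Finite.image (aStar M p) (Set.toFinite (X : Set (JZero (M * p))))).to_subtype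
  have haσ : ∀ x, aStar M p (σ • x) = σ • aStar M p x := by
    intro x
    rw [H05.aStar_eq_degPush, H05.degPush_galois, ← H05.aStar_eq_degPush]
  obtain ⟨n, hn⟩ := geoM hpM hA h3 ht (X.map (aStar M p)) (by
      rintro _ ⟨x, hx, rfl⟩
      exact red1_aStar hpM hA ht.prim (hK x hx) (hK _ (hw x hx))) (by
      rintro _ ⟨x, hx, rfl⟩
      exact ⟨_, hw _ (hP x hx), rfl⟩) (by
      rintro _ ⟨x, hx, rfl⟩
      exact ⟨σ • x, hσ x hx, haσ x⟩) (by
      rintro _ ⟨x, hx, rfl⟩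
      rw [← haσ, ← haσ, ← map_nsmul, ← map_nsmul, ← map_sub, ← map_add, hrel x hx, map_zero])
  have hchar := H05.charP_residueField hp.out hA
  have ha1 := ht.a_ne_one hA h3
  have hcop : IsCoprime (1 - (a : ℤ)) (p : ℤ) := by
    rw [isCoprime_comm, (Nat.prime_iff_prime_int.mp hp.out).coprime_iff_not_dvd]
    intro hd
    apply ha1
    have h6 : ((1 - (a : ℤ) : ℤ) : kk A) = 0 := (CharP.intCast_eq_zero_iff (kk A) p _).mpr hd
    push_cast at h6
    exact (sub_eq_zero.mp h6).symm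
  intro x hx
  apply del_eq_zero.mp
  refine geo_abs (del σ a) (del σ a) (aStar M p) (fun x => wS M p hpM • x) X
    (fun x hx => del_mem hσ hx) hw aStar_del (wS_del hpM) (n := n)
    (fun x hx => hn _ ⟨x, hx, rfl⟩) ?_ ?_ (p := (p : ℤ)) ?_ hcop x hx
  · intro x hx h0 h0w
    exact del_eq_zero.mpr (inertia_new hpM hA ht.prim (hK x hx) h0 h0w ht.ine ht.cyc)
  · intro x hx
    have e1 := del_apply (N := M * p) σ a x
    have e2 := del_apply (N := M * p) σ a (del σ a x)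
    rw [e2, sub_smul, one_smul, natCast_zsmul]
    congr 1
    rw [e1, smul_sub]
    have h4 : σ • a • x = a • σ • x := by rw [smul_comm]
    rw [h4]
    have h5 := hrel x hx
    have h6 : σ • σ • x - a • σ • x - (σ • x - a • x) =
        σ • σ • x - (a + 1) • σ • x + a • x := by
      rw [add_smul, one_smul]; abel
    exact sub_eq_zero.mp (h6.trans h5)
  · intro x hx
    rw [natCast_zsmul]
    exact hpX x hx

end Fermat.Agent.P
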