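import Fermat.Agent.H01.P.GeoTame

/-!
# The operator `a^* a_*` commutes with the Hecke operators
-/

set_option autoImplicit false
set_option linter.unusedSectionVars false
set_option linter.style.haveILetI false
set_option maxSynthPendingDepth 3

noncomputable section

namespace Fermat.Agent.P

open ModularCurve AlgebraicCurve Fermat.Agent.Igusa Fermat.Agent.Q

local notation "kk" => IsLocalRing.ResidueField
local notation "Qb" => AlgebraicClosure ℚ

variable {N M p ℓ : ℕ} [NeZero N] [NeZero M] [hp : Fact p.Prime] [hℓ : Fact ℓ.Prime]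

/-- Kummer functions of `T_ℓ x`. -/
theorem kum_hecke (hℓN : Nat.Coprime ℓ N) {ζ : Qbˣ} (hζ : IsPrimitiveRoot ζ ℓ) {m : ℕ}
    {x : JZero N} {f : modularFunctionFieldBar N} (hf : H05.Kum m x f) :
    ∃ f' : modularFunctionFieldBar N, H05.Kum m (heckeOperatorAlong Qb N ℓ x) f' ∧
      (f' : LaurentSeries Qb) = tP ζ ℓ f := by
  refine ⟨_, H05.Kum.heckeOperatorAlong Qb hf, ?_⟩
  have h3 : (⟨((heckeBetaBar Qb N ℓ f : modularFunctionFieldBar (N * ℓ)) :
      LaurentSeries Qb), mem_full_of_bar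
      (heckeBetaBar Qb N ℓ f : modularFunctionFieldBar (N * ℓ)).2⟩ :
      modularFunctionFieldFullC Qb (N * ℓ)) =
      ⟨qExpand Qb ℓ (f : LaurentSeries Qb), qExpand_mem Qb _ (mem_full_of_bar f.2)⟩ :=
    Subtype.ext rfl
  rw [coe_normAlong_alpha, tP_eq_norm hℓN hζ (mem_full_of_bar f.2), h3]

/-- the pull-back commutes with the Hecke operators -/
theorem aUp_hecke (hℓN : Nat.Coprime ℓ (M * p)) {m : ℕ} (hm : m ≠ 0) {x : JZero M}
    (hx : m • x = 0) :
    aUp M p (heckeOperatorAlong Qb M ℓ x) = heckeOperatorAlong Qb (M * p) ℓ (aUp M p x) := by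
  haveI : NeZero (ℓ : Qb) := ⟨by exact_mod_cast hℓ.out.ne_zero⟩
  obtain ⟨ζ', hζ'⟩ := HasEnoughRootsOfUnity.exists_primitiveRoot Qb ℓ
  have hζ : IsPrimitiveRoot (Units.mk0 ζ' (hζ'.ne_zero hℓ.out.ne_zero)) ℓ := by
    rw [← IsPrimitiveRoot.coe_units_iff]
    exact hζ'
  obtain ⟨f, hf⟩ := H05.exists_kum hx
  obtain ⟨g, hg, hge⟩ := kum_hecke (Nat.Coprime.coprime_dvd_right (dvd_mul_right M p) hℓN) hζ hf
  obtain ⟨g', hg', hge'⟩ := kum_hecke hℓN hζ (kum_aUp (p := p) hf)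
  have h1 := kum_aUp (p := p) hg
  have h2 : incN (dvd_mul_right M p) g = g' := by
    apply Subtype.ext
    rw [coe_incN, hge, hge', coe_incN]
  rw [h2] at h1
  exact H05.Kum.unique_left hm h1 hg'

/-- `a^* a_*` commutes with the Hecke operators -/
theorem aP_hecke (hℓN : Nat.Coprime ℓ (M * p)) {m : ℕ} (hm : m ≠ 0) {x : JZero (M * p)}
    (hx : m • x = 0) :
    aUp M p (aStar M p (heckeOperatorAlong Qb (M * p) ℓ x)) =
      heckeOperatorAlong Qb (M * p) ℓ (aUp M p (aStar M p x)) := by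
  have hpℓ : p ≠ ℓ := by
    rintro rfl
    have h1 := Nat.Coprime.coprime_dvd_right (dvd_mul_left p M) hℓN
    exact (Nat.Prime.coprime_iff_not_dvd hp.out).mp h1 (dvd_refl _)
  have h1 : aStar M p (heckeOperatorAlong Qb (M * p) ℓ x) =
      heckeOperatorAlong Qb M ℓ (aStar M p x) := by
    rw [H05.aStar_eq_degPush, H05.degPush_hecke Qb hℓ.out hp.out hpℓ, ← H05.aStar_eq_degPush]
  rw [h1, aUp_hecke hℓN hm]
  rw [← map_nsmul, hx, map_zero]

theorem aP_heckeBar (ℓ : Nat.Primes) (hℓN : Nat.Coprime (ℓ : ℕ) (M * p)) {m : ℕ} (hm : m ≠ 0)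
    {x : JZero (M * p)} (hx : m • x = 0) :
    aUp M p (aStar M p (heckeOperatorBar (M * p) ℓ x)) =
      heckeOperatorBar (M * p) ℓ (aUp M p (aStar M p x)) := by
  haveI : Fact (ℓ : ℕ).Prime := ⟨ℓ.2⟩
  rw [heckeOperatorBar_apply, heckeOperatorBar_apply]
  exact aP_hecke hℓN hm hx

/-- Galois-equivariance of `a^* a_*` on torsion classes. -/
theorem aP_galois {m : ℕ} (hm : m ≠ 0) (σ : Qb ≃ₐ[ℚ] Qb) {x : JZero (M * p)} (hx : m • x = 0) :
    aUp M p (aStar M p (σ • x)) = σ • aUp M p (aStar M p x) := by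
  have h1 : aStar M p (σ • x) = σ • aStar M p x := by
    rw [H05.aStar_eq_degPush, H05.degPush_galois, ← H05.aStar_eq_degPush]
  rw [h1]
  exact pullN_galois rfl _ hm σ (by rw [← map_nsmul, hx, map_zero])

end Fermat.Agent.P
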