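import Fermat.Agent.H01.P.GeoHecke

/-!
# Decomposition groups, the operator `T_p` and Frobenius at levels prime to `p`
-/

set_option autoImplicit false
set_option linter.unusedSectionVars false
set_option linter.style.haveILetI false
set_option maxSynthPendingDepth 3

noncomputable section

namespace Fermat.Agent.P

open ModularCurve AlgebraicCurve Fermat.Agent.Igusa Fermat.Agent.Q

local notation "kk" => IsLocalRing.ResidueField
local notation "Qb" => AlgebraicClosure ℚ

variable {A : ValuationSubring Qb} {M p : ℕ} [NeZero M] [hp : Fact p.Prime] {m : ℕ}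

/-- `K_∞` is stable under the decomposition group. -/
theorem galois_mem_KInf {σ : Qb ≃ₐ[ℚ] Qb} (hσ : σ ∈ A.decompositionSubgroup ℚ)
    {x : JZero (M * p)} (hx : x ∈ KInf A M p m) : σ • x ∈ KInf A M p m := by
  obtain ⟨f, hf, c, hc, u, hu, hu0, hred⟩ := hx
  have h1 := hf.smul (arithmeticGalois (modularFunctionFieldFull (M * p)) σ)
  rw [← galois_smul_pic0_def] at h1
  refine ⟨_, h1, σ c, (map_ne_zero_iff _ σ.injective).mpr hc, ?_⟩
  let τ : A.decompositionSubgroup ℚ := ⟨σ, hσ⟩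
  let σ' : kk A →+* kk A := MulSemiringAction.toRingHom (A.decompositionSubgroup ℚ) (kk A) τ
  have h2 : Red A (coeffMap (σ : Qb →+* Qb) (HahnSeries.C c * (f : LaurentSeries Qb)))
      (coeffMap σ' (u ^ m)) := hred.coeffMap (fun x => decomposition_residue σ hσ x)
  refine ⟨coeffMap σ' u, coeffMap_mem_full' _ M hu, ?_, ?_⟩
  · intro h0
    exact hu0 (coeffMap_injective _ σ'.injective (by rw [h0, map_zero]))
  · rw [map_mul, coeffMap_C_eq, map_pow] at h2
    exact h2

/-- `T = K_∞ ∩ w K_∞` is stable under the decomposition group. -/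
theorem galois_mem_TSub (hpM : Nat.Coprime p M) {σ : Qb ≃ₐ[ℚ] Qb}
    (hσ : σ ∈ A.decompositionSubgroup ℚ)
    {x : JZero (M * p)} (hx : x ∈ TSub A M p m hpM) : σ • x ∈ TSub A M p m hpM := by
  rw [mem_TSub] at hx ⊢
  refine ⟨galois_mem_KInf hσ hx.1, ?_⟩
  rw [← galois_wS]
  exact galois_mem_KInf hσ hx.2

/-- **The square of Frobenius** acts trivially modulo `T` on the `p`-new part. -/
theorem frobenius_sq_mem_TSub (hpM : Nat.Coprime p M) (hA : A.LiesOverPrime p) (hm : m ≠ 0)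
    (φ : Qb ≃ₐ[ℚ] Qb) (hφ : A.IsFrobeniusAt φ p)
    {x : JZero (M * p)} (hx : m • x = 0) (hx1 : aStar M p x = 0)
    (hx2 : aStar M p (wS M p hpM • x) = 0) : φ • φ • x - x ∈ TSub A M p m hpM := by
  have h1 := frobenius_mem_TSub (M := M) (r := p) hA hpM hm φ hφ hx hx1 hx2
  have haσ : ∀ x, aStar M p (φ • x) = φ • aStar M p x := by
    intro x
    rw [H05.aStar_eq_degPush, H05.degPush_galois, ← H05.aStar_eq_degPush]
  have h2 := frobenius_mem_TSub (M := M) (r := p) hA hpM hm φ hφ (x := φ • wS M p hpM • x)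
    (nsmul_galois φ (by rw [nsmul_wS, hx, smul_zero]))
    (by rw [haσ, hx2, smul_zero]) (by rw [← galois_wS, wS_wS, haσ, hx1, smul_zero])
  rw [← galois_wS, wS_wS] at h2
  have h4 : φ • φ • x - x = (φ • wS M p hpM • x + φ • φ • x) - (x + φ • wS M p hpM • x) := by abel
  rw [h4]
  exact sub_mem h2 h1

/-! ### Levels prime to `p` -/

/-- the kernel `K_∞` at level `M` -/
def KM (A : ValuationSubring Qb) (M p m : ℕ) [NeZero M] [Fact p.Prime] : AddSubgroup (JZero M) :=
  (KInf A M p m).comap (aUp M p)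

theorem mem_KM {x : JZero M} : x ∈ KM A M p m ↔ aUp M p x ∈ KInf A M p m := Iff.rfl

variable (hpM : Nat.Coprime p M)

include hpM in
theorem mem_KM_iff (hA : A.LiesOverPrime p) (hm : m ≠ 0) {x : JZero M}
    {f : modularFunctionFieldBar M} (hf : H05.Kum m x f) :
    x ∈ KM A M p m ↔ InfPow A M m (f : LaurentSeries Qb) := by
  rw [mem_KM, mem_KInf_iff hA hpM hm (kum_aUp hf), coe_incN]

theorem kum_nsmul_of {N : ℕ} [NeZero N] {x : JZero N} {f : modularFunctionFieldBar N}
    (hf : H05.Kum m x f) : m • x = 0 := hf.nsmul_eq_zero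

include hpM in
theorem galois_mem_KM (hm : m ≠ 0) {σ : Qb ≃ₐ[ℚ] Qb} (hσ : σ ∈ A.decompositionSubgroup ℚ)
    {x : JZero M} (hmx : m • x = 0) (hx : x ∈ KM A M p m) : σ • x ∈ KM A M p m := by
  rw [mem_KM] at hx ⊢
  have h1 : aUp M p (σ • x) = σ • aUp M p x := pullN_galois rfl _ hm σ hmx
  rw [h1]
  exact galois_mem_KInf hσ hx

include hpM in
theorem inertia_mem_KM (hA : A.LiesOverPrime p) (hm : m ≠ 0) {σ : Qb ≃ₐ[ℚ] Qb}
    (hσ : σ ∈ A.inertiaSubgroupIn ℚ) {x : JZero M} (hmx : m • x = 0) :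
    σ • x - x ∈ KM A M p m := by
  rw [mem_KM, map_sub]
  have h1 : aUp M p (σ • x) = σ • aUp M p x := pullN_galois rfl _ hm σ hmx
  rw [h1]
  exact inertia_mem_KInf hA hpM σ hσ (by rw [← map_nsmul, hmx, map_zero])

include hpM in
theorem red1_of_mem_KM {x : JZero M} (hA : A.LiesOverPrime p) (hm : m ≠ 0) (hmx : m • x = 0)
    (hx : x ∈ KM A M p m) : x ∈ Red1 A M m := by
  obtain ⟨f, hf⟩ := H05.exists_kum hmx
  rw [mem_KM_iff hpM hA hm hf] at hx
  obtain ⟨c, hc, v, hv, hv0, hred⟩ := hx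
  obtain ⟨z, hz, hzv⟩ := exists_lift (K := Qb) M hv
  have hz0 : z ≠ 0 := hzv.ne_zero hv0
  set Z : modularFunctionFieldBar M := ⟨z, mem_bar_of_full hz⟩ with hZ
  have hZ0 : Z ≠ 0 := fun h => hz0 (congrArg Subtype.val h)
  refine ⟨algebraMap Qb (modularFunctionFieldBar M) c * f * (Z⁻¹) ^ m, ?_, ?_⟩
  · have h1 := ((H05.kum_zero_algebraMap (F := modularFunctionFieldBar M) m hc).mul hf).mul
      (H05.kum_zero_pow m (inv_ne_zero hZ0))
    rwa [zero_add, add_zero] at h1
  · have h8 : ((algebraMap Qb (modularFunctionFieldBar M) c * f * (Z⁻¹) ^ m :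
        modularFunctionFieldBar M) : LaurentSeries Qb) =
        HahnSeries.C c * (f : LaurentSeries Qb) * (z⁻¹) ^ m := by
      change algebraMap Qb (LaurentSeries Qb) c * (f : LaurentSeries Qb) * (z⁻¹) ^ m = _
      rw [algebraMap_eq_C]
    rw [h8]
    have h3 := hred.mul ((hzv.inv hv0).pow m)
    rwa [← mul_pow, mul_inv_cancel₀ hv0, one_pow] at h3

include hpM in
theorem mem_KM_mul_iff (hA : A.LiesOverPrime p) (hm : m ≠ 0) {k : ℕ} (hk : k ≠ 0) {x : JZero M}
    (hx : m • x = 0) : x ∈ KM A M p (m * k) ↔ x ∈ KM A M p m := by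
  rw [mem_KM, mem_KM, mem_KInf_mul_iff hA hpM hm hk (by rw [← map_nsmul, hx, map_zero])]

/-- **The Eichler–Shimura relation at `p`** -/
theorem frobenius_mem_KM (hA : A.LiesOverPrime p) (hm : m ≠ 0) (φ : Qb ≃ₐ[ℚ] Qb)
    (hφ : A.IsFrobeniusAt φ p) {x : JZero M} (hx : m • x = 0) :
    φ • φ • x - φ • tM hpM x + p • x ∈ KM A M p m := by
  have hchar := H05.charP_residueField hp.out hA
  haveI : NeZero ((p : ℕ) : Qb) := ⟨by exact_mod_cast hp.out.ne_zero⟩
  obtain ⟨ζ', hζ'⟩ := HasEnoughRootsOfUnity.exists_primitiveRoot Qb p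
  have hζ : IsPrimitiveRoot (Units.mk0 ζ' (hζ'.ne_zero hp.out.ne_zero)) p := by
    rw [← IsPrimitiveRoot.coe_units_iff]
    exact hζ'
  obtain ⟨f, hf⟩ := H05.exists_kum hx
  obtain ⟨g, hg, hge⟩ := kum_tM hpM hζ hf
  have hf0 : (f : LaurentSeries Qb) ≠ 0 := ne_zero_coe hf.ne_zero
  have hg0 : (g : LaurentSeries Qb) ≠ 0 := ne_zero_coe hg.ne_zero
  -- the reduction
  obtain ⟨c, hc, u, hu, hu0, hred⟩ := exists_red_mul hA hpM
    (mem_of_mem Qb _ (mem_full_of_bar f.2)) hf0
  set F := frobenius (kk A) p with hF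
  set u1 := coeffMap F u with hu1
  have hu1' : u1 ∈ modularFunctionFieldFullC (kk A) M := coeffMap_mem_full' _ M hu
  have hFinj : Function.Injective F := frobenius_inj (kk A) p
  have hu10 : u1 ≠ 0 := fun h0 => hu0 (coeffMap_injective _ hFinj (by rw [← hu1, h0, map_zero]))
  have hup : u ^ p = qExpand (kk A) p u1 := by rw [hu1, hF]; exact pow_char p u
  have hfr := fun x => frobenius_residue (A := A) hφ x
  -- `φ f`
  have r1 : Red A (HahnSeries.C (φ c) * coeffMap (φ : Qb →+* Qb) (f : LaurentSeries Qb)) u1 := by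
    have := hred.coeffMap (σ := (φ : Qb →+* Qb)) (σ' := F) hfr
    rwa [map_mul, coeffMap_C_eq] at this
  have r2 : Red A (HahnSeries.C (φ (φ c)) * coeffMap (φ : Qb →+* Qb)
      (coeffMap (φ : Qb →+* Qb) (f : LaurentSeries Qb))) (coeffMap F u1) := by
    have := r1.coeffMap (σ := (φ : Qb →+* Qb)) (σ' := F) hfr
    rwa [map_mul, coeffMap_C_eq] at this
  -- `T_p f`
  have r3 : Red A (HahnSeries.C (c ^ (p + 1)) * (g : LaurentSeries Qb))
      (qExpand (kk A) p u * u1) := by
    have h1 := Red.qExpand p hred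
    have h2 := red_uOp hA hζ (red_nT hA hζ.pow_eq_one hred)
    rw [hup, uOp_qExpand] at h2
    have h3 := h1.mul h2
    have h5 : ModularCurve.qExpand Qb p (HahnSeries.C c * (f : LaurentSeries Qb)) *
        uOp p (nT (Units.mk0 ζ' (hζ'.ne_zero hp.out.ne_zero)) p
          (HahnSeries.C c * (f : LaurentSeries Qb))) =
        HahnSeries.C (c ^ (p + 1)) * (g : LaurentSeries Qb) := by
      rw [uOp_nT_mul hζ, nT_C, map_mul, qExpand_C, hge, tP]
      have h6 : uOp p (HahnSeries.C (c ^ p) : LaurentSeries Qb) = HahnSeries.C (c ^ p) := by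
        have := uOp_qExpand p (HahnSeries.C (c ^ p) : LaurentSeries Qb)
        rwa [qExpand_C] at this
      rw [h6, pow_succ, map_mul]
      ring
    rwa [h5] at h3
  have r4 : Red A (HahnSeries.C (φ (c ^ (p + 1))) * coeffMap (φ : Qb →+* Qb)
      (g : LaurentSeries Qb)) (qExpand (kk A) p u1 * coeffMap F u1) := by
    have := r3.coeffMap (σ := (φ : Qb →+* Qb)) (σ' := F) hfr
    rw [map_mul, coeffMap_C_eq, map_mul, coeffMap_qExpand] at this
    exact this
  -- Kummer function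
  have k1 := (hf.smul (arithmeticGalois (modularFunctionFieldFull M) φ)).smul
    (arithmeticGalois (modularFunctionFieldFull M) φ)
  have k2 := hg.smul (arithmeticGalois (modularFunctionFieldFull M) φ)
  rw [← galois_smul_pic0_def, ← galois_smul_pic0_def] at k1
  rw [← galois_smul_pic0_def] at k2
  have k3 := (H26.kum_sub k1 k2).mul (H26.kum_nsmul hf p)
  rw [mem_KM_iff hpM hA hm k3]
  refine ⟨φ (φ c) * (φ (c ^ (p + 1)))⁻¹ * c ^ p, ?_, 1, one_mem _, one_ne_zero, ?_⟩
  · refine mul_ne_zero (mul_ne_zero ?_ (inv_ne_zero ?_)) (pow_ne_zero _ hc)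
    · exact (map_ne_zero_iff _ φ.injective).mpr ((map_ne_zero_iff _ φ.injective).mpr hc)
    · exact (map_ne_zero_iff _ φ.injective).mpr (pow_ne_zero _ hc)
  · have hq0 : qExpand (kk A) p u1 * coeffMap F u1 ≠ 0 := by
      refine mul_ne_zero ?_ ?_
      · intro h0
        exact hu10 (qExpand_injective p (by rw [h0, map_zero]))
      · intro h0
        exact hu10 (coeffMap_injective _ hFinj (by rw [h0, map_zero]))
    have r5 := (r2.mul (r4.inv hq0)).mul (hred.pow p)
    have e1 : coeffMap F u1 * (qExpand (kk A) p u1 * coeffMap F u1)⁻¹ * u ^ p = 1 := by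
      rw [hup]
      have h1 : qExpand (kk A) p u1 ≠ 0 := left_ne_zero_of_mul hq0
      have h2 : coeffMap F u1 ≠ 0 := right_ne_zero_of_mul hq0
      field_simp
    rw [e1] at r5
    have e2 : (1 : LaurentSeries (kk A)) ^ m = 1 := one_pow m
    refine Eq.mpr (congrArg (Red A _) e2) ?_
    have e3 : HahnSeries.C (φ (φ c) * (φ (c ^ (p + 1)))⁻¹ * c ^ p) *
        (coeffMap (φ : Qb →+* Qb) (coeffMap (φ : Qb →+* Qb) (f : LaurentSeries Qb)) *
          (coeffMap (φ : Qb →+* Qb) (g : LaurentSeries Qb))⁻¹ * (f : LaurentSeries Qb) ^ p) =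
        HahnSeries.C (φ (φ c)) * coeffMap (φ : Qb →+* Qb)
          (coeffMap (φ : Qb →+* Qb) (f : LaurentSeries Qb)) *
          (HahnSeries.C (φ (c ^ (p + 1))) * coeffMap (φ : Qb →+* Qb)
            (g : LaurentSeries Qb))⁻¹ * (HahnSeries.C c * (f : LaurentSeries Qb)) ^ p := by
      rw [map_mul, map_mul, map_inv₀, mul_inv, mul_pow, map_pow HahnSeries.C c p]
      ring
    rw [← e3] at r5
    exact r5

end Fermat.Agent.P
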