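import Fermat.Agent.H01.P.GeoLev

/-!
# The geometric theorem at levels prime to `p`
-/

set_option autoImplicit false
set_option linter.unusedSectionVars false
set_option linter.style.haveILetI false
set_option maxSynthPendingDepth 3

noncomputable section

namespace Fermat.Agent.P

open ModularCurve AlgebraicCurve Fermat.Agent.Igusa Fermat.Agent.Q

local notation "kk" => IsLocalRing.ResidueField
local notation "Qb" => AlgebraicClosure ℚ

theorem zero_of_iterate {G : Type*} [AddCommGroup G] (D : G →+ G) {x : G} {n : ℕ}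
    (hn : D^[n] (D x) = 0) {c p : ℤ} (hDD : D (D x) = c • D x) (hp : p • D x = 0)
    (hcop : IsCoprime c p) : D x = 0 := by
  have key : ∀ j, (c ^ j) • D x = D^[j] (D x) := by
    intro j
    induction j with
    | zero => simp
    | succ j ih =>
      rw [Function.iterate_succ_apply', ← ih, map_zsmul, hDD, pow_succ, mul_smul]
  have h4 : (c ^ n) • D x = 0 := by rw [key n, hn]
  obtain ⟨r, s, hrs⟩ := (IsCoprime.pow_left (m := n) hcop)
  calc D x = (1 : ℤ) • D x := (one_smul _ _).symm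
    _ = (r * c ^ n + s * p) • D x := by rw [hrs]
    _ = 0 := by rw [add_smul, mul_smul, mul_smul, h4, hp, smul_zero, smul_zero, add_zero]

variable {A : ValuationSubring Qb} {M p : ℕ} [NeZero M] [hp : Fact p.Prime] {m : ℕ}
  (hpM : Nat.Coprime p M)

theorem tM_eq_hecke (hm : m ≠ 0) {x : JZero M} (hx : m • x = 0) :
    tM hpM x = heckeOperatorAlong Qb M p x := by
  haveI : NeZero (p : Qb) := ⟨by exact_mod_cast hp.out.ne_zero⟩
  obtain ⟨ζ', hζ'⟩ := HasEnoughRootsOfUnity.exists_primitiveRoot Qb p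
  have hζ : IsPrimitiveRoot (Units.mk0 ζ' (hζ'.ne_zero hp.out.ne_zero)) p := by
    rw [← IsPrimitiveRoot.coe_units_iff]
    exact hζ'
  obtain ⟨f, hf⟩ := H05.exists_kum hx
  obtain ⟨g, hg, hge⟩ := kum_tM hpM hζ hf
  obtain ⟨g', hg', hge'⟩ := kum_hecke hpM hζ hf
  have h2 : g = g' := Subtype.ext (hge.trans hge'.symm)
  rw [h2] at hg
  exact H05.Kum.unique_left hm hg hg'

theorem tM_galois (hm : m ≠ 0) (σ : Qb ≃ₐ[ℚ] Qb) {x : JZero M} (hx : m • x = 0) :
    tM hpM (σ • x) = σ • tM hpM x := by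
  have h1 : aUp M p (σ • x) = σ • aUp M p x := pullN_galois rfl _ hm σ hx
  rw [tM_apply, h1, ← galois_wS, H05.aStar_eq_degPush, H05.degPush_galois,
    ← H05.aStar_eq_degPush, ← tM_apply]

/-- `K_∞` is stable under `T_p`. -/
theorem tM_mem_KM (hA : A.LiesOverPrime p) (hm : m ≠ 0) (φ : Qb ≃ₐ[ℚ] Qb)
    (hφ : A.IsFrobeniusAt φ p) {x : JZero M} (hmx : m • x = 0)
    (hx : x ∈ KM A M p m) : tM hpM x ∈ KM A M p m := by
  have hD := hφ.mem_decompositionSubgroup
  have h1 := frobenius_mem_KM hpM hA hm φ hφ hmx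
  have h2 := galois_mem_KM hpM hm hD (nsmul_galois φ hmx) (galois_mem_KM hpM hm hD hmx hx)
  have h3 : φ • tM hpM x ∈ KM A M p m := by
    have h4 := sub_mem (add_mem h2 (nsmul_mem hx p)) h1
    have h5 : φ • φ • x + p • x - (φ • φ • x - φ • tM hpM x + p • x) = φ • tM hpM x := by abel
    rwa [h5] at h4
  have h4 := galois_mem_KM hpM hm (inv_mem hD)
    (nsmul_galois φ (by rw [← map_nsmul, hmx, map_zero])) h3
  rwa [inv_smul_smul] at h4

/-- **The geometric theorem at levels prime to `p`.** -/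
theorem geoM_all (h3 : 3 ≤ p) (hA : A.LiesOverPrime p) {ζ : Qb}
    (hζ : IsPrimitiveRoot ζ p) (X : AddSubgroup (JZero M)) [Finite X]
    (hpX : ∀ x ∈ X, p • x = 0) (hK : ∀ x ∈ X, x ∈ KM A M p p)
    (hG : ∀ σ ∈ A.inertiaSubgroupIn ℚ, ∀ x ∈ X, σ • x ∈ X)
    (hT : ∀ x ∈ X, tM hpM x ∈ X)
    (hrel : ∀ σ ∈ A.inertiaSubgroupIn ℚ, ∀ a : ℕ, σ ζ = ζ ^ a → ∀ x ∈ X,
      σ • σ • x - (a + 1) • σ • x + a • x = 0) :
    ∀ σ ∈ A.inertiaSubgroupIn ℚ, ∀ a : ℕ, σ ζ = ζ ^ a → ∀ x ∈ X, σ • x = a • x := by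
  have hchar := H05.charP_residueField hp.out hA
  obtain ⟨τ₀, σ₀, a₀, h0⟩ := exists_tame hA hζ
  have key : ∀ (σ : Qb ≃ₐ[ℚ] Qb) (a : ℕ), TameAt A p ζ τ₀ σ a → ∀ x ∈ X, σ • x = a • x := by
    intro σ a ht x hx
    have ha1 := ht.a_ne_one hA h3
    have hcop : IsCoprime (1 - (a : ℤ)) (p : ℤ) := by
      rw [isCoprime_comm, (Nat.prime_iff_prime_int.mp hp.out).coprime_iff_not_dvd]
      intro hd
      apply ha1
      have h6 : ((1 - (a : ℤ) : ℤ) : kk A) = 0 := (CharP.intCast_eq_zero_iff (kk A) p _).mpr hd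
      push_cast at h6
      exact (sub_eq_zero.mp h6).symm
    obtain ⟨n, hn⟩ := geoM hpM hA h3 ht X
      (fun y hy => red1_of_mem_KM hpM hA hp.out.ne_zero (hpX y hy) (hK y hy)) hT (hG σ ht.ine)
      (hrel σ ht.ine a ht.cyc)
    apply del_eq_zero.mp
    have hDX := del_mem (σ := σ) (a := a) (hG σ ht.ine) hx
    refine zero_of_iterate (del σ a) (hn _ hDX) (c := 1 - (a : ℤ)) (p := (p : ℤ)) ?_ ?_ hcop
    · have e1 := del_apply (N := M) σ a x
      have e2 := del_apply (N := M) σ a (del σ a x)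
      rw [e2, sub_smul, one_smul, natCast_zsmul]
      congr 1
      rw [e1, smul_sub]
      have h4 : σ • a • x = a • σ • x := by rw [smul_comm]
      rw [h4]
      have h5 := hrel σ ht.ine a ht.cyc x hx
      have h6 : σ • σ • x - a • σ • x - (σ • x - a • x) =
          σ • σ • x - (a + 1) • σ • x + a • x := by
        rw [add_smul, one_smul]; abel
      exact sub_eq_zero.mp (h6.trans h5)
    · rw [natCast_zsmul]
      exact hpX _ hDX
  have hpow : ∀ k : ℕ, ∀ x ∈ X, σ₀ ^ k • x = a₀ ^ k • x := by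
    intro k
    induction k with
    | zero => intro x _; rw [pow_zero, pow_zero, one_smul, one_smul]
    | succ k ih =>
      intro x hx
      rw [pow_succ, mul_smul, key σ₀ a₀ h0 x hx, ih _ (nsmul_mem hx a₀), ← mul_smul, ← pow_succ]
  intro τ hτ b hb x hx
  obtain ⟨k, hk⟩ := h0.exists_mul_pow hA hτ hb
  have hy : (σ₀ ^ k)⁻¹ • x ∈ X := hG _ (inv_mem (pow_mem h0.ine k)) x hx
  have h1 := key _ _ hk _ hy
  rw [mul_smul, smul_inv_smul, mul_smul, ← hpow k _ hy, smul_inv_smul] at h1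
  exact h1

end Fermat.Agent.P
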