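import Fermat.Agent.H01.P.Ss

/-!
# Classes killed by `T_p`: level `p/(p-1)` or `p/(p²-1)`
-/

set_option autoImplicit false
set_option linter.unusedSectionVars false

noncomputable section

namespace Fermat.Agent.P

open ModularCurve Fermat.Agent.Igusa Fermat.Agent.Q

local notation "kk" => IsLocalRing.ResidueField

variable {K : Type*} [Field K] [CharZero K] [Algebra ℚ K] [Algebra.IsAlgebraic ℚ K]
  {A : ValuationSubring K} {π : K} {p : ℕ} [hp : Fact p.Prime] {ζ : Kˣ} {M : ℕ} [NeZero M]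

/-- removing a constant leading term -/
theorem improve_const (hπ : Unif A π) (hA : A.LiesOverPrime p) {m : ℕ} {g : LaurentSeries K}
    (hg : g ∈ modularFunctionFieldFullC K M) {i : ℕ} (hi : 1 ≤ i) {d : kk A}
    (h : Lead A (π ^ i) (g - 1) (HahnSeries.C d)) : HasLv A π M m (i + 1) g := by
  obtain ⟨hπi, hπi0⟩ := hπ.pow_res hi
  obtain ⟨y, hy, hyd⟩ := h
  have hCm : ∀ c : K, (HahnSeries.C c : LaurentSeries K) ∈ modularFunctionFieldFullC K M := by
    intro c
    rw [← algebraMap_eq_C]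
    exact (modularFunctionFieldFullC K M).algebraMap_mem c
  have hymem : y ∈ modularFunctionFieldFullC K M := by
    have h2 : y = HahnSeries.C (π ^ i)⁻¹ * (g - 1) := by
      rw [hy, ← mul_assoc, ← map_mul, inv_mul_cancel₀ (pow_ne_zero _ hπ.ne), map_one, one_mul]
    rw [h2]
    exact mul_mem (hCm _) (sub_mem hg (one_mem _))
  obtain ⟨a, ha, hay⟩ := hπ.sub_C_mem hA (full_le_FL M hymem) hyd
  have hlev1 : (HahnSeries.C (1 + π ^ i * a) : LaurentSeries K) - 1 ∈ cg A (π ^ i) := by
    rw [map_add, map_one, add_sub_cancel_left, map_mul]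
    exact C_mul_mem_cg (C_mem_VL ha)
  obtain ⟨hi1, hi2, hi3⟩ := inv_sub_one_mem hπi hπi0 hlev1
  have hne1 : (1 + π ^ i * a) ≠ 0 := fun h0 => hi2 (by rw [h0, map_zero])
  refine ⟨HahnSeries.C (1 + π ^ i * a)⁻¹ * g, mul_mem (hCm _) hg,
    (Eqv.C_mul (inv_ne_zero hne1)).symm, ?_⟩
  have h5 : HahnSeries.C (1 + π ^ i * a)⁻¹ * g - 1 =
      (HahnSeries.C (1 + π ^ i * a))⁻¹ * (HahnSeries.C (π ^ i) * (y - HahnSeries.C a)) := by
    have h6 : HahnSeries.C (π ^ i) * (y - HahnSeries.C a) = g -
        HahnSeries.C (1 + π ^ i * a) := by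
      rw [map_add, map_one, map_mul]
      linear_combination (-1 : LaurentSeries K) * hy
    rw [h6, mul_sub, inv_mul_cancel₀ hi2, map_inv₀]
  rw [h5]
  refine mul_cg_mem hi3 ?_
  obtain ⟨s, hs, hse⟩ := hay
  rw [hse, ← mul_assoc, ← map_mul, ← pow_succ]
  exact C_mul_mem_cg hs

/-- removing a leading term which is a `p`-th power -/
theorem improve_pow (hπ : Unif A π) (hA : A.LiesOverPrime p) {e' : ℕ} (hr : Ram A π p e')
    {g : LaurentSeries K}
    (hg : g ∈ modularFunctionFieldFullC K M) {j : ℕ} (hj : 1 ≤ j) (hj' : p * j < p * e')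
    {v : LaurentSeries (kk A)} (hv : v ∈ modularFunctionFieldFullC (kk A) M)
    (h : Lead A (π ^ (p * j)) (g - 1) (v ^ p)) : HasLv A π M p (p * j + 1) g := by
  obtain ⟨hπi, hπi0⟩ := hπ.pow_res (i := p * j) (Nat.mul_pos hp.out.pos (by omega))
  obtain ⟨w, hw, hwv⟩ := h
  have hCm : ∀ c : K, (HahnSeries.C c : LaurentSeries K) ∈ modularFunctionFieldFullC K M := by
    intro c
    rw [← algebraMap_eq_C]
    exact (modularFunctionFieldFullC K M).algebraMap_mem c
  obtain ⟨c, hc, hcr⟩ := exists_lift (K := K) M hv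
  obtain ⟨s, hs, hse⟩ := pw1 hπ.mem hr (J := j) (w := c) ⟨_, hcr⟩ 1 (by rwa [pow_one])
  rw [pow_one] at hse
  set D := (1 + HahnSeries.C (π ^ j) * c) with hD
  have hDm : D ∈ modularFunctionFieldFullC K M :=
    add_mem (one_mem _) (mul_mem (hCm _) hc)
  have hDpow : D ^ p - 1 ∈ cg A (π ^ (p * j)) := by
    rw [hse, add_sub_cancel_left]
    exact C_mul_mem_cg (add_mem (pow_mem (show c ∈ VL A from ⟨_, hcr⟩) _) (mul_mem (C_mem_VL hπ.mem) hs))
  obtain ⟨hi1, hi2, hi3⟩ := inv_sub_one_mem hπi hπi0 hDpow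
  have hD0 : D ≠ 0 := by
    intro h0
    rw [h0, zero_pow hp.out.ne_zero] at hi2
    exact hi2 rfl
  refine ⟨g * (D⁻¹) ^ p, mul_mem hg (pow_mem (inv_mem hDm) _),
    (Eqv.mul_pow (inv_mem hDm) (inv_ne_zero hD0)).symm, ?_⟩
  have h5 : g * (D⁻¹) ^ p - 1 = (D ^ p)⁻¹ * (g - D ^ p) := by
    rw [inv_pow, mul_sub, inv_mul_cancel₀ hi2]; ring
  rw [h5]
  refine mul_cg_mem hi3 ?_
  have h6 : g - D ^ p = HahnSeries.C (π ^ (p * j)) * (w - c ^ p - HahnSeries.C π * s) := by
    rw [hse]; linear_combination hw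
  have hredw : Red A (w - c ^ p - HahnSeries.C π * s) 0 := by
    have h7 := (hwv.sub (hcr.pow p)).sub
      (red_zero_of_mem_cg hπ.mem hπ.res (C_mul_mem_cg hs))
    rwa [sub_self, sub_self] at h7
  exact hπ.mem_cg_succ hp.out hA (sub_mem (full_le_FL M hg) (full_le_FL M (pow_mem hDm _))) h6 hredw

theorem HasLv.of_eqv {m i : ℕ} {f g : LaurentSeries K} (h : Eqv K M m f g)
    (h' : HasLv A π M m i g) : HasLv A π M m i f := h'.congr h

/-- **Classes killed by `T_p`.** -/
theorem ss_main [PerfectRing (kk A) p] (hπ : Unif A π) {e' : ℕ} (he' : 1 ≤ e')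
    (hr : Ram A π p e') (hA : A.LiesOverPrime p) (hζ : IsPrimitiveRoot ζ p)
    (hpM : Nat.Coprime p M) {f : LaurentSeries K} (h1 : HasLv A π M p 1 f)
    (hT : Eqv K M p (tP ζ p f) 1) :
    HasLv A π M p (p * e') f ∨ ∃ j, (p + 1) * j = e' ∧ ∃ g ∈ modularFunctionFieldFullC K M,
      Eqv K M p f g ∧ ∃ b, Lead A (π ^ (p * j)) (g - 1) b ∧ theta (kk A) b ≠ 0 := by
  have hchar := H05.charP_residueField hp.out hA
  have hMk := natCast_residue_ne_zero hp.out hA hpM
  have key : ∀ i, 1 ≤ i → i ≤ p * e' → HasLv A π M p i f ∨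
      ∃ j, (p + 1) * j = e' ∧ ∃ g ∈ modularFunctionFieldFullC K M,
      Eqv K M p f g ∧ ∃ b, Lead A (π ^ (p * j)) (g - 1) b ∧ theta (kk A) b ≠ 0 := by
    intro i hi
    induction i, hi using Nat.le_induction with
    | base => exact fun _ => Or.inl h1
    | succ i hi ih =>
      intro hi'
      rcases ih (by omega) with ih | ih
      swap
      · exact Or.inr ih
      obtain ⟨g, hg, hfg, h, ⟨b, hb⟩, hgh⟩ := ih
      have hlead : Lead A (π ^ i) (g - 1) b := ⟨h, hgh, hb⟩
      have hCm : ∀ c : K, (HahnSeries.C c : LaurentSeries K) ∈ modularFunctionFieldFullC K M := by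
        intro c
        rw [← algebraMap_eq_C]
        exact (modularFunctionFieldFullC K M).algebraMap_mem c
      have hhm : h ∈ modularFunctionFieldFullC K M := by
        have h2 : h = HahnSeries.C (π ^ i)⁻¹ * (g - 1) := by
          rw [hgh, ← mul_assoc, ← map_mul, inv_mul_cancel₀ (pow_ne_zero _ hπ.ne), map_one, one_mul]
        rw [h2]
        exact mul_mem (hCm _) (sub_mem hg (one_mem _))
      have hbm : b ∈ modularFunctionFieldFullC (kk A) M := Q.red_mem_full hp.out hA hMk hhm hb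
      obtain ⟨c, hc, u, hu, hu0, hcu⟩ := (hfg.symm.tP hpM hζ).trans hT
      rw [mul_one] at hcu
      by_cases hθ : theta (kk A) b = 0
      · left
        apply HasLv.of_eqv hfg
        by_cases hpi : p ∣ i
        · obtain ⟨j, rfl⟩ := hpi
          have hj : 1 ≤ j := by
            rcases Nat.eq_zero_or_pos j with rfl | h
            · omega
            · exact h
          obtain ⟨v, hv, rfl⟩ := exists_pow_of_theta_eq_zero (p := p) hMk hbm hθ
          exact improve_pow hπ hA hr hg hj (by omega) hv hlead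
        · have hlev := tP_level hπ.mem he' hr hA hζ hi ⟨b, hb⟩ hgh
          have hTcg : HahnSeries.C c * u ^ p ^ 1 - 1 ∈ cg A (π ^ i) := by
            rw [pow_one, ← hcu]
            have h3 : tP ζ p g - 1 = (tP ζ p g - 1 - HahnSeries.C (π ^ i) * qExpand K p h) +
              HahnSeries.C (π ^ i) * qExpand K p h := by ring
            rw [h3]
            exact add_mem (cg_pow_mono hπ.mem (Nat.le_succ i) hlev)
              (C_mul_mem_cg (qExpand_mem_VL p ⟨_, hb⟩))
          obtain ⟨a, ha, hl⟩ := leading_pow hπ hA hr (full_le_FL M hu) hu0 hc 1 hi (by omega)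
            (by rwa [pow_one]) hTcg
          rw [pow_one, ← hcu] at hl
          have h1 : HahnSeries.C (π ^ i) * (qExpand K p h - HahnSeries.C a) ∈
              cg A (π ^ (i + 1)) := by
            have h2 : HahnSeries.C (π ^ i) * (qExpand K p h - HahnSeries.C a) =
                (tP ζ p g - 1 - HahnSeries.C (π ^ i * a)) -
                (tP ζ p g - 1 - HahnSeries.C (π ^ i) * qExpand K p h) := by
              rw [map_mul]; ring
            rw [h2]
            exact sub_mem hl hlev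
          have h2 := ((hb.qExpand p).sub (Red.C ha)).unique (hπ.red_zero_of_mem h1)
          have h3 : b = HahnSeries.C (IsLocalRing.residue A ⟨a, ha⟩) := by
            apply qExpand_injective p
            rw [qExpand_C]
            exact sub_eq_zero.mp h2
          rw [h3] at hlead
          exact improve_const hπ hA hg hi hlead
      · right
        obtain ⟨j, hij, hj⟩ := ss_level hπ he' hr hA hζ hi (by omega) hlead hθ hc
          (full_le_FL M hu) hu0 hcu
        exact ⟨j, hj, g, hg, hfg, b, by rw [← hij]; exact hlead, hθ⟩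
  exact key (p * e') (Nat.mul_pos hp.out.pos he') le_rfl

end Fermat.Agent.P
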