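import Fermat.Agent.H01.P.GeoNew
import Fermat.Agent.H01.P.Ss2

/-!
# Levels of torsion classes of `J₀(M)` at a prime `p ∤ M`
-/

set_option autoImplicit false
set_option linter.unusedSectionVars false
set_option linter.style.haveILetI false
set_option maxSynthPendingDepth 3

noncomputable section

namespace Fermat.Agent.P

open ModularCurve AlgebraicCurve Fermat.Agent.Igusa Fermat.Agent.Q

local notation "kk" => IsLocalRing.ResidueField
local notation "Qb" => AlgebraicClosure ℚ

variable {A : ValuationSubring Qb} {M p : ℕ} [NeZero M] [hp : Fact p.Prime] {ζ u w : Qb}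

/-- pull-back of classes along the inclusion -/
def aUp (M p : ℕ) [NeZero M] [Fact p.Prime] : JZero M →+ JZero (M * p) :=
  pullN (N := M) (N' := M * p) rfl (dvd_mul_right M p)

theorem kum_aUp {m : ℕ} {x : JZero M} {f : modularFunctionFieldBar M} (hf : H05.Kum m x f) :
    H05.Kum m (aUp M p x) (incN (dvd_mul_right M p) f) := kum_pullN rfl _ hf

/-- the operator `T_p` on `J₀(M)`, as `a_* w a^*`. -/
def tM (hpM : Nat.Coprime p M) : JZero M →+ JZero M :=
  (aStar M p).comp ((DistribSMul.toAddMonoidHom (JZero (M * p)) (wS M p hpM)).comp (aUp M p))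

theorem tM_apply (hpM : Nat.Coprime p M) (x : JZero M) :
    tM hpM x = aStar M p (wS M p hpM • aUp M p x) := by
  rw [tM, AddMonoidHom.comp_apply, AddMonoidHom.comp_apply, DistribSMul.toAddMonoidHom_apply]

variable (hpM : Nat.Coprime p M)

theorem coe_wS_incN (f : modularFunctionFieldBar M) :
    ((wS M p hpM • incN (dvd_mul_right M p) f : modularFunctionFieldBar (M * p)) :
      LaurentSeries Qb) = qExpand Qb p f := by
  have h1 := coe_incN (dvd_mul_right M p) f
  have h2 := coe_wQ_of_mem Qb hpM _ (mem_full_of_bar f.2)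
  have h3 : (⟨((incN (dvd_mul_right M p) f : modularFunctionFieldBar (M * p)) : LaurentSeries Qb),
      mem_full_of_bar (incN (dvd_mul_right M p) f : modularFunctionFieldBar (M * p)).2⟩ :
      modularFunctionFieldFullC Qb (M * p)) =
      ⟨(f : LaurentSeries Qb), mem_of_mem Qb _ (mem_full_of_bar f.2)⟩ := Subtype.ext h1
  rw [wS_smul_fun, coe_wBar, h3, h2]

/-- Kummer functions of `T_p x`. -/
theorem kum_tM {ζ : Qbˣ} (hζ : IsPrimitiveRoot ζ p) {m : ℕ} {x : JZero M}
    {f : modularFunctionFieldBar M} (hf : H05.Kum m x f) :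
    ∃ f' : modularFunctionFieldBar M, H05.Kum m (tM hpM x) f' ∧
      (f' : LaurentSeries Qb) = tP ζ p f := by
  have h1 := kum_aStar ((kum_aUp (p := p) hf).smul (wS M p hpM))
  rw [← tM_apply] at h1
  refine ⟨_, h1, ?_⟩
  have h3 : (⟨((wS M p hpM • incN (dvd_mul_right M p) f : modularFunctionFieldBar (M * p)) :
      LaurentSeries Qb), mem_full_of_bar
      (wS M p hpM • incN (dvd_mul_right M p) f : modularFunctionFieldBar (M * p)).2⟩ :
      modularFunctionFieldFullC Qb (M * p)) =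
      ⟨qExpand Qb p (f : LaurentSeries Qb), qExpand_mem Qb _ (mem_full_of_bar f.2)⟩ :=
    Subtype.ext (coe_wS_incN hpM f)
  rw [coe_normAlong_alpha, tP_eq_norm hpM hζ (mem_full_of_bar f.2), h3]

/-- classes with a Kummer function of reduction `1` -/
def Red1 (A : ValuationSubring Qb) (N m : ℕ) [NeZero N] : Set (JZero N) :=
  {x | ∃ f : modularFunctionFieldBar N, H05.Kum m x f ∧ Red A (f : LaurentSeries Qb) 1}

theorem ne_zero_coe {N : ℕ} {f : modularFunctionFieldBar N} (hf : f ≠ 0) :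
    (f : LaurentSeries Qb) ≠ 0 := fun h => hf (Subtype.ext h)

/-- changing a Kummer function within its class -/
theorem kum_of_eqv {m : ℕ} {x : JZero M} {f : modularFunctionFieldBar M} (hf : H05.Kum m x f)
    {G : LaurentSeries Qb} (hG : G ∈ modularFunctionFieldFullC Qb M)
    (h : Eqv Qb M m (f : LaurentSeries Qb) G) :
    H05.Kum m x (⟨G, mem_bar_of_full hG⟩ : modularFunctionFieldBar M) := by
  obtain ⟨c, hc, v, hv, hv0, he⟩ := h.symm
  set V : modularFunctionFieldBar M := ⟨v, mem_bar_of_full hv⟩ with hV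
  have hV0 : V ≠ 0 := fun h => hv0 (congrArg Subtype.val h)
  have h1 := ((H05.kum_zero_algebraMap (F := modularFunctionFieldBar M) m hc).mul
    (H05.kum_zero_pow m hV0)).mul hf
  rw [add_zero, zero_add] at h1
  have h2 : (⟨G, mem_bar_of_full hG⟩ : modularFunctionFieldBar M) =
      algebraMap Qb (modularFunctionFieldBar M) c * V ^ m * f := by
    apply Subtype.ext
    change G = algebraMap Qb (LaurentSeries Qb) c * v ^ m * f
    rw [he, algebraMap_eq_C]
  rw [h2]
  exact h1

/-- the units `π^{e'}` and `ζ - 1` -/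
theorem cg_up_pow {E : IntermediateField ℚ Qb} {π v : E} {e' : ℕ} {wE : E}
    (hv' : v⁻¹ ∈ AE A E) (hv0 : v ≠ 0) (he : wE = v * π ^ e')
    {G : LaurentSeries E} (h : G ∈ cg (AE A E) (π ^ (p * e'))) :
    coeffMap (algebraMap E Qb) G ∈ cg A ((wE : Qb) ^ p) := by
  have h1 := cg_up h
  refine cg_mono ⟨((v⁻¹ : E) : Qb) ^ p, pow_mem hv' _, ?_⟩ h1
  have h2 : π ^ (p * e') = wE ^ p * (v⁻¹) ^ p := by
    rw [he, mul_pow, ← pow_mul, mul_comm e' p, inv_pow]
    have := pow_ne_zero p hv0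
    field_simp
  rw [h2]
  push_cast
  ring

/-- **The bijective part of `T_p`.** -/
theorem asc_lvl (hA : A.LiesOverPrime p) (hw : Varpi A p ζ u w) (k : ℕ) {ι : Type*} [Finite ι]
    (x : ι → JZero M) (y : ι → ι) (hy : ∀ i, tM hpM (x (y i)) = x i)
    (h1 : ∀ i, x i ∈ Red1 A M (p ^ k)) (i : ι) : x i ∈ lvl A M (p ^ k) (w ^ p) := by
  have hpk : p ^ k ≠ 0 := pow_ne_zero _ hp.out.ne_zero
  have hζ0 : ζ ≠ 0 := hw.prim.ne_zero hp.out.ne_zero
  have hζ : IsPrimitiveRoot (Units.mk0 ζ hζ0) p := by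
    rw [← IsPrimitiveRoot.coe_units_iff]
    exact hw.prim
  choose f hf hfr using h1
  choose F' hF' hF'e using fun i => kum_tM hpM hζ (hf (y i))
  have hex : ∀ i, ∃ h : modularFunctionFieldBar M, h ≠ 0 ∧ F' i = f i * h ^ p ^ k := by
    intro i
    have h2 := hF' i
    rw [hy] at h2
    exact exists_kum_eq_mul_pow hpk h2 (hf i)
  choose h hh0 hhe using hex
  have hrel : ∀ i, tP (Units.mk0 ζ hζ0) p (f (y i) : LaurentSeries Qb) =
      (f i : LaurentSeries Qb) * (h i : LaurentSeries Qb) ^ p ^ k := by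
    intro i
    rw [← hF'e, hhe]
    rfl
  -- descent
  obtain ⟨E, hE, hdesc⟩ := exists_NFm_forall (K := Qb) M (ι := (ι ⊕ ι) ⊕ Unit)
    (Sum.elim (Sum.elim (fun i => (f i : LaurentSeries Qb)) (fun i => (h i : LaurentSeries Qb)))
      (fun _ => HahnSeries.C ζ)) (by
      rintro ((i | i) | i)
      · exact mem_full_of_bar (f i).2
      · exact mem_full_of_bar (h i).2
      · change HahnSeries.C ζ ∈ _
        rw [← algebraMap_eq_C]
        exact (modularFunctionFieldFullC Qb M).algebraMap_mem _)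
  choose F hF hFe using fun i => hdesc (Sum.inl (Sum.inl i))
  choose H hH hHe using fun i => hdesc (Sum.inl (Sum.inr i))
  have hζE : ζ ∈ E := mem_of_C_mem_NFm (hdesc (Sum.inr ()))
  simp only [Sum.elim_inl, Sum.elim_inr] at hFe hHe
  set ζE : Eˣ := Units.mk0 ⟨ζ, hζE⟩ (fun h0 => hζ0 (congrArg Subtype.val h0)) with hζEd
  have hmapζ : Units.map (algebraMap E Qb).toMonoidHom ζE = Units.mk0 ζ hζ0 := by
    ext; rfl
  have hζE' : IsPrimitiveRoot ζE p := by
    apply IsPrimitiveRoot.of_map_of_injective (f := Units.map (algebraMap E Qb).toMonoidHom)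
    · rw [hmapζ]; exact hζ
    · exact Units.map_injective (algebraMap E Qb).injective
  have hA' := lies_AE (E := E) hp.out hA
  have hchar := H05.charP_residueField hp.out hA'
  haveI := perfectRing_AE (E := E) hA
  obtain ⟨π, hπ⟩ := exists_unif_AE (E := E) hA
  obtain ⟨uE, hwE⟩ := exists_varpi hA' (ζ := (ζE : E)) (by
    rw [IsPrimitiveRoot.coe_units_iff]; exact hζE')
  obtain ⟨e', he', hram, v, hv, hv', hwv⟩ := ram_of_varpi hπ hwE
  have hasc := ascent (M := M) hπ he' hram hA' hζE' hpM k y F (fun j => by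
    refine ⟨1, one_ne_zero, H j, hH j, ?_, ?_⟩
    · intro h0
      have h2 := hHe j
      rw [h0, map_zero] at h2
      exact hh0 j (Subtype.ext h2.symm)
    · apply coeffMap_injective _ (algebraMap E Qb).injective
      rw [coeffMap_tP, hmapζ, hFe, hrel, map_mul, map_mul, map_one, map_one, map_pow, hFe, hHe]
      ring) (fun j => by
    refine ⟨F j, hF j, Eqv.refl _, ?_⟩
    rw [pow_one]
    have hFL := full_le_FL (A := AE A E) M (hF j)
    apply hπ.mem_cg hp.out hA' (sub_mem hFL (one_mem _))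
    have h2 := (red_down_one hp.out hA hFL (by rw [hFe]; exact hfr j)).sub Red.one
    rwa [sub_self] at h2) (i := p * e') (Nat.mul_pos hp.out.pos he') le_rfl i
  obtain ⟨g, hg, ⟨c, hc, v', hv'm, hv'0, heq⟩, hglev⟩ := hasc
  have hG : coeffMap (algebraMap E Qb) g ∈ modularFunctionFieldFullC Qb M :=
    coeffMap_mem_full' _ M hg
  have heqv : Eqv Qb M (p ^ k) (f i : LaurentSeries Qb) (coeffMap (algebraMap E Qb) g) := by
    refine ⟨algebraMap E Qb c, (map_ne_zero _).mpr hc, coeffMap (algebraMap E Qb) v',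
      coeffMap_mem_full' _ M hv'm, ?_, ?_⟩
    · intro h0
      exact hv'0 (coeffMap_injective _ (algebraMap E Qb).injective (by rw [h0, map_zero]))
    · rw [← hFe, heq, map_mul, map_mul, map_pow, coeffMap_C_eq]
  refine ⟨_, kum_of_eqv (hf i) hG heqv, ?_⟩
  change coeffMap (algebraMap E Qb) g - 1 ∈ cg A (w ^ p)
  have hv0 : v ≠ 0 := by
    rintro rfl
    rw [zero_mul] at hwv
    exact hwE.ne hwv
  have h3 := cg_up_pow (p := p) hv' hv0 hwv hglev
  rw [map_sub, map_one] at h3
  have h4 : ((((ζE : E) - 1 : E) : Qb)) = w := by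
    rw [hw.eq]
    push_cast
    rfl
  rwa [h4] at h3

/-- **Classes killed by `T_p`**: level `≥ p/(p-1)`, or level `τ` with non zero derivative. -/
theorem ss_lvl (hA : A.LiesOverPrime p) (hw : Varpi A p ζ u w) {τ : Qb}
    (hτ : τ ^ (p ^ 2 - 1) = (p : Qb) ^ p) {x : JZero M} (hx : tM hpM x = 0)
    (h1 : x ∈ Red1 A M p) : x ∈ lvl A M p (w ^ p) ∨ ∃ f : modularFunctionFieldBar M,
      H05.Kum p x f ∧ ∃ b, Lead A τ ((f : LaurentSeries Qb) - 1) b ∧ theta (kk A) b ≠ 0 := by
  have hp0 : p ≠ 0 := hp.out.ne_zero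
  have hp2 := hp.out.two_le
  have hζ0 : ζ ≠ 0 := hw.prim.ne_zero hp0
  have hζ : IsPrimitiveRoot (Units.mk0 ζ hζ0) p := by
    rw [← IsPrimitiveRoot.coe_units_iff]
    exact hw.prim
  obtain ⟨f, hf, hfr⟩ := h1
  obtain ⟨F', hF', hF'e⟩ := kum_tM hpM hζ hf
  rw [hx] at hF'
  obtain ⟨h, hh0, hhe⟩ := exists_kum_zero_pow hp0 hF'
  have hrel : tP (Units.mk0 ζ hζ0) p (f : LaurentSeries Qb) = (h : LaurentSeries Qb) ^ p := by
    rw [← hF'e, hhe]
    rfl
  obtain ⟨E, hE, hdesc⟩ := exists_NFm_forall (K := Qb) M (ι := (Unit ⊕ Unit) ⊕ Unit)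
    (Sum.elim (Sum.elim (fun _ => (f : LaurentSeries Qb)) (fun _ => (h : LaurentSeries Qb)))
      (fun _ => HahnSeries.C ζ)) (by
      rintro ((i | i) | i)
      · exact mem_full_of_bar f.2
      · exact mem_full_of_bar h.2
      · change HahnSeries.C ζ ∈ _
        rw [← algebraMap_eq_C]
        exact (modularFunctionFieldFullC Qb M).algebraMap_mem _)
  obtain ⟨F, hF, hFe⟩ := hdesc (Sum.inl (Sum.inl ()))
  obtain ⟨H, hH, hHe⟩ := hdesc (Sum.inl (Sum.inr ()))
  have hζE : ζ ∈ E := mem_of_C_mem_NFm (hdesc (Sum.inr ()))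
  simp only [Sum.elim_inl, Sum.elim_inr] at hFe hHe
  set ζE : Eˣ := Units.mk0 ⟨ζ, hζE⟩ (fun h0 => hζ0 (congrArg Subtype.val h0)) with hζEd
  have hmapζ : Units.map (algebraMap E Qb).toMonoidHom ζE = Units.mk0 ζ hζ0 := by
    ext; rfl
  have hζE' : IsPrimitiveRoot ζE p := by
    apply IsPrimitiveRoot.of_map_of_injective (f := Units.map (algebraMap E Qb).toMonoidHom)
    · rw [hmapζ]; exact hζ
    · exact Units.map_injective (algebraMap E Qb).injective
  have hA' := lies_AE (E := E) hp.out hA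
  have hchar := H05.charP_residueField hp.out hA'
  haveI := perfectRing_AE (E := E) hA
  obtain ⟨π, hπ⟩ := exists_unif_AE (E := E) hA
  obtain ⟨uE, hwE⟩ := exists_varpi hA' (ζ := (ζE : E)) (by
    rw [IsPrimitiveRoot.coe_units_iff]; exact hζE')
  obtain ⟨e', he', hram, v, hv, hv', hwv⟩ := ram_of_varpi hπ hwE
  have hv0 : v ≠ 0 := by
    rintro rfl
    rw [zero_mul] at hwv
    exact hwE.ne hwv
  have hup : ∀ {g : LaurentSeries E} (hg : g ∈ modularFunctionFieldFullC E M), Eqv E M p F g →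
      H05.Kum p x (⟨coeffMap (algebraMap E Qb) g,
        mem_bar_of_full (coeffMap_mem_full' _ M hg)⟩ : modularFunctionFieldBar M) := by
    rintro g hg ⟨c, hc, v', hv'm, hv'0, heq⟩
    apply kum_of_eqv hf (coeffMap_mem_full' _ M hg)
    refine ⟨algebraMap E Qb c, (map_ne_zero _).mpr hc, coeffMap (algebraMap E Qb) v',
      coeffMap_mem_full' _ M hv'm, ?_, ?_⟩
    · intro h0
      exact hv'0 (coeffMap_injective _ (algebraMap E Qb).injective (by rw [h0, map_zero]))
    · rw [← hFe, heq, map_mul, map_mul, map_pow, coeffMap_C_eq]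
  have hFL := full_le_FL (A := AE A E) M hF
  rcases ss_main (M := M) hπ he' hram hA' hζE' hpM (f := F) (by
    refine ⟨F, hF, Eqv.refl _, ?_⟩
    rw [pow_one]
    apply hπ.mem_cg hp.out hA' (sub_mem hFL (one_mem _))
    have h2 := (red_down_one hp.out hA hFL (by rw [hFe]; exact hfr)).sub Red.one
    rwa [sub_self] at h2) (by
    refine ⟨1, one_ne_zero, H, hH, ?_, ?_⟩
    · intro h0
      rw [h0, map_zero] at hHe
      exact hh0 (Subtype.ext hHe.symm)
    · apply coeffMap_injective _ (algebraMap E Qb).injective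
      rw [coeffMap_tP, hmapζ, hFe, hrel, map_mul, map_mul, map_one, map_one, map_pow, hHe]
      ring) with ⟨g, hg, heqv, hlev⟩ | ⟨j, hj, g, hg, heqv, b, hlead, hb⟩
  · left
    refine ⟨_, hup hg heqv, ?_⟩
    change coeffMap (algebraMap E Qb) g - 1 ∈ cg A (w ^ p)
    have h3 := cg_up_pow (p := p) hv' hv0 hwv hlev
    rw [map_sub, map_one] at h3
    have h4 : ((((ζE : E) - 1 : E) : Qb)) = w := by
      rw [hw.eq]
      push_cast
      rfl
    rwa [h4] at h3
  · right
    refine ⟨_, hup hg heqv, ?_⟩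
    obtain ⟨z, hz, hzb⟩ := hlead
    have h5 : Lead A (((π ^ (p * j) : E)) : Qb) (coeffMap (algebraMap E Qb) g - 1)
        (coeffMap (resE A E) b) := by
      refine ⟨coeffMap (algebraMap E Qb) z, ?_, red_up hzb⟩
      rw [← map_one (coeffMap (algebraMap E Qb)), ← map_sub, hz, map_mul, coeffMap_C_eq]
      rfl
    have hτ0 : τ ≠ 0 := by
      rintro rfl
      rw [zero_pow (by
        have : 2 ^ 2 ≤ p ^ 2 := Nat.pow_le_pow_left hp2 2
        omega)] at hτ
      exact pow_ne_zero p (by exact_mod_cast hp0 : (p : Qb) ≠ 0) hτ.symm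
    have hπ0 : (((π ^ (p * j) : E)) : Qb) ≠ 0 := by
      intro h0
      exact pow_ne_zero (p * j) hπ.ne (Subtype.ext h0)
    obtain ⟨uu, huu, huu', hpu⟩ := hram
    have huu0 : uu ≠ 0 := by
      rintro rfl
      rw [zero_mul] at hpu
      exact (Nat.cast_ne_zero.mpr hp0) hpu
    -- the unit
    set c : Qb := ((π ^ (p * j) : E) : Qb) / τ with hcdef
    have hcpow : c ^ (p ^ 2 - 1) = (((uu⁻¹ : E)) : Qb) ^ p := by
      have h6 : (((π ^ (p * j) : E) : Qb)) ^ (p ^ 2 - 1) = ((p : Qb) * (((uu⁻¹ : E)) : Qb)) ^ p := by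
        have h7 : (π ^ (p * j)) ^ (p ^ 2 - 1) = ((p : E) * uu⁻¹) ^ p := by
          rw [hpu]
          have h8 : uu * π ^ ((p - 1) * e') * uu⁻¹ = π ^ ((p - 1) * e') := by
            field_simp
          rw [h8, ← pow_mul, ← pow_mul]
          congr 1
          rw [← hj]
          obtain ⟨p', rfl⟩ : ∃ p', p = p' + 1 := ⟨p - 1, by omega⟩
          have h9 : (p' + 1) ^ 2 - 1 = p' * (p' + 2) := by
            have : (p' + 1) ^ 2 = p' * (p' + 2) + 1 := by ring
            omega
          rw [h9, Nat.add_sub_cancel]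
          ring
        have h8 := congrArg (fun z : E => (z : Qb)) h7
        push_cast at h8 ⊢
        exact h8
      rw [hcdef, div_pow, h6, hτ, mul_pow]
      have := pow_ne_zero p (by exact_mod_cast hp0 : (p : Qb) ≠ 0)
      field_simp
    have hp21 : p ^ 2 - 1 ≠ 0 := by
      have : 2 ^ 2 ≤ p ^ 2 := Nat.pow_le_pow_left hp2 2
      omega
    have hcA : c ∈ A := H11Q.mem_of_pow_mem hp21 (by rw [hcpow]; exact pow_mem huu' _)
    have hcA' : c⁻¹ ∈ A := H11Q.mem_of_pow_mem hp21 (by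
      rw [inv_pow, hcpow, ← inv_pow]
      have h6 : (((uu⁻¹ : E)) : Qb)⁻¹ = (uu : Qb) := by push_cast; rw [inv_inv]
      rw [h6]
      exact pow_mem huu _)
    have hc0 : c ≠ 0 := div_ne_zero hπ0 hτ0
    have hτc : (((π ^ (p * j) : E)) : Qb) = τ * c := by
      rw [hcdef, mul_div_cancel₀ _ hτ0]
    rw [hτc] at h5
    refine ⟨_, h5.unit hcA, ?_⟩
    rw [theta_C_mul, ← coeffMap_theta]
    refine mul_ne_zero ((map_ne_zero _).mpr (residue_ne_zero_of_unit hcA hcA' hc0)) ?_
    intro h0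
    exact hb (coeffMap_injective _ (resE A E).injective (by rw [h0, map_zero]))

end Fermat.Agent.P
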