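import Fermat.Agent.H01.P.GeoFin
import Fermat.Agent.H12.InertiaVal

/-!
# Tame elements and the geometric theorem for the whole inertia group
-/

set_option autoImplicit false
set_option linter.unusedSectionVars false
set_option linter.style.haveILetI false
set_option maxSynthPendingDepth 3

noncomputable section

namespace Fermat.Agent.P

open ModularCurve AlgebraicCurve Fermat.Agent.Igusa Fermat.Agent.Q

local notation "kk" => IsLocalRing.ResidueField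
local notation "Qb" => AlgebraicClosure ℚ

variable {A : ValuationSubring Qb} {M p : ℕ} [NeZero M] [hp : Fact p.Prime] {ζ u w : Qb}

/-- Inertia fixes the roots of unity of order prime to `p`. -/
theorem inertia_root {σ : Qb ≃ₐ[ℚ] Qb} (hσ : σ ∈ A.inertiaSubgroupIn ℚ)
    {η : Qb} {n : ℕ} (hη : η ^ n = 1) (hn : ((n : ℕ) : kk A) ≠ 0) : σ η = η := by
  have hn0 : n ≠ 0 := by
    rintro rfl
    exact hn (by simp)
  have hη0 : η ≠ 0 := by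
    rintro rfl
    rw [zero_pow hn0] at hη
    exact zero_ne_one hη
  have hηA : η ∈ A := H11Q.mem_of_pow_eq_one hn0 hη
  have hηA' : η⁻¹ ∈ A := H11Q.mem_of_pow_eq_one hn0 (by rw [inv_pow, hη, inv_one])
  obtain ⟨h1, h2⟩ := inertia_residue hσ ⟨η, hηA⟩
  have h1' : σ η ∈ A := h1
  have h2' : IsLocalRing.residue A ⟨σ η, h1'⟩ = IsLocalRing.residue A ⟨η, hηA⟩ := h2
  have h3 : σ η / η ∈ A := by
    rw [div_eq_mul_inv]
    exact mul_mem h1' hηA'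
  have h4 : (σ η / η) ^ n = 1 := by
    rw [div_pow, ← map_pow, hη, map_one, div_one]
  have h5 : IsLocalRing.residue A ⟨σ η / η, h3⟩ = 1 := by
    have h6 : (⟨σ η / η, h3⟩ : A) * ⟨η, hηA⟩ = ⟨σ η, h1'⟩ :=
      Subtype.ext (div_mul_cancel₀ _ hη0)
    have h7 := congrArg (IsLocalRing.residue A) h6
    rw [map_mul, h2'] at h7
    have h8 := residue_ne_zero_of_unit hηA hηA' hη0
    exact mul_right_cancel₀ h8 (by rw [h7, one_mul])
  have h6 := eq_one_of_residue h4 hn h3 h5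
  rwa [div_eq_one_iff_eq hη0] at h6

/-- The Kummer character of a root of `p`. -/
theorem kumChar_mul {m : ℕ} {c τ₀ : Qb} (hc : c ≠ 0) (hτ : τ₀ ^ m = c) (hcQ : ∀ σ : Qb ≃ₐ[ℚ] Qb, σ c = c)
    (hm : ((m : ℕ) : kk A) ≠ 0) {σ τ : Qb ≃ₐ[ℚ] Qb} (hσ : σ ∈ A.inertiaSubgroupIn ℚ) :
    (σ * τ) τ₀ / τ₀ = (σ τ₀ / τ₀) * (τ τ₀ / τ₀) := by
  have hm0 : m ≠ 0 := by
    rintro rfl
    exact hm (by simp)
  have hτ0 : τ₀ ≠ 0 := by
    rintro rfl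
    rw [zero_pow hm0] at hτ
    exact hc hτ.symm
  have h1 : (τ τ₀ / τ₀) ^ m = 1 := by
    rw [div_pow, ← map_pow, hτ, hcQ, div_self hc]
  have h2 := inertia_root hσ h1 hm
  have h3 : τ τ₀ = (τ τ₀ / τ₀) * τ₀ := (div_mul_cancel₀ _ hτ0).symm
  have h4 : (σ * τ) τ₀ = (τ τ₀ / τ₀) * σ τ₀ := by
    rw [AlgEquiv.mul_apply]
    conv_lhs => rw [h3]
    rw [map_mul, h2]
  rw [h4, mul_comm (σ τ₀ / τ₀), mul_div_assoc]

theorem kumChar_pow {m : ℕ} {c τ₀ : Qb} (hc : c ≠ 0) (hτ : τ₀ ^ m = c)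
    (hcQ : ∀ σ : Qb ≃ₐ[ℚ] Qb, σ c = c)
    (hm : ((m : ℕ) : kk A) ≠ 0) {σ : Qb ≃ₐ[ℚ] Qb} (hσ : σ ∈ A.inertiaSubgroupIn ℚ) (k : ℕ) :
    (σ ^ k) τ₀ / τ₀ = (σ τ₀ / τ₀) ^ k := by
  induction k with
  | zero =>
    have hτ0 : τ₀ ≠ 0 := by
      rintro rfl
      rw [zero_pow (by rintro rfl; exact hm (by simp))] at hτ
      exact hc hτ.symm
    rw [pow_zero, pow_zero]
    exact div_self hτ0
  | succ k ih =>
    rw [pow_succ', kumChar_mul hc hτ hcQ hm hσ, ih, pow_succ']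

/-- existence of tame generators -/
theorem exists_tame (hA : A.LiesOverPrime p) (hζ : IsPrimitiveRoot ζ p) :
    ∃ (τ₀ : Qb) (σ : Qb ≃ₐ[ℚ] Qb) (a : ℕ), TameAt A p ζ τ₀ σ a := by
  classical
  have hm3 := sq_sub_one_pos hp.out.two_le
  set m := p ^ 2 - 1 with hmd
  haveI : NeZero m := ⟨by omega⟩
  have hmk := natCast_sq_sub_one_ne (A := A) (p := p) hA
  have hp0 : (p : Qb) ≠ 0 := by exact_mod_cast hp.out.ne_zero
  have hpQ : ∀ σ : Qb ≃ₐ[ℚ] Qb, σ (p : Qb) = p := fun σ => map_natCast σ p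
  obtain ⟨τ₀, hτ⟩ := IsAlgClosed.exists_pow_nat_eq (p : Qb) (show 0 < m by omega)
  have hτ0 : τ₀ ≠ 0 := by
    rintro rfl
    rw [zero_pow (by omega)] at hτ
    exact hp0 hτ.symm
  have hroot : ∀ σ : Qb ≃ₐ[ℚ] Qb, (σ τ₀ / τ₀) ^ m = 1 := by
    intro σ
    rw [div_pow, ← map_pow, hτ, hpQ, div_self hp0]
  -- the homomorphism
  let θ : A.inertiaSubgroupIn ℚ →* rootsOfUnity m Qb :=
    { toFun := fun σ => rootsOfUnity.mkOfPowEq _ (hroot σ)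
      map_one' := by
        apply Subtype.ext
        apply Units.ext
        exact div_self hτ0
      map_mul' := fun σ τ => by
        apply Subtype.ext
        apply Units.ext
        exact kumChar_mul hp0 hτ hpQ hmk σ.2 }
  have hθ : ∀ σ : A.inertiaSubgroupIn ℚ, ((θ σ : Qbˣ) : Qb) = (σ : Qb ≃ₐ[ℚ] Qb) τ₀ / τ₀ :=
    fun σ => rfl
  obtain ⟨⟨g, σ₀, rfl⟩, hg⟩ := IsCyclic.exists_generator (α := θ.range)
  set d := orderOf (θ σ₀) with hd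
  have hall : ∀ σ : A.inertiaSubgroupIn ℚ, θ σ ^ d = 1 := by
    intro σ
    obtain ⟨k, hk⟩ := Subgroup.mem_zpowers_iff.mp (hg ⟨θ σ, σ, rfl⟩)
    have hk' : θ σ₀ ^ k = θ σ := congrArg Subtype.val hk
    rw [← hk', ← zpow_natCast, ← zpow_mul, mul_comm, zpow_mul, zpow_natCast, hd, pow_orderOf_eq_one,
      one_zpow]
  have hfix : ∀ σ ∈ A.inertiaSubgroupIn ℚ, σ (τ₀ ^ d) = τ₀ ^ d := by
    intro σ hσ
    have h1 := hall ⟨σ, hσ⟩
    have h2 : (σ τ₀ / τ₀) ^ d = 1 := by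
      have h3 := congrArg (fun x : rootsOfUnity m Qb => ((x : Qbˣ) : Qb)) h1
      simpa [hθ] using h3
    rw [div_pow, div_eq_one_iff_eq (pow_ne_zero _ hτ0)] at h2
    rw [map_pow]
    exact h2
  obtain ⟨n, hn⟩ := H12.exists_valuation_eq_zpow hp.out hA _ (pow_ne_zero d hτ0) hfix
  have hvp0 : A.valuation (p : Qb) ≠ 0 := (Valuation.ne_zero_iff _).mpr hp0
  have hvp1 : A.valuation (p : Qb) < 1 := by
    have := hA
    rw [← ValuationSubring.mem_nonunits_iff]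
    exact natCast_nonunits hA
  have h1 : A.valuation (p : Qb) ^ (d : ℤ) = A.valuation (p : Qb) ^ (n * m : ℤ) := by
    have h2 : A.valuation τ₀ ^ m = A.valuation (p : Qb) := by rw [← map_pow, hτ]
    rw [zpow_mul, ← hn, map_pow, zpow_natCast, zpow_natCast, ← pow_mul, mul_comm d m, pow_mul, h2]
  have h2 : (d : ℤ) = n * m :=
    zpow_right_injective₀ (lt_of_le_of_ne zero_le (Ne.symm hvp0)) hvp1.ne h1
  have hmd' : m ∣ d := by
    have : (m : ℤ) ∣ (d : ℤ) := ⟨n, by rw [h2, mul_comm]⟩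
    exact_mod_cast this
  have hdm : d ∣ m := by
    rw [hd, orderOf_dvd_iff_pow_eq_one]
    apply Subtype.ext
    exact (mem_rootsOfUnity m _).mp (θ σ₀).2
  have hdeq : d = m := Nat.dvd_antisymm hdm hmd'
  have hprim : IsPrimitiveRoot ((σ₀ : Qb ≃ₐ[ℚ] Qb) τ₀ / τ₀) m := by
    rw [← hθ, IsPrimitiveRoot.coe_units_iff, IsPrimitiveRoot.coe_submonoidClass_iff]
    have := IsPrimitiveRoot.orderOf (θ σ₀)
    rwa [← hd, hdeq] at this
  obtain ⟨a, -, ha⟩ := hζ.eq_pow_of_pow_eq_one (ξ := (σ₀ : Qb ≃ₐ[ℚ] Qb) ζ) (by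
    rw [← map_pow, hζ.pow_eq_one, map_one])
  exact ⟨τ₀, σ₀, a, hζ, σ₀.2, ha.symm, hτ, hprim⟩

theorem galois_pow_root {ζ : Qb} {σ : Qb ≃ₐ[ℚ] Qb} {a : ℕ} (ha : σ ζ = ζ ^ a) (k : ℕ) :
    (σ ^ k) ζ = ζ ^ a ^ k := by
  induction k with
  | zero => simp
  | succ k ih => rw [pow_succ', AlgEquiv.mul_apply, ih, map_pow, ha, ← pow_mul, pow_succ']

/-- every element of inertia becomes tame after multiplication with a power of a tame one. -/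
theorem TameAt.exists_mul_pow (hA : A.LiesOverPrime p) {τ₀ : Qb} {σ : Qb ≃ₐ[ℚ] Qb} {a : ℕ}
    (h : TameAt A p ζ τ₀ σ a) {τ : Qb ≃ₐ[ℚ] Qb} (hτ : τ ∈ A.inertiaSubgroupIn ℚ) {b : ℕ}
    (hb : τ ζ = ζ ^ b) : ∃ k : ℕ, TameAt A p ζ τ₀ (τ * σ ^ k) (b * a ^ k) := by
  have hm3 := sq_sub_one_pos hp.out.two_le
  have hmk := natCast_sq_sub_one_ne (A := A) (p := p) hA
  have hp0 : (p : Qb) ≠ 0 := by exact_mod_cast hp.out.ne_zero
  have hpQ : ∀ σ : Qb ≃ₐ[ℚ] Qb, σ (p : Qb) = p := fun σ => map_natCast σ p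
  haveI : NeZero (p ^ 2 - 1) := ⟨by omega⟩
  obtain ⟨j, -, hj⟩ := h.tame.eq_pow_of_pow_eq_one (ξ := τ τ₀ / τ₀) (by
    rw [div_pow, ← map_pow, h.pow, hpQ, div_self hp0])
  refine ⟨(p ^ 2 - 1 - 1) * j + 1, h.prim, mul_mem hτ (pow_mem h.ine _), ?_, h.pow, ?_⟩
  · rw [AlgEquiv.mul_apply, galois_pow_root h.cyc, map_pow, hb, ← pow_mul]
  · rw [kumChar_mul hp0 h.pow hpQ hmk hτ, kumChar_pow hp0 h.pow hpQ hmk h.ine, ← hj, ← pow_add]
    have h1 : j + ((p ^ 2 - 1 - 1) * j + 1) = (p ^ 2 - 1) * j + 1 := by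
      obtain ⟨m, hm⟩ : ∃ m, p ^ 2 - 1 = m + 1 := ⟨p ^ 2 - 1 - 1, by omega⟩
      rw [hm, Nat.add_sub_cancel]; ring
    rw [h1, pow_succ, pow_mul, h.tame.pow_eq_one, one_pow, one_mul]
    exact h.tame

/-- **The geometric theorem at `p`.** -/
theorem geo_all (hpM : Nat.Coprime p M) (h3 : 3 ≤ p) (hA : A.LiesOverPrime p)
    (hζ : IsPrimitiveRoot ζ p) (X : AddSubgroup (JZero (M * p))) [Finite X]
    (hK : ∀ x ∈ X, x ∈ KInf A M p p)
    (hG : ∀ σ ∈ A.inertiaSubgroupIn ℚ, ∀ x ∈ X, σ • x ∈ X)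
    (hw : ∀ x ∈ X, wS M p hpM • x ∈ X) (hP : ∀ x ∈ X, aUp M p (aStar M p x) ∈ X)
    (hrel : ∀ σ ∈ A.inertiaSubgroupIn ℚ, ∀ a : ℕ, σ ζ = ζ ^ a → ∀ x ∈ X,
      σ • σ • x - (a + 1) • σ • x + a • x = 0) :
    ∀ σ ∈ A.inertiaSubgroupIn ℚ, ∀ a : ℕ, σ ζ = ζ ^ a → ∀ x ∈ X, σ • x = a • x := by
  obtain ⟨τ₀, σ₀, a₀, h0⟩ := exists_tame hA hζ
  have key : ∀ (σ : Qb ≃ₐ[ℚ] Qb) (a : ℕ), TameAt A p ζ τ₀ σ a → ∀ x ∈ X, σ • x = a • x := by
    intro σ a ht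
    exact geo hpM hA h3 ht X hK (hG σ ht.ine) hw hP (hrel σ ht.ine a ht.cyc)
  have hpow : ∀ k : ℕ, ∀ x ∈ X, σ₀ ^ k • x = a₀ ^ k • x := by
    intro k
    induction k with
    | zero => intro x _; rw [pow_zero, pow_zero, one_smul, one_smul]
    | succ k ih =>
      intro x hx
      rw [pow_succ, mul_smul, key σ₀ a₀ h0 x hx, ih _ (nsmul_mem hx a₀), ← mul_smul, ← pow_succ]
  intro τ hτ b hb x hx
  obtain ⟨k, hk⟩ := h0.exists_mul_pow hA hτ hb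
  have hy : (σ₀ ^ k)⁻¹ • x ∈ X := hG _ (inv_mem (pow_mem h0.ine k)) x hx
  have h1 := key _ _ hk _ hy
  rw [mul_smul, smul_inv_smul, mul_smul, ← hpow k _ hy, smul_inv_smul] at h1
  exact h1

end Fermat.Agent.P
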