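import Fermat.Agent.H01.P.GeoM
import Fermat.Agent.H05.Toric

/-!
# The leading coefficient of `dlog` and the action of inertia
-/

set_option autoImplicit false
set_option linter.unusedSectionVars false
set_option linter.style.haveILetI false
set_option maxSynthPendingDepth 3

noncomputable section

namespace Fermat.Agent.P

open ModularCurve AlgebraicCurve Fermat.Agent.Igusa Fermat.Agent.Q

local notation "kk" => IsLocalRing.ResidueField
local notation "Qb" => AlgebraicClosure ℚ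

variable {A : ValuationSubring Qb} {M p : ℕ} [NeZero M] [hp : Fact p.Prime] {ζ u w : Qb}

/-- The leading coefficient of the logarithmic derivative of the Kummer functions. -/
def Th (A : ValuationSubring Qb) (p : ℕ) (τ : Qb) (x : JZero M) (b : LaurentSeries (kk A)) : Prop :=
  ∃ f : modularFunctionFieldBar M, H05.Kum p x f ∧ Lead A τ (dl (f : LaurentSeries Qb)) b

variable {τ : Qb} {x y : JZero M} {b c : LaurentSeries (kk A)}

theorem Th.add (hx : Th A p τ x b) (hy : Th A p τ y c) : Th A p τ (x + y) (b + c) := by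
  obtain ⟨f, hf, hb⟩ := hx
  obtain ⟨g, hg, hc⟩ := hy
  refine ⟨f * g, hf.mul hg, ?_⟩
  have h1 : dl ((f * g : modularFunctionFieldBar M) : LaurentSeries Qb) =
      dl (f : LaurentSeries Qb) + dl (g : LaurentSeries Qb) :=
    dl_mul (ne_zero_coe hf.ne_zero) (ne_zero_coe hg.ne_zero)
  rw [h1]
  exact hb.add hc

theorem Th.neg (hx : Th A p τ x b) : Th A p τ (-x) (-b) := by
  obtain ⟨f, hf, hb⟩ := hx
  refine ⟨f⁻¹, hf.inv, ?_⟩
  have h1 : dl ((f⁻¹ : modularFunctionFieldBar M) : LaurentSeries Qb) =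
      - dl (f : LaurentSeries Qb) := dl_inv (ne_zero_coe hf.ne_zero)
  rw [h1]
  exact hb.neg

theorem Th.zero : Th A p τ (0 : JZero M) (0 : LaurentSeries (kk A)) := by
  refine ⟨1, H05.kum_zero_one p, 0, ?_, Red.zero⟩
  have h1 : dl ((1 : modularFunctionFieldBar M) : LaurentSeries Qb) = 0 := dl_one
  rw [h1, mul_zero]

theorem Th.sub (hx : Th A p τ x b) (hy : Th A p τ y c) : Th A p τ (x - y) (b - c) := by
  rw [sub_eq_add_neg, sub_eq_add_neg]
  exact hx.add hy.neg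

theorem Th.nsmul (hx : Th A p τ x b) (n : ℕ) : Th A p τ (n • x) (n • b) := by
  induction n with
  | zero => rw [zero_nsmul, zero_nsmul]; exact Th.zero
  | succ n ih => rw [succ_nsmul, succ_nsmul]; exact ih.add hx

/-- `p = τ c` with `c` in the maximal ideal -/
theorem Th.unique (hA : A.LiesOverPrime p) (hτ0 : τ ≠ 0)
    (hτ : ∃ (c : Qb) (hc : c ∈ A), IsLocalRing.residue A ⟨c, hc⟩ = 0 ∧ (p : Qb) = τ * c)
    (h : Th A p τ x b) (h' : Th A p τ x c) : b = c := by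
  obtain ⟨f, hf, hb⟩ := h
  obtain ⟨g, hg, hc⟩ := h'
  obtain ⟨v, hv0, rfl⟩ := exists_kum_eq_mul_pow hp.out.ne_zero hf hg
  have hv0' := ne_zero_coe hv0
  have hg0' := ne_zero_coe hg.ne_zero
  have h1 : dl ((g * v ^ p : modularFunctionFieldBar M) : LaurentSeries Qb) =
      dl (g : LaurentSeries Qb) + HahnSeries.C (p : Qb) * dl (v : LaurentSeries Qb) := by
    change dl ((g : LaurentSeries Qb) * (v : LaurentSeries Qb) ^ p) = _
    rw [dl_mul hg0' (pow_ne_zero p hv0'), dl_pow hv0']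
  rw [h1] at hb
  have h2 : Lead A τ (HahnSeries.C (p : Qb) * dl (v : LaurentSeries Qb)) 0 := by
    refine lead_zero_of_mem_cg hτ (C_mul_mem_cg ?_)
    exact dl_mem_VL hp.out hA (full_le_FL M (mem_full_of_bar v.2)) hv0'
  have h3 := hb.sub h2
  rw [add_sub_cancel_right, sub_zero] at h3
  exact h3.unique hτ0 hc

/-- inertia acts on the leading coefficient by a tame character -/
theorem Th.galois {σ : Qb ≃ₐ[ℚ] Qb} (hσ : σ ∈ A.inertiaSubgroupIn ℚ) (hτ0 : τ ≠ 0)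
    (hs : σ τ / τ ∈ A) (h : Th A p τ x b) :
    Th A p τ (σ • x) (HahnSeries.C (IsLocalRing.residue A ⟨σ τ / τ, hs⟩) * b) := by
  obtain ⟨f, hf, z, hz, hzb⟩ := h
  have h1 := hf.smul (arithmeticGalois (modularFunctionFieldFull M) σ)
  rw [← galois_smul_pic0_def] at h1
  refine ⟨_, h1, ?_⟩
  have h2 : ((arithmeticGalois (modularFunctionFieldFull M) σ • f : modularFunctionFieldBar M) :
      LaurentSeries Qb) = coeffMap (σ : Qb →+* Qb) f := rfl
  rw [h2]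
  have h3 : dl (coeffMap (σ : Qb →+* Qb) (f : LaurentSeries Qb)) =
      coeffMap (σ : Qb →+* Qb) (dl (f : LaurentSeries Qb)) := by
    rw [dl, dl, map_mul, map_inv₀, coeffMap_theta]
  have h4 : Red A (coeffMap (σ : Qb →+* Qb) z) b := by
    have := hzb.coeffMap (σ := (σ : Qb →+* Qb)) (σ' := RingHom.id _) (inertia_residue hσ)
    rwa [coeffMap_id] at this
  apply Lead.unit hs
  refine ⟨coeffMap (σ : Qb →+* Qb) z, ?_, h4⟩
  rw [h3, hz, map_mul, coeffMap_C_eq, mul_div_cancel₀ _ hτ0]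
  rfl

/-! ### Tame characters -/

/-- a root of unity of order prime to `p` reducing to `1` is `1` -/
theorem eq_one_of_residue {η : Qb} {n : ℕ} (hη : η ^ n = 1) (hn : ((n : ℕ) : kk A) ≠ 0)
    (hmem : η ∈ A) (h : IsLocalRing.residue A ⟨η, hmem⟩ = 1) : η = 1 := by
  by_contra hne
  have h1 : (∑ i ∈ Finset.range n, η ^ i) * (η - 1) = 0 := by
    rw [geom_sum_mul, hη, sub_self]
  have h2 : (∑ i ∈ Finset.range n, η ^ i) = 0 :=
    (mul_eq_zero.mp h1).resolve_right (sub_ne_zero.mpr hne)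
  have h3 : (∑ i ∈ Finset.range n, (⟨η, hmem⟩ : A) ^ i) = 0 := by
    apply Subtype.ext
    push_cast
    exact h2
  have h4 := congrArg (IsLocalRing.residue A) h3
  rw [map_sum, map_zero] at h4
  simp only [map_pow, h, one_pow, Finset.sum_const, Finset.card_range, nsmul_eq_mul, mul_one] at h4
  exact hn h4

theorem residue_pow {c : Qb} (hc : c ∈ A) (n : ℕ) (hcn : c ^ n ∈ A) :
    IsLocalRing.residue A ⟨c ^ n, hcn⟩ = IsLocalRing.residue A ⟨c, hc⟩ ^ n := by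
  rw [← map_pow]
  rfl

theorem residue_mul {c d : Qb} (hc : c ∈ A) (hd : d ∈ A) (hcd : c * d ∈ A) :
    IsLocalRing.residue A ⟨c * d, hcd⟩ =
      IsLocalRing.residue A ⟨c, hc⟩ * IsLocalRing.residue A ⟨d, hd⟩ := by
  rw [← map_mul]
  rfl

/-- The data of a tame element of inertia at `p`. -/
structure TameAt (A : ValuationSubring Qb) (p : ℕ) (ζ τ₀ : Qb) (σ : Qb ≃ₐ[ℚ] Qb) (a : ℕ) : Prop where
  prim : IsPrimitiveRoot ζ p
  ine : σ ∈ A.inertiaSubgroupIn ℚ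
  cyc : σ ζ = ζ ^ a
  pow : τ₀ ^ (p ^ 2 - 1) = (p : Qb)
  tame : IsPrimitiveRoot (σ τ₀ / τ₀) (p ^ 2 - 1)

variable {τ₀ : Qb} {σ : Qb ≃ₐ[ℚ] Qb} {a : ℕ}

theorem sq_sub_one_pos (hp2 : 2 ≤ p) : 3 ≤ p ^ 2 - 1 := by
  have : 2 ^ 2 ≤ p ^ 2 := Nat.pow_le_pow_left hp2 2
  omega

theorem natCast_sq_sub_one_ne (hA : A.LiesOverPrime p) : ((p ^ 2 - 1 : ℕ) : kk A) ≠ 0 := by
  have hchar := H05.charP_residueField hp.out hA
  intro h
  rw [CharP.cast_eq_zero_iff (kk A) p] at h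
  have h1 : 1 ≤ p ^ 2 := Nat.one_le_pow _ _ hp.out.pos
  have h2 : p ∣ 1 := by
    have := (Nat.dvd_sub (dvd_pow_self p two_ne_zero) h)
    rwa [Nat.sub_sub_self h1] at this
  exact hp.out.one_lt.ne' (Nat.dvd_one.mp h2)

theorem TameAt.τ₀_ne (h : TameAt A p ζ τ₀ σ a) : τ₀ ≠ 0 := by
  rintro rfl
  have h1 := h.pow
  have := sq_sub_one_pos hp.out.two_le
  rw [zero_pow (by omega)] at h1
  exact (by exact_mod_cast hp.out.ne_zero : (p : Qb) ≠ 0) h1.symm

theorem TameAt.ξ_mem (h : TameAt A p ζ τ₀ σ a) : σ τ₀ / τ₀ ∈ A := by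
  have := sq_sub_one_pos hp.out.two_le
  exact H11Q.mem_of_pow_eq_one (by omega) h.tame.pow_eq_one

/-- The reduction of the cyclotomic character is the `(p+1)`-st power of the fundamental
character of level two. -/
theorem TameAt.cyc_eq (hA : A.LiesOverPrime p) (h : TameAt A p ζ τ₀ σ a) :
    IsLocalRing.residue A ⟨σ τ₀ / τ₀, h.ξ_mem⟩ ^ (p + 1) = (a : kk A) := by
  obtain ⟨u, hw⟩ := exists_varpi hA h.prim
  set w := ζ - 1 with hwd
  have hτ0 := h.τ₀_ne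
  have hp2 := hp.out.two_le
  -- the unit `v = τ₀^{p+1}/w`
  set v := τ₀ ^ (p + 1) / w with hv
  have hvp : v ^ (p - 1) = u := by
    rw [hv, div_pow, ← pow_mul]
    have h1 : (p + 1) * (p - 1) = p ^ 2 - 1 := by
      obtain ⟨p', rfl⟩ : ∃ p', p = p' + 1 := ⟨p - 1, by omega⟩
      have : (p' + 1) ^ 2 = (p' + 1 + 1) * p' + 1 := by ring
      rw [this, Nat.add_sub_cancel, Nat.add_sub_cancel]
    rw [h1, h.pow, hw.p_eq]
    exact mul_div_cancel_right₀ _ (pow_ne_zero _ hw.ne)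
  have hp1 : p - 1 ≠ 0 := by omega
  have hvA : v ∈ A := H11Q.mem_of_pow_mem hp1 (by rw [hvp]; exact hw.u_mem)
  have hvA' : v⁻¹ ∈ A := H11Q.mem_of_pow_mem hp1 (by rw [inv_pow, hvp]; exact hw.u_inv)
  have hv0 : v ≠ 0 := div_ne_zero (pow_ne_zero _ hτ0) hw.ne
  obtain ⟨hσv, hσvr⟩ := inertia_residue h.ine ⟨v, hvA⟩
  have hσv' : σ v ∈ A := hσv
  have e1 : σ v / v ∈ A := by rw [div_eq_mul_inv]; exact mul_mem hσv' hvA'
  have r1 : IsLocalRing.residue A ⟨σ v / v, e1⟩ = 1 := by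
    have h2 : (⟨σ v / v, e1⟩ : A) * ⟨v, hvA⟩ = ⟨σ v, hσv'⟩ :=
      Subtype.ext (div_mul_cancel₀ _ hv0)
    have h3 := congrArg (IsLocalRing.residue A) h2
    rw [map_mul] at h3
    have h4 : IsLocalRing.residue A ⟨σ v, hσv'⟩ = IsLocalRing.residue A ⟨v, hvA⟩ := hσvr
    rw [h4] at h3
    have h5 := residue_ne_zero_of_unit hvA hvA' hv0
    exact mul_right_cancel₀ h5 (by rw [h3, one_mul])
  -- `σ w / w`
  have hζA : ζ ∈ A := H11Q.mem_of_pow_eq_one hp.out.ne_zero h.prim.pow_eq_one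
  have hσw : σ w / w = ∑ i ∈ Finset.range a, ζ ^ i := by
    rw [div_eq_iff hw.ne, hwd, map_sub, map_one, h.cyc, geom_sum_mul]
  have e2 : σ w / w ∈ A := by
    rw [hσw]; exact sum_mem fun i _ => pow_mem hζA i
  have r2 : IsLocalRing.residue A ⟨σ w / w, e2⟩ = (a : kk A) := by
    have h2 : (⟨σ w / w, e2⟩ : A) = ∑ i ∈ Finset.range a, (⟨ζ, hζA⟩ : A) ^ i := by
      apply Subtype.ext
      push_cast
      exact hσw
    have h3 : IsLocalRing.residue A ⟨ζ, hζA⟩ = 1 := by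
      have h4 : (⟨ζ, hζA⟩ : A) = ⟨w, hw.mem⟩ + 1 := Subtype.ext (by
        change ζ = (ζ - 1) + 1
        ring)
      have h5 := hw.res
      rw [H11Q.resid_of_mem A hw.mem] at h5
      rw [h4, map_add, h5, zero_add, map_one]
    rw [h2, map_sum]
    simp only [map_pow, h3, one_pow, Finset.sum_const, Finset.card_range, nsmul_eq_mul, mul_one]
  -- combine
  have hξ : (σ τ₀ / τ₀) ^ (p + 1) = (σ w / w) * (σ v / v) := by
    have h2 : τ₀ ^ (p + 1) = w * v := by rw [hv, mul_div_cancel₀ _ hw.ne]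
    rw [div_pow, ← map_pow, h2, map_mul]
    field_simp
  have h3 : (⟨σ τ₀ / τ₀, h.ξ_mem⟩ : A) ^ (p + 1) = ⟨σ w / w, e2⟩ * ⟨σ v / v, e1⟩ :=
    Subtype.ext hξ
  have h4 := congrArg (IsLocalRing.residue A) h3
  rw [map_pow, map_mul, r1, r2, mul_one] at h4
  exact h4

theorem TameAt.residue_pow_ne_one (hA : A.LiesOverPrime p) (h : TameAt A p ζ τ₀ σ a) {k : ℕ}
    (hk : ¬ (p ^ 2 - 1) ∣ k) : IsLocalRing.residue A ⟨σ τ₀ / τ₀, h.ξ_mem⟩ ^ k ≠ 1 := by
  intro h1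
  apply hk
  rw [← h.tame.pow_eq_one_iff_dvd]
  apply eq_one_of_residue (A := A) (n := p ^ 2 - 1) ?_ (natCast_sq_sub_one_ne hA)
    (pow_mem h.ξ_mem k)
  · rw [residue_pow h.ξ_mem]; exact h1
  · rw [← pow_mul, mul_comm, pow_mul, h.tame.pow_eq_one, one_pow]

/-- `ω(σ) ≠ 1` -/
theorem TameAt.a_ne_one (hA : A.LiesOverPrime p) (h3 : 3 ≤ p) (h : TameAt A p ζ τ₀ σ a) :
    (a : kk A) ≠ 1 := by
  rw [← h.cyc_eq hA]
  apply h.residue_pow_ne_one hA
  intro hd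
  have := Nat.le_of_dvd (by omega) hd
  have h4 : 3 * p ≤ p ^ 2 := by rw [pow_two]; exact Nat.mul_le_mul_right p h3
  omega

/-- the values of the character `ψ^p` -/
theorem TameAt.s_ne (hA : A.LiesOverPrime p) (h3 : 3 ≤ p) (h : TameAt A p ζ τ₀ σ a) :
    ∃ hs : σ (τ₀ ^ p) / τ₀ ^ p ∈ A,
      IsLocalRing.residue A ⟨σ (τ₀ ^ p) / τ₀ ^ p, hs⟩ ≠ 1 ∧
      IsLocalRing.residue A ⟨σ (τ₀ ^ p) / τ₀ ^ p, hs⟩ ≠ (a : kk A) := by
  have e : σ (τ₀ ^ p) / τ₀ ^ p = (σ τ₀ / τ₀) ^ p := by rw [map_pow, div_pow]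
  have hs : σ (τ₀ ^ p) / τ₀ ^ p ∈ A := by rw [e]; exact pow_mem h.ξ_mem p
  have e2 : IsLocalRing.residue A ⟨σ (τ₀ ^ p) / τ₀ ^ p, hs⟩ =
      IsLocalRing.residue A ⟨σ τ₀ / τ₀, h.ξ_mem⟩ ^ p := by
    rw [← map_pow]
    congr 1
    exact Subtype.ext e
  have h4 : 3 * p ≤ p ^ 2 := by rw [pow_two]; exact Nat.mul_le_mul_right p h3
  refine ⟨hs, ?_, ?_⟩
  · rw [e2]
    apply h.residue_pow_ne_one hA
    intro hd
    have := Nat.le_of_dvd (by omega) hd
    omega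
  · rw [e2, ← h.cyc_eq hA, pow_succ]
    intro h5
    have h6 : IsLocalRing.residue A ⟨σ τ₀ / τ₀, h.ξ_mem⟩ ≠ 0 := by
      intro h7
      have h8 := h.cyc_eq hA
      have h9 : IsLocalRing.residue A ⟨σ τ₀ / τ₀, h.ξ_mem⟩ ^ (p ^ 2 - 1) = 1 := by
        rw [← map_pow]
        have : (⟨σ τ₀ / τ₀, h.ξ_mem⟩ : A) ^ (p ^ 2 - 1) = 1 := Subtype.ext h.tame.pow_eq_one
        rw [this, map_one]
      rw [h7, zero_pow (by omega)] at h9
      exact zero_ne_one h9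
    have h7 : IsLocalRing.residue A ⟨σ τ₀ / τ₀, h.ξ_mem⟩ ^ 1 = 1 := by
      rw [pow_one]
      exact (mul_left_cancel₀ (pow_ne_zero p h6) (by rw [mul_one]; exact h5)).symm
    refine h.residue_pow_ne_one hA (k := 1) ?_ h7
    intro hd
    have := Nat.le_of_dvd one_pos hd
    omega

/-- `p / τ` is in the maximal ideal -/
theorem TameAt.p_eq (hA : A.LiesOverPrime p) (h : TameAt A p ζ τ₀ σ a) :
    ∃ (c : Qb) (hc : c ∈ A), IsLocalRing.residue A ⟨c, hc⟩ = 0 ∧ (p : Qb) = τ₀ ^ p * c := by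
  have hchar := H05.charP_residueField hp.out hA
  have hp2 := hp.out.two_le
  have h3 := sq_sub_one_pos hp2
  have hle : p + 1 ≤ p ^ 2 - 1 := by
    have : 2 * p ≤ p ^ 2 := by rw [pow_two]; exact Nat.mul_le_mul_right p hp2
    rcases Nat.lt_or_ge 2 p with h4 | h4
    · have : 3 * p ≤ p ^ 2 := by rw [pow_two]; exact Nat.mul_le_mul_right p h4
      omega
    · have : p = 2 := le_antisymm h4 hp2
      subst this
      norm_num
  have hτA : τ₀ ∈ A := by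
    apply H11Q.mem_of_pow_mem (n := p ^ 2 - 1) (by omega)
    rw [h.pow]
    exact natCast_mem A p
  have hτr : IsLocalRing.residue A ⟨τ₀, hτA⟩ = 0 := by
    have h5 : (⟨τ₀, hτA⟩ : A) ^ (p ^ 2 - 1) = (p : A) := Subtype.ext (by
      push_cast
      exact h.pow)
    have h6 := congrArg (IsLocalRing.residue A) h5
    rw [map_pow, map_natCast, CharP.cast_eq_zero] at h6
    exact (pow_eq_zero_iff (by omega)).mp h6
  obtain ⟨d, hd⟩ : ∃ d, p ^ 2 - 1 = p + (d + 1) := ⟨p ^ 2 - 1 - p - 1, by omega⟩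
  refine ⟨τ₀ ^ (d + 1), pow_mem hτA _, ?_, ?_⟩
  · rw [residue_pow hτA, hτr, zero_pow (Nat.succ_ne_zero d)]
  · rw [← h.pow, hd, pow_add]

end Fermat.Agent.P
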