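import Fermat.Agent.H01.P.Bridge

/-!
# Local `p`-th roots of series with unit leading coefficients and high level
-/

set_option autoImplicit false
set_option linter.unusedSectionVars false

noncomputable section

attribute [-instance] HahnSeries.instModule HahnSeries.instSMul HahnSeries.instDistribMulAction
  HahnSeries.instSMulZeroClass

namespace Fermat.Agent.P

open ModularCurve IsLocalRing Fermat.Agent.H11Q Fermat.Agent.Q

variable {K : Type*} [Field K] {A : ValuationSubring K}

/-- residue of a product of roots -/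
theorem resid_multiset_prod (s : Multiset K) (hs : ∀ a ∈ s, a ∈ A) :
    s.prod ∈ A ∧ resid A s.prod = (s.map (resid A)).prod := by
  induction s using Multiset.induction_on with
  | empty => exact ⟨by simp, by simp⟩
  | cons a s ih =>
    obtain ⟨h1, h2⟩ := ih fun b hb => hs b (Multiset.mem_cons_of_mem hb)
    have ha := hs a (Multiset.mem_cons_self a s)
    rw [Multiset.prod_cons, Multiset.map_cons, Multiset.prod_cons]
    exact ⟨A.mul_mem _ _ ha h1, by rw [resid_mul A ha h1, h2]⟩

/-- a monic polynomial over `A` with constant term in the maximal ideal has a root there. -/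
theorem exists_root_resid_zero [IsAlgClosed K] {P : Polynomial A} (hP : P.Monic)
    (h0 : resid A ((P.coeff 0 : A) : K) = 0) :
    ∃ t : K, t ∈ A ∧ resid A t = 0 ∧ Polynomial.eval₂ A.subtype t P = 0 := by
  classical
  set Q : Polynomial K := P.map A.subtype with hQ
  have hQm : Q.Monic := hP.map _
  have hroot : ∀ a ∈ Q.roots, a ∈ A := by
    intro a ha
    have h1 : Polynomial.eval a Q = 0 := (Polynomial.mem_roots'.mp ha).2
    rw [hQ, Polynomial.eval_map] at h1
    have hint : IsIntegral A a := ⟨P, hP, h1⟩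
    obtain ⟨y, hy⟩ := IsIntegrallyClosed.isIntegral_iff.mp hint
    rw [← hy]
    exact y.2
  have hsplit : Q.Splits := IsAlgClosed.splits Q
  have hprod : Q.coeff 0 = (-1) ^ Q.natDegree * Q.leadingCoeff * Q.roots.prod :=
    hsplit.coeff_zero_eq_leadingCoeff_mul_prod_roots
  rw [hQm.leadingCoeff, mul_one] at hprod
  obtain ⟨h1, h2⟩ := resid_multiset_prod Q.roots hroot
  have h3 : resid A (Q.roots.prod) = 0 := by
    have h4 : Q.roots.prod = (-1) ^ Q.natDegree * Q.coeff 0 := by
      rw [hprod, ← mul_assoc, ← mul_pow]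
      simp
    have h5 : Q.coeff 0 = ((P.coeff 0 : A) : K) := by
      rw [hQ, Polynomial.coeff_map]; rfl
    have h6 : ((-1 : K) ^ Q.natDegree) ∈ A := A.toSubring.pow_mem (A.neg_mem _ A.one_mem) _
    rw [h4, h5, resid_mul A h6 (P.coeff 0).2, h0, mul_zero]
  rw [h2, Multiset.prod_eq_zero_iff, Multiset.mem_map] at h3
  obtain ⟨t, ht, ht0⟩ := h3
  refine ⟨t, hroot t ht, ht0, ?_⟩
  have := (Polynomial.mem_roots'.mp ht).2
  rwa [Polynomial.IsRoot.def, hQ, Polynomial.eval_map] at this

variable {p : ℕ} [hp : Fact p.Prime] {ζ u w : K}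

theorem exists_tt_root_const [IsAlgClosed K] (hw : Varpi A p ζ u w) {z : K} (hz : z ∈ A)
    (hz0 : resid A z = 0) : ∃ t : K, t ∈ A ∧ resid A t = 0 ∧ tt p u w t = z := by
  have hdeg : (Polynomial.C (⟨z, hz⟩ : A)).degree < (ttP p (⟨u, hw.u_mem⟩ : A) ⟨w, hw.mem⟩).degree := by
    refine lt_of_le_of_lt Polynomial.degree_C_le ?_
    rw [← Polynomial.natDegree_pos_iff_degree_pos, natDegree_ttP]
    exact hp.out.pos
  have hmon : (ttP p (⟨u, hw.u_mem⟩ : A) ⟨w, hw.mem⟩ - Polynomial.C (⟨z, hz⟩ : A)).Monic :=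
    (monic_ttP _ _).sub_of_left hdeg
  obtain ⟨t, ht, ht0, he⟩ := exists_root_resid_zero hmon (by
    rw [Polynomial.coeff_sub, Polynomial.coeff_C_zero]
    have h1 : (ttP p (⟨u, hw.u_mem⟩ : A) ⟨w, hw.mem⟩).coeff 0 = 0 := by
      have h2 := eval_ttP (p := p) (⟨u, hw.u_mem⟩ : A) ⟨w, hw.mem⟩ 0
      rw [← Polynomial.coeff_zero_eq_eval_zero] at h2
      rw [h2, tt, zero_pow hp.out.ne_zero, zero_add]
      refine Finset.sum_eq_zero fun i hi => ?_
      rw [Finset.mem_Ico] at hi
      rw [zero_pow (by omega), mul_zero]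
    rw [h1, zero_sub]
    change resid A (-z) = 0
    rw [resid_neg A hz, hz0, neg_zero])
  refine ⟨t, ht, ht0, ?_⟩
  rw [Polynomial.eval₂_sub, Polynomial.eval₂_C, eval₂_ttP, sub_eq_zero] at he
  exact he

/-- Hensel's lemma for `tt` over power series. -/
theorem exists_tt_ps {R : Type*} [CommRing R] [IsDomain R] {u w : R} (hw : w ≠ 0)
    (hu : IsUnit u) (h : (p : R) = u * w ^ (p - 1)) (Z : PowerSeries R) (t₀ : R)
    (ht₀ : tt p u w t₀ = PowerSeries.constantCoeff Z) (h1 : IsUnit (1 + w * t₀)) :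
    ∃ t : PowerSeries R, PowerSeries.constantCoeff t = t₀ ∧
      tt p (PowerSeries.C u) (PowerSeries.C w) t = Z := by
  have hI : HenselianRing (PowerSeries R) (Ideal.span {(PowerSeries.X : PowerSeries R)}) :=
    inferInstance
  set P : Polynomial (PowerSeries R) := ttP p (PowerSeries.C u) (PowerSeries.C w) with hP
  have hw' : (PowerSeries.C w : PowerSeries R) ≠ 0 := (map_ne_zero_iff _
    (PowerSeries.C_injective)).mpr hw
  have hp' : (p : PowerSeries R) = PowerSeries.C u * (PowerSeries.C w) ^ (p - 1) := by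
    rw [← map_pow, ← map_mul, ← h, map_natCast]
  have hder := derivative_ttP (p := p) hw' hp'
  have hdeg : (Polynomial.C Z).degree < P.degree := by
    refine lt_of_le_of_lt Polynomial.degree_C_le ?_
    rw [← Polynomial.natDegree_pos_iff_degree_pos, natDegree_ttP]
    exact hp.out.pos
  have hmon : (P - Polynomial.C Z).Monic := (monic_ttP _ _).sub_of_left hdeg
  obtain ⟨t, ht1, ht2⟩ := hI.is_henselian _ hmon (PowerSeries.C t₀) (by
    rw [Polynomial.eval_sub, Polynomial.eval_C, hP, eval_ttP, Ideal.mem_span_singleton,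
      PowerSeries.X_dvd_iff, map_sub, map_tt]
    simp only [PowerSeries.constantCoeff_C]
    rw [ht₀, sub_self]) (by
    rw [Polynomial.derivative_sub, Polynomial.derivative_C, sub_zero, hder]
    have h2 : IsUnit (PowerSeries.C u * (1 + PowerSeries.C w * PowerSeries.C t₀) ^ (p - 1) :
        PowerSeries R) := by
      refine (hu.map (PowerSeries.C (R := R))).mul (IsUnit.pow _ ?_)
      have := h1.map (PowerSeries.C (R := R))
      rwa [map_add, map_one, map_mul] at this
    exact h2.map _)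
  refine ⟨t, ?_, ?_⟩
  · rw [Ideal.mem_span_singleton, PowerSeries.X_dvd_iff, map_sub, PowerSeries.constantCoeff_C,
      sub_eq_zero] at ht2
    exact ht2
  · rw [Polynomial.IsRoot.def, Polynomial.eval_sub, Polynomial.eval_C, hP, eval_ttP,
      sub_eq_zero] at ht1
    exact ht1

theorem coeff_ofPowerSeries (f : PowerSeries K) (i : ℤ) :
    (HahnSeries.ofPowerSeries ℤ K f).coeff i =
      if i < 0 then 0 else PowerSeries.coeff i.natAbs f := PowerSeries.coeff_coe f i

variable [CharZero K] [Algebra ℚ K] [Algebra.IsAlgebraic ℚ K]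

/-- solving `tt t = Z` in integral series. -/
theorem exists_tt_root [IsAlgClosed K] (hw : Varpi A p ζ u w) {Z : LaurentSeries K}
    (hZ : IsInt A Z) (hZn : NumF Z) (hZ0 : ∀ i < 0, Z.coeff i = 0) (hZr : rd A Z = 0) :
    ∃ t : LaurentSeries K, IsInt A t ∧ NumF t ∧ (∀ i < 0, t.coeff i = 0) ∧ rd A t = 0 ∧
      tt p (HahnSeries.C u) (HahnSeries.C w) t = Z := by
  classical
  obtain ⟨S, hS⟩ := hZn
  have hz0 : resid A (Z.coeff 0) = 0 := by
    rw [← rd_coeff, hZr, HahnSeries.coeff_zero]
  obtain ⟨t₀, ht₀, ht₀r, ht₀e⟩ := exists_tt_root_const hw (hZ 0) hz0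
  set S' : Finset K := insert t₀ (insert u (insert w S)) with hS'
  set L := Subfield.closure (S' : Set K) with hL
  have hSL : ∀ n, Z.coeff n ∈ L := fun n => closure_mono' (by
    intro x hx
    simp [hS', hx]) (hS n)
  have hmem : ∀ x ∈ S', x ∈ L := fun x hx => Subfield.subset_closure hx
  let u' : RL A L := ⟨u, hw.u_mem, hmem u (by simp [hS'])⟩
  let w' : RL A L := ⟨w, hw.mem, hmem w (by simp [hS'])⟩
  let t' : RL A L := ⟨t₀, ht₀, hmem t₀ (by simp [hS'])⟩
  have hw' : w' ≠ 0 := fun h => hw.ne (congrArg Subtype.val h)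
  have hu' : IsUnit u' := by
    refine IsUnit.of_mul_eq_one ⟨u⁻¹, hw.u_inv, L.inv_mem (hmem u (by simp [hS']))⟩ ?_
    exact Subtype.ext (mul_inv_cancel₀ hw.u_ne)
  have hp' : (p : RL A L) = u' * w' ^ (p - 1) := by
    apply Subtype.ext
    rw [Subring.coe_natCast]
    exact hw.p_eq
  have h1A : (1 + w * t₀) ∈ A := A.add_mem _ _ A.one_mem (A.mul_mem _ _ hw.mem ht₀)
  have h1r : resid A (1 + w * t₀) ≠ 0 := by
    rw [resid_add A A.one_mem (A.mul_mem _ _ hw.mem ht₀), resid_mul A hw.mem ht₀, ht₀r, mul_zero,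
      add_zero, resid_one]
    exact one_ne_zero
  have h1 : IsUnit (1 + w' * t') := by
    have h2 := (resid_ne_zero_iff A h1A).1 h1r
    refine IsUnit.of_mul_eq_one ⟨(1 + w * t₀)⁻¹, h2.1, L.inv_mem (L.add_mem L.one_mem
      (L.mul_mem w'.2.2 t'.2.2))⟩ ?_
    exact Subtype.ext (mul_inv_cancel₀ h2.2)
  let Zp : PowerSeries (RL A L) := PowerSeries.mk fun i => ⟨Z.coeff i, hZ i, hSL i⟩
  obtain ⟨t, ht1, ht2⟩ := exists_tt_ps hw' hu' hp' Zp t' (by
    rw [← PowerSeries.coeff_zero_eq_constantCoeff_apply, PowerSeries.coeff_mk]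
    have h3 := map_tt p (RL A L).subtype u' w' t'
    apply Subtype.ext
    change ((RL A L).subtype (tt p u' w' t')) = _
    rw [h3]
    exact ht₀e) h1
  let φ : PowerSeries (RL A L) →+* LaurentSeries K :=
    (HahnSeries.ofPowerSeries ℤ K).comp (PowerSeries.map (RL A L).subtype)
  have hφC : ∀ c : RL A L, φ (PowerSeries.C c) = HahnSeries.C (c : K) := by
    intro c
    change HahnSeries.ofPowerSeries ℤ K (PowerSeries.map (RL A L).subtype (PowerSeries.C c)) = _
    rw [PowerSeries.map_C, HahnSeries.ofPowerSeries_C]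
    rfl
  have hφc : ∀ (f : PowerSeries (RL A L)) (i : ℤ), (φ f).coeff i =
      if i < 0 then 0 else ((PowerSeries.coeff i.natAbs f : RL A L) : K) := by
    intro f i
    change (HahnSeries.ofPowerSeries ℤ K (PowerSeries.map (RL A L).subtype f)).coeff i = _
    rw [coeff_ofPowerSeries, PowerSeries.coeff_map]
    rfl
  have hZφ : φ Zp = Z := by
    ext i
    rw [hφc]
    split_ifs with hi
    · exact (hZ0 i hi).symm
    · rw [PowerSeries.coeff_mk]
      change Z.coeff (i.natAbs : ℤ) = _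
      congr 1
      omega
  have hint : IsInt A (φ t) := by
    intro i
    rw [hφc]
    split_ifs
    · exact A.zero_mem
    · exact (PowerSeries.coeff i.natAbs t).2.1
  have htt : tt p (HahnSeries.C u) (HahnSeries.C w) (φ t) = Z := by
    have h3 := map_tt p φ (PowerSeries.C u') (PowerSeries.C w') t
    rw [ht2, hZφ, hφC, hφC] at h3
    exact h3.symm
  refine ⟨φ t, hint, ⟨S', fun i => ?_⟩, fun i hi => ?_, ?_, htt⟩
  · rw [hφc]
    split_ifs
    · exact Subring.zero_mem _
    · exact (PowerSeries.coeff i.natAbs t).2.2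
  · rw [hφc, if_pos hi]
  · by_contra hne
    have h4 := red_tt (p := p) hw.u_mem hw.mem hw.res (red_rd hint)
    rw [htt] at h4
    have h5 := (red_rd hZ).unique h4
    rw [hZr] at h5
    have hp2 := hp.out.two_le
    have h6 : (rd A (φ t)) ^ (p - 1) = -HahnSeries.C (resid A u) := by
      have h7 : rd A (φ t) * ((rd A (φ t)) ^ (p - 1) + HahnSeries.C (resid A u)) = 0 := by
        rw [mul_add, ← pow_succ', Nat.sub_add_cancel hp.out.one_le, h5, mul_comm (rd A (φ t))]
      rcases mul_eq_zero.mp h7 with h8 | h8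
      · exact absurd h8 hne
      · exact eq_neg_of_add_eq_zero_left h8
    have hu0 : resid A u ≠ 0 := (resid_ne_zero_iff A hw.u_mem).2 ⟨hw.u_inv, hw.u_ne⟩
    have h7 := congrArg HahnSeries.order h6
    rw [HahnSeries.order_pow, HahnSeries.order_neg, HahnSeries.order_C, nsmul_eq_mul] at h7
    have h8 : (rd A (φ t)).order = 0 := by
      rcases mul_eq_zero.mp h7 with h9 | h9
      · exfalso
        have : p - 1 = 0 := by exact_mod_cast h9
        omega
      · exact h9
    have h9 : (rd A (φ t)).coeff 0 ≠ 0 := by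
      rw [← h8]
      exact mt HahnSeries.coeff_order_eq_zero.1 hne
    apply h9
    rw [rd_coeff, hφc, if_neg (lt_irrefl 0)]
    have h10 : PowerSeries.coeff (0 : ℤ).natAbs t = t' := by
      rw [Int.natAbs_zero, PowerSeries.coeff_zero_eq_constantCoeff_apply, ht1]
    rw [h10]
    exact ht₀r

/-- the part of exponents `≥ n` -/
def hiPart {R : Type*} [CommRing R] (n : ℤ) (x : LaurentSeries R) : LaurentSeries R where
  coeff i := if n ≤ i then x.coeff i else 0
  isPWO_support' := x.isPWO_support'.mono (by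
    intro i hi hx
    apply hi
    have h : x.coeff i = 0 := hx
    simp [h])

theorem hiPart_coeff {R : Type*} [CommRing R] (n : ℤ) (x : LaurentSeries R) (i : ℤ) :
    (hiPart n x).coeff i = if n ≤ i then x.coeff i else 0 := rfl

theorem NumF.pow' {x : LaurentSeries K} (hx : NumF x) (n : ℕ) : NumF (x ^ n) :=
  numF_of_mem (pow_mem (mem_finL_of_numF hx) n)

theorem NumF.sub' {x y : LaurentSeries K} (hx : NumF x) (hy : NumF y) : NumF (x - y) :=
  numF_of_mem (sub_mem (mem_finL_of_numF hx) (mem_finL_of_numF hy))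

theorem numF_C (c : K) : NumF (HahnSeries.C c : LaurentSeries K) := numF_of_mem (C_mem_finL c)

theorem pow_coeff_order {k : Type*} [Field k] (x : LaurentSeries k) (n : ℕ) :
    (x ^ n).coeff (n * x.order) = (x.coeff x.order) ^ n := by
  rcases eq_or_ne x 0 with rfl | hx
  · rcases Nat.eq_zero_or_pos n with rfl | hn
    · simp
    · rw [zero_pow hn.ne', HahnSeries.coeff_zero, HahnSeries.coeff_zero, zero_pow hn.ne']
  · have := Q.coeff_mul_pow_order (one_ne_zero) hx n
    rw [one_mul, HahnSeries.order_one, zero_add, HahnSeries.coeff_one, if_pos rfl, one_mul] at this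
    exact this

theorem exists_factor (hA : A.LiesOverPrime p) {V P : LaurentSeries K} {n : ℤ} (hV : IsInt A V)
    (hVn : NumF V) (hP : UnitLead A P n) (hPn : NumF P)
    (hVP : ∀ i, n ≤ i → P.coeff i = V.coeff i) (hVr : rd A V = rd A P) :
    ∃ (γ : K) (β : LaurentSeries K), γ ∈ A ∧ resid A γ = 0 ∧ IsInt A β ∧ NumF β ∧
      V = P * (1 + HahnSeries.C γ * β) ∧ (γ = 0 ∨ (rd A β ≠ 0 ∧ (rd A β).order < 0)) := by
  rcases eq_or_ne (V - P) 0 with h0 | h0
  · refine ⟨0, 0, A.zero_mem, resid_zero A, IsInt.zero, numF_of_mem (zero_mem _), ?_, Or.inl rfl⟩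
    rw [map_zero, zero_mul, add_zero, mul_one]
    exact sub_eq_zero.mp h0
  · have hMint : IsInt A (V - P) := hV.sub hP.int
    have hMr : rd A (V - P) = 0 := by rw [rd_sub hV hP.int, hVr, sub_self]
    obtain ⟨c, hc, hcM, hcr⟩ := exists_redL_ne_zero hp.out hA
      (mem_DD_iff.mpr ⟨NumF.sub' hVn hPn, hMint.bdd⟩) h0
    have hWint : IsInt A (HahnSeries.C c * (V - P)) := isInt_iff_mem.mpr hcM
    have hWr : rd A (HahnSeries.C c * (V - P)) ≠ 0 := by rw [rd_eq_redL hcM]; exact hcr
    have hcA : c⁻¹ ∈ A := by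
      apply mem_of_isInt_smul hWint hWr
      rw [smul_eq_C_mul, ← mul_assoc, ← map_mul, inv_mul_cancel₀ hc, map_one, one_mul]
      exact hMint
    have hVPe : V - P = HahnSeries.C c⁻¹ * (HahnSeries.C c * (V - P)) := by
      rw [← mul_assoc, ← map_mul, inv_mul_cancel₀ hc, map_one, one_mul]
    have hcr0 : resid A c⁻¹ = 0 := by
      by_contra hne
      have h1 := (red_C hcA).mul (red_rd hWint)
      rw [← hVPe] at h1
      have h2 := (red_rd hMint).unique h1
      rw [hMr] at h2
      rcases mul_eq_zero.mp h2.symm with h3 | h3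
      · exact hne ((map_eq_zero (HahnSeries.C (Γ := ℤ) (R := ResidueField A))).mp h3)
      · exact hWr h3
    set W := HahnSeries.C c * (V - P) with hW
    have hWlow : ∀ i, n ≤ i → W.coeff i = 0 := by
      intro i hi
      rw [hW, coeff_C_mul', HahnSeries.coeff_sub, hVP i hi, sub_self, mul_zero]
    have hPinv := hP.inv.1
    refine ⟨c⁻¹, P⁻¹ * W, hcA, hcr0, hPinv.int.mul hWint, ?_, ?_, Or.inr ⟨?_, ?_⟩⟩
    · exact (hP.numF_inv hPn).mul ((numF_C c).mul (NumF.sub' hVn hPn))
    · have hP0 := hP.ne_zero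
      have : P * (1 + HahnSeries.C c⁻¹ * (P⁻¹ * W)) = P + HahnSeries.C c⁻¹ * W := by
        field_simp
      rw [this, ← hVPe]
      ring
    · rw [rd_mul hPinv.int hWint]
      exact mul_ne_zero hPinv.rd_ne_zero hWr
    · rw [rd_mul hPinv.int hWint, HahnSeries.order_mul hPinv.rd_ne_zero hWr, hPinv.order_rd]
      have h1 : (rd A W).order < n := by
        by_contra hcon
        rw [not_lt] at hcon
        apply mt HahnSeries.coeff_order_eq_zero.1 hWr
        rw [rd_coeff, hWlow _ hcon, resid_zero]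
      omega

/-- **Local roots.** -/
theorem exists_local_root [IsAlgClosed K] (hA : A.LiesOverPrime p) (hw : Varpi A p ζ u w)
    {x V h : LaurentSeries K} {n : ℤ} (hx : UnitLead A x (p * n)) (hxn : NumF x)
    (hV : IsInt A V) (hVn : NumF V) (hh : Red A h 0)
    (hxV : x = V ^ p * (1 + HahnSeries.C (w ^ p) * h)) :
    ∃ H : LaurentSeries K, UnitLead A H n ∧ NumF H ∧ H ^ p = x ∧
      ∃ s, Red A s 0 ∧ H = V * (1 + HahnSeries.C w * s) := by
  have hp2 := hp.out.two_le
  have hwp : w ^ p ∈ A := A.toSubring.pow_mem hw.mem p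
  have hxr : rd A V ^ p = rd A x := by
    have h1 := ((red_rd hV).pow p).mul (Red.one.add ((red_C hwp).mul hh))
    rw [← hxV, mul_zero, add_zero, mul_one] at h1
    exact ((red_rd hx.int).unique h1).symm
  have hV0 : rd A V ≠ 0 := by
    intro h0
    rw [h0, zero_pow hp.out.ne_zero] at hxr
    exact hx.rd_ne_zero hxr.symm
  have hVo : (rd A V).order = n := by
    have h1 := congrArg HahnSeries.order hxr
    rw [HahnSeries.order_pow, hx.order_rd, nsmul_eq_mul] at h1
    exact mul_left_cancel₀ (by exact_mod_cast hp.out.ne_zero) h1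
  set P := hiPart n V with hPdef
  have hPc : ∀ i, P.coeff i = if n ≤ i then V.coeff i else 0 := fun i => rfl
  have hP : UnitLead A P n := by
    refine ⟨fun i => ?_, fun i hi => ?_, ?_⟩
    · rw [hPc]
      split_ifs
      · exact hV i
      · exact A.zero_mem
    · rw [hPc, if_neg (by omega)]
    · rw [hPc, if_pos le_rfl, ← rd_coeff, ← hVo]
      exact mt HahnSeries.coeff_order_eq_zero.1 hV0
  have hPn : NumF P := by
    obtain ⟨S, hS⟩ := hVn
    refine ⟨S, fun i => ?_⟩
    rw [hPc]
    split_ifs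
    · exact hS i
    · exact Subring.zero_mem _
  have hPr : rd A V = rd A P := by
    ext i
    rw [rd_coeff, rd_coeff, hPc]
    split_ifs with hi
    · rfl
    · rw [resid_zero, ← rd_coeff]
      exact HahnSeries.coeff_eq_zero_of_lt_order (by omega)
  obtain ⟨γ, β, hγ, hγ0, hβ, hβn, hVβ, hβr⟩ := exists_factor hA hV hVn hP hPn
    (fun i hi => by rw [hPc, if_pos hi]) hPr
  have hP0 := hP.ne_zero
  set Q := (P⁻¹) ^ p * x with hQ
  have hQe : Q = (1 + HahnSeries.C γ * β) ^ p * (1 + HahnSeries.C (w ^ p) * h) := by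
    rw [hQ, hxV, hVβ, mul_pow, ← mul_assoc, ← mul_assoc, ← mul_pow, inv_mul_cancel₀ hP0, one_pow,
      one_mul]
  have hQl : UnitLead A Q 0 := by
    have h1 := (hP.inv.1.pow p).mul hx
    rwa [show (p : ℤ) * -n + p * n = 0 by ring] at h1
  have hQn : NumF Q := (NumF.pow' (hP.numF_inv hPn) p).mul hxn
  have hQDD : Q ∈ DD A := mem_DD_iff.mpr ⟨hQn, hQl.int.bdd⟩
  -- `γ = w γ'`
  obtain ⟨γ', hγ', hγ'0, hγe⟩ : ∃ γ' : K, γ' ∈ A ∧ resid A γ' = 0 ∧ γ = w * γ' := by
    rcases hβr with hγz | ⟨hβr0, hβro⟩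
    · exact ⟨0, A.zero_mem, resid_zero A, by rw [hγz, mul_zero]⟩
    rcases eq_or_ne γ 0 with hγz | hγz
    · exact ⟨0, A.zero_mem, resid_zero A, by rw [hγz, mul_zero]⟩
    by_cases hδ : w / γ ∈ A
    · exfalso
      set δ := w / γ with hδd
      have hwγ : w = δ * γ := by rw [hδd, div_mul_cancel₀ _ hγz]
      have huδ : u * δ ^ (p - 1) ∈ A := A.mul_mem _ _ hw.u_mem (A.toSubring.pow_mem hδ _)
      have hpe : (p : LaurentSeries K) =
          HahnSeries.C (u * δ ^ (p - 1)) * (HahnSeries.C γ) ^ (p - 1) := by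
        rw [← map_pow, ← map_mul, mul_assoc, ← mul_pow, ← hwγ, ← hw.p_eq, map_natCast]
      have hpow := one_add_pow_eq_tt hpe β
      set T := tt p (HahnSeries.C (u * δ ^ (p - 1))) (HahnSeries.C γ) β with hT
      have hTr : Red A T _ := red_tt (p := p) huδ hγ hγ0 (red_rd hβ)
      set Z := T + HahnSeries.C (δ ^ p) * h +
        HahnSeries.C (γ ^ p) * HahnSeries.C (δ ^ p) * T * h with hZ
      have hγp : (HahnSeries.C (γ ^ p) : LaurentSeries K) ≠ 0 :=
        (map_ne_zero _).mpr (pow_ne_zero _ hγz)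
      have hQZ : Q = 1 + HahnSeries.C (γ ^ p) * Z := by
        rw [hQe, hpow, ← map_pow, hZ, hwγ, mul_pow, map_mul]
        ring
      have hδp : δ ^ p ∈ A := A.toSubring.pow_mem hδ p
      have hγpA : γ ^ p ∈ A := A.toSubring.pow_mem hγ p
      have hZr := (hTr.add ((red_C hδp).mul hh)).add
        ((((red_C hγpA).mul (red_C hδp)).mul hTr).mul hh)
      rw [mul_zero, mul_zero, add_zero, add_zero] at hZr
      have hZDD : Z ∈ DD A := by
        have : Z = HahnSeries.C (γ ^ p)⁻¹ * (Q - 1) := by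
          rw [hQZ, add_sub_cancel_left, ← mul_assoc, ← map_mul,
            inv_mul_cancel₀ (pow_ne_zero _ hγz), map_one, one_mul]
        rw [this]
        exact mul_mem (C_mem_DD _) (sub_mem hQDD (one_mem _))
      obtain ⟨hZi, hZrd⟩ := isInt_of_red hA hZDD hZr
      set o := (rd A β).order with ho
      have hneg : (p : ℤ) * o < o := by
        have : (2 : ℤ) ≤ p := by exact_mod_cast hp2
        nlinarith
      have hneg0 : (p : ℤ) * o < 0 := by omega
      have h1 : (rd A Z).coeff (p * o) = 0 := by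
        have h2 : HahnSeries.C (γ ^ p) * Z = Q - 1 := by rw [hQZ]; ring
        have h3 : (HahnSeries.C (γ ^ p) * Z).coeff (p * o) = 0 := by
          rw [h2, HahnSeries.coeff_sub, hQl.below _ hneg0, HahnSeries.coeff_one,
            if_neg (by omega), sub_zero]
        rw [coeff_C_mul'] at h3
        rcases mul_eq_zero.mp h3 with h4 | h4
        · exact absurd h4 (pow_ne_zero _ hγz)
        · rw [rd_coeff, h4, resid_zero]
      rw [hZrd, HahnSeries.coeff_add, coeff_C_mul', pow_coeff_order,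
        HahnSeries.coeff_eq_zero_of_lt_order (x := rd A β) hneg, mul_zero, add_zero] at h1
      exact pow_ne_zero p (mt HahnSeries.coeff_order_eq_zero.1 hβr0) h1
    · have h1 : γ / w ∈ A := by
        rcases A.mem_or_inv_mem (w / γ) with h | h
        · exact absurd h hδ
        · rwa [inv_div] at h
      refine ⟨γ / w, h1, resid_eq_zero_of_inv_notMem h1 (by rwa [inv_div]), ?_⟩
      rw [mul_div_cancel₀ _ hw.ne]
  -- the residual equation
  set s₀ := HahnSeries.C γ' * β with hs₀
  have hs₀r : Red A s₀ 0 := by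
    have h1 := (red_C hγ').mul (red_rd hβ)
    rwa [hγ'0, map_zero, zero_mul] at h1
  have hpe : (p : LaurentSeries K) = HahnSeries.C u * (HahnSeries.C w) ^ (p - 1) := by
    rw [← map_pow, ← map_mul, ← hw.p_eq, map_natCast]
  have hγs : HahnSeries.C γ * β = HahnSeries.C w * s₀ := by
    rw [hs₀, hγe, map_mul, mul_assoc]
  set T := tt p (HahnSeries.C u) (HahnSeries.C w) s₀ with hT
  have hTr : Red A T 0 := by
    have h1 := red_tt (p := p) hw.u_mem hw.mem hw.res hs₀r
    rwa [mul_zero, add_zero, zero_pow hp.out.ne_zero] at h1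
  set Z := T + h + HahnSeries.C (w ^ p) * T * h with hZ
  have hQZ : Q = 1 + HahnSeries.C (w ^ p) * Z := by
    rw [hQe, hγs, one_add_pow_eq_tt hpe s₀, ← map_pow, hZ]
    ring
  have hZr : Red A Z 0 := by
    have h1 := (hTr.add hh).add (((red_C hwp).mul hTr).mul hh)
    rwa [mul_zero, add_zero, add_zero] at h1
  have hwp0 : w ^ p ≠ 0 := pow_ne_zero _ hw.ne
  have hZe : Z = HahnSeries.C (w ^ p)⁻¹ * (Q - 1) := by
    rw [hQZ, add_sub_cancel_left, ← mul_assoc, ← map_mul,
      inv_mul_cancel₀ hwp0, map_one, one_mul]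
  have hZDD : Z ∈ DD A := by
    rw [hZe]
    exact mul_mem (C_mem_DD _) (sub_mem hQDD (one_mem _))
  obtain ⟨hZi, hZrd⟩ := isInt_of_red hA hZDD hZr
  have hZ0 : ∀ i < 0, Z.coeff i = 0 := by
    intro i hi
    rw [hZe, coeff_C_mul', HahnSeries.coeff_sub, hQl.below _ hi, HahnSeries.coeff_one,
      if_neg (by omega), sub_zero, mul_zero]
  obtain ⟨t, ht, htn, ht0, htr, htt⟩ := exists_tt_root hw hZi (mem_DD_iff.mp hZDD).1 hZ0 hZrd
  set Y := 1 + HahnSeries.C w * t with hY
  have hYp : Y ^ p = Q := by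
    rw [hY, one_add_pow_eq_tt hpe t, htt, ← map_pow, ← hQZ]
  have hYi : IsInt A Y := by
    rw [hY, ← smul_eq_C_mul]
    exact IsInt.one.add (ht.smul hw.mem)
  have hYl : UnitLead A Y 0 := by
    refine ⟨hYi, fun i hi => ?_, ?_⟩
    · rw [hY, HahnSeries.coeff_add, coeff_C_mul', ht0 i hi, mul_zero, HahnSeries.coeff_one,
        if_neg (by omega), add_zero]
    · have h1 : rd A Y = 1 := by
        have h2 := Red.one.add ((red_C hw.mem).mul (red_rd ht))
        rw [htr, mul_zero, add_zero] at h2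
        exact (red_rd hYi).unique h2
      rw [← rd_coeff, h1, HahnSeries.coeff_one, if_pos rfl]
      exact one_ne_zero
  refine ⟨P * Y, by simpa using hP.mul hYl, hPn.mul ((numF_of_mem (one_mem _)).add
    ((numF_C w).mul htn)), ?_, (t - s₀) / (1 + HahnSeries.C w * s₀), ?_, ?_⟩
  · rw [mul_pow, hYp, hQ, ← mul_assoc, ← mul_pow, mul_inv_cancel₀ hP0, one_pow, one_mul]
  · have h1 := ((red_rd ht).sub hs₀r).div (Red.one.add ((red_C hw.mem).mul hs₀r)) (by
      rw [mul_zero, add_zero]; exact one_ne_zero)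
    rwa [htr, sub_zero, zero_div] at h1
  · have h1 : (1 + HahnSeries.C w * s₀ : LaurentSeries K) ≠ 0 := by
      have h2 := Red.one.add ((red_C hw.mem).mul hs₀r)
      rw [mul_zero, add_zero] at h2
      exact h2.ne_zero one_ne_zero
    rw [hVβ, hγs, hY]
    field_simp
    ring

end Fermat.Agent.P
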