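import Mathlib
import Fermat.Agent.H01.P.UOp
import Fermat.Agent.H29.Theta
import Fermat.Agent.Igusa.Degree3
import Fermat.Agent.Q.Frobenius

/-!
# Functions killed by `q d/dq` are `p`-th powers
-/

set_option autoImplicit false

noncomputable section

namespace Fermat.Agent.P

open ModularCurve Fermat.Agent.Igusa IntermediateField

attribute [-instance] HahnSeries.instModule

variable {k : Type*} [Field k]

/-- elements of the modular function field are algebraic over `k(j)`. -/
theorem isAlgebraic_full {M : ℕ} (hM : (M : k) ≠ 0) {h : LaurentSeries k}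
    (hh : h ∈ modularFunctionFieldFullC k M) : IsAlgebraic k⟮jqModC k⟯ h := by
  have hM0 : M ≠ 0 := by rintro rfl; simp at hM
  have : NeZero M := ⟨hM0⟩
  have h1 := relrank_full (k := k) M hM
  rw [full_one_eq] at h1
  have hle : k⟮jqModC k⟯ ≤ modularFunctionFieldFullC k M := by
    rw [adjoin_simple_le_iff]
    exact jqModC_mem_full k M
  rw [relrank_eq_rank_of_le hle] at h1
  have hfin : Module.Finite k⟮jqModC k⟯ (extendScalars hle) := by
    rw [← Module.rank_lt_aleph0_iff, h1]
    exact Cardinal.natCast_lt_aleph0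
  have h2 : IsAlgebraic k⟮jqModC k⟯ (⟨h, hh⟩ : extendScalars hle) :=
    Algebra.IsAlgebraic.isAlgebraic _
  exact (IntermediateField.isAlgebraic_iff (S := extendScalars hle)).mp h2

theorem theta_jqModC_ne_zero : H29.theta k (jqModC k) ≠ 0 := by
  apply H29.theta_ne_zero_of_coeff (-1)
  · simp
  · rw [coeff_jqModC_neg_one]
    exact one_ne_zero

variable {p : ℕ} [hp : Fact p.Prime] [CharP k p] [PerfectRing k p]

/-- **PERF.** A modular function killed by `q d/dq` is a `p`-th power. -/
theorem exists_pow_of_theta_eq_zero {M : ℕ} (hM : (M : k) ≠ 0) {h : LaurentSeries k}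
    (hh : h ∈ modularFunctionFieldFullC k M) (h0 : theta k h = 0) :
    ∃ c ∈ modularFunctionFieldFullC k M, c ^ p = h := by
  have hexp : ExpChar k p := .prime hp.out
  -- the root in `k((q))`
  obtain ⟨c, hc⟩ : ∃ c : LaurentSeries k, c ^ p = h := by
    refine ⟨coeffMap ((frobeniusEquiv k p).symm : k →+* k) (uOp p h), ?_⟩
    rw [Q.pow_char p]
    have h1 : coeffMap (frobenius k p) (coeffMap ((frobeniusEquiv k p).symm : k →+* k) (uOp p h)) =
        uOp p h := by
      ext n
      rw [coeffMap_coeff, coeffMap_coeff]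
      exact frobenius_apply_frobeniusEquiv_symm k p _
    rw [h1]
    ext n
    by_cases hn : (p : ℤ) ∣ n
    · obtain ⟨m, rfl⟩ := hn
      rw [qExpand_coeff_mul, uOp_coeff]
    · rw [qExpand_coeff_of_not_dvd p _ hn]
      have h2 := congrArg (fun z : LaurentSeries k => z.coeff n) h0
      simp only [theta_coeff, HahnSeries.coeff_zero] at h2
      symm
      refine (mul_eq_zero.mp h2).resolve_left fun h3 => hn ?_
      exact (CharP.intCast_eq_zero_iff k p n).mp h3
  refine ⟨c, ?_, hc⟩
  set F := modularFunctionFieldFullC k M with hF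
  have hM0 : M ≠ 0 := by rintro rfl; simp at hM
  have : NeZero M := ⟨hM0⟩
  have hle : k⟮jqModC k⟯ ≤ F := by
    rw [adjoin_simple_le_iff]
    exact jqModC_mem_full k M
  have halg : IsAlgebraic k⟮jqModC k⟯ c := by
    have h1 : IsAlgebraic k⟮jqModC k⟯ (c ^ p) := by rw [hc]; exact isAlgebraic_full hM hh
    exact IsAlgebraic.of_pow hp.out.pos h1
  have hsep : IsSeparable k⟮jqModC k⟯ c :=
    H29.isSeparable_elem (H29.theta k) (jqModC k) p theta_jqModC_ne_zero c halg
  -- separable over `F`
  let G : IntermediateField k⟮jqModC k⟯ (LaurentSeries k) := extendScalars hle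
  have hsepG : IsSeparable G c := hsep.tower_top G
  have hcharB : CharP k⟮jqModC k⟯ p :=
    charP_of_injective_algebraMap (algebraMap k k⟮jqModC k⟯).injective p
  have hcharG : CharP G p := charP_of_injective_algebraMap (algebraMap k⟮jqModC k⟯ G).injective p
  have hexpG : ExpChar G p := .prime hp.out
  have hcharL : CharP (LaurentSeries k) p :=
    charP_of_injective_algebraMap (algebraMap k (LaurentSeries k)).injective p
  have hexpL : ExpChar (LaurentSeries k) p := .prime hp.out
  have hmem1 : c ∈ separableClosure G (LaurentSeries k) := mem_separableClosure_iff.mpr hsepG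
  have hmem2 : c ∈ perfectClosure G (LaurentSeries k) := by
    rw [mem_perfectClosure_iff_pow_mem p]
    refine ⟨1, ⟨⟨h, hh⟩, ?_⟩⟩
    rw [pow_one, hc]
    rfl
  have hbot : c ∈ (⊥ : IntermediateField G (LaurentSeries k)) := by
    rw [← separableClosure_inf_perfectClosure]
    exact ⟨hmem1, hmem2⟩
  obtain ⟨y, hy⟩ := IntermediateField.mem_bot.mp hbot
  have h5 : ((y : G) : LaurentSeries k) = c := hy
  rw [← h5]
  exact y.2

end Fermat.Agent.P
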