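import Fermat.Agent.H01.P.Dlog
import Fermat.Agent.H01.P.Perf

/-!
# Levels of classes killed by `T_p`
-/

set_option autoImplicit false
set_option linter.unusedSectionVars false

noncomputable section

namespace Fermat.Agent.P

open ModularCurve Fermat.Agent.Igusa Fermat.Agent.Q

local notation "kk" => IsLocalRing.ResidueField

variable {K : Type*} [Field K] [CharZero K] [Algebra ℚ K] [Algebra.IsAlgebraic ℚ K]
  {A : ValuationSubring K} {π : K} {p : ℕ} [hp : Fact p.Prime] {ζ : Kˣ}

theorem Unif.pow_res (hπ : Unif A π) {i : ℕ} (hi : 1 ≤ i) :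
    ∃ h : π ^ i ∈ A, IsLocalRing.residue A ⟨π ^ i, h⟩ = 0 := by
  refine ⟨pow_mem hπ.mem i, ?_⟩
  have : (⟨π ^ i, pow_mem hπ.mem i⟩ : A) = ⟨π, hπ.mem⟩ ^ i := Subtype.ext rfl
  rw [this, map_pow, hπ.res, zero_pow (by omega)]

/-- The relation `T_p f = c g^p` forces the level of `f` to be `p e / (p^2 - 1)` if the
leading coefficient has non zero derivative. -/
theorem ss_level (hπ : Unif A π) {e' : ℕ} (he' : 1 ≤ e') (hr : Ram A π p e')
    (hA : A.LiesOverPrime p) (hζ : IsPrimitiveRoot ζ p) {i : ℕ} (hi : 1 ≤ i) (hi' : i < p * e')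
    {f : LaurentSeries K} {b : LaurentSeries (kk A)} (hf : Lead A (π ^ i) (f - 1) b)
    (hb : theta (kk A) b ≠ 0) {c : K} (hc : c ≠ 0) {g : LaurentSeries K} (hg : g ∈ FL A)
    (hg0 : g ≠ 0) (hT : tP ζ p f = HahnSeries.C c * g ^ p) :
    ∃ j, i = p * j ∧ (p + 1) * j = e' := by
  have hchar := H05.charP_residueField hp.out hA
  have hp2 := hp.out.two_le
  obtain ⟨hπi, hπi0⟩ := hπ.pow_res hi
  obtain ⟨h, hh, hhb⟩ := hf
  have hf1 : f = 1 + HahnSeries.C (π ^ i) * h := by rw [← hh]; ring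
  have hfcg : f - 1 ∈ cg A (π ^ i) := ⟨h, ⟨b, hhb⟩, hh⟩
  obtain ⟨-, hf0, hfinv⟩ := inv_sub_one_mem hπi hπi0 hfcg
  have hlev := tP_level hπ.mem he' hr hA hζ hi ⟨b, hhb⟩ hh
  have hTcg : HahnSeries.C c * g ^ p - 1 ∈ cg A (π ^ i) := by
    rw [← hT]
    have h3 : tP ζ p f - 1 = (tP ζ p f - 1 - HahnSeries.C (π ^ i) * qExpand K p h) +
      HahnSeries.C (π ^ i) * qExpand K p h := by ring
    rw [h3]
    exact add_mem (cg_pow_mono hπ.mem (Nat.le_succ i) hlev)
      (C_mul_mem_cg (qExpand_mem_VL p ⟨_, hhb⟩))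
  -- `b` is not constant
  have hVinj : ∀ x y : LaurentSeries (kk A), qExpand (kk A) p x = qExpand (kk A) p y → x = y :=
    fun x y hxy => qExpand_injective p hxy
  by_cases hpi : p ∣ i
  swap
  · exfalso
    obtain ⟨a, ha, hlead⟩ := leading_pow hπ hA hr hg hg0 hc 1 hi hi' (by rwa [pow_one])
      (by rw [pow_one]; exact hTcg)
    rw [pow_one, ← hT] at hlead
    have h1 : HahnSeries.C (π ^ i) * (qExpand K p h - HahnSeries.C a) ∈ cg A (π ^ (i + 1)) := by
      have h2 : HahnSeries.C (π ^ i) * (qExpand K p h - HahnSeries.C a) =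
          (tP ζ p f - 1 - HahnSeries.C (π ^ i * a)) -
          (tP ζ p f - 1 - HahnSeries.C (π ^ i) * qExpand K p h) := by
        rw [map_mul]; ring
      rw [h2]
      exact sub_mem hlead hlev
    have h2 := ((hhb.qExpand p).sub (Red.C ha)).unique (hπ.red_zero_of_mem h1)
    have h3 : b = HahnSeries.C (IsLocalRing.residue A ⟨a, ha⟩) := by
      apply hVinj
      rw [qExpand_C]
      exact sub_eq_zero.mp h2
    apply hb
    rw [h3, theta_C]
  · obtain ⟨j, rfl⟩ := hpi
    have hj : 1 ≤ j := by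
      rcases Nat.eq_zero_or_pos j with rfl | h
      · omega
      · exact h
    refine ⟨j, rfl, ?_⟩
    obtain ⟨a, ha0, y, hy, hge⟩ := approx_root hπ hA hr hg hg0 hc hi hi' hTcg j hj (by
      apply Nat.mul_lt_mul_of_pos_left (by omega) hp.out.pos)
    have hyV := hy
    obtain ⟨yb, hyb⟩ := hy
    obtain ⟨hπj, hπj0⟩ := hπ.pow_res hj
    -- the derivative of `yb`
    have hyb0 : theta (kk A) yb ≠ 0 := by
      obtain ⟨s, hs, hse⟩ := pw1 hπ.mem hr (J := j) ⟨yb, hyb⟩ 1 (by rw [pow_one]; exact hi')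
      rw [pow_one] at hse
      have h1 : HahnSeries.C c * g ^ p = HahnSeries.C (c * a ^ p) *
          (1 + HahnSeries.C (π ^ (p * j)) * (y ^ p + HahnSeries.C π * s)) := by
        rw [hge, mul_pow, hse, ← map_pow, ← mul_assoc, ← map_mul]
      have hw : (1 + HahnSeries.C (π ^ (p * j)) * (y ^ p + HahnSeries.C π * s)) - 1 ∈
          cg A (π ^ (p * j)) := by
        rw [add_sub_cancel_left]
        exact C_mul_mem_cg (add_mem (pow_mem hyV _) (mul_mem (C_mem_VL hπ.mem) hs))
      obtain ⟨hinv1, hinv0, hinvV⟩ := inv_sub_one_mem hπi hπi0 hw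
      have h2 : HahnSeries.C (c * a ^ p) - 1 ∈ cg A (π ^ (p * j)) := by
        have h3 : HahnSeries.C (c * a ^ p) = (HahnSeries.C c * g ^ p) *
            (1 + HahnSeries.C (π ^ (p * j)) * (y ^ p + HahnSeries.C π * s))⁻¹ := by
          rw [h1, mul_assoc, mul_inv_cancel₀ hinv0, mul_one]
        rw [h3]
        exact mul_sub_one_mem hπi hTcg hinv1
      have h3 : (c * a ^ p - 1) / π ^ (p * j) ∈ A := by
        rw [← C_mem_cg_iff (pow_ne_zero _ hπ.ne), map_sub, map_one]
        exact h2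
      set d := (c * a ^ p - 1) / π ^ (p * j) with hd
      have hd' : c * a ^ p = 1 + π ^ (p * j) * d := by
        rw [hd, mul_div_cancel₀ _ (pow_ne_zero _ hπ.ne)]; ring
      have h4 : HahnSeries.C (π ^ (p * j)) * (qExpand K p h - HahnSeries.C d - y ^ p) ∈
          cg A (π ^ (p * j + 1)) := by
        have h5 : HahnSeries.C (π ^ (p * j)) * (qExpand K p h - HahnSeries.C d - y ^ p) =
            HahnSeries.C (π ^ (p * j + 1)) * s +
            HahnSeries.C (π ^ (p * j + p * j)) *
              (HahnSeries.C d * (y ^ p + HahnSeries.C π * s)) -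
            (tP ζ p f - 1 - HahnSeries.C (π ^ (p * j)) * qExpand K p h) := by
          rw [hT, h1, hd', pow_succ, pow_add π (p * j) (p * j)]
          simp only [map_add, map_mul, map_one]
          ring
        rw [h5]
        refine sub_mem (add_mem (C_mul_mem_cg hs) ?_) hlev
        exact cg_pow_mono hπ.mem (by omega) (C_mul_mem_cg (mul_mem (C_mem_VL h3)
          (add_mem (pow_mem hyV _) (mul_mem (C_mem_VL hπ.mem) hs))))
      have h5 := (((hhb.qExpand p).sub (Red.C h3)).sub (hyb.pow p)).unique (hπ.red_zero_of_mem h4)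
      rw [pow_char p yb, ← qExpand_C (N := p) (IsLocalRing.residue A ⟨d, h3⟩), ← map_sub,
        ← map_sub] at h5
      have h6 : b - HahnSeries.C (IsLocalRing.residue A ⟨d, h3⟩) =
          coeffMap (frobenius (kk A) p) yb := by
        have h7 := (map_eq_zero_iff _ (qExpand_injective p)).mp h5
        exact sub_eq_zero.mp h7
      intro h0
      apply hb
      have h8 := congrArg (theta (kk A)) h6
      rw [← coeffMap_theta, h0, map_zero, map_sub, theta_C, sub_zero] at h8
      exact h8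
    -- logarithmic derivatives
    set G := 1 + HahnSeries.C (π ^ j) * y with hG
    have hGl : Lead A (π ^ j) (G - 1) yb := ⟨y, by rw [hG]; ring, hyb⟩
    obtain ⟨-, hG0, -⟩ := inv_sub_one_mem hπj hπj0 hGl.mem_cg
    have hdlG := lead_dl hπj hπj0 hGl
    have hVf0 : qExpand K p f ≠ 0 := by
      rw [Ne, map_eq_zero_iff _ (qExpand_injective p)]; exact hf0
    have hUf0 : uOp p (nT ζ p f) ≠ 0 := by
      intro h0
      have h1 : tP ζ p f = 0 := by rw [tP, h0, mul_zero]
      exact tP_ne_zero hζ hf0 h1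
    have hdl : dl (uOp p (nT ζ p f)) =
        HahnSeries.C (p : K) * (dl G - qExpand K p (dl f)) := by
      have h1 := congrArg dl hT
      rw [tP, dl_mul hVf0 hUf0, dl_qExpand, dl_C_mul hc (pow_ne_zero _ hg0), dl_pow hg0, hge,
        dl_C_mul ha0 hG0] at h1
      rw [mul_sub, ← h1]
      ring
    have hij : j + 1 ≤ p * j := by nlinarith
    have hdlf : dl f ∈ cg A (π ^ (p * j)) := (lead_dl hπi hπi0 ⟨h, hh, hhb⟩).mem_cg
    have hVdlf : Lead A (π ^ j) (qExpand K p (dl f)) 0 := by
      refine lead_zero_of_mem_cg (δ := π ^ (j + 1)) ⟨π, hπ.mem, hπ.res, by rw [pow_succ]⟩ ?_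
      apply cg_pow_mono hπ.mem hij
      obtain ⟨x, hx, hxe⟩ := hdlf
      rw [hxe, map_mul, qExpand_C]
      exact C_mul_mem_cg (qExpand_mem_VL p hx)
    have hL := (hdlG.sub hVdlf).C_mul (p : K)
    rw [← hdl, sub_zero] at hL
    -- `p = u π^e`
    obtain ⟨u, hu, hu', hpu⟩ := hr
    have hu0 : u ≠ 0 := by
      rintro rfl
      rw [zero_mul] at hpu
      exact (Nat.cast_ne_zero.mpr hp.out.ne_zero) hpu
    have hures := residue_ne_zero_of_unit hu hu' hu0
    have hL' : Lead A (π ^ ((p - 1) * e' + j)) (dl (uOp p (nT ζ p f)))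
        (HahnSeries.C (IsLocalRing.residue A ⟨u, hu⟩) * theta (kk A) yb) := by
      apply Lead.unit hu
      have h1 : π ^ ((p - 1) * e' + j) * u = p * π ^ j := by rw [hpu, pow_add]; ring
      rw [h1]
      exact hL
    have hL'0 : HahnSeries.C (IsLocalRing.residue A ⟨u, hu⟩) * theta (kk A) yb ≠ 0 :=
      mul_ne_zero ((map_ne_zero _).mpr hures) hyb0
    -- the other side
    obtain ⟨h', hh', hU⟩ := uOp_nT_one_add hA hζ hπi (h := h) ⟨b, hhb⟩
    rw [← hf1] at hU
    rcases le_or_gt ((p - 1) * e' + p * j) (p * j * p) with hcase | hcase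
    · -- contradiction
      exfalso
      have h1 : uOp p (nT ζ p f) - 1 ∈ cg A (π ^ ((p - 1) * e' + p * j)) := by
        have h2 : uOp p (nT ζ p f) - 1 = HahnSeries.C (π ^ (p * j * p)) * uOp p (nT ζ p h) +
            HahnSeries.C (π ^ ((p - 1) * e' + p * j)) * (HahnSeries.C u * h') := by
          rw [hU, ← pow_mul]
          have h3 : (p : K) * π ^ (p * j) = π ^ ((p - 1) * e' + p * j) * u := by
            rw [hpu, pow_add]; ring
          rw [h3, map_mul]
          ring
        rw [h2]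
        exact add_mem (cg_pow_mono hπ.mem hcase (C_mul_mem_cg (uOp_nT_mem_VL hA hζ ⟨b, hhb⟩)))
          (C_mul_mem_cg (mul_mem (C_mem_VL hu) hh'))
      obtain ⟨x, ⟨xb, hxb⟩, hx⟩ := h1
      obtain ⟨h3, h3'⟩ := hπ.pow_res (i := (p - 1) * e' + p * j) (by omega)
      have h4 := lead_dl h3 h3' (⟨x, hx, hxb⟩ : Lead A _ (uOp p (nT ζ p f) - 1) xb)
      have h5 := lead_zero_of_mem_cg (ε := π ^ ((p - 1) * e' + j))
        (δ := π ^ ((p - 1) * e' + j + 1)) ⟨π, hπ.mem, hπ.res, by rw [pow_succ]⟩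
        (cg_pow_mono hπ.mem (by omega) h4.mem_cg)
      exact hL'0 (hL'.unique (pow_ne_zero _ hπ.ne) h5)
    · have h1 : Lead A (π ^ (p * j * p)) (uOp p (nT ζ p f) - 1)
          (coeffMap (frobenius (kk A) p) b) := by
        have h2 : uOp p (nT ζ p f) - 1 = HahnSeries.C (π ^ (p * j * p)) *
            (uOp p (nT ζ p h) + HahnSeries.C π *
              (HahnSeries.C (π ^ ((p - 1) * e' + p * j - (p * j * p + 1)) * u) * h')) := by
          rw [hU, ← pow_mul]
          have h3 : (p : K) * π ^ (p * j) = π ^ (p * j * p) *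
              (π * (π ^ ((p - 1) * e' + p * j - (p * j * p + 1)) * u)) := by
            rw [hpu, ← mul_assoc, ← mul_assoc, ← pow_succ, ← pow_add]
            have h4 : p * j * p + 1 + ((p - 1) * e' + p * j - (p * j * p + 1)) =
              (p - 1) * e' + p * j := by omega
            rw [h4, pow_add]
            ring
          rw [h3, map_mul, map_mul]
          ring
        refine ⟨_, h2, ?_⟩
        have h3 := red_uOp hA hζ (red_nT hA hζ.pow_eq_one hhb)
        have h4 : uOp p (b ^ p) = coeffMap (frobenius (kk A) p) b := by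
          rw [pow_char p b, uOp_qExpand]
        rw [h4] at h3
        have h5 := h3.add (red_zero_of_mem_cg hπ.mem hπ.res (C_mul_mem_cg (ε := π)
          (mul_mem (C_mem_VL (mul_mem (pow_mem hπ.mem
            ((p - 1) * e' + p * j - (p * j * p + 1))) hu)) hh')))
        rwa [add_zero] at h5
      obtain ⟨h3, h3'⟩ := hπ.pow_res (i := p * j * p) (by
        have := Nat.mul_pos (by omega : 0 < p * j) hp.out.pos
        omega)
      have h4 := lead_dl h3 h3' h1
      have h5 : theta (kk A) (coeffMap (frobenius (kk A) p) b) ≠ 0 := by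
        rw [← coeffMap_theta]
        intro h0
        exact hb (coeffMap_injective _ (frobenius_inj (kk A) p) (by rw [h0, map_zero]))
      have h6 := hπ.lead_eq h4 hL' h5 hL'0
      -- `p^2 j = (p-1) e' + j`
      obtain ⟨p', rfl⟩ : ∃ p', p = p' + 1 := ⟨p - 1, by omega⟩
      have hp' : 0 < p' := by omega
      rw [Nat.add_sub_cancel] at h6
      apply Nat.eq_of_mul_eq_mul_left hp'
      nlinarith

end Fermat.Agent.P
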