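import Fermat.Agent.H01.P.LRoot
import Fermat.Agent.H11Q.Inject

/-!
# Two component data: fractions, reductions
-/

set_option autoImplicit false
set_option linter.unusedSectionVars false

noncomputable section

attribute [-instance] HahnSeries.instModule HahnSeries.instSMul HahnSeries.instDistribMulAction
  HahnSeries.instSMulZeroClass

namespace Fermat.Agent.P

open ModularCurve IsLocalRing AlgebraicCurve Module Fermat.Agent.H11Q Fermat.Agent.Q

section Red

variable {K : Type*} [Field K] {A : ValuationSubring K}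
variable [CharZero K] [Algebra ℚ K] [Algebra.IsAlgebraic ℚ K] {p : ℕ} [hp : Fact p.Prime]

/-- roots of reductions -/
theorem red_root (hA : A.LiesOverPrime p) {m : ℕ} (hm : m ≠ 0) {z : LaurentSeries K}
    (hz : z ∈ FL A) {v' : LaurentSeries (ResidueField A)} (h : Red A (z ^ m) v') (hv : v' ≠ 0) :
    ∃ v, Red A z v ∧ v ^ m = v' := by
  have hz0 : z ≠ 0 := by
    rintro rfl
    rw [zero_pow hm] at h
    exact hv (h.unique Red.zero)
  obtain ⟨c, hc, μ, hμ0, hμ⟩ := exists_red hp.out hA hz hz0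
  have h1 := hμ.pow m
  rw [mul_pow, ← map_pow] at h1
  obtain ⟨hcm, h2⟩ := h1.scale h hv
  have hcA : c ∈ A := H11Q.mem_of_pow_mem hm hcm
  have hcr : resid A c ≠ 0 := by
    intro h3
    have h4 : resid A (c ^ m) = 0 := by rw [resid_pow' hcA, h3, zero_pow hm]
    rw [resid_of_mem A hcm] at h4
    rw [h4, map_zero, zero_mul] at h2
    exact pow_ne_zero m hμ0 h2
  have hcinv := inv_mem_of_resid_ne hcA hcr
  have h5 := (red_C hcinv).mul hμ
  rw [← mul_assoc, ← map_mul, inv_mul_cancel₀ hc, map_one, one_mul] at h5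
  exact ⟨_, h5, (h5.pow m).unique h⟩

theorem charP_kk (hA : A.LiesOverPrime p) : CharP (ResidueField A) p :=
  H05.charP_residueField hp.out hA

theorem natCast_nonunits (hA : A.LiesOverPrime p) : (p : K) ∈ A.nonunits := by
  have := charP_kk (A := A) hA
  rw [← resid_eq_zero_iff A (natCast_mem A p), resid_of_mem A (natCast_mem A p)]
  have h1 : (⟨(p : K), natCast_mem A p⟩ : A) = (p : A) := Subtype.ext (by simp)
  rw [h1, map_natCast, CharP.cast_eq_zero]

end Red

section Comp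

variable {K : Type*} [Field K] {A : ValuationSubring K} {F : Type*} [Field F] [Algebra K F]
variable {T : TwoComp K A F}
variable [IsAlgClosed K] [CharZero K] [FF.FunField K F]

/-- common denominators in `Rg` -/
theorem exists_den (T : TwoComp K A F) (g : F) : ∃ B ∈ T.Rg, B ≠ 0 ∧ B * g ∈ T.Rg := by
  classical
  rcases eq_or_ne g 0 with rfl | hg
  · exact ⟨1, one_mem _, one_ne_zero, by rw [mul_zero]; exact zero_mem _⟩
  set E : Divisor K F := (FF.div g).mapRange (fun n => min 0 n) (by simp) with hE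
  have hEv : ∀ v, E v = min 0 (v.ord g) := by
    intro v
    rw [hE, Finsupp.mapRange_apply, FF.div_apply]
  set n : ℤ := |Divisor.degree E| + genusFF K F with hn
  obtain ⟨B, hB0, hB⟩ := FF.exists_effective (D := E + T.C n) (by
    rw [map_add, TwoComp.degree_C]
    have h1 : -|Divisor.degree E| ≤ Divisor.degree E := neg_abs_le _
    have h2 : (0 : ℤ) ≤ genusFF K F := by positivity
    have h3 : 0 ≤ |Divisor.degree E| := abs_nonneg _
    omega)
  have hBv : ∀ v : Place K F, v ≠ T.P 0 → v ≠ T.P 1 → 0 ≤ min 0 (v.ord g) + v.ord B := by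
    intro v h0 h1
    have h2 := hB v
    rw [Finsupp.zero_apply, Finsupp.add_apply, Finsupp.add_apply, FF.div_apply, hEv,
      TwoComp.C_apply_ne n h0 h1] at h2
    omega
  refine ⟨B, ?_, hB0, ?_⟩
  · rw [TwoComp.mem_Rg_iff_ord]
    intro v h0 h1
    have := hBv v h0 h1
    omega
  · rw [TwoComp.mem_Rg_iff_ord]
    intro v h0 h1
    rw [v.ord_mul hB0 hg]
    have := hBv v h0 h1
    omega

variable [Algebra ℚ K] [Algebra.IsAlgebraic ℚ K] {p : ℕ} [hp : Fact p.Prime]

theorem e_mem_DD {z : F} (hz : z ∈ T.Rg) (j : Fin 2) : T.e j z ∈ DD A :=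
  mem_DD_iff.mpr (T.nice z hz j)

theorem e_mem_FL (z : F) (j : Fin 2) : T.e j z ∈ FL A := by
  obtain ⟨B, hB, hB0, hBz⟩ := exists_den T z
  have h1 : T.e j z = T.e j (B * z) / T.e j B := by
    rw [map_mul, mul_div_cancel_left₀ _ (T.e_ne_zero hB0)]
  rw [h1]
  exact div_mem (DD_le_FL (e_mem_DD hBz j)) (DD_le_FL (e_mem_DD hB j))

/-- scaling an element of `Rg` to have nonzero reduction at `j` -/
theorem exists_scale (hA : A.LiesOverPrime p) {B : F} (hB : B ∈ T.Rg) (hB0 : B ≠ 0) (j : Fin 2) :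
    ∃ c : K, c ≠ 0 ∧ IsInt A (T.e j (c • B)) ∧ rd A (T.e j (c • B)) ≠ 0 := by
  obtain ⟨c, hc, h1, h2⟩ := exists_redL_ne_zero hp.out hA (e_mem_DD hB j) (T.e_ne_zero hB0)
  have h3 : T.e j (c • B) = HahnSeries.C c * T.e j B := by rw [map_smul, smul_eq_C_mul]
  refine ⟨c, hc, ?_, ?_⟩
  · rw [h3]; exact isInt_iff_mem.mpr h1
  · rw [h3, rd_eq_redL h1]; exact h2

theorem rd_mem_κ {z : F} (hz : z ∈ T.Rg) {j : Fin 2} (h : IsInt A (T.e j z)) :
    rd A (T.e j z) ∈ T.κ := T.res_κ z hz j h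

theorem red_mem_κ (hA : A.LiesOverPrime p) {z : F} {j : Fin 2}
    {v : LaurentSeries (ResidueField A)} (h : Red A (T.e j z) v) : v ∈ T.κ := by
  obtain ⟨B, hB, hB0, hBz⟩ := exists_den T z
  obtain ⟨c, hc, h1, h2⟩ := exists_scale hA hB hB0 j
  have h3 := (red_rd h1).mul h
  rw [← map_mul, smul_mul_assoc] at h3
  have hcBz : c • (B * z) ∈ T.Rg := Subalgebra.smul_mem _ hBz c
  obtain ⟨h4, h5⟩ := isInt_of_red hA (e_mem_DD hcBz j) h3
  have h6 := rd_mem_κ hcBz h4
  rw [h5] at h6
  have h7 := rd_mem_κ (Subalgebra.smul_mem _ hB c) h1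
  have h8 : v = (rd A (T.e j (c • B)) * v) / rd A (T.e j (c • B)) :=
    (mul_div_cancel_left₀ _ h2).symm
  rw [h8]
  exact div_mem h6 h7

end Comp

end Fermat.Agent.P
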