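import Fermat.Agent.H01.P.WildA

/-!
# Normal form of `p`-torsion classes of level `≥ p/(p-1)` at both cusps
-/

set_option autoImplicit false
set_option linter.unusedSectionVars false

noncomputable section

attribute [-instance] HahnSeries.instModule HahnSeries.instSMul HahnSeries.instDistribMulAction
  HahnSeries.instSMulZeroClass

namespace Fermat.Agent.P

open ModularCurve IsLocalRing AlgebraicCurve Module Fermat.Agent.H11Q Fermat.Agent.Q

variable {K : Type*} [Field K] {A : ValuationSubring K} {F : Type*} [Field F] [Algebra K F]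
variable {T : TwoComp K A F}
variable [IsAlgClosed K] [CharZero K] [FF.FunField K F]
variable [Algebra ℚ K] [Algebra.IsAlgebraic ℚ K] {p : ℕ} [hp : Fact p.Prime] {ζ u w : K}

theorem red_one_of_cg {ε : K} (hε : ε ∈ A) (h0 : resid A ε = 0) {z : LaurentSeries K}
    (h : z - 1 ∈ cg A ε) : Red A z 1 := by
  obtain ⟨x, ⟨v, hv⟩, hx⟩ := h
  have h1 : z = 1 + HahnSeries.C ε * x := by rw [← hx]; ring
  have h2 := Red.one.add ((red_C hε).mul hv)
  rwa [h0, map_zero, zero_mul, add_zero, ← h1] at h2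

theorem exists_tw (hA : A.LiesOverPrime p) (hw : Varpi A p ζ u w) {f : F} (hf : f ∈ T.Rg)
    (hf0 : f ≠ 0) {D : Divisor K F} (hD : ∀ v, (p : ℤ) * D v = v.ord f) {g : Fin 2 → F}
    (hg : ∀ j, T.e j (g j ^ p * f) - 1 ∈ cg A (w ^ p)) :
    ∃ W : Tw T p f, ∀ j, Red A (T.e j (W.t j • g j)) (W.u j)⁻¹ := by
  have hpp := hp.out.pos
  have hwp : w ^ p ∈ A := A.toSubring.pow_mem hw.mem p
  have hwp0 : resid A (w ^ p) = 0 := by
    rw [resid_pow' hw.mem, hw.res, zero_pow hp.out.ne_zero]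
  have h1 : ∀ j, ∃ t : K, t ≠ 0 ∧ IsInt A ((t ^ p)⁻¹ • T.e j f) ∧
      rd A ((t ^ p)⁻¹ • T.e j f) ≠ 0 := by
    intro j
    obtain ⟨c, hc, h1, h2⟩ := exists_scale hA hf hf0 j
    obtain ⟨t, ht⟩ := IsAlgClosed.exists_pow_nat_eq c⁻¹ hpp
    have ht0 : t ≠ 0 := by
      rintro rfl
      rw [zero_pow hp.out.ne_zero] at ht
      exact inv_ne_zero hc ht.symm
    refine ⟨t, ht0, ?_, ?_⟩
    · rw [ht, inv_inv, ← map_smul]; exact h1
    · rw [ht, inv_inv, ← map_smul]; exact h2
  choose t ht hti htr using h1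
  have h2 : ∀ j, Red A (T.e j (g j ^ p * f)) 1 := fun j => red_one_of_cg hwp hwp0 (hg j)
  have h3 : ∀ j, ∃ v, Red A (T.e j (t j • g j)) v ∧
      v ^ p = (rd A ((t j ^ p)⁻¹ • T.e j f))⁻¹ := by
    intro j
    refine red_root hA hp.out.ne_zero (e_mem_FL _ j) ?_ (inv_ne_zero (htr j))
    have h4 := (h2 j).div (red_rd (hti j)) (htr j)
    rw [one_div] at h4
    have h5 : T.e j (g j ^ p * f) / ((t j ^ p)⁻¹ • T.e j f) = T.e j (t j • g j) ^ p := by
      rw [map_mul, map_pow, smul_eq_C_mul, map_smul, smul_eq_C_mul, map_inv₀, map_pow, mul_pow]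
      have h6 : (HahnSeries.C (t j) : LaurentSeries K) ≠ 0 := (map_ne_zero _).mpr (ht j)
      have h7 := T.e_ne_zero (j := j) hf0
      field_simp
    rwa [h5] at h4
  choose v hv hvp using h3
  have hv0 : ∀ j, v j ≠ 0 := by
    intro j h
    have h4 := hvp j
    rw [h, zero_pow hp.out.ne_zero] at h4
    exact inv_ne_zero (htr j) h4.symm
  refine ⟨{
    m_ne := hp.out.ne_zero
    f_ne := hf0
    f_mem := hf
    D := D
    hD := hD
    t := t
    t_ne := ht
    int := hti
    u := fun j => (v j)⁻¹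
    u_mem := fun j => T.κ.inv_mem (red_mem_κ hA (hv j))
    u_ne := fun j => inv_ne_zero (hv0 j)
    rd_eq := fun j => by rw [inv_pow, hvp, inv_inv] }, fun j => ?_⟩
  rw [inv_inv]
  exact hv j

/-- the finishing step -/
theorem normal_of_cg (hA : A.LiesOverPrime p) (hw : Varpi A p ζ u w) {y : F} (hy : y ∈ T.Rg)
    (h : ∀ j, T.e j y - 1 ∈ cg A (w ^ p)) :
    ∃ b ∈ T.Rg, y = 1 + (w ^ p) • b ∧ ∀ j, IsInt A (T.e j b) := by
  have hwp0 : w ^ p ≠ 0 := pow_ne_zero _ hw.ne
  have hb : (w ^ p)⁻¹ • (y - 1) ∈ T.Rg := Subalgebra.smul_mem _ (sub_mem hy (one_mem _)) _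
  refine ⟨(w ^ p)⁻¹ • (y - 1), hb, ?_, fun j => ?_⟩
  · rw [smul_smul, mul_inv_cancel₀ hwp0, one_smul]
    ring
  · obtain ⟨x, ⟨v, hv⟩, hx⟩ := h j
    refine (isInt_of_red hA (e_mem_DD hb j) (u := v) ?_).1
    have h1 : T.e j ((w ^ p)⁻¹ • (y - 1)) = x := by
      rw [map_smul, map_sub, map_one, hx, smul_eq_C_mul, ← mul_assoc, ← map_mul,
        inv_mul_cancel₀ hwp0, map_one, one_mul]
    rwa [h1]

/-- joint attainedness for two expansions -/
theorem jatt_two {W : Type*} [AddCommGroup W] [Module K W] {V : Submodule K W}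
    {E : Fin 2 → W →ₗ[K] LaurentSeries K} (h1 : ∀ v ∈ V, ∀ j, E j v = 0 ∨ Att A (E j v))
    (h2 : ∀ v ∈ V, v ≠ 0 → ∃ j, E j v ≠ 0) : JAtt A V E := by
  have key : ∀ v ∈ V, ∀ j j' : Fin 2, j ≠ j' → E j v ≠ 0 →
      (E j' v = 0 ∨ Att A (E j' v)) →
      ∃ c : K, c ≠ 0 ∧ (∀ i, IsInt A (c • E i v)) ∧ ∃ i, rd A (c • E i v) ≠ 0 := by
    intro v hv j j' hjj hj hj'
    obtain ⟨c, hc, hci, hcr⟩ := (h1 v hv j).resolve_left hj
    have hall : ∀ i : Fin 2, i = j ∨ i = j' := by omega
    rcases hj' with hj' | ⟨d, hd, hdi, hdr⟩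
    · refine ⟨c, hc, fun i => ?_, j, hcr⟩
      rcases hall i with rfl | rfl
      · exact hci
      · rw [hj', smul_zero]; exact IsInt.zero
    · rcases A.mem_or_inv_mem (c / d) with h | h
      · refine ⟨c, hc, fun i => ?_, j, hcr⟩
        rcases hall i with rfl | rfl
        · exact hci
        · have h3 := hdi.smul h
          rwa [smul_smul, div_mul_cancel₀ _ hd] at h3
      · rw [inv_div] at h
        refine ⟨d, hd, fun i => ?_, j', hdr⟩
        rcases hall i with rfl | rfl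
        · have h3 := hci.smul h
          rwa [smul_smul, div_mul_cancel₀ _ hc] at h3
        · exact hdi
  intro v hv hv0
  obtain ⟨j, hj⟩ := h2 v hv hv0
  have h3 : j = 0 ∨ j = 1 := by omega
  rcases h3 with rfl | rfl
  · exact key v hv 0 1 (by decide) hj (h1 v hv 1)
  · exact key v hv 1 0 (by decide) hj (h1 v hv 0)

theorem pow_inj_char {k : Type*} [CommRing k] [IsDomain k] (hk : CharP k p) {x y : k}
    (h : x ^ p = y ^ p) : x = y := frobenius_inj k p (by simpa [frobenius_def] using h)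

/-- **Normal form.** -/
theorem exists_normal [Algebra.IsAlgebraic ℤ K] (ν : NodeData T) (hA : A.LiesOverPrime p)
    (hw : Varpi A p ζ u w) {f : F} (hf : f ∈ T.Rg)
    (hf0 : f ≠ 0) {D : Divisor K F} (hD : ∀ v, (p : ℤ) * D v = v.ord f) {g : Fin 2 → F}
    (hg : ∀ j, T.e j (g j ^ p * f) - 1 ∈ cg A (w ^ p)) :
    ∃ z : F, z ≠ 0 ∧ z ^ p * f ∈ T.Rg ∧ ∀ j, T.e j (z ^ p * f) - 1 ∈ cg A (w ^ p) := by
  classical
  have hpp := hp.out.pos
  have hp0 := hp.out.ne_zero
  have hp2 := hp.out.two_le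
  have hchar : CharP (ResidueField A) p := charP_kk hA
  have hcharL : CharP (LaurentSeries (ResidueField A)) p :=
    charP_of_injective_algebraMap (algebraMap (ResidueField A) _).injective p
  have hqA := natCast_nonunits hA
  have hwp : w ^ p ∈ A := A.toSubring.pow_mem hw.mem p
  have hwp0 : resid A (w ^ p) = 0 := by
    rw [resid_pow' hw.mem, hw.res, zero_pow hp0]
  obtain ⟨W, hW⟩ := exists_tw hA hw hf hf0 hD hg
  obtain ⟨ζ', hζ', n₀, hN⟩ := W.exists_zeta hp.out hqA ν
  have hN' : ∀ a ∈ XO T n₀, a ∈ W.N n₀ ↔ ∀ i, ν.α i (a 0) = ν.β i (a 1) := by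
    intro a ha
    rw [hN n₀ le_rfl a ha]
    refine forall_congr' fun i => ?_
    have h1 : ζ' i = 1 := pow_inj_char hchar (by rw [hζ', one_pow])
    rw [h1, one_mul]
  have hg1 : ∀ j, Red A (T.e j (g j ^ p * f)) 1 := fun j => red_one_of_cg hwp hwp0 (hg j)
  have hg0 : ∀ j, g j ≠ 0 := by
    intro j h
    have h1 := hg1 j
    rw [h, zero_pow hp0, zero_mul, map_zero] at h1
    exact one_ne_zero (h1.unique Red.zero)
  have heg0 : ∀ j, T.e j (g j) ≠ 0 := fun j => T.e_ne_zero (hg0 j)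
  by_contra hcon
  push Not at hcon
  -- common denominators
  obtain ⟨B0, hB0, hB0n, hB0g⟩ := exists_den T (g 0)
  obtain ⟨B1, hB1, hB1n, hB1g⟩ := exists_den T (g 1)
  set B := B0 * B1 with hBdef
  have hB : B ∈ T.Rg := mul_mem hB0 hB1
  have hBn : B ≠ 0 := mul_ne_zero hB0n hB1n
  have hBg : ∀ j, B * g j ∈ T.Rg := by
    intro j
    have h : j = 0 ∨ j = 1 := by omega
    rcases h with rfl | rfl
    · rw [hBdef, mul_comm B0 B1, mul_assoc]; exact mul_mem hB1 hB0g
    · rw [hBdef, mul_assoc]; exact mul_mem hB0 hB1g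
  choose b hb hbi hbr using fun j => exists_scale hA hB hBn j
  -- the linear maps
  let ψ : Fin 2 → (F × K) →ₗ[K] F := fun j =>
    LinearMap.fst K F K - (LinearMap.toSpanSingleton K F (g j)).comp (LinearMap.snd K F K)
  have hψ : ∀ j x, ψ j x = x.1 - x.2 • g j := fun j x => rfl
  let E : Fin 2 → (F × K) →ₗ[K] LaurentSeries K := fun j =>
    (b j) • ((W.E j).comp ((LinearMap.mulLeft K B).comp (ψ j)))
  have hE : ∀ j x, E j x = b j • W.E j (B * (x.1 - x.2 • g j)) := fun j x => rfl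
  have hEY : ∀ j x, E j x =
      T.e j ((b j * (W.t j ^ (p - 1))⁻¹) • (B * (x.1 - x.2 • g j) * f)) := by
    intro j x
    rw [hE, Tw.E_apply, smul_smul, map_smul]
  have hEfac : ∀ j x, E j x = T.e j (b j • B) * W.E j (x.1 - x.2 • g j) := by
    intro j x
    rw [hE, Tw.E_apply, Tw.E_apply, map_smul, mul_assoc, map_mul]
    simp only [smul_eq_C_mul]
    ring
  set V := T.M W.D n₀ with hV
  have hVm : ∀ z ∈ V, z ^ p * f ∈ T.Rg ∧ ∀ j, Low (T.e j (z ^ p * f)) (p * (-n₀)) := fun z hz =>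
    W.mem_of_mem_M hz
  have hYR : ∀ x : F × K, x.1 ∈ V → ∀ j,
      (b j * (W.t j ^ (p - 1))⁻¹) • (B * (x.1 - x.2 • g j) * f) ∈ T.Rg := by
    intro x hx j
    apply Subalgebra.smul_mem
    have h1 : B * (x.1 - x.2 • g j) * f = B * (x.1 * f) - x.2 • (B * g j * f) := by
      rw [Algebra.smul_def, Algebra.smul_def]; ring
    rw [h1]
    exact sub_mem (mul_mem hB (W.mul_mem_Rg (hVm _ hx).1))
      (Subalgebra.smul_mem _ (mul_mem (hBg j) hf) _)
  have hEatt : ∀ x : F × K, x.1 ∈ V → ∀ j, E j x = 0 ∨ Att A (E j x) := by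
    intro x hx j
    rw [hEY]
    rcases eq_or_ne ((b j * (W.t j ^ (p - 1))⁻¹) • (B * (x.1 - x.2 • g j) * f)) 0 with h | h
    · left; rw [h, map_zero]
    · right; exact TwoComp.att_e hp.out hqA (hYR x hx j) h j
  have hEz : ∀ x : F × K, ∀ j, E j x = 0 → x.1 = x.2 • g j := by
    intro x j h
    rw [hEY, map_eq_zero, smul_eq_zero] at h
    rcases h with h | h
    · exact absurd h (mul_ne_zero (hb j) (inv_ne_zero (pow_ne_zero _ (W.t_ne j))))
    · rcases mul_eq_zero.mp h with h | h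
      · rcases mul_eq_zero.mp h with h | h
        · exact absurd h hBn
        · exact sub_eq_zero.mp h
      · exact absurd h hf0
  have hJ : JAtt A (V.prod ⊤) E := by
    refine jatt_two (fun x hx j => hEatt x hx.1 j) fun x hx hx0 => ?_
    by_contra hall
    push Not at hall
    have h0 := hEz x 0 (hall 0)
    have h1 := hEz x 1 (hall 1)
    rcases eq_or_ne x.2 0 with ha | ha
    · rw [ha, zero_smul] at h0
      exact hx0 (Prod.ext h0 ha)
    · have hgg : ∀ j, g j = x.2⁻¹ • x.1 := by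
        intro j
        have h : j = 0 ∨ j = 1 := by omega
        rcases h with rfl | rfl
        · rw [h0, smul_smul, inv_mul_cancel₀ ha, one_smul]
        · rw [h1, smul_smul, inv_mul_cancel₀ ha, one_smul]
      have hz : x.2⁻¹ • x.1 ∈ V := V.smul_mem _ hx.1
      obtain ⟨j, hj⟩ := hcon (x.2⁻¹ • x.1) (by rw [← hgg 0]; exact hg0 0) (hVm _ hz).1
      apply hj
      rw [← hgg j]
      exact hg j
  have hfd : FiniteDimensional K (V.prod (⊤ : Submodule K K)) := by
    have h1 : V.FG := (Submodule.fg_top V).mp (inferInstance : Module.Finite K V).fg_top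
    have h2 : (⊤ : Submodule K K).FG := Module.Finite.fg_top
    exact Module.Finite.iff_fg.mpr (h1.prod h2)
  have hfd' : FiniteDimensional K (V.prod (⊥ : Submodule K K)) :=
    Submodule.finiteDimensional_of_le (S₂ := V.prod ⊤) (Submodule.prod_mono le_rfl bot_le)
  have hJ' : JAtt A (V.prod ⊥) E := fun x hx => hJ x ⟨hx.1, trivial⟩
  have hlt : (V.prod (⊥ : Submodule K K)) < V.prod ⊤ := by
    refine lt_of_le_of_ne (Submodule.prod_mono le_rfl bot_le) fun h => ?_
    have h1 : ((0 : F), (1 : K)) ∈ V.prod (⊤ : Submodule K K) := ⟨V.zero_mem, trivial⟩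
    rw [← h] at h1
    exact one_ne_zero ((Submodule.mem_bot K).mp h1.2)
  have hfr : finrank (ResidueField A) (redSpace A (V.prod (⊥ : Submodule K K)) E) <
      finrank (ResidueField A) (redSpace A (V.prod (⊤ : Submodule K K)) E) := by
    rw [finrank_redSpace hJ, finrank_redSpace hJ']
    exact Submodule.finrank_lt_finrank_of_lt hlt
  obtain ⟨y, hy, hy'⟩ : ∃ y ∈ redSpace A (V.prod (⊤ : Submodule K K)) E,
      y ∉ redSpace A (V.prod (⊥ : Submodule K K)) E := by
    by_contra hall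
    push Not at hall
    have hle : redSpace A (V.prod (⊤ : Submodule K K)) E ≤
        redSpace A (V.prod (⊥ : Submodule K K)) E := hall
    have := redSpace_finiteDimensional hJ'
    exact absurd (Submodule.finrank_mono hle) (not_le.mpr hfr)
  obtain ⟨x, hx, hxi, hxr⟩ := hy
  have hxV : x.1 ∈ V := hx.1
  -- the reduction of `E j x / (...)`
  have hGr : ∀ j, Red A (W.E j (g j)) (W.u j ^ (p - 1)) := by
    intro j
    have h1 := (hW j).mul (red_rd (W.int j))
    rw [W.rd_eq] at h1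
    have h2 : (W.u j)⁻¹ * W.u j ^ p = W.u j ^ (p - 1) := by
      have h2' : ∀ x : LaurentSeries (ResidueField A), x ^ p = x * x ^ (p - 1) := by
        intro x
        rw [← pow_succ']
        congr 1
        omega
      rw [h2', inv_mul_cancel_left₀ (W.u_ne j)]
    have h3 : T.e j (W.t j • g j) * ((W.t j ^ p)⁻¹ • T.e j f) = W.E j (g j) := by
      rw [Tw.E_apply, map_smul, map_mul]
      simp only [smul_eq_C_mul]
      have h4 : (HahnSeries.C (W.t j) : LaurentSeries K) ≠ 0 := (map_ne_zero _).mpr (W.t_ne j)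
      have h5 : (HahnSeries.C ((W.t j ^ p)⁻¹) : LaurentSeries K) =
          (HahnSeries.C (W.t j))⁻¹ * HahnSeries.C (W.t j ^ (p - 1))⁻¹ := by
        rw [← map_inv₀, ← map_mul, ← mul_inv, ← pow_succ']
        congr 3
        omega
      rw [h5]
      field_simp
    rwa [h2, h3] at h1
  set q : Fin 2 → LaurentSeries K := fun j => T.e j x.1 / T.e j (g j) - HahnSeries.C x.2 with hq
  have hEq : ∀ j, E j x = T.e j (b j • B) * W.E j (g j) * q j := by
    intro j
    rw [hEfac, mul_assoc]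
    congr 1
    rw [Tw.E_apply, Tw.E_apply, hq]
    simp only [smul_eq_C_mul, map_mul, map_sub]
    have h1 : T.e j (x.2 • g j) = HahnSeries.C x.2 * T.e j (g j) := by
      rw [map_smul, smul_eq_C_mul]
    rw [h1]
    have h2 := heg0 j
    field_simp
  set τ : Fin 2 → LaurentSeries (ResidueField A) := fun j =>
    y j / (rd A (T.e j (b j • B)) * W.u j ^ (p - 1)) with hτ
  have hden : ∀ j, rd A (T.e j (b j • B)) * W.u j ^ (p - 1) ≠ 0 := fun j =>
    mul_ne_zero (hbr j) (pow_ne_zero _ (W.u_ne j))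
  have hqr : ∀ j, Red A (q j) (τ j) := by
    intro j
    have h1 := (red_rd (hxi j)).div ((red_rd (hbi j)).mul (hGr j)) (hden j)
    rw [← hxr j] at h1
    have h2 : T.e j (b j • B) * W.E j (g j) ≠ 0 :=
      ((red_rd (hbi j)).mul (hGr j)).ne_zero (hden j)
    have h3 : E j x / (T.e j (b j • B) * W.E j (g j)) = q j := by
      rw [hEq, mul_div_cancel_left₀ _ h2]
    rwa [h3] at h1
  -- `τ` is not in the reduction
  have hτN : ∀ a' : Fin 2 → T.O, (∀ j, (a' j : LaurentSeries (ResidueField A)) = τ j) →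
      a' ∉ W.N n₀ := by
    intro a' ha' hmem
    obtain ⟨z', hz', hz'i, hz'r⟩ := W.mem_N.1 hmem
    apply hy'
    refine ⟨(z', 0), ⟨hz', Submodule.zero_mem _⟩, fun j => ?_, fun j => ?_⟩
    · rw [hEfac]
      simp only [zero_smul, sub_zero]
      exact (hbi j).mul (hz'i j)
    · rw [hEfac]
      simp only [zero_smul, sub_zero]
      rw [rd_mul (hbi j) (hz'i j), W.rd_E, ← hz'r, ha', hτ]
      have := hden j
      rw [mul_comm (y j / _) (W.u j ^ (p - 1)), ← mul_assoc, mul_div_cancel₀ _ this]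
  by_cases ha : x.2 ∈ A
  · -- `z` itself is integral
    have hzr : ∀ j, Red A (T.e j (x.1 ^ p * f)) ((τ j + HahnSeries.C (resid A x.2)) ^ p) := by
      intro j
      have h1 := (((hqr j).add (red_C ha)).pow p).mul (hg1 j)
      rw [mul_one] at h1
      have h2 : (q j + HahnSeries.C x.2) ^ p * T.e j (g j ^ p * f) = T.e j (x.1 ^ p * f) := by
        rw [hq]
        simp only [sub_add_cancel, map_mul, map_pow, div_pow]
        have := pow_ne_zero p (heg0 j)
        field_simp
      rwa [h2] at h1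
    have hzi := fun j => isInt_of_red hA (e_mem_DD (hVm _ hxV).1 j) (hzr j)
    have hzE : ∀ j, IsInt A (W.E j x.1) := fun j =>
      (W.isInt_E_iff hp.out hqA (hVm _ hxV).1).2 (hzi j).1
    have hr : ∀ j, W.r x.1 j = τ j + HahnSeries.C (resid A x.2) := by
      intro j
      apply pow_inj_char hcharL
      rw [W.r_pow (hzE j) (hzi j).1, (hzi j).2]
    let a₁ : Fin 2 → T.O := fun j => ⟨W.r x.1 j, W.r_mem_O (hVm _ hxV).1 hzE (fun j => (hzi j).1) j⟩
    have ha₁ : a₁ ∈ W.N n₀ := W.mem_N.2 ⟨x.1, hxV, hzE, fun j => rfl⟩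
    have hone : (fun _ => 1 : Fin 2 → T.O) ∈ W.N n₀ := by
      rw [hN' _ (fun j => low_one.mono (by omega))]
      intro i
      rw [map_one, map_one]
    have hsub := (W.N n₀).sub_mem ha₁ ((W.N n₀).smul_mem (resid A x.2) hone)
    refine hτN _ (fun j => ?_) hsub
    change W.r x.1 j - resid A x.2 • (1 : LaurentSeries (ResidueField A)) = τ j
    rw [hr, smul_eq_C_mul, mul_one, add_sub_cancel_right]
  · have ha0 : x.2 ≠ 0 := by
      intro h
      rw [h] at ha
      exact ha A.zero_mem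
    set γ := x.2⁻¹ with hγ
    have hγA : γ ∈ A := (A.mem_or_inv_mem x.2).resolve_left ha
    have hγ0 : γ ≠ 0 := inv_ne_zero ha0
    have hγr : resid A γ = 0 := resid_eq_zero_of_inv_notMem hγA (by rwa [hγ, inv_inv])
    set z₀ := γ • x.1 with hz₀
    have hz₀V : z₀ ∈ V := V.smul_mem _ hxV
    have hz₀e : ∀ j, T.e j (z₀ ^ p * f) =
        (1 + HahnSeries.C γ * q j) ^ p * T.e j (g j ^ p * f) := by
      intro j
      have h1 : 1 + HahnSeries.C γ * q j = T.e j z₀ / T.e j (g j) := by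
        rw [hq, hz₀, map_smul, smul_eq_C_mul, mul_sub, ← map_mul, hγ, inv_mul_cancel₀ ha0, map_one]
        ring
      rw [h1, map_mul, map_mul, map_pow, map_pow, div_pow]
      have := pow_ne_zero p (heg0 j)
      field_simp
    have hz₀0 : z₀ ≠ 0 := by
      intro h
      have h1 := hz₀e 0
      rw [h, zero_pow hp0, zero_mul, map_zero] at h1
      have h2 := ((Red.one.add ((red_C hγA).mul (hqr 0))).pow p).mul (hg1 0)
      rw [← h1, hγr, map_zero, zero_mul, add_zero, one_pow, one_mul] at h2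
      exact one_ne_zero (h2.unique Red.zero)
    choose h hh hge using hg
    have hgf : ∀ j, T.e j (g j ^ p * f) = 1 + HahnSeries.C (w ^ p) * h j := by
      intro j
      rw [← hge]; ring
    by_cases hδ : γ / w ∈ A
    · obtain ⟨j, hj⟩ := hcon z₀ hz₀0 (hVm _ hz₀V).1
      apply hj
      have hpe : (p : LaurentSeries K) = HahnSeries.C u * (HahnSeries.C w) ^ (p - 1) := by
        rw [← map_pow, ← map_mul, ← hw.p_eq, map_natCast]
      have h1 : HahnSeries.C γ * q j = HahnSeries.C w * (HahnSeries.C (γ / w) * q j) := by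
        rw [← mul_assoc, ← map_mul, mul_div_cancel₀ _ hw.ne]
      have h2 := red_tt (p := p) hw.u_mem hw.mem hw.res ((red_C hδ).mul (hqr j))
      set t := tt p (HahnSeries.C u) (HahnSeries.C w) (HahnSeries.C (γ / w) * q j) with ht
      refine ⟨t + h j + HahnSeries.C (w ^ p) * t * h j, ?_, ?_⟩
      · exact add_mem (add_mem ⟨_, h2⟩ (hh j)) (mul_mem (mul_mem ⟨_, red_C hwp⟩ ⟨_, h2⟩) (hh j))
      · rw [hz₀e, h1, one_add_pow_eq_tt hpe, ← ht, hgf, ← map_pow]
        ring
    · have hδ' : w / γ ∈ A := by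
        rcases A.mem_or_inv_mem (γ / w) with h' | h'
        · exact absurd h' hδ
        · rwa [inv_div] at h'
      set δ := w / γ with hδd
      have hδr : resid A δ = 0 := resid_eq_zero_of_inv_notMem hδ' (by rwa [hδd, inv_div])
      have hwγ : w = δ * γ := by rw [hδd, div_mul_cancel₀ _ hγ0]
      have huδ : u * δ ^ (p - 1) ∈ A := A.mul_mem _ _ hw.u_mem (A.toSubring.pow_mem hδ' _)
      have huδr : resid A (u * δ ^ (p - 1)) = 0 := by
        rw [resid_mul A hw.u_mem (A.toSubring.pow_mem hδ' _), resid_pow' hδ', hδr,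
          zero_pow (by omega), mul_zero]
      have hpe : (p : LaurentSeries K) =
          HahnSeries.C (u * δ ^ (p - 1)) * (HahnSeries.C γ) ^ (p - 1) := by
        rw [← map_pow, ← map_mul, mul_assoc, ← mul_pow, ← hwγ, ← hw.p_eq, map_natCast]
      have hγp0 : γ ^ p ≠ 0 := pow_ne_zero _ hγ0
      have hγpA : γ ^ p ∈ A := A.toSubring.pow_mem hγA p
      have hδp : δ ^ p ∈ A := A.toSubring.pow_mem hδ' p
      have hδpr : resid A (δ ^ p) = 0 := by rw [resid_pow' hδ', hδr, zero_pow hp0]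
      set b₁ := (γ ^ p)⁻¹ • (z₀ ^ p * f - 1) with hb₁
      have hb₁R : b₁ ∈ T.Rg := Subalgebra.smul_mem _ (sub_mem (hVm _ hz₀V).1 (one_mem _)) _
      have hb₁r : ∀ j, Red A (T.e j b₁) (τ j ^ p) := by
        intro j
        have h2 := red_tt (p := p) huδ hγA hγr (hqr j)
        rw [huδr, map_zero, zero_mul, add_zero] at h2
        set t := tt p (HahnSeries.C (u * δ ^ (p - 1))) (HahnSeries.C γ) (q j) with ht
        obtain ⟨v, hv⟩ := hh j
        have h3 := (h2.add ((red_C hδp).mul hv)).add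
          ((((red_C hγpA).mul (red_C hδp)).mul h2).mul hv)
        rw [hδpr, map_zero, zero_mul, mul_zero, zero_mul, zero_mul, add_zero, add_zero] at h3
        have h4 : T.e j b₁ = t + HahnSeries.C (δ ^ p) * h j +
            HahnSeries.C (γ ^ p) * HahnSeries.C (δ ^ p) * t * h j := by
          rw [hb₁, map_smul, map_sub, map_one, hz₀e, one_add_pow_eq_tt hpe, ← ht, hgf,
            smul_eq_C_mul, ← map_pow, hwγ, mul_pow, map_mul, map_inv₀]
          have h5 : (HahnSeries.C (γ ^ p) : LaurentSeries K) ≠ 0 := (map_ne_zero _).mpr hγp0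
          field_simp
          ring
        rwa [← h4] at h3
      have hb₁i := fun j => isInt_of_red hA (e_mem_DD hb₁R j) (hb₁r j)
      have hb₁low : ∀ j, Low (T.e j b₁) (p * (-n₀)) := by
        intro j
        rw [hb₁, map_smul, map_sub, map_one]
        refine (((hVm _ hz₀V).2 j).sub (low_one.mono ?_)).smul _
        have : (0 : ℤ) ≤ p * n₀ := by positivity
        linarith
      have hτκ : ∀ j, τ j ∈ T.κ := by
        intro j
        rw [hτ]
        refine div_mem ?_ (mul_mem (rd_mem_κ (Subalgebra.smul_mem _ hB _) (hbi j))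
          (pow_mem (W.u_mem j) _))
        rw [hxr j, hEY]
        exact rd_mem_κ (hYR x hxV j) (by rw [← hEY]; exact hxi j)
      have hτp : ∀ j, τ j ^ p ∈ T.O := by
        intro j
        rw [← (hb₁i j).2]
        exact T.res_O b₁ hb₁R (fun j => (hb₁i j).1) j
      have hτO : ∀ j, τ j ∈ T.O := fun j => T.O_root _ (hτκ j) p hp0 (hτp j)
      have hτlow : ∀ j, Low (τ j) (-n₀) := by
        intro j
        apply low_of_pow hp0
        rw [← (hb₁i j).2]
        exact (hb₁low j).rd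
      refine hτN (fun j => ⟨τ j, hτO j⟩) (fun j => rfl) ?_
      rw [hN' _ (fun j => hτlow j)]
      intro i
      apply pow_inj_char hchar
      rw [← map_pow, ← map_pow]
      have h5 := ν.compat b₁ hb₁R (fun j => (hb₁i j).1) i
      have h6 : ∀ j, (⟨τ j, hτO j⟩ : T.O) ^ p =
          ⟨rd A (T.e j b₁), T.res_O b₁ hb₁R (fun j => (hb₁i j).1) j⟩ := fun j =>
        Subtype.ext (hb₁i j).2.symm
      rw [h6, h6]
      exact h5

end Fermat.Agent.P
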