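import Fermat.Agent.H01.P.WildB

/-!
# Connectedness, wild case
-/

set_option autoImplicit false
set_option linter.unusedSectionVars false

noncomputable section

attribute [-instance] HahnSeries.instModule HahnSeries.instSMul HahnSeries.instDistribMulAction
  HahnSeries.instSMulZeroClass

namespace Fermat.Agent.P

open ModularCurve IsLocalRing AlgebraicCurve Module Fermat.Agent.H11Q Fermat.Agent.Q

universe uK uF

variable {K : Type uK} [Field K] {A : ValuationSubring K} {F : Type uF} [Field F] [Algebra K F]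
variable {T : TwoComp K A F}

section Main

variable [IsAlgClosed K] [FF.FunField K F]
variable [CharZero K] [Algebra.IsAlgebraic ℤ K] {q : ℕ} (hq : q.Prime)
  (hqA : (q : K) ∈ A.nonunits)

include hq hqA

theorem cov_false {p : ℕ} {f : F} {W : Good T p f} {ζ : K} (c : Cov W ζ) (ν : NodeData T)
    (hs : 0 < ν.s) (hζ : IsPrimitiveRoot ζ p) (hp : p.Prime) {E : c.L} (hE : c.Mem E)
    (hEi : ∀ t < p, ∀ j, IsInt A (c.e t j E))
    (hEr : ∀ t < p, ∀ j, rd A (c.e t j E) = if t = 1 then 1 else 0) : False := by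
  classical
  obtain ⟨Z, hZ, hZ0, hZlow, hZ1⟩ := c.exists_Z (ζ := ζ) hp
  have hinj : ∀ t j, c.e t j Z ≠ 0 := fun t j h => hZ0 ((c.e t j).injective (by rw [h, map_zero]))
  -- scale `Z`
  obtain ⟨lam, hlam, hlami, j₀, hj₀⟩ := exists_common_att (A := A) (fun j : Fin 2 => c.e 1 j Z)
    (fun j => att_of_numF_bdd hq hqA (hZ.nice 1 j).1 (hZ.nice 1 j).2 (hinj 1 j))
  set Z' : c.L := algebraMap F c.L (algebraMap K F lam) * Z with hZ'
  have hZ'm : c.Mem Z' := by
    have h2 := Cov.mem_hom (c := c) (a := 0) (z := algebraMap K F lam) (by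
      rw [pow_zero, mul_one]
      exact pow_mem (Subalgebra.algebraMap_mem _ _) _)
    rw [pow_zero, mul_one] at h2
    exact h2.mul hZ
  have hZ'e : ∀ t j, c.e t j Z' = lam • c.e t j Z := by
    intro t j
    rw [hZ', map_mul, c.e_alg, AlgHom.commutes, Algebra.smul_def]
  -- choose a large power
  have hr : ∀ t : Fin p, ∀ j : Fin 2, (t : ℕ) ≠ 1 →
      ∃ r₀ : ℕ, ∀ r : ℕ, r₀ ≤ r → IsInt A (c.e t j E ^ r * c.e t j Z') := by
    intro t j ht
    refine exists_pow_isInt hq hqA (hEi t t.2 j) (hE.nice t j).1 ?_ (hZ'm.nice t j).2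
    rw [hEr t t.2 j, if_neg ht]
  choose! r₀ hr₀ using hr
  set r := Finset.univ.sup (fun tj : Fin p × Fin 2 => r₀ tj.1 tj.2) + 1 with hrdef
  set Y : c.L := E ^ r * Z' with hY
  have hYm : c.Mem Y := (hE.pow r).mul hZ'm
  have hle : ∀ (t : Fin p) (j : Fin 2), r₀ t j ≤ r - 1 := by
    intro t j
    have := Finset.le_sup (f := fun tj : Fin p × Fin 2 => r₀ tj.1 tj.2)
      (Finset.mem_univ ((t, j) : Fin p × Fin 2))
    change r₀ t j ≤ _ at this
    omega
  have hYint' : ∀ t < p, ∀ j, IsInt A (c.e t j Y) ∧ (t ≠ 1 → rd A (c.e t j Y) = 0) := by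
    intro t ht j
    rw [hY, map_mul, map_pow]
    by_cases h2 : t = 1
    · subst h2
      refine ⟨((hEi 1 ht j).pow r).mul ?_, fun h => absurd rfl h⟩
      rw [hZ'e]
      exact hlami j
    · have h3 := hr₀ ⟨t, ht⟩ j h2 (r - 1) (hle _ _)
      have h4 : c.e t j E ^ r * c.e t j Z' = c.e t j E * (c.e t j E ^ (r - 1) * c.e t j Z') := by
        rw [← mul_assoc, ← pow_succ']
        congr 2
      rw [h4]
      refine ⟨(hEi t ht j).mul h3, fun _ => ?_⟩
      rw [rd_mul (hEi t ht j) h3, hEr t ht j, if_neg h2, zero_mul]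
  have hYint : ∀ t < p, ∀ j, IsInt A (c.e t j Y) := fun t ht j => (hYint' t ht j).1
  obtain ⟨y, hy, hYy⟩ := hYm
  -- the trace
  set l₀ : Fin p := ⟨0, hp.pos⟩ with hl₀
  have hy0 : y l₀ ∈ T.Rg := by
    have h1 := (W.pow ((l₀ : Fin p) : ℕ)).mem_MM.1 (hy l₀)
    change y l₀ ^ p * f ^ 0 ∈ T.Rg at h1
    rw [pow_zero, mul_one] at h1
    exact TwoComp.mem_Rg_of_pow hp.ne_zero h1
  set Y₀ : F := (p : K) • y l₀ with hY₀
  have hY₀R : Y₀ ∈ T.Rg := Subalgebra.smul_mem _ hy0 _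
  have hY₀e : ∀ j, T.e j Y₀ = ∑ t ∈ Finset.range p, c.e t j Y := by
    intro j
    have h1 := c.fourier hζ j y l₀
    rw [← hYy] at h1
    have h2 : (W.pow ((l₀ : Fin p) : ℕ)).G j (y l₀) = T.e j (y l₀) := by
      change T.e j (y l₀) * W.H j ^ 0 = _
      rw [pow_zero, mul_one]
    rw [h2] at h1
    rw [hY₀, map_smul, ← h1]
    refine Finset.sum_congr rfl fun t _ => ?_
    change ((ζ⁻¹) ^ 0) ^ t • c.e t j Y = _
    rw [pow_zero, one_pow, one_smul]
  have hY₀i : ∀ j, IsInt A (T.e j Y₀) := by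
    intro j
    rw [hY₀e]
    exact IsInt.sum _ _ fun t ht => hYint t (Finset.mem_range.1 ht) j
  have hY₀r : ∀ j, rd A (T.e j Y₀) = rd A (c.e 1 j Y) := by
    intro j
    rw [hY₀e, rd_sum _ _ fun t ht => hYint t (Finset.mem_range.1 ht) j]
    rw [Finset.sum_eq_single 1]
    · intro t ht h1
      exact (hYint' t (Finset.mem_range.1 ht) j).2 h1
    · intro h
      exact absurd (Finset.mem_range.2 hp.one_lt) h
  let b : Fin 2 → T.O := fun j => ⟨rd A (T.e j Y₀), T.res_O Y₀ hY₀R hY₀i j⟩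
  have hcompat : ∀ l, ν.α l (b 0) = ν.β l (b 1) := fun l => ν.compat Y₀ hY₀R hY₀i l
  have hb' : ∀ j, (b j : LaurentSeries (ResidueField A)) = rd A (lam • c.e 1 j Z) := by
    intro j
    change rd A (T.e j Y₀) = _
    rw [hY₀r, hY, map_mul, map_pow, hZ'e, rd_mul ((hEi 1 hp.one_lt j).pow r) (hlami j),
      rd_pow (hEi 1 hp.one_lt j), hEr 1 hp.one_lt j, if_pos rfl, _root_.one_pow, one_mul]
  have hblow : ∀ j, Low (b j : LaurentSeries (ResidueField A)) 0 := by
    intro j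
    rw [hb']
    exact ((hZlow 1 le_rfl hp.one_lt j).smul _).rd
  choose k hk using fun j => T.O_const (b j) (b j).2 (hblow j)
  have hbk : ∀ j, b j = algebraMap _ _ (k j) := fun j => Subtype.ext (hk j)
  have h01 : k 0 = k 1 := by
    have h2 := hcompat ⟨0, hs⟩
    rw [hbk 0, hbk 1, AlgHom.commutes, AlgHom.commutes] at h2
    exact h2
  have hk0 : k 0 = 0 := by
    have h2 : (b 0 : LaurentSeries (ResidueField A)).coeff 0 = 0 := by
      rw [hb', rd_coeff, coeff_smul', hZ1, mul_zero, resid_zero]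
    rw [hk 0, algebraMap_laurentSeries_eq_single, HahnSeries.coeff_single_same] at h2
    exact h2
  have hkj : k j₀ = 0 := by
    have h2 : j₀ = 0 ∨ j₀ = 1 := by omega
    rcases h2 with h2 | h2
    · rw [h2]; exact hk0
    · rw [h2, ← h01]; exact hk0
  apply hj₀
  rw [← hb', hk, hkj, map_zero]

end Main

/-! ### High level -/

variable [CharZero K] [Algebra ℚ K] [Algebra.IsAlgebraic ℚ K]

/-- `z ∈ 1 + ε m` -/
def Hi (A : ValuationSubring K) (ε : K) (z : LaurentSeries K) : Prop :=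
  ∃ h, Red A h 0 ∧ z = 1 + HahnSeries.C ε * h

theorem Hi.one {ε : K} : Hi A ε 1 := ⟨0, Red.zero, by rw [mul_zero, add_zero]⟩

theorem Hi.mul {ε : K} (hε : ε ∈ A) {z z' : LaurentSeries K} (hz : Hi A ε z) (hz' : Hi A ε z') :
    Hi A ε (z * z') := by
  obtain ⟨h, hh, rfl⟩ := hz
  obtain ⟨h', hh', rfl⟩ := hz'
  refine ⟨h + h' + HahnSeries.C ε * h * h', ?_, by ring⟩
  have h1 := (hh.add hh').add (((red_C hε).mul hh).mul hh')
  rwa [mul_zero, add_zero, add_zero] at h1

theorem Hi.red {ε : K} (hε : ε ∈ A) {z : LaurentSeries K} (hz : Hi A ε z) : Red A z 1 := by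
  obtain ⟨h, hh, rfl⟩ := hz
  have h1 := Red.one.add ((red_C hε).mul hh)
  rwa [mul_zero, add_zero] at h1

theorem Hi.inv {ε : K} (hε : ε ∈ A) {z : LaurentSeries K} (hz : Hi A ε z) : Hi A ε z⁻¹ := by
  have h1 := hz.red hε
  have h2 : z ≠ 0 := h1.ne_zero one_ne_zero
  obtain ⟨h, hh, he⟩ := hz
  refine ⟨-(h / z), ?_, ?_⟩
  · have h3 := (hh.div h1 one_ne_zero).neg
    rwa [zero_div, neg_zero] at h3
  · have h3 : 1 + HahnSeries.C ε * -(h / z) = (z - HahnSeries.C ε * h) / z := by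
      field_simp
      ring
    rw [h3]
    have h4 : z - HahnSeries.C ε * h = 1 := by rw [he]; ring
    rw [h4, one_div]

theorem Hi.pow {ε : K} (hε : ε ∈ A) {z : LaurentSeries K} (hz : Hi A ε z) (n : ℕ) :
    Hi A ε (z ^ n) := by
  induction n with
  | zero => rw [pow_zero]; exact Hi.one
  | succ n ih => rw [pow_succ]; exact ih.mul hε hz

theorem Hi.mono {ε δ : K} (hδ : δ ∈ A) {z : LaurentSeries K} (hz : Hi A (ε * δ) z) :
    Hi A ε z := by
  obtain ⟨h, hh, rfl⟩ := hz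
  refine ⟨HahnSeries.C δ * h, ?_, by rw [map_mul, mul_assoc]⟩
  have h1 := (red_C hδ).mul hh
  rwa [mul_zero] at h1

end Fermat.Agent.P
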