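import Fermat.Agent.H01.P.WildC

/-!
# A function of level `> p/(p-1)` is a `p`-th power
-/

set_option autoImplicit false
set_option linter.unusedSectionVars false

noncomputable section

attribute [-instance] HahnSeries.instModule HahnSeries.instSMul HahnSeries.instDistribMulAction
  HahnSeries.instSMulZeroClass

namespace Fermat.Agent.P

open ModularCurve IsLocalRing AlgebraicCurve Module Fermat.Agent.H11Q Fermat.Agent.Q

universe uK uF

variable {K : Type uK} [Field K] {A : ValuationSubring K} {F : Type uF} [Field F] [Algebra K F]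
variable {T : TwoComp K A F}
variable [IsAlgClosed K] [CharZero K] [FF.FunField K F]
variable [Algebra ℚ K] [Algebra.IsAlgebraic ℚ K] {p : ℕ} [hp : Fact p.Prime] {ζ u w : K}

theorem zeta_pow_sub (hw : Varpi A p ζ u w) (t : ℕ) :
    (ζ ^ t - 1) / w ∈ A ∧ resid A ((ζ ^ t - 1) / w) = (t : ResidueField A) := by
  have hζA : ζ ∈ A := H11Q.mem_of_pow_eq_one hp.out.ne_zero hw.prim.pow_eq_one
  have hζr : resid A ζ = 1 := by
    have h1 : ζ = w + 1 := by rw [hw.eq]; ring
    rw [h1, resid_add A hw.mem A.one_mem, hw.res, resid_one, zero_add]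
  have h1 : (ζ ^ t - 1) / w = ∑ j ∈ Finset.range t, ζ ^ j := by
    rw [div_eq_iff hw.ne, hw.eq, geom_sum_mul]
  rw [h1]
  induction t with
  | zero => simp [A.zero_mem]
  | succ t ih =>
    have h2 : (ζ ^ t - 1) / w = ∑ j ∈ Finset.range t, ζ ^ j := by
      rw [div_eq_iff hw.ne, hw.eq, geom_sum_mul]
    obtain ⟨h3, h4⟩ := ih h2
    have h5 : ζ ^ t ∈ A := A.toSubring.pow_mem hζA t
    rw [Finset.sum_range_succ]
    refine ⟨A.add_mem _ _ h3 h5, ?_⟩
    rw [resid_add A h3 h5, h4, resid_pow' hζA, hζr, one_pow]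
    push_cast
    ring

theorem exists_root_of_high [Algebra.IsAlgebraic ℤ K] (ν : NodeData T) (hA : A.LiesOverPrime p)
    (hw : Varpi A p ζ u w) {f : F} {D : Divisor K F} (hD : ∀ v, (p : ℤ) * D v = v.ord f)
    {b : F} (hb : b ∈ T.Rg) (hbi : ∀ j, IsInt A (T.e j b)) (hbr : ∀ j, rd A (T.e j b) = 0)
    (hfb : f = 1 + (w ^ p) • b) : ∃ g : F, g ^ p = f := by
  classical
  have hpp := hp.out.pos
  have hp0 := hp.out.ne_zero
  have hp2 := hp.out.two_le
  have hchar : CharP (ResidueField A) p := charP_kk hA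
  have hqA := natCast_nonunits hA
  have hwp : w ^ p ∈ A := A.toSubring.pow_mem hw.mem p
  have hfR : f ∈ T.Rg := by
    rw [hfb]
    exact add_mem (one_mem _) (Subalgebra.smul_mem _ hb _)
  have hef : ∀ j, T.e j f = 1 + HahnSeries.C (w ^ p) * T.e j b := by
    intro j
    rw [hfb, map_add, map_one, map_smul, smul_eq_C_mul]
  have hHi : ∀ j, Hi A (w ^ p) (T.e j f) := by
    intro j
    refine ⟨T.e j b, ?_, hef j⟩
    have := red_rd (hbi j)
    rwa [hbr] at this
  have hfr : ∀ j, Red A (T.e j f) 1 := fun j => (hHi j).red hwp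
  have hfi := fun j => isInt_of_red hA (e_mem_DD hfR j) (hfr j)
  have hf0 : f ≠ 0 := by
    intro h
    have h1 := (hfr 0).ne_zero one_ne_zero
    rw [h, map_zero] at h1
    exact h1 rfl
  have hef0 : ∀ j, T.e j f ≠ 0 := fun j => T.e_ne_zero hf0
  let W : Tw T p f :=
    { m_ne := hp0
      f_ne := hf0
      f_mem := hfR
      D := D
      hD := hD
      t := fun _ => 1
      t_ne := fun _ => one_ne_zero
      int := fun j => by rw [one_pow, inv_one, one_smul]; exact (hfi j).1
      u := fun _ => 1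
      u_mem := fun _ => one_mem _
      u_ne := fun _ => one_ne_zero
      rd_eq := fun j => by rw [one_pow, inv_one, one_smul, one_pow]; exact (hfi j).2 }
  obtain ⟨ζ', hζ', n₀, hN⟩ := W.exists_zeta hp.out hqA ν
  obtain ⟨n₁, h1⟩ := exists_exact ν.α ν.α_surj
  obtain ⟨n₂, h2⟩ := exists_exact ν.β ν.β_surj
  set n := max n₀ (max n₁ n₂) with hn
  obtain ⟨a0, ha0l, ha0c, ha0n⟩ := h1 n (by omega)
  obtain ⟨a1, ha1l, ha1c, ha1n⟩ := h2 n (by omega)
  set a : Fin 2 → T.O := ![a0, a1] with ha
  have hal : ∀ j, Low (a j : LaurentSeries (ResidueField A)) (-n) := by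
    intro j
    have h : j = 0 ∨ j = 1 := by omega
    rcases h with rfl | rfl
    · exact ha0l
    · exact ha1l
  have hac : ∀ j, (a j : LaurentSeries (ResidueField A)).coeff (-n) ≠ 0 := by
    intro j
    have h : j = 0 ∨ j = 1 := by omega
    rcases h with rfl | rfl
    · exact ha0c
    · exact ha1c
  have haN : a ∈ W.N n := by
    rw [hN n (by omega) a hal]
    intro i
    change ν.α i a0 = ζ' i * ν.β i a1
    rw [ha0n, ha1n, mul_zero]
  have hane : ∀ j, (a j : LaurentSeries (ResidueField A)) ≠ 0 := by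
    intro j h
    apply hac j
    rw [h, HahnSeries.coeff_zero]
  have hao : ∀ j, (a j : LaurentSeries (ResidueField A)).order = -n := by
    intro j
    apply le_antisymm (HahnSeries.order_le_of_coeff_ne_zero (hac j))
    rw [← low_iff (hane j)]
    exact hal j
  obtain ⟨v, hv, hvi, hvr⟩ := W.mem_N.1 haN
  have hWE : ∀ j, W.E j v = T.e j (v * f) := by
    intro j
    rw [Tw.E_apply]
    change ((1 : K) ^ (p - 1))⁻¹ • _ = _
    rw [one_pow, inv_one, one_smul]
  have hVi : ∀ j, IsInt A (T.e j (v * f)) := fun j => by rw [← hWE]; exact hvi j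
  have hVr : ∀ j, rd A (T.e j (v * f)) = a j := by
    intro j
    rw [← hWE, W.rd_E, hvr]
    change _ * (1 : LaurentSeries (ResidueField A)) ^ (p - 1) = _
    rw [one_pow, mul_one]
  have hv0 : v ≠ 0 := by
    intro h
    have h3 := hVr 0
    rw [h, zero_mul, map_zero, rd_zero] at h3
    exact hane 0 h3.symm
  have hev0 : ∀ j, T.e j v ≠ 0 := fun j => T.e_ne_zero hv0
  set f' := v ^ p * f with hf'
  obtain ⟨hf'R, hf'low⟩ := W.mem_of_mem_M hv
  have hf'0 : f' ≠ 0 := mul_ne_zero (pow_ne_zero _ hv0) hf0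
  have key : ∀ j, ∃ h, Red A h 0 ∧
      T.e j f' = (T.e j (v * f)) ^ p * (1 + HahnSeries.C (w ^ p) * h) := by
    intro j
    obtain ⟨h, hh, he⟩ := ((hHi j).inv hwp).pow hwp (p - 1)
    refine ⟨h, hh, ?_⟩
    rw [← he, hf', map_mul, map_mul, map_pow, mul_pow]
    have h3 : T.e j f ^ p = T.e j f * T.e j f ^ (p - 1) := by
      rw [← pow_succ']
      congr 1
      omega
    rw [h3, inv_pow]
    have h4 := pow_ne_zero (p - 1) (hef0 j)
    field_simp
  have hf'r : ∀ j, Red A (T.e j f') ((a j : LaurentSeries (ResidueField A)) ^ p) := by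
    intro j
    obtain ⟨h, hh, he⟩ := key j
    have h3 := ((red_rd (hVi j)).pow p).mul (Red.one.add ((red_C hwp).mul hh))
    rwa [← he, hVr, mul_zero, add_zero, mul_one] at h3
  have hf'i := fun j => isInt_of_red hA (e_mem_DD hf'R j) (hf'r j)
  have hf'l : ∀ j, UnitLead A (T.e j f') (p * (-n)) := by
    intro j
    refine ⟨(hf'i j).1, hf'low j, ?_⟩
    rw [← rd_coeff, (hf'i j).2]
    have h3 := pow_coeff_order (a j : LaurentSeries (ResidueField A)) p
    rw [hao j] at h3
    rw [h3]
    exact pow_ne_zero _ (hac j)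
  have hH : ∀ j, ∃ H : LaurentSeries K, UnitLead A H (-n) ∧ NumF H ∧ H ^ p = T.e j f' ∧
      ∃ s, Red A s 0 ∧ H = T.e j (v * f) * (1 + HahnSeries.C w * s) := by
    intro j
    obtain ⟨h, hh, he⟩ := key j
    exact exists_local_root hA hw (hf'l j) (T.nice _ hf'R j).1 (hVi j)
      (T.nice _ (W.mul_mem_Rg hf'R) j).1 hh he
  choose H hHl hHn hHp s hs hHs using hH
  have hHr : ∀ j, rd A (H j) = a j := by
    intro j
    have h3 := (red_rd (hVi j)).mul (Red.one.add ((red_C hw.mem).mul (hs j)))
    rw [← hHs, hVr, mul_zero, add_zero, mul_one] at h3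
    exact (red_rd (hHl j).int).unique h3
  let W' : Good T p f' :=
    { m_ne := hp0
      f_ne := hf'0
      f_mem := hf'R
      D := D + FF.div v
      hD := fun P => by
        rw [Finsupp.add_apply, FF.div_apply, mul_add, hD, hf', P.ord_mul (pow_ne_zero _ hv0) hf0,
          H18.ord_pow]
        ring
      H := H
      n := fun _ => -n
      H_lead := hHl
      H_num := hHn
      H_pow := hHp
      H_mem := fun j => by rw [hHr]; exact T.O_le _ (a j).2 }
  by_contra hcon
  push Not at hcon
  obtain ⟨c⟩ := exists_cov hp.out W' hw.prim.pow_eq_one (fun g hg => by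
    apply hcon (g / v)
    rw [div_pow, hg, hf', mul_div_cancel_left₀ _ (pow_ne_zero _ hv0)])
  -- the element `t'`
  have hconst : ∀ z ∈ T.Rg, c.Mem (algebraMap F c.L z) := by
    intro z hz
    have h3 := Cov.mem_hom (c := c) (a := 0) (z := z) (by
      rw [pow_zero, mul_one]
      exact pow_mem hz _)
    rwa [pow_zero, mul_one] at h3
  have hy : c.Mem (algebraMap F c.L v⁻¹ * c.h) := by
    have h3 := Cov.mem_hom (c := c) (a := 1) (z := v⁻¹) (by
      rw [pow_one, hf', ← mul_assoc, ← mul_pow, inv_mul_cancel₀ hv0, one_pow, one_mul]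
      exact hfR)
    rwa [pow_one] at h3
  set t' : c.L := algebraMap F c.L (algebraMap K F w⁻¹) *
    (algebraMap F c.L v⁻¹ * c.h + algebraMap F c.L (-1)) with ht'
  have ht'm : c.Mem t' := (hconst _ (Subalgebra.algebraMap_mem _ _)).mul
    (hy.add (hconst _ (neg_mem (one_mem _))))
  set E : c.L := 1 + algebraMap F c.L (-1) * (t' + algebraMap F c.L (-1)) ^ (p - 1) with hE
  have hEm : c.Mem E := Cov.Mem.one.add ((hconst _ (neg_mem (one_mem _))).mul
    ((ht'm.add (hconst _ (neg_mem (one_mem _)))).pow _))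
  have hζA : ζ ∈ A := H11Q.mem_of_pow_eq_one hp0 hw.prim.pow_eq_one
  have ht'e : ∀ t j, Red A (c.e t j t') (HahnSeries.C (t : ResidueField A)) := by
    intro t j
    have h3 : Hi A w (T.e j f * (1 + HahnSeries.C w * s j)) := by
      have h4 : Hi A w (T.e j f) := by
        have h5 := hHi j
        have h6 : w ^ p = w * w ^ (p - 1) := by
          rw [← pow_succ']
          congr 1
          omega
        rw [h6] at h5
        exact h5.mono (A.toSubring.pow_mem hw.mem _)
      exact h4.mul hw.mem ⟨s j, hs j, rfl⟩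
    obtain ⟨s', hs', he'⟩ := h3
    obtain ⟨h4, h5⟩ := zeta_pow_sub hw t
    have h6 : c.e t j t' = HahnSeries.C ((ζ ^ t - 1) / w) + HahnSeries.C (ζ ^ t) * s' := by
      rw [ht', map_mul, map_add, map_mul, c.e_alg, c.e_alg, c.e_alg, c.e_h, map_neg, map_one,
        AlgHom.commutes, algebraMap_eq_C, smul_eq_C_mul]
      change _ * (_ * (_ * H j) + _) = _
      rw [hHs j, map_mul, map_inv₀]
      have h7 : T.e j v⁻¹ * (HahnSeries.C (ζ ^ t) * (T.e j v * T.e j f *
          (1 + HahnSeries.C w * s j))) = HahnSeries.C (ζ ^ t) *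
          (T.e j f * (1 + HahnSeries.C w * s j)) := by
        have h8 := hev0 j
        rw [map_inv₀]
        field_simp
      rw [h7, he', map_div₀, map_sub, map_one]
      have h9 : (HahnSeries.C w : LaurentSeries K) ≠ 0 := (map_ne_zero _).mpr hw.ne
      field_simp
      ring
    rw [h6]
    have h7 := (red_C h4).add ((red_C (A.toSubring.pow_mem hζA t)).mul hs')
    rwa [mul_zero, add_zero, h5] at h7
  have hEe : ∀ t < p, ∀ j, Red A (c.e t j E) (if t = 1 then 1 else 0) := by
    intro t ht j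
    have h3 : Red A (c.e t j E)
        (1 + (-1) * (HahnSeries.C (t : ResidueField A) + (-1)) ^ (p - 1)) := by
      rw [hE, map_add, map_one, map_mul, map_pow, map_add, c.e_alg, map_neg, map_one]
      exact Red.one.add ((Red.one.neg).mul (((ht'e t j).add Red.one.neg).pow _))
    convert h3 using 1
    set φ : ZMod p →+* ResidueField A := ZMod.castHom (dvd_refl p) (ResidueField A) with hφ
    have h4 : (HahnSeries.C (t : ResidueField A) + (-1) : LaurentSeries (ResidueField A)) =
        HahnSeries.C (φ ((t : ZMod p) - 1)) := by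
      rw [map_sub φ, map_natCast φ, map_one φ, map_sub HahnSeries.C, map_one HahnSeries.C]
      ring
    rw [h4, ← map_pow, ← map_pow]
    split_ifs with h1
    · subst h1
      rw [Nat.cast_one, sub_self, zero_pow (by omega), map_zero, map_zero]
      ring
    · have h5 : ((t : ZMod p) - 1 : ZMod p) ≠ 0 := by
        intro h6
        rw [sub_eq_zero] at h6
        have h7 : (t : ZMod p) = ((1 : ℕ) : ZMod p) := by rw [h6, Nat.cast_one]
        rw [ZMod.natCast_eq_natCast_iff', Nat.mod_eq_of_lt ht, Nat.mod_eq_of_lt (by omega)] at h7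
        exact h1 h7
      have h6 := ZMod.pow_card_sub_one_eq_one h5
      rw [h6, map_one, map_one]
      ring
  have hEi := fun t (ht : t < p) j =>
    isInt_of_red hA (mem_DD_iff.mpr (hEm.nice t j)) (hEe t ht j)
  exact cov_false hp.out hqA c ν (ν.s_pos hp.out hqA) hw.prim hp.out hEm
    (fun t ht j => (hEi t ht j).1) (fun t ht j => (hEi t ht j).2)

end Fermat.Agent.P
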