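import Fermat.Agent.H01.P.WildD

/-!
# Inertia acts through the cyclotomic character on classes of level `≥ p/(p-1)`
-/

set_option autoImplicit false
set_option linter.unusedSectionVars false

noncomputable section

attribute [-instance] HahnSeries.instModule HahnSeries.instSMul HahnSeries.instDistribMulAction
  HahnSeries.instSMulZeroClass

namespace Fermat.Agent.P

open ModularCurve IsLocalRing AlgebraicCurve Module Fermat.Agent.H11Q Fermat.Agent.Q

universe uK uF

theorem exists_one_add_pow {R : Type*} [CommRing R] (y : R) (m : ℕ) :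
    ∃ r, (1 + y) ^ m = 1 + m * y + y ^ 2 * r := by
  induction m with
  | zero => exact ⟨0, by simp⟩
  | succ m ih =>
    obtain ⟨r, hr⟩ := ih
    refine ⟨r + m + y * r, ?_⟩
    rw [pow_succ, hr]
    push_cast
    ring

variable {K : Type uK} [Field K] {A : ValuationSubring K} {F : Type uF} [Field F] [Algebra K F]
variable {T : TwoComp K A F}
variable [IsAlgClosed K] [CharZero K] [FF.FunField K F]
variable [Algebra ℚ K] [Algebra.IsAlgebraic ℚ K] {p : ℕ} [hp : Fact p.Prime] {ζ u w : K}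

/-- integral functions -/
def RR (T : TwoComp K A F) : Subring F where
  carrier := {z | z ∈ T.Rg ∧ ∀ j, IsInt A (T.e j z)}
  one_mem' := ⟨one_mem _, fun j => by rw [map_one]; exact IsInt.one⟩
  zero_mem' := ⟨zero_mem _, fun j => by rw [map_zero]; exact IsInt.zero⟩
  neg_mem' := fun h => ⟨neg_mem h.1, fun j => by rw [map_neg]; exact (h.2 j).neg⟩
  add_mem' := fun h h' => ⟨add_mem h.1 h'.1, fun j => by rw [map_add]; exact (h.2 j).add (h'.2 j)⟩
  mul_mem' := fun h h' => ⟨mul_mem h.1 h'.1, fun j => by rw [map_mul]; exact (h.2 j).mul (h'.2 j)⟩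

theorem mem_RR {z : F} : z ∈ RR T ↔ z ∈ T.Rg ∧ ∀ j, IsInt A (T.e j z) := Iff.rfl

theorem algebraMap_mem_RR {c : K} (hc : c ∈ A) : algebraMap K F c ∈ RR T := by
  refine ⟨Subalgebra.algebraMap_mem _ _, fun j => ?_⟩
  rw [AlgHom.commutes, algebraMap_eq_C]
  exact isInt_iff_mem.mpr (C_mem_intL hc)

theorem exists_twist_mem {f : F} (hf0 : f ≠ 0) (hfd : ∀ v : Place K F, (p : ℤ) ∣ v.ord f) :
    ∃ c : F, c ≠ 0 ∧ c ^ p * f ∈ T.Rg := by
  obtain ⟨D, hD⟩ := TwoComp.exists_D hfd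
  have hdeg := TwoComp.degree_eq_zero hp.out.ne_zero hD
  obtain ⟨c, hc0, hc⟩ := FF.exists_effective (D := D + T.C (genusFF K F)) (by
    rw [map_add, TwoComp.degree_C, hdeg]
    have h2 : (0 : ℤ) ≤ genusFF K F := by positivity
    omega)
  refine ⟨c, hc0, ?_⟩
  rw [TwoComp.mem_Rg_iff_ord]
  intro v h0 h1
  have h2 := hc v
  rw [Finsupp.zero_apply, Finsupp.add_apply, Finsupp.add_apply, FF.div_apply,
    TwoComp.C_apply_ne _ h0 h1] at h2
  rw [v.ord_mul (pow_ne_zero _ hc0) hf0, H18.ord_pow, ← hD, ← mul_add]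
  have h3 : 0 ≤ v.ord c + D v := by omega
  positivity

theorem wild_main [Algebra.IsAlgebraic ℤ K] (ν : NodeData T) (hA : A.LiesOverPrime p)
    (hw : Varpi A p ζ u w) {f : F} (hf0 : f ≠ 0) (hfd : ∀ v : Place K F, (p : ℤ) ∣ v.ord f)
    {g : Fin 2 → F} (hg : ∀ j, T.e j (g j ^ p * f) - 1 ∈ cg A (w ^ p))
    {σ : K →+* K} {S : F →+* F} (hσA : ∀ a ∈ A, σ a ∈ A)
    (hσr : ∀ a ∈ A, resid A (σ a) = resid A a) (hS : ∀ (c : K) (z : F), S (c • z) = σ c • S z)
    (hSR : ∀ z ∈ T.Rg, S z ∈ T.Rg) (hSe : ∀ j z, T.e j (S z) = coeffMap σ (T.e j z))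
    (hSd : ∀ v : Place K F, (p : ℤ) ∣ v.ord (S f)) {a : ℕ} (ha : σ ζ = ζ ^ a) :
    ∃ z : F, z ≠ 0 ∧ ∃ h : F, h ^ p = S (z ^ p * f) * (z ^ p * f) ^ (a * (p - 1)) := by
  have hpp := hp.out.pos
  have hp0 := hp.out.ne_zero
  have hp2 := hp.out.two_le
  have hchar : CharP (ResidueField A) p := charP_kk hA
  have hwp : w ^ p ∈ A := A.toSubring.pow_mem hw.mem p
  have hwp0 : resid A (w ^ p) = 0 := by rw [resid_pow' hw.mem, hw.res, zero_pow hp0]
  obtain ⟨c, hc0, hcR⟩ := exists_twist_mem (T := T) hf0 hfd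
  have hcf0 : c ^ p * f ≠ 0 := mul_ne_zero (pow_ne_zero _ hc0) hf0
  have hcd : ∀ v : Place K F, (p : ℤ) ∣ v.ord (c ^ p * f) := by
    intro v
    rw [v.ord_mul (pow_ne_zero _ hc0) hf0, H18.ord_pow]
    exact dvd_add (dvd_mul_right _ _) (hfd v)
  obtain ⟨D, hD⟩ := TwoComp.exists_D hcd
  obtain ⟨z, hz0, hzR, hzl⟩ := exists_normal ν hA hw hcR hcf0 hD (g := fun j => g j / c) (by
    intro j
    have : (g j / c) ^ p * (c ^ p * f) = g j ^ p * f := by
      rw [div_pow]
      field_simp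
    rw [this]
    exact hg j)
  have hzc : z ^ p * (c ^ p * f) = (z * c) ^ p * f := by rw [mul_pow]; ring
  rw [hzc] at hzR
  simp only [hzc] at hzl
  set f₁ := (z * c) ^ p * f with hf₁
  have hzc0 : z * c ≠ 0 := mul_ne_zero hz0 hc0
  refine ⟨z * c, hzc0, ?_⟩
  obtain ⟨b, hbR, hfb, hbi⟩ := normal_of_cg hA hw hzR hzl
  -- the element
  set m := a * (p - 1) with hm
  obtain ⟨hcA, hcr⟩ := zeta_pow_sub hw a
  set d := (ζ ^ a - 1) / w with hd
  have hσw : σ w = w * d := by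
    rw [hd, mul_div_cancel₀ _ hw.ne, hw.eq, map_sub, map_one, ha]
  have hbRR : b ∈ RR T := ⟨hbR, hbi⟩
  have hSbi : ∀ j, IsInt A (T.e j (S b)) ∧ rd A (T.e j (S b)) = rd A (T.e j b) := by
    intro j
    rw [hSe]
    refine ⟨fun n => ?_, ?_⟩
    · rw [coeffMap_coeff]; exact hσA _ (hbi j n)
    · ext n
      rw [rd_coeff, rd_coeff, coeffMap_coeff, hσr _ (hbi j n)]
  have hSbRR : S b ∈ RR T := ⟨hSR b hbR, fun j => (hSbi j).1⟩
  obtain ⟨⟨r, hrRR⟩, hr⟩ := exists_one_add_pow (R := RR T)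
    (⟨algebraMap K F (w ^ p), algebraMap_mem_RR hwp⟩ * ⟨b, hbRR⟩) m
  have hr' : f₁ ^ m = 1 + m * (algebraMap K F (w ^ p) * b) +
      (algebraMap K F (w ^ p) * b) ^ 2 * r := by
    have h1 := congrArg (fun z : RR T => (z : F)) hr
    rw [hfb, Algebra.smul_def]
    simpa using h1
  have hSf₁ : S f₁ = 1 + algebraMap K F (w ^ p * d ^ p) * S b := by
    rw [hfb, map_add, map_one, hS, map_pow, hσw, mul_pow, Algebra.smul_def]
  set b₂ : F := algebraMap K F (d ^ p) * S b + m * b + algebraMap K F (w ^ p) *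
    (b ^ 2 * r + algebraMap K F (d ^ p) * S b * (m * b + algebraMap K F (w ^ p) * (b ^ 2 * r)))
    with hb₂
  have hprod : S f₁ * f₁ ^ m = 1 + (w ^ p) • b₂ := by
    rw [hSf₁, hr', hb₂, Algebra.smul_def, map_mul]
    ring
  have hdp : d ^ p ∈ A := A.toSubring.pow_mem hcA p
  have hdRR : algebraMap K F (d ^ p) ∈ RR T := algebraMap_mem_RR hdp
  have hwRR : algebraMap K F (w ^ p) ∈ RR T := algebraMap_mem_RR hwp
  have hmRR : (m : F) ∈ RR T := natCast_mem _ m
  have hX : b ^ 2 * r + algebraMap K F (d ^ p) * S b * (m * b + algebraMap K F (w ^ p) *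
      (b ^ 2 * r)) ∈ RR T :=
    add_mem (mul_mem (pow_mem hbRR _) hrRR) (mul_mem (mul_mem hdRR hSbRR)
      (add_mem (mul_mem hmRR hbRR) (mul_mem hwRR (mul_mem (pow_mem hbRR _) hrRR))))
  have hb₂RR : b₂ ∈ RR T :=
    add_mem (add_mem (mul_mem hdRR hSbRR) (mul_mem hmRR hbRR)) (mul_mem hwRR hX)
  have hb₂r : ∀ j, rd A (T.e j b₂) = 0 := by
    intro j
    have h1 : Red A (T.e j b₂) (HahnSeries.C (resid A (d ^ p)) * rd A (T.e j b) +
        HahnSeries.C (resid A (m : K)) * rd A (T.e j b) +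
        HahnSeries.C (resid A (w ^ p)) * rd A (T.e j (b ^ 2 * r + algebraMap K F (d ^ p) * S b *
          (m * b + algebraMap K F (w ^ p) * (b ^ 2 * r))))) := by
      rw [hb₂, map_add (T.e j), map_add (T.e j), map_mul (T.e j), map_mul (T.e j),
        map_mul (T.e j), AlgHom.commutes, AlgHom.commutes, algebraMap_eq_C, algebraMap_eq_C,
        map_natCast (T.e j)]
      have h2 : ((m : LaurentSeries K)) = HahnSeries.C (m : K) := by rw [map_natCast]
      rw [h2, ← (hSbi j).2]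
      exact (((red_C hdp).mul (red_rd (hSbi j).1)).add
        ((red_C (natCast_mem A m)).mul (by rw [(hSbi j).2]; exact red_rd (hbi j)))).add
        ((red_C hwp).mul (red_rd (hX.2 j)))
    have h2 := (red_rd (hb₂RR.2 j)).unique h1
    rw [h2, hwp0, map_zero, zero_mul, add_zero, ← add_mul, ← map_add]
    have h3 : resid A (d ^ p) + resid A (m : K) = 0 := by
      have h4 : resid A (m : K) = (m : ResidueField A) := by
        rw [resid_of_mem A (natCast_mem A m)]
        have h5 : (⟨(m : K), natCast_mem A m⟩ : A) = (m : A) := Subtype.ext (by simp)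
        rw [h5, map_natCast]
      rw [resid_pow' hcA, hcr, h4, hm]
      have h6 : ((a : ResidueField A)) ^ p = a := by
        have h7 := ZMod.pow_card (a : ZMod p)
        have h8 := congrArg (ZMod.castHom (dvd_refl p) (ResidueField A)) h7
        rwa [map_pow, map_natCast] at h8
      rw [h6]
      have h9 : ((p - 1 : ℕ) : ResidueField A) = -1 := by
        have h10 : ((p - 1 : ℕ) : ResidueField A) + 1 = 0 := by
          have h11 : ((p - 1 + 1 : ℕ) : ResidueField A) = 0 := by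
            rw [Nat.sub_add_cancel hp.out.one_le]
            exact CharP.cast_eq_zero _ p
          rwa [Nat.cast_add, Nat.cast_one] at h11
        exact eq_neg_of_add_eq_zero_left h10
      rw [Nat.cast_mul, h9]
      ring
    rw [h3, map_zero, zero_mul]
  have hSf0 : S f ≠ 0 := (map_ne_zero S).mpr hf0
  have hd₂ : ∀ v : Place K F, (p : ℤ) ∣ v.ord (S f₁ * f₁ ^ m) := by
    intro v
    rw [hf₁, map_mul, map_pow, v.ord_mul (mul_ne_zero (pow_ne_zero _
      ((map_ne_zero S).mpr hzc0)) hSf0) (pow_ne_zero _ (mul_ne_zero (pow_ne_zero _ hzc0) hf0)),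
      v.ord_mul (pow_ne_zero _ ((map_ne_zero S).mpr hzc0)) hSf0, H18.ord_pow, H18.ord_pow,
      v.ord_mul (pow_ne_zero _ hzc0) hf0, H18.ord_pow]
    exact dvd_add (dvd_add (dvd_mul_right _ _) (hSd v))
      ((dvd_add (dvd_mul_right _ _) (hfd v)).mul_left _)
  obtain ⟨D₂, hD₂⟩ := TwoComp.exists_D hd₂
  exact exists_root_of_high ν hA hw hD₂ hb₂RR.1 hb₂RR.2 hb₂r hprod

end Fermat.Agent.P
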